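import Mathlib
import Fermat.Agent.S41.Core

set_option autoImplicit false

/-!
# TR / Hecke side, SHADOW of (OLD-a), row H-R3 — the abstract part (R3) + (R4) + (R5)

Pure algebra over Mathlib (plus the socle lemma of `S41.Core`).

* `evalComm T hT : MvPolynomial ι ℤ →+* E` : evaluation of integer polynomials at a commuting
  family `T : ι → E` of elements of an arbitrary ring `E` (`evalComm_X`, `evalComm_C`), and
  `evalComm_intertwine` : an additive map intertwining two commuting families of endomorphisms
  intertwines all polynomials in them.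
* `exists_eigenvector_of_red` : **the lifting of eigenvectors through a reduction map.**
  `J` a divisible abelian group with endomorphisms `T i` which commute with a group `G` acting
  on `J` and commute with each other ON THE `p`-POWER TORSION (no commutativity is assumed on
  `J` itself), with finite `p ^ m`-torsion for all `m`; `r : J →+ Jb` compatible with
  endomorphisms `Tb i` of `Jb`, such that for every `x₀ : J` the image under `r` of the points
  fixed by the stabiliser of `x₀` has finite exponent.  If `yb = r x` is a nonzero vector of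
  `Jb` killed by `p` with `Tb i yb = a i • yb` for all `i` (`a i : ℤ`), then there is a nonzero
  `y : J` killed by `p` with `T i y = a i • y` for all `i`.
-/

namespace Fermat.Agent.TR.Hecke.OldRedAbs

open MvPolynomial

noncomputable section

/-! ### Evaluation of integer polynomials at a commuting family -/

section EvalComm

variable {E : Type*} [Ring E] {ι : Type*}

open scoped IsMulCommutative in
/-- Evaluation at a commuting family, with values in the commutative subalgebra it generates. -/
def evalCommAux (T : ι → E) (hT : ∀ i j, T i * T j = T j * T i) :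
    MvPolynomial ι ℤ →ₐ[ℤ] (Algebra.adjoin ℤ (Set.range T) : Subalgebra ℤ E) :=
  haveI : IsMulCommutative (Algebra.adjoin ℤ (Set.range T)) :=
    Algebra.isMulCommutative_adjoin ℤ (by
      rintro _ ⟨i, rfl⟩ _ ⟨j, rfl⟩
      exact hT i j)
  MvPolynomial.aeval fun i =>
    (⟨T i, Algebra.subset_adjoin (Set.mem_range_self i)⟩ : Algebra.adjoin ℤ (Set.range T))

/-- Evaluation of integer polynomials at a commuting family of elements of a ring. -/
def evalComm (T : ι → E) (hT : ∀ i j, T i * T j = T j * T i) : MvPolynomial ι ℤ →+* E :=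
  ((Algebra.adjoin ℤ (Set.range T)).val.comp (evalCommAux T hT)).toRingHom

theorem evalComm_apply (T : ι → E) (hT : ∀ i j, T i * T j = T j * T i) (P : MvPolynomial ι ℤ) :
    evalComm T hT P = (evalCommAux T hT P : E) := rfl

open scoped IsMulCommutative in
theorem evalCommAux_X (T : ι → E) (hT : ∀ i j, T i * T j = T j * T i) (i : ι) :
    evalCommAux T hT (X i) = ⟨T i, Algebra.subset_adjoin (Set.mem_range_self i)⟩ :=
  haveI : IsMulCommutative (Algebra.adjoin ℤ (Set.range T)) :=
    Algebra.isMulCommutative_adjoin ℤ (by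
      rintro _ ⟨i, rfl⟩ _ ⟨j, rfl⟩
      exact hT i j)
  MvPolynomial.aeval_X _ i

@[simp] theorem evalComm_X (T : ι → E) (hT : ∀ i j, T i * T j = T j * T i) (i : ι) :
    evalComm T hT (X i) = T i := by
  rw [evalComm_apply, evalCommAux_X]

@[simp] theorem evalComm_C (T : ι → E) (hT : ∀ i j, T i * T j = T j * T i) (n : ℤ) :
    evalComm T hT (C n) = (n : E) := by
  rw [← MvPolynomial.algebraMap_eq, eq_intCast, map_intCast]

end EvalComm

section Intertwine

variable {S S' : Type*} [Ring S] [Ring S'] {A B : Type*} [AddCommGroup A] [Module S A]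
  [AddCommGroup B] [Module S' B] {ι : Type*}

/-- An additive map intertwining two commuting families intertwines all polynomials in them. -/
theorem evalComm_intertwine (T : ι → Module.End S A) (hT : ∀ i j, T i * T j = T j * T i)
    (T' : ι → Module.End S' B) (hT' : ∀ i j, T' i * T' j = T' j * T' i)
    (f : A →+ B) (hf : ∀ i x, f (T i x) = T' i (f x)) (P : MvPolynomial ι ℤ) (x : A) :
    f (evalComm T hT P x) = evalComm T' hT' P (f x) := by
  induction P using MvPolynomial.induction_on generalizing x with
  | C n =>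
    rw [evalComm_C, evalComm_C, Module.End.intCast_apply, Module.End.intCast_apply, map_zsmul]
  | add P Q hP hQ =>
    rw [map_add, map_add, LinearMap.add_apply, LinearMap.add_apply, map_add, hP, hQ]
  | mul_X P i hP =>
    rw [map_mul, map_mul, evalComm_X, evalComm_X, Module.End.mul_apply, Module.End.mul_apply,
      hP, hf]

end Intertwine

/-! ### The lifting of eigenvectors -/

section Lift

variable {J Jb : Type*} [AddCommGroup J] [AddCommGroup Jb] {ι : Type*}
  {G : Type*} [Group G] [DistribMulAction G J]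

/-- The `p ^ m`-torsion, as a `ℤ`-submodule. -/
def torsPow (J : Type*) [AddCommGroup J] (p m : ℕ) : Submodule ℤ J where
  carrier := {x | p ^ m • x = 0}
  zero_mem' := smul_zero _
  add_mem' := fun {x y} hx hy => by
    show p ^ m • (x + y) = 0
    rw [smul_add, hx, hy, add_zero]
  smul_mem' := fun c x hx => by
    show p ^ m • (c • x) = 0
    rw [smul_comm, hx, smul_zero]

theorem mem_torsPow {p m : ℕ} {x : J} : x ∈ torsPow J p m ↔ p ^ m • x = 0 := Iff.rfl

/-- The restriction of an endomorphism to the `p ^ m`-torsion. -/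
def resTors (p m : ℕ) (t : Module.End ℤ J) : Module.End ℤ (torsPow J p m) :=
  t.restrict (fun x hx => by
    show p ^ m • t x = 0
    rw [← map_nsmul, mem_torsPow.mp hx, map_zero])

@[simp] theorem coe_resTors (p m : ℕ) (t : Module.End ℤ J) (v : torsPow J p m) :
    ((resTors p m t v : torsPow J p m) : J) = t (v : J) := rfl

theorem resTors_comm {p m : ℕ} {T : ι → Module.End ℤ J}
    (hcomm : ∀ (i j : ι) (x : J), p ^ m • x = 0 → T i (T j x) = T j (T i x)) (i j : ι) :
    resTors p m (T i) * resTors p m (T j) = resTors p m (T j) * resTors p m (T i) := by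
  refine LinearMap.ext fun v => Subtype.ext ?_
  rw [Module.End.mul_apply, Module.End.mul_apply, coe_resTors, coe_resTors, coe_resTors,
    coe_resTors]
  exact hcomm i j v v.2

/-- Every polynomial in the restricted operators is the restriction of an endomorphism of `J`
which is compatible with `r`, commutes with `G`, and acts on the eigenvector `yb` through the
value of the polynomial at the eigenvalues. -/
theorem exists_lift (T : ι → Module.End ℤ J) (Tb : ι → Module.End ℤ Jb) (r : J →+ Jb)
    (hrT : ∀ i x, r (T i x) = Tb i (r x))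
    (hTG : ∀ i (σ : G) (x : J), T i (σ • x) = σ • T i x)
    (a : ι → ℤ) (yb : Jb) (hyT : ∀ i, Tb i yb = a i • yb)
    {p m : ℕ} (hcomm : ∀ (i j : ι) (x : J), p ^ m • x = 0 → T i (T j x) = T j (T i x))
    (P : MvPolynomial ι ℤ) :
    ∃ (u : Module.End ℤ J) (ub : Module.End ℤ Jb),
      (∀ x, r (u x) = ub (r x)) ∧ (∀ (σ : G) (x : J), u (σ • x) = σ • u x) ∧
      ub yb = MvPolynomial.eval a P • yb ∧
      ∀ v : torsPow J p m,
        u (v : J) = ((evalComm (fun i => resTors p m (T i)) (resTors_comm hcomm) P v :
          torsPow J p m) : J) := by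
  induction P using MvPolynomial.induction_on with
  | C n =>
    refine ⟨n • (1 : Module.End ℤ J), n • (1 : Module.End ℤ Jb), fun x => ?_, fun σ x => ?_,
      ?_, fun v => ?_⟩
    · rw [LinearMap.smul_apply, LinearMap.smul_apply, Module.End.one_apply, Module.End.one_apply,
        map_zsmul]
    · rw [LinearMap.smul_apply, LinearMap.smul_apply, Module.End.one_apply, Module.End.one_apply]
      exact (map_zsmul (DistribSMul.toAddMonoidHom J σ) n x).symm
    · rw [LinearMap.smul_apply, Module.End.one_apply, MvPolynomial.eval_C]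
    · rw [evalComm_C, Module.End.intCast_apply, LinearMap.smul_apply, Module.End.one_apply]
      rfl
  | add P Q hP hQ =>
    obtain ⟨u, ub, h1, h2, h3, h4⟩ := hP
    obtain ⟨u', ub', h1', h2', h3', h4'⟩ := hQ
    refine ⟨u + u', ub + ub', fun x => ?_, fun σ x => ?_, ?_, fun v => ?_⟩
    · rw [LinearMap.add_apply, LinearMap.add_apply, map_add, h1, h1']
    · rw [LinearMap.add_apply, LinearMap.add_apply, h2, h2', smul_add]
    · rw [LinearMap.add_apply, h3, h3', map_add, add_smul]
    · rw [LinearMap.add_apply, h4, h4', map_add, LinearMap.add_apply]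
      rfl
  | mul_X P i hP =>
    obtain ⟨u, ub, h1, h2, h3, h4⟩ := hP
    refine ⟨u * T i, ub * Tb i, fun x => ?_, fun σ x => ?_, ?_, fun v => ?_⟩
    · rw [Module.End.mul_apply, Module.End.mul_apply, h1, hrT]
    · rw [Module.End.mul_apply, Module.End.mul_apply, hTG, h2]
    · rw [Module.End.mul_apply, hyT, map_zsmul, h3, map_mul, MvPolynomial.eval_X, smul_smul,
        mul_comm]
    · rw [Module.End.mul_apply, map_mul, evalComm_X, Module.End.mul_apply]
      exact h4 (resTors p m (T i) v)

/-- **Lifting of eigenvectors through a reduction map** (rows (R3), (R4), (R5) of the shadow of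
(OLD-a)). -/
theorem exists_eigenvector_of_red
    (T : ι → Module.End ℤ J) (Tb : ι → Module.End ℤ Jb) (r : J →+ Jb)
    (hrT : ∀ i x, r (T i x) = Tb i (r x))
    (hTG : ∀ i (σ : G) (x : J), T i (σ • x) = σ • T i x)
    {p : ℕ} (hp : p.Prime)
    (hcomm : ∀ (m : ℕ) (i j : ι) (x : J), p ^ m • x = 0 → T i (T j x) = T j (T i x))
    (hfin : ∀ m : ℕ, {x : J | p ^ m • x = 0}.Finite)
    (hdiv : ∀ (m : ℕ) (x : J), ∃ y : J, p ^ m • y = x)
    (hexp : ∀ x₀ : J, ∃ e : ℕ, e ≠ 0 ∧
      ∀ x : J, (∀ σ : G, σ • x₀ = x₀ → σ • x = x) → e • r x = 0)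
    (a : ι → ℤ) (yb : Jb) (hyb : yb ≠ 0) (hpy : p • yb = 0) (hyT : ∀ i, Tb i yb = a i • yb)
    (hx : ∃ x : J, r x = yb) :
    ∃ y : J, y ≠ 0 ∧ p • y = 0 ∧ ∀ i, T i y = a i • y := by
  classical
  by_contra hno
  obtain ⟨x, rfl⟩ := hx
  obtain ⟨e, he0, he⟩ := hexp x
  obtain ⟨m, e', he', rfl⟩ := Nat.exists_eq_pow_mul_and_not_dvd he0 p hp.ne_one
  -- the module structure on the `p ^ m`-torsion
  let TV : ι → Module.End ℤ (torsPow J p m) := fun i => resTors p m (T i)
  have hTV : ∀ i j, TV i * TV j = TV j * TV i := resTors_comm (hcomm m)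
  let _ : Module (MvPolynomial ι ℤ) (torsPow J p m) :=
    Module.compHom (torsPow J p m) (evalComm TV hTV)
  have hsmul : ∀ (P : MvPolynomial ι ℤ) (v : torsPow J p m), P • v = evalComm TV hTV P v :=
    fun _ _ => rfl
  have : Finite (torsPow J p m) := (hfin m).to_subtype
  let 𝔫 : Ideal (MvPolynomial ι ℤ) :=
    Ideal.span (insert (C (p : ℤ)) (Set.range fun i => X i - C (a i)))
  have hCp : C (p : ℤ) ∈ 𝔫 := Ideal.subset_span (Set.mem_insert _ _)
  have hXi : ∀ i, X i - C (a i) ∈ 𝔫 := fun i =>
    Ideal.subset_span (Set.mem_insert_of_mem _ (Set.mem_range_self i))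
  -- `𝔫 V = V`, otherwise the socle gives an eigenvector
  have htop : (𝔫 • ⊤ : Submodule (MvPolynomial ι ℤ) (torsPow J p m)) = ⊤ := by
    by_contra hne
    obtain ⟨v, hv0, hv⟩ := Fermat.Agent.S41.Core.exists_socle 𝔫 hne
    apply hno
    refine ⟨(v : J), fun h => hv0 (Subtype.ext h), ?_, fun i => ?_⟩
    · have h1 := hv _ hCp
      rw [hsmul, evalComm_C, Module.End.intCast_apply] at h1
      have h2 := congrArg (fun w : torsPow J p m => (w : J)) h1
      simpa using h2
    · have h1 := hv _ (hXi i)
      rw [hsmul, map_sub, evalComm_X, evalComm_C, LinearMap.sub_apply,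
        Module.End.intCast_apply] at h1
      have h2 := congrArg (fun w : torsPow J p m => (w : J)) h1
      simp only [Submodule.coe_sub, Submodule.coe_smul, ZeroMemClass.coe_zero] at h2
      exact sub_eq_zero.mp h2
  -- Nakayama
  obtain ⟨P, hP1, hP0⟩ :=
    Submodule.exists_sub_one_mem_and_smul_eq_zero_of_fg_of_le_smul 𝔫
      (⊤ : Submodule (MvPolynomial ι ℤ) (torsPow J p m)) Module.Finite.fg_top htop.ge
  -- the value of `P` at the eigenvalues is `1` modulo `p`
  have hval : (p : ℤ) ∣ MvPolynomial.eval a P - 1 := by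
    have hle : 𝔫 ≤ Ideal.comap (MvPolynomial.eval a) (Ideal.span {(p : ℤ)}) := by
      refine Ideal.span_le.mpr ?_
      rintro t (rfl | ⟨i, rfl⟩)
      · show MvPolynomial.eval a (C (p : ℤ)) ∈ Ideal.span {(p : ℤ)}
        rw [MvPolynomial.eval_C]
        exact Ideal.subset_span rfl
      · show MvPolynomial.eval a (X i - C (a i)) ∈ Ideal.span {(p : ℤ)}
        rw [map_sub, MvPolynomial.eval_X, MvPolynomial.eval_C, sub_self]
        exact Ideal.zero_mem _
    have h1 := hle hP1
    rw [Ideal.mem_comap, map_sub, map_one] at h1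
    exact Ideal.mem_span_singleton.mp h1
  -- the lift of `P`
  obtain ⟨u, ub, h1, h2, h3, h4⟩ := exists_lift (G := G) T Tb r hrT hTG a (r x) hyT (hcomm m) P
  have hu0 : ∀ v : J, p ^ m • v = 0 → u v = 0 := by
    intro v hv
    have h5 := h4 ⟨v, hv⟩
    have h6 := hP0 ⟨v, hv⟩ Submodule.mem_top
    rw [hsmul] at h6
    rw [h5, h6]
    rfl
  obtain ⟨y', hy'⟩ := hdiv m x
  -- `u y'` is fixed by the stabiliser of `x`
  have hfix : ∀ σ : G, σ • x = x → σ • u y' = u y' := by
    intro σ hσ
    have h7 : u (σ • y' - y') = 0 := by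
      apply hu0
      rw [smul_sub, ← hy'] at *
      have h8 : p ^ m • σ • y' = σ • (p ^ m • y') :=
        (map_nsmul (DistribSMul.toAddMonoidHom J σ) (p ^ m) y').symm
      rw [h8, hσ, sub_self]
    rw [map_sub, h2, sub_eq_zero] at h7
    exact h7
  have hz := he (u y') hfix
  -- `r x = p ^ m • r (u y')`
  have hc : MvPolynomial.eval a P • r x = r x := by
    obtain ⟨k, hk⟩ := hval
    have h9 : MvPolynomial.eval a P = 1 + (p : ℤ) * k := by linarith
    rw [h9, add_smul, one_smul, mul_comm, mul_smul, natCast_zsmul, hpy, smul_zero, add_zero]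
  have hrx : r x = p ^ m • r (u y') := by
    rw [← hc, ← h3, ← h1, ← hy', map_nsmul, map_nsmul]
  have he'x : e' • r x = 0 := by
    rw [hrx, smul_smul, mul_comm]
    exact hz
  -- `gcd (e', p) = 1`
  have hcop : Nat.Coprime e' p := (Nat.Coprime.symm ((Nat.Prime.coprime_iff_not_dvd hp).mpr he'))
  obtain ⟨α, β, hαβ⟩ := Nat.isCoprime_iff_coprime.mpr hcop
  apply hyb
  have h10 : r x = (α * (e' : ℤ) + β * (p : ℤ)) • r x := by rw [hαβ, one_smul]
  rw [h10, add_smul, mul_smul, mul_smul, natCast_zsmul, natCast_zsmul, he'x, hpy, smul_zero,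
    smul_zero, add_zero]

end Lift

end

end Fermat.Agent.TR.Hecke.OldRedAbs
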