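import Mathlib
import Fermat.Prelude.Def_FLTPrelim_ModularRep
import Fermat.Agent.ESJ.Jac.Main
import Fermat.Agent.S41.Core
import Fermat.Agent.S41.Coh.EigenformPE
import Fermat.Agent.TR.Hecke.OldRedAbs

set_option autoImplicit false

/-!
# TR / Hecke side, SHADOW of (OLD-a), row H-R3 — from an eigenvector in `J₀(M)[p]` to an eigenform

* `exists_eigenclass_modp` : a nonzero `y ∈ J₀(M)[p]` with `T_ℓ y = a_ℓ • y` for all primes
  `ℓ ∉ S` (`S ⊇` the primes dividing `M`) gives, through the Kummer comparison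
  `ESJ.kummerCmp M p` at `n = 1`, a nonzero class `χ ∈ Hom_PE(Γ₀(M), 𝔽_p)` with
  `T_ℓ χ = a_ℓ • χ` for `ℓ ∉ S`.
* `exists_eigenform_of_eigenclass` : such a class gives a normalised eigenform `g` of level `M`
  and a maximal ideal `𝔪 ∋ p` of the algebraic integers with `a_ℓ(g) ≡ a_ℓ mod 𝔪` for `ℓ ∉ S`
  (a maximal ideal of `ℤ[X_ℓ]` in the support of the eigenspace, the lifting lemma
  `S41.Core.exists_eigenvector_of_lattice` on the lattice `S41.Coh.latC M`, and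
  `S41.Coh.exists_normalizedEigenform_of_eigenvector`).
* `exists_eigenform_of_eigenvector` : the composite.
* `modularRepOfLevel_of_eigenvector` : the Frey form — a nonzero `y ∈ J₀(M)[p]` (`p = P.p`) with
  `T_ℓ y = a_ℓ(W) • y` for the good primes `ℓ ∤ M p` of an integral model `W` of the Frey curve
  gives `P.ModularRepOfLevel M`.
-/

open CongruenceSubgroup ModularCurve AlgebraicCurve
open scoped MatrixGroups

namespace Fermat.Agent.TR.Hecke.OldRed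

open Fermat.Agent.ESJ.ParHom Fermat.Agent.S41.Coh Fermat.Agent.TR.Hecke.OldRedAbs
open MvPolynomial

variable {M : ℕ} [NeZero M]

/-- **Step 1** (Kummer): a `p`-torsion eigenvector of `J₀(M)` gives a nonzero eigenclass in
`Hom_PE(Γ₀(M), 𝔽_p)`. -/
theorem exists_eigenclass_modp {p : ℕ} (hp : p.Prime) (S : Set Nat.Primes)
    (hS : ∀ ℓ : Nat.Primes, (ℓ : ℕ) ∣ M → ℓ ∈ S) (a : Nat.Primes → ℤ)
    (y : JZero M) (hy : y ≠ 0) (hpy : p • y = 0)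
    (heig : ∀ ℓ : Nat.Primes, ℓ ∉ S → heckeOperatorBar M ℓ y = a ℓ • y) :
    ∃ χ : peHoms (Gamma0 M) (ZMod p) (ZMod p), χ ≠ 0 ∧
      ∀ ℓ : Nat.Primes, ℓ ∉ S → heckePE M ℓ (ZMod p) (ZMod p) χ = a ℓ • χ := by
  classical
  obtain ⟨κ, -, hhecke⟩ := Fermat.Agent.ESJ.kummerCmp M p hp.pos
  have hx1 : y ∈ Pic0.torsion (AlgebraicClosure ℚ) (modularFunctionFieldBar M) (p ^ 1) := by
    rw [Pic0.mem_torsion, pow_one, natCast_zsmul]
    exact hpy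
  set χ₁ := κ 1 ⟨y, hx1⟩ with hχ₁
  have hχ₁0 : χ₁ ≠ 0 := by
    intro h0
    apply hy
    have h1 := (κ 1).map_eq_zero_iff.mp h0
    exact congrArg Subtype.val h1
  let e : ZMod (p ^ 1) ≃+* ZMod p := ZMod.ringEquivCongr (pow_one p)
  have hPE : IsPEHom (Gamma0 M) ((e : ZMod (p ^ 1) →+* ZMod p).toAddMonoidHom.comp
      (χ₁ : Additive (Gamma0 M) →+ ZMod (p ^ 1))) := by
    intro γ hγ
    show e ((χ₁ : Additive (Gamma0 M) →+ ZMod (p ^ 1)) (Additive.ofMul γ)) = 0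
    rw [χ₁.2 γ hγ, map_zero]
  refine ⟨⟨_, hPE⟩, ?_, fun ℓ hℓ => ?_⟩
  · intro h0
    apply hχ₁0
    apply Subtype.ext
    refine AddMonoidHom.ext fun γ => ?_
    have h1 := congrArg (fun ψ : peHoms (Gamma0 M) (ZMod p) (ZMod p) =>
      (ψ : Additive (Gamma0 M) →+ ZMod p) γ) h0
    have h2 : e ((χ₁ : Additive (Gamma0 M) →+ ZMod (p ^ 1)) γ) = 0 := h1
    exact e.map_eq_zero_iff.mp h2
  · have hℓM : ¬ (ℓ : ℕ) ∣ M := fun h => hℓ (hS ℓ h)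
    have hx' : heckeOperatorBar M ℓ y ∈
        Pic0.torsion (AlgebraicClosure ℚ) (modularFunctionFieldBar M) (p ^ 1) := by
      rw [heig ℓ hℓ]
      exact AddSubgroup.zsmul_mem _ hx1 _
    have h1 := hhecke 1 ℓ hℓM y hx1 hx'
    have h2 : (⟨heckeOperatorBar M ℓ y, hx'⟩ :
        Pic0.torsion (AlgebraicClosure ℚ) (modularFunctionFieldBar M) (p ^ 1))
        = a ℓ • ⟨y, hx1⟩ := by
      apply Subtype.ext
      rw [AddSubgroup.coe_zsmul]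
      exact heig ℓ hℓ
    rw [h2, map_zsmul, ← hχ₁] at h1
    -- `h1 : a ℓ • χ₁ = heckePE M ℓ ℤ (ZMod (p ^ 1)) χ₁`
    have h3 : heckeCoh M ℓ (χ₁ : Additive (Gamma0 M) →+ ZMod (p ^ 1))
        = a ℓ • (χ₁ : Additive (Gamma0 M) →+ ZMod (p ^ 1)) := by
      have := congrArg (fun ψ : peHoms (Gamma0 M) ℤ (ZMod (p ^ 1)) =>
        (ψ : Additive (Gamma0 M) →+ ZMod (p ^ 1))) h1
      exact this.symm
    apply Subtype.ext
    show heckeCoh M ℓ ((e : ZMod (p ^ 1) →+* ZMod p).toAddMonoidHom.comp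
        (χ₁ : Additive (Gamma0 M) →+ ZMod (p ^ 1)))
      = a ℓ • ((e : ZMod (p ^ 1) →+* ZMod p).toAddMonoidHom.comp
        (χ₁ : Additive (Gamma0 M) →+ ZMod (p ^ 1)))
    rw [heckeCoh_comp, h3]
    refine AddMonoidHom.ext fun γ => ?_
    simp only [AddMonoidHom.comp_apply, AddMonoidHom.smul_apply, map_zsmul]

/-- **Step 2** (lifting): a nonzero eigenclass in `Hom_PE(Γ₀(M), 𝔽_p)` for the operators `T_ℓ`,
`ℓ ∉ S`, with integer eigenvalues `a ℓ`, gives a normalised eigenform of level `M` congruent to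
`a` modulo a maximal ideal over `p`. -/
theorem exists_eigenform_of_eigenclass {p : ℕ} (hp : p.Prime) (S : Set Nat.Primes)
    (a : Nat.Primes → ℤ) (χ : peHoms (Gamma0 M) (ZMod p) (ZMod p)) (hχ : χ ≠ 0)
    (heig : ∀ ℓ : Nat.Primes, ℓ ∉ S → heckePE M ℓ (ZMod p) (ZMod p) χ = a ℓ • χ) :
    ∃ (g : CuspForm (Gamma0 M) 2) (𝔪 : Ideal (integralClosure ℤ ℂ)),
      g.IsNormalizedEigenform ∧ 𝔪.IsMaximal ∧ (p : integralClosure ℤ ℂ) ∈ 𝔪 ∧
      ∀ ℓ : Nat.Primes, ℓ ∉ S → ∃ b : integralClosure ℤ ℂ,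
        (b : ℂ) = ModularFormClass.qCoeff g ℓ ∧ b - ((a ℓ : ℤ) : integralClosure ℤ ℂ) ∈ 𝔪 := by
  classical
  have : Fact p.Prime := ⟨hp⟩
  -- the three actions of `ℤ[X_ℓ]`
  let φC : MvPolynomial Nat.Primes ℤ →+* Module.End ℂ (VC M) :=
    evalComm (fun ℓ => heckePE M ℓ ℂ ℂ) (fun ℓ ℓ' => (heckePE_comm_complex M ℓ ℓ').eq)
  let φZ : MvPolynomial Nat.Primes ℤ →+* Module.End ℤ (HPE M) :=
    evalComm (fun ℓ => heckePE M ℓ ℤ ℤ) (fun ℓ ℓ' => (heckePE_comm_int M ℓ ℓ').eq)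
  let φP : MvPolynomial Nat.Primes ℤ →+*
      Module.End (ZMod p) (peHoms (Gamma0 M) (ZMod p) (ZMod p)) :=
    evalComm (fun ℓ => heckePE M ℓ (ZMod p) (ZMod p))
      (fun ℓ ℓ' => (heckePE_comm M (ZMod p) ℓ ℓ').eq)
  have hZC : ∀ (t : MvPolynomial Nat.Primes ℤ) (ψ : HPE M),
      castPE M ℂ (φZ t ψ) = φC t (castPE M ℂ ψ) := fun t ψ =>
    evalComm_intertwine _ _ _ _ (castPE M ℂ).toAddMonoidHom
      (fun ℓ x => castPE_heckePE M ℂ ℓ x) t ψ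
  have hZP : ∀ (t : MvPolynomial Nat.Primes ℤ) (ψ : HPE M),
      castPE M (ZMod p) (φZ t ψ) = φP t (castPE M (ZMod p) ψ) := fun t ψ =>
    evalComm_intertwine _ _ _ _ (castPE M (ZMod p)).toAddMonoidHom
      (fun ℓ x => castPE_heckePE M (ZMod p) ℓ x) t ψ
  -- the annihilator of the eigenspace
  let 𝔞 : Ideal (MvPolynomial Nat.Primes ℤ) :=
    { carrier := {t | ∀ ψ : peHoms (Gamma0 M) (ZMod p) (ZMod p),
        (∀ ℓ : Nat.Primes, ℓ ∉ S → heckePE M ℓ (ZMod p) (ZMod p) ψ = a ℓ • ψ) → φP t ψ = 0}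
      zero_mem' := fun ψ _ => by rw [map_zero, LinearMap.zero_apply]
      add_mem' := fun {s t} hs ht ψ hψ => by
        rw [map_add, LinearMap.add_apply, hs ψ hψ, ht ψ hψ, add_zero]
      smul_mem' := fun s t ht ψ hψ => by
        rw [smul_eq_mul, map_mul, Module.End.mul_apply, ht ψ hψ, map_zero] }
  have h𝔞 : ∀ t, t ∈ 𝔞 ↔ ∀ ψ : peHoms (Gamma0 M) (ZMod p) (ZMod p),
      (∀ ℓ : Nat.Primes, ℓ ∉ S → heckePE M ℓ (ZMod p) (ZMod p) ψ = a ℓ • ψ) → φP t ψ = 0 :=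
    fun _ => Iff.rfl
  have hφPC : ∀ n : ℤ, φP (C n)
      = (n : Module.End (ZMod p) (peHoms (Gamma0 M) (ZMod p) (ZMod p))) :=
    fun n => evalComm_C _ _ n
  have hφPX : ∀ ℓ : Nat.Primes, φP (X ℓ) = heckePE M ℓ (ZMod p) (ZMod p) :=
    fun ℓ => evalComm_X _ _ ℓ
  have hne : 𝔞 ≠ ⊤ := by
    intro htop
    have h1 : (1 : MvPolynomial Nat.Primes ℤ) ∈ 𝔞 := by rw [htop]; exact Submodule.mem_top
    have h2 := (h𝔞 1).mp h1 χ heig
    rw [map_one, Module.End.one_apply] at h2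
    exact hχ h2
  have hCp : C (p : ℤ) ∈ 𝔞 := by
    rw [h𝔞]
    intro ψ _
    rw [hφPC, Module.End.intCast_apply, ← Int.cast_smul_eq_zsmul (ZMod p), Int.cast_natCast,
      ZMod.natCast_self, zero_smul]
  have hXa : ∀ ℓ : Nat.Primes, ℓ ∉ S → X ℓ - C (a ℓ) ∈ 𝔞 := by
    intro ℓ hℓ
    rw [h𝔞]
    intro ψ hψ
    rw [map_sub, hφPX, hφPC, LinearMap.sub_apply, Module.End.intCast_apply, hψ ℓ hℓ,
      sub_self]
  have hlat : ∀ t : MvPolynomial Nat.Primes ℤ, (∀ x ∈ latC M, φC t x = 0) → t ∈ 𝔞 := by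
    intro t ht
    rw [h𝔞]
    intro ψ _
    obtain ⟨ψ₀, rfl⟩ := castPE_zmod_surjective M p ψ
    rw [← hZP]
    have h1 : φZ t ψ₀ = 0 := by
      apply castPE_injective M ℂ
      rw [hZC, map_zero]
      exact ht _ (castPE_mem_latC ψ₀)
    rw [h1, map_zero]
  obtain ⟨𝔪, h𝔪, h𝔞𝔪⟩ := Ideal.exists_le_maximal 𝔞 hne
  have hLT : ∀ t : MvPolynomial Nat.Primes ℤ, ∀ x ∈ latC M, φC t x ∈ latC M := by
    intro t x hx
    obtain ⟨ψ₀, rfl⟩ := mem_latC.mp hx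
    rw [← hZC]
    exact castPE_mem_latC _
  obtain ⟨v, θ, m', hv0, -, hθ, hm', hcomap⟩ :=
    Fermat.Agent.S41.Core.exists_eigenvector_of_lattice φC (latC M) (latC_fg M) hLT 𝔪
      (fun t ht => h𝔞𝔪 (hlat t ht))
  obtain ⟨g, hg, hcoef⟩ := exists_normalizedEigenform_of_eigenvector hv0
    (fun ℓ => ((θ (X ℓ) : integralClosure ℤ ℂ) : ℂ)) (fun ℓ => by
      have h1 := hθ (X ℓ)
      have h2 : φC (X ℓ) = heckePE M ℓ ℂ ℂ := evalComm_X _ _ ℓ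
      rw [h2] at h1
      exact h1)
  have hmem : ∀ t ∈ 𝔞, θ t ∈ m' := by
    intro t ht
    have h1 : t ∈ m'.comap θ := by rw [hcomap]; exact h𝔞𝔪 ht
    exact h1
  have hθC : ∀ n : ℤ, θ (C n) = (n : integralClosure ℤ ℂ) := by
    intro n
    rw [← MvPolynomial.algebraMap_eq, eq_intCast, map_intCast]
  refine ⟨g, m', hg, hm', ?_, fun ℓ hℓ => ⟨θ (X ℓ), (hcoef ℓ).symm, ?_⟩⟩
  · have h1 := hmem _ hCp
    rw [hθC, Int.cast_natCast] at h1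
    exact h1
  · have h1 := hmem _ (hXa ℓ hℓ)
    rw [map_sub, hθC] at h1
    exact h1

/-- **Eigenvector in `J₀(M)[p]` ⟹ eigenform**: a nonzero `y ∈ J₀(M)[p]` with `T_ℓ y = a_ℓ • y`
for all primes `ℓ ∉ S` (`S ⊇` the primes dividing `M`) gives a normalised eigenform of level `M`
congruent to `a` modulo a maximal ideal over `p`. -/
theorem exists_eigenform_of_eigenvector {p : ℕ} (hp : p.Prime) (S : Set Nat.Primes)
    (hS : ∀ ℓ : Nat.Primes, (ℓ : ℕ) ∣ M → ℓ ∈ S) (a : Nat.Primes → ℤ)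
    (y : JZero M) (hy : y ≠ 0) (hpy : p • y = 0)
    (heig : ∀ ℓ : Nat.Primes, ℓ ∉ S → heckeOperatorBar M ℓ y = a ℓ • y) :
    ∃ (g : CuspForm (Gamma0 M) 2) (𝔪 : Ideal (integralClosure ℤ ℂ)),
      g.IsNormalizedEigenform ∧ 𝔪.IsMaximal ∧ (p : integralClosure ℤ ℂ) ∈ 𝔪 ∧
      ∀ ℓ : Nat.Primes, ℓ ∉ S → ∃ b : integralClosure ℤ ℂ,
        (b : ℂ) = ModularFormClass.qCoeff g ℓ ∧ b - ((a ℓ : ℤ) : integralClosure ℤ ℂ) ∈ 𝔪 := by
  obtain ⟨χ, hχ, hχeig⟩ := exists_eigenclass_modp hp S hS a y hy hpy heig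
  exact exists_eigenform_of_eigenclass hp S a χ hχ hχeig

/-- **The Frey form**: a nonzero `p`-torsion point of `J₀(M)` (`p = P.p`) on which `T_ℓ` acts as
`a_ℓ(W)` for the good primes `ℓ ∤ M p` of an integral model `W` of the Frey curve gives
`P.ModularRepOfLevel M`. -/
theorem modularRepOfLevel_of_eigenvector (P : FreyPackage) (W : WeierstrassCurve ℤ)
    (hW : W.IsIntegralModelOf P.freyCurve) (y : JZero M) (hy : y ≠ 0) (hpy : P.p • y = 0)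
    (heig : ∀ ℓ : Nat.Primes, W.IsGoodPrimeFor ℓ → ¬ (ℓ : ℕ) ∣ M → (ℓ : ℕ) ≠ P.p →
      heckeOperatorBar M ℓ y = W.apOfModel ℓ • y) : P.ModularRepOfLevel M := by
  classical
  obtain ⟨g, 𝔪, hg, h𝔪, hp𝔪, hcong⟩ := exists_eigenform_of_eigenvector P.pp
    {ℓ : Nat.Primes | ¬ (W.IsGoodPrimeFor ℓ ∧ ¬ (ℓ : ℕ) ∣ M ∧ (ℓ : ℕ) ≠ P.p)}
    (fun ℓ hℓ h => h.2.1 hℓ) (fun ℓ => W.apOfModel ℓ) y hy hpy
    (fun ℓ hℓ => by
      have h1 : W.IsGoodPrimeFor ℓ ∧ ¬ (ℓ : ℕ) ∣ M ∧ (ℓ : ℕ) ≠ P.p := not_not.mp hℓ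
      exact heig ℓ h1.1 h1.2.1 h1.2.2)
  refine ⟨g, W, 𝔪, hg, hW, h𝔪, hp𝔪, fun ℓ hℓ hgood hℓM hℓp => ?_⟩
  exact hcong ⟨ℓ, hℓ⟩ (fun h => h ⟨hgood, hℓM, hℓp⟩)

end Fermat.Agent.TR.Hecke.OldRed
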