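import Mathlib
import Fermat.Agent.ESJ.Cong.Comm
import Fermat.Agent.ESJ.Jac.FiniteLevel
import Fermat.Agent.ESJ.Jac.Main
import Fermat.Agent.MW.DivC.Main
import Fermat.Agent.Lib.FrobeniusExists
import Fermat.Agent.TR.Hecke.OldRedAbs
import Fermat.Agent.TR.Hecke.OldRedEig

set_option autoImplicit false

/-!
# TR / Hecke side, SHADOW of (OLD-a), row H-R3 — the instance `J = J₀(M)` and the assembly

Notation: `M` a level, `p` a prime, `r : J₀(M) →+ Jb` ANY additive map to an abelian group `Jb`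
with endomorphisms `Tb ℓ` (in the application `Jb = JZeroC k M`, `r` the reduction of divisor
classes at a place over `p ∤ M`, `Tb ℓ` the Hecke correspondences in characteristic `p`).

* `hecke_comm_torsion` : the `T_ℓ`, `ℓ ∤ M`, commute on the `p`-power torsion of `J₀(M)`
  (Kummer comparison; commutativity on all of `J₀(M)` is NOT available on main and not needed).
* `exists_eigenvector_jZero` : **(R3)+(R4)+(R5)** for `J₀(M)`: if
  (R1) `r (T_ℓ x) = Tb ℓ (r x)` for `ℓ ∉ S` and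
  (R2) for every number field `L` the image under `r` of the `Gal(ℚ̄/L)`-fixed classes has
       finite exponent,
  then every nonzero `yb = r x` killed by `p` with `Tb ℓ yb = a ℓ • yb` (`ℓ ∉ S`) lifts to a
  nonzero `y ∈ J₀(M)[p]` with `T_ℓ y = a ℓ • y` (`ℓ ∉ S`).
  (`exists_eigenvector_jZero_of_finiteIndex` : the same with (R2) stated for the subgroups of
  finite index of `G_ℚ`.)
* `exists_eigenform_of_red` : hence a normalised eigenform of level `M` congruent to `a` modulo a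
  maximal ideal over `p`.
* `modularRepOfLevel_of_red` : the Frey form, with conclusion `P.ModularRepOfLevel M`.
-/

open CongruenceSubgroup ModularCurve AlgebraicCurve
open scoped MatrixGroups

namespace Fermat.Agent.TR.Hecke.OldRed

open Fermat.Agent.ESJ Fermat.Agent.ESJ.ParHom Fermat.Agent.TR.Hecke.OldRedAbs

variable {M : ℕ} [NeZero M]

/-- The Hecke operators on `Hom_PE(Γ₀(M), ℤ/n)` commute. -/
theorem heckePE_comm_zmod (n : ℕ) (ℓ ℓ' : Nat.Primes) (φ : peHoms (Gamma0 M) ℤ (ZMod n)) :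
    heckePE M ℓ ℤ (ZMod n) (heckePE M ℓ' ℤ (ZMod n) φ)
      = heckePE M ℓ' ℤ (ZMod n) (heckePE M ℓ ℤ (ZMod n) φ) := by
  apply Subtype.ext
  have h := congrArg (fun T : Module.End (ZMod n) (peHoms (Gamma0 M) (ZMod n) (ZMod n)) =>
    ((T ⟨(φ : Additive (Gamma0 M) →+ ZMod n), φ.2⟩ : peHoms (Gamma0 M) (ZMod n) (ZMod n)) :
      Additive (Gamma0 M) →+ ZMod n)) (heckePE_comm M (ZMod n) ℓ ℓ').eq
  exact h

/-- The Hecke operators `T_ℓ`, `ℓ ∤ M`, commute on the `p`-power torsion of `J₀(M)`. -/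
theorem hecke_comm_torsion {p : ℕ} (hp : p.Prime) (m : ℕ) (ℓ ℓ' : Nat.Primes)
    (hℓ : ¬ (ℓ : ℕ) ∣ M) (hℓ' : ¬ (ℓ' : ℕ) ∣ M) (x : JZero M) (hx : p ^ m • x = 0) :
    heckeOperatorBar M ℓ (heckeOperatorBar M ℓ' x)
      = heckeOperatorBar M ℓ' (heckeOperatorBar M ℓ x) := by
  obtain ⟨κ, -, hhecke⟩ := Fermat.Agent.ESJ.kummerCmp M p hp.pos
  have hmem : ∀ z : JZero M, p ^ m • z = 0 →
      z ∈ Pic0.torsion (AlgebraicClosure ℚ) (modularFunctionFieldBar M) (p ^ m) := by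
    intro z hz
    rw [Pic0.mem_torsion, natCast_zsmul]
    exact hz
  have hT : ∀ (q : Nat.Primes) (z : JZero M), p ^ m • z = 0 →
      p ^ m • heckeOperatorBar M q z = 0 := by
    intro q z hz
    rw [← map_nsmul, hz, map_zero]
  have h1 := hhecke m ℓ hℓ _ (hmem _ (hT ℓ' x hx)) (hmem _ (hT ℓ _ (hT ℓ' x hx)))
  have h2 := hhecke m ℓ' hℓ' _ (hmem _ hx) (hmem _ (hT ℓ' x hx))
  have h3 := hhecke m ℓ' hℓ' _ (hmem _ (hT ℓ x hx)) (hmem _ (hT ℓ' _ (hT ℓ x hx)))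
  have h4 := hhecke m ℓ hℓ _ (hmem _ hx) (hmem _ (hT ℓ x hx))
  rw [h2] at h1
  rw [h4, ← heckePE_comm_zmod, ← h1] at h3
  exact congrArg Subtype.val ((κ m).injective h3).symm

/-- **(R3)+(R4)+(R5) for `J₀(M)`**: lifting of eigenvectors through a map `r : J₀(M) →+ Jb`
which is compatible with the Hecke operators away from `S` (R1) and maps the points rational
over any number field to a group of finite exponent (R2). -/
theorem exists_eigenvector_jZero {p : ℕ} (hp : p.Prime)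
    {Jb : Type*} [AddCommGroup Jb] (Tb : Nat.Primes → Module.End ℤ Jb) (r : JZero M →+ Jb)
    (S : Set Nat.Primes) (hS : ∀ ℓ : Nat.Primes, (ℓ : ℕ) ∣ M → ℓ ∈ S)
    (hrT : ∀ ℓ : Nat.Primes, ℓ ∉ S → ∀ x : JZero M, r (heckeOperatorBar M ℓ x) = Tb ℓ (r x))
    (hexp : ∀ L : IntermediateField ℚ (AlgebraicClosure ℚ), FiniteDimensional ℚ L →
      ∃ e : ℕ, e ≠ 0 ∧ ∀ x : JZero M,
        (∀ σ : AlgebraicClosure ℚ ≃ₐ[ℚ] AlgebraicClosure ℚ, (∀ c ∈ L, σ c = c) → σ • x = x) →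
          e • r x = 0)
    (a : Nat.Primes → ℤ) (yb : Jb) (hyb : yb ≠ 0) (hpy : p • yb = 0)
    (hyT : ∀ ℓ : Nat.Primes, ℓ ∉ S → Tb ℓ yb = a ℓ • yb) (hx : ∃ x : JZero M, r x = yb) :
    ∃ y : JZero M, y ≠ 0 ∧ p • y = 0 ∧
      ∀ ℓ : Nat.Primes, ℓ ∉ S → heckeOperatorBar M ℓ y = a ℓ • y := by
  obtain ⟨y, hy0, hpy', hy⟩ := exists_eigenvector_of_red
    (G := AlgebraicClosure ℚ ≃ₐ[ℚ] AlgebraicClosure ℚ)
    (fun i : {ℓ : Nat.Primes // ℓ ∉ S} => heckeOperatorBar M i.1) (fun i => Tb i.1) r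
    (fun i x => hrT i.1 i.2 x)
    (fun i σ x => Fermat.Agent.ESJ.Cong.heckeGaloisCommute M i.1 σ x) hp
    (fun m i j x hx => hecke_comm_torsion hp m i.1 j.1 (fun h => i.2 (hS _ h))
      (fun h => j.2 (hS _ h)) x hx)
    (fun m => (Fermat.Agent.ESJ.torsionFinite M (p ^ m) (pow_pos hp.pos m)).subset
      (fun x hx => by
        show x ∈ Pic0.torsion (AlgebraicClosure ℚ) (modularFunctionFieldBar M) (p ^ m)
        rw [Pic0.mem_torsion, natCast_zsmul]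
        exact hx))
    (fun m x => Fermat.Agent.MW.DivC.jZero_divisible M (pow_pos hp.pos m) x)
    (fun x₀ => by
      obtain ⟨L, hL, hfix⟩ := Fermat.Agent.ESJ.Jac.FiniteLevel.exists_finiteLevel_jZero M x₀
      obtain ⟨e, he0, he⟩ := hexp L hL
      exact ⟨e, he0, fun x hx => he x (fun σ hσ => hx σ (hfix σ hσ))⟩)
    (fun i => a i.1) yb hyb hpy (fun i => hyT i.1 i.2) hx
  exact ⟨y, hy0, hpy', fun ℓ hℓ => hy ⟨ℓ, hℓ⟩⟩

/-- `exists_eigenvector_jZero` with (R2) stated for the subgroups of finite index of `G_ℚ`. -/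
theorem exists_eigenvector_jZero_of_finiteIndex {p : ℕ} (hp : p.Prime)
    {Jb : Type*} [AddCommGroup Jb] (Tb : Nat.Primes → Module.End ℤ Jb) (r : JZero M →+ Jb)
    (S : Set Nat.Primes) (hS : ∀ ℓ : Nat.Primes, (ℓ : ℕ) ∣ M → ℓ ∈ S)
    (hrT : ∀ ℓ : Nat.Primes, ℓ ∉ S → ∀ x : JZero M, r (heckeOperatorBar M ℓ x) = Tb ℓ (r x))
    (hexp : ∀ U : Subgroup (AlgebraicClosure ℚ ≃ₐ[ℚ] AlgebraicClosure ℚ), U.FiniteIndex →
      ∃ e : ℕ, e ≠ 0 ∧ ∀ x : JZero M, (∀ σ ∈ U, σ • x = x) → e • r x = 0)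
    (a : Nat.Primes → ℤ) (yb : Jb) (hyb : yb ≠ 0) (hpy : p • yb = 0)
    (hyT : ∀ ℓ : Nat.Primes, ℓ ∉ S → Tb ℓ yb = a ℓ • yb) (hx : ∃ x : JZero M, r x = yb) :
    ∃ y : JZero M, y ≠ 0 ∧ p • y = 0 ∧
      ∀ ℓ : Nat.Primes, ℓ ∉ S → heckeOperatorBar M ℓ y = a ℓ • y := by
  refine exists_eigenvector_jZero hp Tb r S hS hrT (fun L hL => ?_) a yb hyb hpy hyT hx
  have hfi : L.fixingSubgroup.FiniteIndex := by
    have := Fermat.Agent.Lib.FrobeniusExists.isAlgClosure_rat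
    have := Fermat.Agent.Lib.FrobeniusExists.isGalois_rat
    refine ⟨?_⟩
    rw [← IntermediateField.finrank_eq_fixingSubgroup_index]
    exact Module.finrank_pos.ne'
  obtain ⟨e, he0, he⟩ := hexp L.fixingSubgroup hfi
  refine ⟨e, he0, fun x hx => he x (fun σ hσ => hx σ (fun c hc => ?_))⟩
  exact (IntermediateField.mem_fixingSubgroup_iff L σ).mp hσ c hc

/-- **The shadow of (OLD-a), eigenform form**: under (R1), (R2), a nonzero `yb = r x` killed by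
`p` which is an eigenvector of the `Tb ℓ`, `ℓ ∉ S`, with integer eigenvalues `a ℓ`, gives a
normalised eigenform of level `M` congruent to `a` modulo a maximal ideal over `p`. -/
theorem exists_eigenform_of_red {p : ℕ} (hp : p.Prime)
    {Jb : Type*} [AddCommGroup Jb] (Tb : Nat.Primes → Module.End ℤ Jb) (r : JZero M →+ Jb)
    (S : Set Nat.Primes) (hS : ∀ ℓ : Nat.Primes, (ℓ : ℕ) ∣ M → ℓ ∈ S)
    (hrT : ∀ ℓ : Nat.Primes, ℓ ∉ S → ∀ x : JZero M, r (heckeOperatorBar M ℓ x) = Tb ℓ (r x))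
    (hexp : ∀ L : IntermediateField ℚ (AlgebraicClosure ℚ), FiniteDimensional ℚ L →
      ∃ e : ℕ, e ≠ 0 ∧ ∀ x : JZero M,
        (∀ σ : AlgebraicClosure ℚ ≃ₐ[ℚ] AlgebraicClosure ℚ, (∀ c ∈ L, σ c = c) → σ • x = x) →
          e • r x = 0)
    (a : Nat.Primes → ℤ) (yb : Jb) (hyb : yb ≠ 0) (hpy : p • yb = 0)
    (hyT : ∀ ℓ : Nat.Primes, ℓ ∉ S → Tb ℓ yb = a ℓ • yb) (hx : ∃ x : JZero M, r x = yb) :
    ∃ (g : CuspForm (Gamma0 M) 2) (𝔪 : Ideal (integralClosure ℤ ℂ)),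
      g.IsNormalizedEigenform ∧ 𝔪.IsMaximal ∧ (p : integralClosure ℤ ℂ) ∈ 𝔪 ∧
      ∀ ℓ : Nat.Primes, ℓ ∉ S → ∃ b : integralClosure ℤ ℂ,
        (b : ℂ) = ModularFormClass.qCoeff g ℓ ∧ b - ((a ℓ : ℤ) : integralClosure ℤ ℂ) ∈ 𝔪 := by
  obtain ⟨y, hy0, hpy', hy⟩ := exists_eigenvector_jZero hp Tb r S hS hrT hexp a yb hyb hpy hyT hx
  exact exists_eigenform_of_eigenvector hp S hS a y hy0 hpy' hy

/-- **The shadow of (OLD-a), Frey form**: under (R1) (for the primes `ℓ ∤ M p`) and (R2), a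
nonzero `yb = r x` killed by `p = P.p` on which `Tb ℓ` acts as `a_ℓ(W)` for the good primes
`ℓ ∤ M p` of an integral model `W` of the Frey curve gives `P.ModularRepOfLevel M`. -/
theorem modularRepOfLevel_of_red (P : FreyPackage) (W : WeierstrassCurve ℤ)
    (hW : W.IsIntegralModelOf P.freyCurve)
    {Jb : Type*} [AddCommGroup Jb] (Tb : Nat.Primes → Module.End ℤ Jb) (r : JZero M →+ Jb)
    (hrT : ∀ ℓ : Nat.Primes, ¬ (ℓ : ℕ) ∣ M → (ℓ : ℕ) ≠ P.p →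
      ∀ x : JZero M, r (heckeOperatorBar M ℓ x) = Tb ℓ (r x))
    (hexp : ∀ L : IntermediateField ℚ (AlgebraicClosure ℚ), FiniteDimensional ℚ L →
      ∃ e : ℕ, e ≠ 0 ∧ ∀ x : JZero M,
        (∀ σ : AlgebraicClosure ℚ ≃ₐ[ℚ] AlgebraicClosure ℚ, (∀ c ∈ L, σ c = c) → σ • x = x) →
          e • r x = 0)
    (yb : Jb) (hyb : yb ≠ 0) (hpy : P.p • yb = 0)
    (hyT : ∀ ℓ : Nat.Primes, W.IsGoodPrimeFor ℓ → ¬ (ℓ : ℕ) ∣ M → (ℓ : ℕ) ≠ P.p →
      Tb ℓ yb = W.apOfModel ℓ • yb) (hx : ∃ x : JZero M, r x = yb) :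
    P.ModularRepOfLevel M := by
  classical
  obtain ⟨y, hy0, hpy', hy⟩ := exists_eigenvector_jZero P.pp Tb r
    {ℓ : Nat.Primes | ¬ (W.IsGoodPrimeFor ℓ ∧ ¬ (ℓ : ℕ) ∣ M ∧ (ℓ : ℕ) ≠ P.p)}
    (fun ℓ hℓ h => h.2.1 hℓ)
    (fun ℓ hℓ x => by
      have h1 : W.IsGoodPrimeFor ℓ ∧ ¬ (ℓ : ℕ) ∣ M ∧ (ℓ : ℕ) ≠ P.p := not_not.mp hℓ
      exact hrT ℓ h1.2.1 h1.2.2 x)
    hexp (fun ℓ => W.apOfModel ℓ) yb hyb hpy
    (fun ℓ hℓ => by
      have h1 : W.IsGoodPrimeFor ℓ ∧ ¬ (ℓ : ℕ) ∣ M ∧ (ℓ : ℕ) ≠ P.p := not_not.mp hℓ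
      exact hyT ℓ h1.1 h1.2.1 h1.2.2) hx
  exact modularRepOfLevel_of_eigenvector P W hW y hy0 hpy'
    (fun ℓ hgood hℓM hℓp => hy ℓ (fun h => h ⟨hgood, hℓM, hℓp⟩))

end Fermat.Agent.TR.Hecke.OldRed
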