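import Mathlib
import Fermat.Agent.ESJ.Cong.LevelDeg
import Fermat.Agent.Lib.Red.LevelDescent
import Fermat.Agent.Lib.Red.Ortho
import Fermat.Agent.BAD.TwoVal.Pair

/-!
# TR / Hecke side, (EIS): reduction commutes with the norm along `α_r` at a bad level

Setting: `BadSetup A π M p` (level `M * p`, `p = 0` in the residue field `k`, `M` a unit of `k`),
`r ≠ p` a prime with `(r : k) ≠ 0`, `α_r = heckeAlphaBar L (M * p) r : F_{Mp} → F_{Mpr}`.

* `finrank_inclC` : `[κ_{N r} : κ_N] = if r ∣ N then r else r + 1` over every field `k` in which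
  `N * r` is invertible (the mod-`p` analogue of `LevelDeg.finrank_alpha_all`);
* `exists_goodBasis_of_finrank_le` : abstract — a compatible pair of valued fields with surjective
  residue map and `[F : F₀] ≤ [E : E₀] < ∞` has a good (orthonormal) basis;
* `OInfR h r hrk`, `redInfR h r hrk` : the Gauss valuation ring of `F_{(M p) r}` and its residue
  map onto the mod-`p` function field of level `M * r`; compatibilities with `α_r`, `β_r`;
* `norm_alpha_mem_OInf`, `redInf_norm_alpha` : for `y ∈ O_∞(F_{Mpr})`, `Nm_{α_r} y ∈ O_∞(F_{Mp})`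
  and `red_∞ (Nm_{α_r} y) = Nm_{κ_{Mr}/κ_M} (red_∞ y)`; same for traces and characteristic
  polynomials.
-/

set_option autoImplicit false
set_option linter.style.haveILetI false

noncomputable section

namespace Fermat.Agent.TR.Hecke.NormOrd

open AlgebraicCurve ModularCurve IntermediateField Polynomial HahnSeries
open Fermat.Agent.S28 Fermat.Agent.Lib.Red Fermat.Agent.ESJ.Cong.LevelGen
open Fermat.Agent.ESJ.Cong.LevelDeg Fermat.Agent.Lib.Red.LevelDescent Fermat.Agent.BAD.TwoVal

/-! ### The degree of `κ_{N r} / κ_N` -/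

section DegC

variable (k : Type) [Field k] (N r : ℕ) [NeZero N] [NeZero r]

/-- **The exact degree of the inclusion `κ_N ⊆ κ_{N r}`** over a field in which `N * r` is
invertible: `r` if `r ∣ N`, and `r + 1` otherwise. -/
theorem finrank_inclC (hr : r.Prime) (hNk : ((N * r : ℕ) : k) ≠ 0) :
    finrankAlong k (inclC N r k) = if r ∣ N then r else r + 1 := by
  have hME : ∀ s : ℕ, s.Prime → s ∣ N * r → Nonempty (TD.ModEq s) :=
    fun s hs _ => modEq_prime s hs
  have hBC : ∀ s : ℕ, s.Prime → s ∣ N * r → TD.BaseCase s :=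
    fun s hs _ => baseCase_prime s hs
  set θs : LaurentSeries k := qExpand k (r ^ (padicValNat r N + 1)) (jqModC k) with hθs
  obtain ⟨hub, hlb⟩ : (∃ g : Polynomial (modularFunctionFieldFullC k N), g.Monic ∧
        g.natDegree = (if r ∣ N then r else r + 1) ∧ Polynomial.aeval θs g = 0) ∧
      (∀ f : Polynomial (modularFunctionFieldFullC k N), f ≠ 0 → Polynomial.aeval θs f = 0 →
        (if r ∣ N then r else r + 1) ≤ f.natDegree) :=
    ⟨chain_exists_monic hr hNk hME, fun f hf h0 => chain_le_natDegree hr hNk hME hBC f hf h0⟩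
  have hgen0 : modularFunctionFieldFullC k (N * r) =
      IntermediateField.adjoin k
        ((modularFunctionFieldFullC k N : Set (LaurentSeries k)) ∪ {θs}) :=
    full_mul_prime_eq hr hNk hME
  have hθmem : θs ∈ modularFunctionFieldFullC k (N * r) := by
    rw [hgen0]
    exact IntermediateField.subset_adjoin k _ (Or.inr rfl)
  have hcoe : ∀ (f : Polynomial (modularFunctionFieldFullC k N)),
      (((f.map ((inclC N r k : modularFunctionFieldFullC k N →ₐ[k]
            modularFunctionFieldFullC k (N * r)) :
          modularFunctionFieldFullC k N →+* modularFunctionFieldFullC k (N * r))).eval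
          ⟨θs, hθmem⟩ : modularFunctionFieldFullC k (N * r)) : LaurentSeries k)
        = Polynomial.aeval θs f := by
    intro f
    rw [Polynomial.aeval_def]
    exact coe_eval_map (inclC N r k)
      (algebraMap (modularFunctionFieldFullC k N) (LaurentSeries k))
      (fun x => coe_inclC N r k x) f ⟨θs, hθmem⟩
  refine finrankAlong_eq_of_gen (inclC N r k) ⟨θs, hθmem⟩ _ ?_ ?_ ?_
  · refine closure_eq_top_of_le_adjoin _ _ (fun c => ?_)
      ((modularFunctionFieldFullC k N : Set (LaurentSeries k)) ∪ {θs}) ?_ (le_of_eq hgen0)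
    · rw [← (inclC N r k).commutes c]
      exact Subfield.subset_closure (Or.inl (Set.mem_range_self _))
    · rintro z (hz | hz)
      · have hz' : z ∈ modularFunctionFieldFullC k N := hz
        have hc : ((inclC N r k ⟨z, hz'⟩ : modularFunctionFieldFullC k (N * r)) :
            LaurentSeries k) = z := coe_inclC N r k ⟨z, hz'⟩
        refine ⟨hc ▸ (inclC N r k ⟨z, hz'⟩).2,
          Subfield.subset_closure (Or.inl ⟨⟨z, hz'⟩, ?_⟩)⟩
        exact Subtype.ext hc
      · rw [Set.mem_singleton_iff] at hz
        subst hz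
        exact ⟨hθmem, Subfield.subset_closure (Or.inr rfl)⟩
  · obtain ⟨g, hg1, hg2, hg3⟩ := hub
    refine ⟨g, hg1, hg2, Subtype.ext ?_⟩
    rw [hcoe g, hg3]
    rfl
  · intro f hf h0
    apply hlb f hf
    rw [← hcoe f, h0]
    rfl

end DegC

/-! ### Abstract: a good basis from the equality of degrees -/

section Abstract

open Module

variable {F E F₀ E₀ : Type*} [Field F] [Field E] [Field F₀] [Field E₀] [Algebra F₀ F]
  [Algebra E₀ E] {O : ValuationSubring F} {red : O →+* E} {O₀ : ValuationSubring F₀}
  {red₀ : O₀ →+* E₀}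

/-- A compatible pair of valued fields with surjective residue map and
`[F : F₀] ≤ [E : E₀] < ∞` has a good basis: lifts of a basis of the residue extension. -/
theorem exists_goodBasis_of_finrank_le (hC : Ortho.Compat O red O₀ red₀)
    (hsurj : Function.Surjective red) [Module.Finite E₀ E] [Module.Finite F₀ F]
    (hdeg : finrank F₀ F ≤ finrank E₀ E) :
    Nonempty (Ortho.GoodBasis O red O₀ red₀ (Fin (finrank E₀ E))) := by
  classical
  let e := Module.finBasis E₀ E
  choose b hb using fun i => hsurj (e i)
  have hind : LinearIndependent E₀ (fun i => red (b i)) := by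
    have : (fun i => red (b i)) = e := funext hb
    rw [this]
    exact e.linearIndependent
  have hli : LinearIndependent F₀ (fun i => (b i : F)) := hC.linearIndependent b hind
  have hcard : Fintype.card (Fin (finrank E₀ E)) = finrank F₀ F := by
    refine le_antisymm hli.fintype_card_le_finrank ?_
    rw [Fintype.card_fin]
    exact hdeg
  have hspan : Submodule.span F₀ (Set.range fun i => (b i : F)) = ⊤ :=
    hli.span_eq_top_of_card_eq_finrank' hcard
  refine ⟨{ compat := hC, surj := hsurj, b := b, ind := hind, span := fun y => ?_ }⟩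
  have hy : y ∈ Submodule.span F₀ (Set.range fun i => (b i : F)) := by
    rw [hspan]
    exact Submodule.mem_top
  obtain ⟨c, hc⟩ := (Submodule.mem_span_range_iff_exists_fun F₀).mp hy
  refine ⟨c, ?_⟩
  rw [← hc]
  refine Finset.sum_congr rfl fun i _ => ?_
  rw [Algebra.smul_def]

end Abstract

/-! ### `q ↦ q^r` on the mod-`p` function fields -/

section BetaC

variable (k : Type) [Field k] (N r : ℕ) [NeZero N] [NeZero r]

/-- `q ↦ q^r` from `κ_N` to `κ_{N r}`, as an algebra homomorphism. -/
def betaC : modularFunctionFieldFullC k N →ₐ[k] modularFunctionFieldFullC k (N * r) :=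
  ((qExpandAlgHomC k r).comp (modularFunctionFieldFullC k N).val).codRestrict
    (modularFunctionFieldFullC k (N * r)).toSubalgebra
    (fun x => full_degeneracyC_map_le k N r ⟨x, x.2, rfl⟩)

omit [NeZero N] in
theorem coe_betaC (x : modularFunctionFieldFullC k N) :
    ((betaC k N r x : modularFunctionFieldFullC k (N * r)) : LaurentSeries k) =
      qExpand k r (x : LaurentSeries k) := rfl

end BetaC

/-! ### The Gauss valuation ring of `F_{(M p) r}` -/

section Bad

variable {L : Type} [Field L] [Algebra ℚ L] {A : ValuationSubring L} {k : Type} [Field k]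
  {π : A →+* k} {M p : ℕ} [NeZero M] [NeZero p]

/-- The invariant `GoodV` at level `(M p) r`, with residue field of level `M r`. -/
theorem goodV_mul (h : BadSetup A π M p) (r : ℕ) [NeZero r] (hrk : (r : k) ≠ 0) :
    GoodV A π (laurentBaseChange L (modularFunctionFieldFull (M * p * r)))
      (modularFunctionFieldFullC k (M * r)) := by
  have : Fact p.Prime := ⟨h.hℓ⟩
  have hMr : ((M * r : ℕ) : k) ≠ 0 := by
    rw [Nat.cast_mul]
    exact mul_ne_zero h.hMk hrk
  rw [laurentBaseChange_eq_FF, fullC_eq_FF, Nat.mul_right_comm]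
  exact goodV_bad A π h.hπ h.hrank p h.hℓk (M * r) hMr

/-- The Gauss valuation ring `O_∞` of `F_{(M p) r}`. -/
def OInfR (h : BadSetup A π M p) (r : ℕ) [NeZero r] (hrk : (r : k) ≠ 0) :
    ValuationSubring ↥(laurentBaseChange L (modularFunctionFieldFull (M * p * r))) :=
  gaussVS (goodV_mul h r hrk)

/-- The residue map of `O_∞(F_{(M p) r})`, onto the mod-`p` function field of level `M r`. -/
def redInfR (h : BadSetup A π M p) (r : ℕ) [NeZero r] (hrk : (r : k) ≠ 0) :
    OInfR h r hrk →+* ↥(modularFunctionFieldFullC k (M * r)) :=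
  gaussRed h.hπ (goodV_mul h r hrk)

variable (h : BadSetup A π M p) (r : ℕ) [NeZero r] (hrk : (r : k) ≠ 0)

theorem mem_OInfR_iff (f : laurentBaseChange L (modularFunctionFieldFull (M * p * r))) :
    f ∈ OInfR h r hrk ↔ (f : LaurentSeries L) ∈ gaussRing A π := Iff.rfl

theorem coe_redInfR (f : laurentBaseChange L (modularFunctionFieldFull (M * p * r)))
    (hf : f ∈ OInfR h r hrk) :
    ((redInfR h r hrk ⟨f, hf⟩ : modularFunctionFieldFullC k (M * r)) : LaurentSeries k) =
      red A π ⟨(f : LaurentSeries L), hf⟩ := rfl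

/-- The kernel of `red_∞` is the maximal ideal. -/
theorem redInfR_eq_zero_iff (f : OInfR h r hrk) : redInfR h r hrk f = 0 ↔ ¬ IsUnit f :=
  gaussRed_eq_zero_iff h.hπ (goodV_mul h r hrk) f

/-- `α_r⁻¹(O_∞) = O_∞`. -/
theorem alpha_mem_OInfR_iff (x : laurentBaseChange L (modularFunctionFieldFull (M * p))) :
    heckeAlphaBar L (M * p) r x ∈ OInfR h r hrk ↔ x ∈ OInf h := by
  show ((heckeAlphaBar L (M * p) r x :
      laurentBaseChange L (modularFunctionFieldFull (M * p * r))) : LaurentSeries L) ∈
    gaussRing A π ↔ (x : LaurentSeries L) ∈ gaussRing A π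
  rw [coe_heckeAlphaBar]

/-- `red_∞ ∘ α_r = ᾱ_r ∘ red_∞`. -/
theorem redInfR_alpha (x : laurentBaseChange L (modularFunctionFieldFull (M * p)))
    (hx : x ∈ OInf h) (hx' : heckeAlphaBar L (M * p) r x ∈ OInfR h r hrk) :
    redInfR h r hrk ⟨heckeAlphaBar L (M * p) r x, hx'⟩ = inclC M r k (redInf h ⟨x, hx⟩) := by
  apply Subtype.ext
  rw [coe_redInfR, coe_inclC, coe_redInf]
  have e : (⟨((heckeAlphaBar L (M * p) r x :
      laurentBaseChange L (modularFunctionFieldFull (M * p * r))) : LaurentSeries L), hx'⟩ :
      gaussRing A π) = ⟨(x : LaurentSeries L), hx⟩ :=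
    Subtype.ext (coe_heckeAlphaBar (M * p) r x)
  rw [e]

/-- `β_r (O_∞) ⊆ O_∞`. -/
theorem beta_mem_OInfR (x : laurentBaseChange L (modularFunctionFieldFull (M * p)))
    (hx : x ∈ OInf h) : heckeBetaBar L (M * p) r x ∈ OInfR h r hrk :=
  qExpand_mem_gaussRing r hx

/-- `red_∞ ∘ β_r = β̄_r ∘ red_∞`. -/
theorem redInfR_beta (x : laurentBaseChange L (modularFunctionFieldFull (M * p)))
    (hx : x ∈ OInf h) (hx' : heckeBetaBar L (M * p) r x ∈ OInfR h r hrk) :
    redInfR h r hrk ⟨heckeBetaBar L (M * p) r x, hx'⟩ = betaC k M r (redInf h ⟨x, hx⟩) := by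
  apply Subtype.ext
  rw [coe_redInfR, coe_betaC, coe_redInf]
  exact red_qExpand r hx hx'

/-- `red_∞` is onto the mod-`p` function field of level `M r`. -/
theorem redInfR_surjective (hsurj : Function.Surjective π) :
    Function.Surjective (redInfR h r hrk) := by
  have hMr : ((M * r : ℕ) : k) ≠ 0 := by
    rw [Nat.cast_mul]
    exact mul_ne_zero h.hMk hrk
  intro z
  obtain ⟨x, rfl⟩ := redF_surjective h.hπ hsurj hMr z
  have hle : laurentBaseChange L (modularFunctionFieldFull (M * r)) ≤
      laurentBaseChange L (modularFunctionFieldFull (M * p * r)) :=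
    bar_mono L ⟨p, by ring⟩
  have hmem : ((x : laurentBaseChange L (modularFunctionFieldFull (M * r))) : LaurentSeries L) ∈
      laurentBaseChange L (modularFunctionFieldFull (M * p * r)) := hle x.1.2
  have hg : ((x : laurentBaseChange L (modularFunctionFieldFull (M * r))) : LaurentSeries L) ∈
      gaussRing A π := x.2
  have hy : (⟨_, hmem⟩ : laurentBaseChange L (modularFunctionFieldFull (M * p * r))) ∈
      OInfR h r hrk := (mem_OInfR_iff h r hrk _).mpr hg
  refine ⟨⟨⟨_, hmem⟩, hy⟩, ?_⟩
  apply Subtype.ext
  rw [coe_redInfR h r hrk _ hy, coe_redF]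
  have e : (⟨((⟨((x : laurentBaseChange L (modularFunctionFieldFull (M * r))) :
      LaurentSeries L), hmem⟩ : laurentBaseChange L (modularFunctionFieldFull (M * p * r))) :
      LaurentSeries L), hy⟩ : gaussRing A π) = OwToGauss A π (M * r) hMr x :=
    Subtype.ext rfl
  rw [e]

/-- Compatibility of the Gauss valuations of `F_{Mp}` and `F_{(Mp) r}` along `α_r`. -/
theorem compat_alpha :
    letI := algebraAlong (heckeAlphaBar L (M * p) r)
    letI := algebraAlong (inclC M r k)
    Ortho.Compat (OInfR h r hrk) (redInfR h r hrk) (OInf h) (redInf h) := by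
  letI := algebraAlong (heckeAlphaBar L (M * p) r)
  letI := algebraAlong (inclC M r k)
  exact
    { ker := redInfR_eq_zero_iff h r hrk
      mem_iff := fun c => (alpha_mem_OInfR_iff h r hrk c).symm
      red_comp := fun c hc => redInfR_alpha h r hrk (c : _) c.2 hc }

include h hrk in
/-- The degrees of `F_{(Mp) r} / α_r F_{Mp}` and of `κ_{M r} / κ_M` agree. -/
theorem finrank_alpha_eq (hr : r.Prime) :
    finrankAlong L (heckeAlphaBar L (M * p) r) = finrankAlong k (inclC M r k) := by
  have hMr : ((M * r : ℕ) : k) ≠ 0 := by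
    rw [Nat.cast_mul]
    exact mul_ne_zero h.hMk hrk
  have hrp : r ≠ p := by
    rintro rfl
    exact hrk h.hℓk
  rw [finrank_alpha_all L (M * p) r hr, finrank_inclC k M r hr hMr]
  have hiff : r ∣ M * p ↔ r ∣ M := by
    constructor
    · intro hd
      rcases (Nat.Prime.dvd_mul hr).mp hd with h1 | h1
      · exact h1
      · exact absurd ((Nat.prime_dvd_prime_iff_eq hr h.hℓ).mp h1) hrp
    · intro hd
      exact Dvd.dvd.mul_right hd p
  by_cases hd : r ∣ M
  · rw [if_pos hd, if_pos (hiff.mpr hd)]
  · rw [if_neg hd, if_neg (fun h' => hd (hiff.mp h'))]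

/-- **A good basis of `F_{(Mp) r}` over `α_r F_{Mp}`** for the Gauss valuations. -/
theorem exists_goodBasis_alpha (hr : r.Prime) (hsurj : Function.Surjective π) :
    letI := algebraAlong (heckeAlphaBar L (M * p) r)
    letI := algebraAlong (inclC M r k)
    ∃ (ι : Type) (_ : Fintype ι),
      Nonempty (Ortho.GoodBasis (OInfR h r hrk) (redInfR h r hrk) (OInf h) (redInf h) ι) := by
  letI := algebraAlong (heckeAlphaBar L (M * p) r)
  letI := algebraAlong (inclC M r k)
  haveI : Module.Finite (modularFunctionFieldFullC k M) (modularFunctionFieldFullC k (M * r)) :=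
    finiteAlong_inclC M r k
  haveI : Module.Finite (laurentBaseChange L (modularFunctionFieldFull (M * p)))
      (laurentBaseChange L (modularFunctionFieldFull (M * p * r))) :=
    finiteAlong_alpha L (M * p) r hr
  have hdeg : Module.finrank (laurentBaseChange L (modularFunctionFieldFull (M * p)))
      (laurentBaseChange L (modularFunctionFieldFull (M * p * r))) ≤
      Module.finrank (modularFunctionFieldFullC k M) (modularFunctionFieldFullC k (M * r)) :=
    le_of_eq (finrank_alpha_eq h r hrk hr)
  exact ⟨_, inferInstance,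
    exists_goodBasis_of_finrank_le (compat_alpha h r hrk) (redInfR_surjective h r hrk hsurj) hdeg⟩

/-- The norm along `α_r` of a Gauss-integral function is Gauss-integral. -/
theorem norm_alpha_mem_OInf (hr : r.Prime) (hsurj : Function.Surjective π)
    (y : OInfR h r hrk) :
    letI := algebraAlong (heckeAlphaBar L (M * p) r)
    Algebra.norm (laurentBaseChange L (modularFunctionFieldFull (M * p)))
      (y : laurentBaseChange L (modularFunctionFieldFull (M * p * r))) ∈ OInf h := by
  classical
  letI := algebraAlong (heckeAlphaBar L (M * p) r)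
  letI := algebraAlong (inclC M r k)
  obtain ⟨ι, hι, ⟨G⟩⟩ := exists_goodBasis_alpha h r hrk hr hsurj
  exact G.norm_mem y

/-- **Reduction commutes with the norm along `α_r`**:
`red_∞ (Nm_{α_r} y) = Nm_{κ_{M r} / κ_M} (red_∞ y)`. -/
theorem redInf_norm_alpha (hr : r.Prime) (hsurj : Function.Surjective π)
    (y : OInfR h r hrk) :
    redInf h ⟨_, norm_alpha_mem_OInf h r hrk hr hsurj y⟩ =
      letI := algebraAlong (inclC M r k)
      Algebra.norm (modularFunctionFieldFullC k M) (redInfR h r hrk y) := by
  classical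
  letI := algebraAlong (heckeAlphaBar L (M * p) r)
  letI := algebraAlong (inclC M r k)
  obtain ⟨ι, hι, ⟨G⟩⟩ := exists_goodBasis_alpha h r hrk hr hsurj
  exact G.red_norm y

/-- The trace along `α_r` of a Gauss-integral function is Gauss-integral. -/
theorem trace_alpha_mem_OInf (hr : r.Prime) (hsurj : Function.Surjective π)
    (y : OInfR h r hrk) :
    letI := algebraAlong (heckeAlphaBar L (M * p) r)
    Algebra.trace (laurentBaseChange L (modularFunctionFieldFull (M * p)))
      (laurentBaseChange L (modularFunctionFieldFull (M * p * r)))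
      (y : laurentBaseChange L (modularFunctionFieldFull (M * p * r))) ∈ OInf h := by
  classical
  letI := algebraAlong (heckeAlphaBar L (M * p) r)
  letI := algebraAlong (inclC M r k)
  obtain ⟨ι, hι, ⟨G⟩⟩ := exists_goodBasis_alpha h r hrk hr hsurj
  exact G.trace_mem y

/-- **Reduction commutes with the trace along `α_r`.** -/
theorem redInf_trace_alpha (hr : r.Prime) (hsurj : Function.Surjective π)
    (y : OInfR h r hrk) :
    redInf h ⟨_, trace_alpha_mem_OInf h r hrk hr hsurj y⟩ =
      letI := algebraAlong (inclC M r k)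
      Algebra.trace (modularFunctionFieldFullC k M) (modularFunctionFieldFullC k (M * r))
        (redInfR h r hrk y) := by
  classical
  letI := algebraAlong (heckeAlphaBar L (M * p) r)
  letI := algebraAlong (inclC M r k)
  obtain ⟨ι, hι, ⟨G⟩⟩ := exists_goodBasis_alpha h r hrk hr hsurj
  exact G.red_trace y

end Bad

end Fermat.Agent.TR.Hecke.NormOrd
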