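/-
TR / Hecke side, (EIS-SF) — owner: helper16 (ruling H#3 of the Hecke deputy).

Special fibre only.  `k` algebraically closed (any characteristic), `M r ≥ 1` with `M * r`
invertible in `k`, `r` prime, `κ_M = modularFunctionFieldFullC k M`, `inclC : κ_M → κ_{M r}` the
inclusion, `betaC : κ_M → κ_{M r}` the map `q ↦ q^r`.

* `ord_norm_weighted` : for a finite SEPARABLE extension `F'/F` of function fields and a place
  `v` of `F` there are integer weights `c w` with
  `ord_v (N_{F'/F} f) = ∑_{w | v} c w * ord_w f` for all `f ≠ 0`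
  (characteristic free; no statement about the weights is needed below);
* `isSeparable_inclC` : `κ_{M r} / κ_M` is separable;
* `isIntegral_betaC_Jbar`, `ord_beta_Jbar_nonneg` : `J̄(q^r)` is integral over `k[J̄(q)]`, hence
  regular at every non-cuspidal place of `κ_{M r}`;
* `dvd_ord_norm_betaC` : **(EIS-SF)** if `p ∣ ord_t z` at every non-cuspidal place `t` of `κ_M`,
  then `p ∣ ord_s (N_{κ_{M r}/κ_M} (β z))` at every non-cuspidal place `s` of `κ_M`.
-/
import Mathlib
import Fermat.Agent.TR.Hecke.NormOrd
import Fermat.Agent.TR.Unit.IntRed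
import Fermat.Agent.Lib.FF.ExtNorm
import Fermat.Agent.Lib.FF.CharP.ModLInst
import Fermat.Agent.Lib.FF.ModLSep

set_option autoImplicit false
set_option linter.style.haveILetI false

noncomputable section

namespace Fermat.Agent.TR.Hecke.NormOrdSF

open AlgebraicCurve ModularCurve IntermediateField WithZero IsDedekindDomain
open Fermat.Agent.S24 Fermat.Agent.S28 Fermat.Agent.Lib.Red.LevelDescent
open Fermat.Agent.Lib.FF.ExtNorm Fermat.Agent.TR.Hecke.NormOrd

/-! ### A weighted norm formula, characteristic free -/

section Weighted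

variable {K F F' : Type*} [Field K] [Field F] [Field F']
  [Algebra K F] [Algebra K F'] [Algebra F F'] [IsScalarTower K F F']
  [Algebra.IsIntegral F F'] [HasPrincipalDivisors K F']

/-- **Weighted norm formula at a place `v`**, from a Dedekind domain `C` integral over the
valuation ring of `v` with fraction field `F'`: the order at `v` of a norm is an integral
combination (with weights independent of the function) of the orders at the places over `v`. -/
theorem ord_norm_weighted_of_dedekind [FiniteDimensional F F'] (v : Place K F)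
    (C : Type*) [CommRing C] [IsDedekindDomain C] [Algebra v.toValuationSubring C]
    [Algebra.IsIntegral v.toValuationSubring C]
    [Algebra C F'] [IsFractionRing C F'] [IsScalarTower v.toValuationSubring C F'] :
    ∃ c : Place K F' → ℤ, ∀ f : F', f ≠ 0 →
      v.ord (Algebra.norm F f) = ∑ w ∈ v.fiber F', c w * w.ord f := by
  classical
  have hK : ∀ a : K, algebraMap K F' a ∈ (algebraMap C F').range := range_of_dedekind v C
  have hinj : Function.Injective (algebraMap C F') := IsFractionRing.injective C F'
  -- the primes of `C` are finite in number and parametrise the fibre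
  let Ψ : HeightOneSpectrum C → {w : Place K F' // w ∈ v.fiber F'} := fun Q =>
    ⟨placeOfPrime hK Q, Place.mem_fiber.2 (restrict_placeOfPrime v C hK Q)⟩
  have hΨinj : Function.Injective Ψ := fun Q Q' h =>
    placeOfPrime_injective hK (congrArg Subtype.val h)
  haveI : Finite (HeightOneSpectrum C) := Finite.of_injective Ψ hΨinj
  letI : Fintype (HeightOneSpectrum C) := Fintype.ofFinite _
  have hfib : v.fiber F' = Finset.univ.image (placeOfPrime (K := K) (F := F') (C := C) hK) := by
    ext w
    simp only [Place.mem_fiber, Finset.mem_image, Finset.mem_univ, true_and]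
    constructor
    · intro hw
      exact exists_prime_of_restrict_eq v C hK w hw
    · rintro ⟨Q, rfl⟩
      exact restrict_placeOfPrime v C hK Q
  -- `C` is a principal ideal domain
  haveI : IsPrincipalIdealRing C := by
    apply IsPrincipalIdealRing.of_finite_primes
    have : {I : Ideal C | I.IsPrime} ⊆
        insert ⊥ (Set.range (HeightOneSpectrum.asIdeal : HeightOneSpectrum C → Ideal C)) := by
      intro I hI
      by_cases hI0 : I = ⊥
      · exact Or.inl hI0
      · exact Or.inr ⟨⟨I, hI, hI0⟩, rfl⟩
    exact ((Set.finite_range _).insert ⊥).subset this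
  -- norms of elements of `C` are regular at `v`
  have hint : ∀ c : C, 0 ≤ v.ord (Algebra.norm F (algebraMap C F' c)) := by
    intro c
    have h1 : IsIntegral v.toValuationSubring c := Algebra.IsIntegral.isIntegral c
    have h2 : IsIntegral v.toValuationSubring (algebraMap C F' c) :=
      h1.map (IsScalarTower.toAlgHom v.toValuationSubring C F')
    have h3 : IsIntegral v.toValuationSubring (Algebra.norm F (algebraMap C F' c)) :=
      Algebra.isIntegral_norm F h2
    obtain ⟨y, hy⟩ := (IsIntegrallyClosed.isIntegral_iff (R := v.toValuationSubring)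
      (K := F)).mp h3
    rw [← hy]
    exact ord_nonneg_of_mem v y.2
  have hne : ∀ c : C, c ≠ 0 → Algebra.norm F (algebraMap C F' c) ≠ 0 := fun c hc =>
    Algebra.norm_ne_zero_iff.2 fun h => hc (hinj (by rw [h, map_zero]))
  -- norms of units of `C` are units at `v`
  have hunit : ∀ u : C, IsUnit u → v.ord (Algebra.norm F (algebraMap C F' u)) = 0 := by
    intro u hu
    obtain ⟨u', hu'⟩ := hu.exists_right_inv
    have hu0 : u ≠ 0 := hu.ne_zero
    have hu0' : u' ≠ 0 := by
      rintro rfl
      rw [mul_zero] at hu'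
      exact zero_ne_one hu'
    have h1 := hint u
    have h2 := hint u'
    have h3 : Algebra.norm F (algebraMap C F' u) * Algebra.norm F (algebraMap C F' u') = 1 := by
      rw [← map_mul, ← map_mul, hu', map_one, map_one]
    have h4 := v.ord_mul (hne u hu0) (hne u' hu0')
    rw [h3, v.ord_one] at h4
    omega
  -- the weights
  let cQ : HeightOneSpectrum C → ℤ := fun Q =>
    v.ord (Algebra.norm F (algebraMap C F' (Submodule.IsPrincipal.generator Q.asIdeal)))
  -- key claim on `C`
  have key : ∀ c : C, c ≠ 0 → v.ord (Algebra.norm F (algebraMap C F' c))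
      = ∑ Q : HeightOneSpectrum C, cQ Q * (placeOfPrime hK Q).ord (algebraMap C F' c) := by
    intro c
    induction c using UniqueFactorizationMonoid.induction_on_prime with
    | h₁ => intro h; exact absurd rfl h
    | h₂ u hu =>
      intro _
      rw [hunit u hu]
      symm
      refine Finset.sum_eq_zero fun Q _ => ?_
      rw [ord_placeOfPrime_eq_zero C hK Q
        (fun hmem => Q.isPrime.ne_top (Ideal.eq_top_of_isUnit_mem _ hmem hu)), mul_zero]
    | h₃ a ϖ ha hϖ ih =>
      intro _
      have hϖ0 : ϖ ≠ 0 := hϖ.ne_zero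
      have hϖF : algebraMap C F' ϖ ≠ 0 := fun h => hϖ0 (hinj (by rw [h, map_zero]))
      have haF : algebraMap C F' a ≠ 0 := fun h => ha (hinj (by rw [h, map_zero]))
      -- the prime `(ϖ)`
      have hPprime : (Ideal.span {ϖ} : Ideal C).IsPrime := (Ideal.span_singleton_prime hϖ0).2 hϖ
      have hPne : (Ideal.span {ϖ} : Ideal C) ≠ ⊥ := by
        rw [Ne, Ideal.span_singleton_eq_bot]; exact hϖ0
      let Q₀ : HeightOneSpectrum C := ⟨Ideal.span {ϖ}, hPprime, hPne⟩
      have hPmax : (Ideal.span {ϖ} : Ideal C).IsMaximal := hPprime.isMaximal hPne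
      -- norm of `ϖ`
      have hassoc : Associated (Submodule.IsPrincipal.generator Q₀.asIdeal) ϖ := by
        rw [← Ideal.span_singleton_eq_span_singleton, Ideal.span_singleton_generator]
      obtain ⟨u, hu⟩ := hassoc
      have hg0 : Submodule.IsPrincipal.generator Q₀.asIdeal ≠ 0 := by
        intro h0
        rw [h0, zero_mul] at hu
        exact hϖ0 hu.symm
      have hNϖ : v.ord (Algebra.norm F (algebraMap C F' ϖ)) = cQ Q₀ := by
        rw [← hu, map_mul, map_mul, v.ord_mul (hne _ hg0) (hne _ u.ne_zero),
          hunit (u : C) u.isUnit, add_zero]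
      -- orders of `ϖ`
      have hsumϖ : ∑ Q : HeightOneSpectrum C, cQ Q * (placeOfPrime hK Q).ord (algebraMap C F' ϖ)
          = cQ Q₀ := by
        rw [Finset.sum_eq_single Q₀]
        · rw [ord_placeOfPrime_generator C hK Q₀ hϖ0 rfl, mul_one]
        · intro Q _ hQ
          rw [ord_placeOfPrime_eq_zero C hK Q, mul_zero]
          intro hmem
          apply hQ
          have hle : Q₀.asIdeal ≤ Q.asIdeal := by
            show Ideal.span {ϖ} ≤ Q.asIdeal
            rw [Ideal.span_le, Set.singleton_subset_iff]
            exact hmem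
          exact HeightOneSpectrum.ext (hPmax.eq_of_le Q.isPrime.ne_top hle).symm
        · intro h
          exact absurd (Finset.mem_univ _) h
      rw [map_mul, map_mul, v.ord_mul (Algebra.norm_ne_zero_iff.2 hϖF)
        (Algebra.norm_ne_zero_iff.2 haF), hNϖ, ih ha, ← hsumϖ, ← Finset.sum_add_distrib]
      refine Finset.sum_congr rfl fun Q _ => ?_
      rw [(placeOfPrime hK Q).ord_mul hϖF haF]
      ring
  -- the weights on places
  let c : Place K F' → ℤ := fun w =>
    if h : ∃ Q : HeightOneSpectrum C, placeOfPrime hK Q = w then cQ h.choose else 0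
  have hc : ∀ Q : HeightOneSpectrum C, c (placeOfPrime hK Q) = cQ Q := by
    intro Q
    have h : ∃ Q' : HeightOneSpectrum C, placeOfPrime hK Q' = placeOfPrime hK Q := ⟨Q, rfl⟩
    show (if h : ∃ Q' : HeightOneSpectrum C, placeOfPrime hK Q' = placeOfPrime hK Q
      then cQ h.choose else 0) = cQ Q
    rw [dif_pos h, placeOfPrime_injective hK h.choose_spec]
  refine ⟨c, fun f hf => ?_⟩
  have hsumfib : ∑ w ∈ v.fiber F', c w * w.ord f
      = ∑ Q : HeightOneSpectrum C, cQ Q * (placeOfPrime hK Q).ord f := by
    rw [hfib, Finset.sum_image (fun x _ y _ h => placeOfPrime_injective hK h)]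
    exact Finset.sum_congr rfl fun Q _ => by rw [hc Q]
  -- general `f`
  obtain ⟨a, b, hb, hab⟩ := IsFractionRing.div_surjective (A := C) f
  have hb0 : b ≠ 0 := nonZeroDivisors.ne_zero hb
  have hbF : algebraMap C F' b ≠ 0 := fun h => hb0 (hinj (by rw [h, map_zero]))
  have ha0 : a ≠ 0 := by
    rintro rfl
    rw [map_zero, zero_div] at hab
    exact hf hab.symm
  have haF : algebraMap C F' a ≠ 0 := fun h => ha0 (hinj (by rw [h, map_zero]))
  have hNinv : Algebra.norm F (algebraMap C F' b)⁻¹ = (Algebra.norm F (algebraMap C F' b))⁻¹ := by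
    apply eq_inv_of_mul_eq_one_left
    rw [← map_mul, inv_mul_cancel₀ hbF, map_one]
  rw [hsumfib, ← hab, div_eq_mul_inv, map_mul, hNinv,
    v.ord_mul (Algebra.norm_ne_zero_iff.2 haF) (inv_ne_zero (Algebra.norm_ne_zero_iff.2 hbF)),
    v.ord_inv, key a ha0, key b hb0, ← sub_eq_add_neg, ← Finset.sum_sub_distrib]
  refine Finset.sum_congr rfl fun Q _ => ?_
  rw [(placeOfPrime hK Q).ord_mul haF (inv_ne_zero hbF), (placeOfPrime hK Q).ord_inv]
  ring

/-- **Weighted norm formula at a place**, for a finite separable extension of function fields in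
any characteristic: `ord_v (N f) = ∑_{w | v} c w * ord_w f` with weights `c w` independent of
`f`. -/
theorem ord_norm_weighted [FiniteDimensional F F'] [Algebra.IsSeparable F F'] (v : Place K F) :
    ∃ c : Place K F' → ℤ, ∀ f : F', f ≠ 0 →
      v.ord (Algebra.norm F f) = ∑ w ∈ v.fiber F', c w * w.ord f := by
  haveI : IsDedekindDomain (integralClosure v.toValuationSubring F') :=
    integralClosure.isDedekindDomain v.toValuationSubring F F'
  haveI : IsFractionRing (integralClosure v.toValuationSubring F') F' :=
    integralClosure.isFractionRing_of_finite_extension F F'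
  haveI : Algebra.IsIntegral v.toValuationSubring (integralClosure v.toValuationSubring F') :=
    ⟨fun x => integralClosure.isIntegral x⟩
  exact ord_norm_weighted_of_dedekind v (integralClosure v.toValuationSubring F')

/-- Divisibility form: if `p` divides the order of `f` at every place over `v`, it divides the
order at `v` of the norm of `f`. -/
theorem dvd_ord_norm_of_forall_dvd [FiniteDimensional F F'] [Algebra.IsSeparable F F']
    (v : Place K F) (p : ℤ) {f : F'} (hf : f ≠ 0)
    (h : ∀ w : Place K F', w.restrict F = v → p ∣ w.ord f) :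
    p ∣ v.ord (Algebra.norm F f) := by
  obtain ⟨c, hc⟩ := ord_norm_weighted (F' := F') v
  rw [hc f hf]
  exact Finset.dvd_sum fun w hw => Dvd.dvd.mul_left (h w (Place.mem_fiber.1 hw)) _

end Weighted

/-! ### The special fibre: `κ_M ⊆ κ_{M r}` and `q ↦ q^r` -/

section SF

open Fermat.Agent.Lib.FF.ModL Fermat.Agent.TR.Unit.IntRed Fermat.Agent.ESJ.HeckeInputs

variable (k : Type) [Field k] (M r : ℕ) [NeZero M] [NeZero r]

/-- Ramification indices along an integral embedding are positive. -/
theorem ramIdxAlong_pos {K F F' : Type*} [Field K] [Field F] [Field F'] [Algebra K F]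
    [Algebra K F'] (φ : F →ₐ[K] F') (hφ : φ.toRingHom.IsIntegral) (w : Place K F') :
    0 < Place.ramificationIndexAlong φ w := by
  letI := algebraAlong φ
  haveI := isIntegral_along φ hφ
  exact w.ramificationIndex_pos (F := F)

/-- **`κ_{M r} / κ_M` is separable** when `M * r` is invertible in `k`. -/
theorem isSeparable_inclC (hMr : ((M * r : ℕ) : k) ≠ 0) :
    letI := algebraAlong (inclC M r k)
    Algebra.IsSeparable (modularFunctionFieldFullC k M) (modularFunctionFieldFullC k (M * r)) := by
  letI := algebraAlong (inclC M r k)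
  have hsep := isSeparable_Jbar k (M * r) hMr
  refine ⟨fun y => ?_⟩
  have h1 : IsSeparable k⟮Jbar k (M * r)⟯ y := Algebra.IsSeparable.isSeparable _ y
  refine isSeparable_of_range_le ?_ h1
  rintro _ ⟨a, rfl⟩
  have ha : ((a : modularFunctionFieldFullC k (M * r)) : LaurentSeries k) ∈
      IntermediateField.adjoin k {jqModC k} := (mem_adjoin_Jbar_iff k (M * r) a).mp a.2
  have hle : IntermediateField.adjoin k {jqModC k} ≤ modularFunctionFieldFullC k M := by
    rw [adjoin_simple_le_iff]
    exact jqModC_mem_full k M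
  exact ⟨⟨_, hle ha⟩, Subtype.ext (coe_inclC M r k ⟨_, hle ha⟩)⟩

/-- `q ↦ q^r : κ_M → κ_{M r}` is finite. -/
theorem finiteAlong_betaC : FiniteAlong k (betaC k M r) :=
  haveI := finiteDimensional_JbarC M r k
  finiteAlong (betaC k M r) (transcendental_Jbar k M) (Jbar k (M * r))

/-- `q ↦ q^r : κ_M → κ_{M r}` is integral. -/
theorem isIntegral_betaC : (betaC k M r).toRingHom.IsIntegral :=
  isIntegral_of_finiteAlong _ (finiteAlong_betaC k M r)

omit [NeZero M] in
/-- **`J̄(q^r)` is integral over `k[J̄(q)]`** inside `κ_{M r}` (the modular equation of level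
`r`). -/
theorem isIntegral_betaC_Jbar (hr : r.Prime) :
    IsIntegral (jRingC k (M * r) (Jbar k (M * r))) (betaC k M r (Jbar k M)) := by
  obtain ⟨D⟩ := Fermat.Agent.ESJ.Cong.LevelGen.modEq_prime r hr
  have hx : Jbar k (M * r) ∈ jRingC k (M * r) (Jbar k (M * r)) := Jb_mem_jRingC
  refine ⟨TD.polyAt D.Φ (⟨Jbar k (M * r), hx⟩ : jRingC k (M * r) (Jbar k (M * r))),
    TD.polyAt_monic D.monic _, ?_⟩
  rw [← Polynomial.eval_map]
  have e1 : (TD.polyAt D.Φ (⟨Jbar k (M * r), hx⟩ : jRingC k (M * r) (Jbar k (M * r)))).map
      (algebraMap (jRingC k (M * r) (Jbar k (M * r))) (modularFunctionFieldFullC k (M * r))) =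
      TD.polyAt D.Φ (Jbar k (M * r)) :=
    TD.polyAt_map (algebraMap (jRingC k (M * r) (Jbar k (M * r)))
      (modularFunctionFieldFullC k (M * r))) D.Φ _
  rw [e1]
  have h := TD.map_eval_polyAt
    (algebraMap (modularFunctionFieldFullC k (M * r)) (LaurentSeries k)) D.Φ
    (betaC k M r (Jbar k M)) (Jbar k (M * r))
  have h2 := D.rel₂' hr.ne_zero k 1 one_ne_zero
  rw [TD.Jd_one, one_mul, TD.Jd_eq k r] at h2
  apply (algebraMap (modularFunctionFieldFullC k (M * r)) (LaurentSeries k)).injective
  rw [map_zero]
  exact h.trans h2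

omit [NeZero M] in
/-- `J̄(q^r)` is regular at every non-cuspidal place of `κ_{M r}`. -/
theorem ord_betaC_Jbar_nonneg (hr : r.Prime)
    (S : Place k (modularFunctionFieldFullC k (M * r))) (hS : 0 ≤ S.ord (Jbar k (M * r))) :
    0 ≤ S.ord (betaC k M r (Jbar k M)) :=
  ord_nonneg_of_isIntegral S (jRingC k (M * r) (Jbar k (M * r)))
    (fun _ ht => ord_nonneg_of_mem_jRingC S hS ht) (isIntegral_betaC_Jbar k M r hr)

/-- **(EIS-SF)**: if `p` divides the order of `z ∈ κ_M` at every non-cuspidal place, then `p`
divides the order of `N_{κ_{M r}/κ_M} (z(q^r))` at every non-cuspidal place. -/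
theorem dvd_ord_norm_betaC [IsAlgClosed k] (hr : r.Prime) (hMr : ((M * r : ℕ) : k) ≠ 0) (p : ℕ)
    (z : modularFunctionFieldFullC k M) (hz : z ≠ 0)
    (hzp : ∀ t : Place k (modularFunctionFieldFullC k M),
      0 ≤ t.ord (Jbar k M) → (p : ℤ) ∣ t.ord z)
    (s : Place k (modularFunctionFieldFullC k M)) (hs : 0 ≤ s.ord (Jbar k M)) :
    (p : ℤ) ∣ s.ord (letI := algebraAlong (inclC M r k)
      Algebra.norm (modularFunctionFieldFullC k M) (betaC k M r z)) := by
  have hβ := isIntegral_betaC k M r
  have hβz : betaC k M r z ≠ 0 := fun h =>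
    hz ((betaC k M r).toRingHom.injective (by rw [AlgHom.toRingHom_eq_coe, RingHom.coe_coe, h,
      map_zero]))
  -- the places over `s` along `β` are non-cuspidal, with `p ∣ ord (β z)`
  have key : ∀ S : Place k (modularFunctionFieldFullC k (M * r)),
      0 ≤ S.ord (Jbar k (M * r)) → (p : ℤ) ∣ S.ord (betaC k M r z) := by
    intro S hS0
    have hβJ := ord_betaC_Jbar_nonneg k M r hr S hS0
    have h1 := Place.ord_restrictAlong (betaC k M r) hβ S (Jbar k M)
    have h2 := Place.ord_restrictAlong (betaC k M r) hβ S z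
    have he : (0 : ℤ) < (Place.ramificationIndexAlong (betaC k M r) S : ℤ) := by
      exact_mod_cast ramIdxAlong_pos (betaC k M r) hβ S
    have ht : 0 ≤ (S.restrictAlong (betaC k M r) hβ).ord (Jbar k M) := by
      rw [h1] at hβJ
      exact (mul_nonneg_iff_of_pos_left he).mp hβJ
    rw [h2]
    exact Dvd.dvd.mul_left (hzp _ ht) _
  letI := algebraAlong (inclC M r k)
  haveI := isScalarTower_along (inclC M r k)
  haveI := isIntegral_along (inclC M r k) (isIntegral_inclC M r k)
  haveI : Module.Finite (modularFunctionFieldFullC k M) (modularFunctionFieldFullC k (M * r)) :=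
    finiteAlong_inclC M r k
  haveI := isSeparable_inclC k M r hMr
  haveI := Fermat.Agent.Lib.FF.CharP.hasPrincipalDivisors_fullC k (M * r)
  refine dvd_ord_norm_of_forall_dvd s (p : ℤ) hβz fun S hS => key S ?_
  have hα := S.ord_restrict (F := modularFunctionFieldFullC k M) (Jbar k M)
  rw [hS] at hα
  have hαJ : algebraMap (modularFunctionFieldFullC k M) (modularFunctionFieldFullC k (M * r))
      (Jbar k M) = Jbar k (M * r) := Subtype.ext (coe_inclC M r k (Jbar k M))
  rw [← hαJ, hα]
  exact mul_nonneg (Int.natCast_nonneg _) hs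

/-- **(EIS-SF)**, with `J̄` given by its `q`-expansion. -/
theorem dvd_ord_norm_betaC' [IsAlgClosed k] (hr : r.Prime) (hMr : ((M * r : ℕ) : k) ≠ 0)
    {Jb : modularFunctionFieldFullC k M} (hJb : (Jb : LaurentSeries k) = jqModC k) (p : ℕ) :
    ∀ z : modularFunctionFieldFullC k M, z ≠ 0 →
      (∀ t : Place k (modularFunctionFieldFullC k M), 0 ≤ t.ord Jb → (p : ℤ) ∣ t.ord z) →
      ∀ s : Place k (modularFunctionFieldFullC k M), 0 ≤ s.ord Jb →
        (p : ℤ) ∣ s.ord (letI := algebraAlong (inclC M r k)
          Algebra.norm (modularFunctionFieldFullC k M) (betaC k M r z)) := by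
  have e : Jb = Jbar k M := Subtype.ext hJb
  subst e
  exact fun z hz hzp s hs => dvd_ord_norm_betaC k M r hr hMr p z hz hzp s hs

end SF

end Fermat.Agent.TR.Hecke.NormOrdSF
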