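/-
helper95 — TR / shadow of (OLD-a): the Hecke correspondence `T_r` on the special fibre.

`k` algebraically closed, `M * r` invertible in `k`, `κ_N := modularFunctionFieldFullC k N`,
`ᾱ := inclC M r k : κ_M → κ_{M r}` (inclusion), `β̄ := betaC k M r` (`q ↦ q^r`).

* generic (any characteristic): for a finite SEPARABLE embedding `φ : F → F'` of function fields
  all of whose places are rational, `fundamentalIdentityAlong_of_isSeparable` and
  `normFormulaAlong_of_isSeparable`;
* `isSeparable_betaC`, `fundamentalIdentityAlong_betaC`, `normFormulaAlong_inclC`;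
* `heckeC k M r hMr : JZeroC k M →+ JZeroC k M`, the class of `ᾱ_* β̄^*` (`heckeC_mk`);
* `heckeC_eq_zsmul_of_norm` : if `p • D = div f` and `Nm_ᾱ (β̄ f) = c · f ^ a · u ^ p` then
  `heckeC [D] = a • [D]`.
-/
import Mathlib
import Fermat.Agent.TR.Hecke.NormOrdSF
import Fermat.Agent.Lib.Red.NormPlace
import Fermat.Agent.Lib.FF.CharP.ModLInst
import Fermat.Agent.Lib.FF.ModLSep

set_option autoImplicit false
set_option linter.style.haveILetI false

noncomputable section

namespace Fermat.Agent.TR.Hecke.HeckeC

open AlgebraicCurve ModularCurve IntermediateField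
open Fermat.Agent.Lib.Red.LevelDescent Fermat.Agent.TR.Hecke.NormOrd
open Fermat.Agent.TR.Hecke.NormOrdSF Fermat.Agent.Lib.FF.ModL Fermat.Agent.Lib.FF.CharP
open Fermat.Agent.S28

/-! ### Finite separable embeddings of function fields, any characteristic -/

section Generic

variable {K F F' : Type*} [Field K] [Field F] [Field F'] [Algebra K F] [Algebra K F']
  [IsAlgClosed K]

/-- `∑ e(w | v) f(w | v) = [F' : F]` for a finite separable extension of function fields with
rational places. -/
theorem sumRamificationInertia_of_isSeparable [Algebra F F'] [IsScalarTower K F F']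
    [Algebra.IsIntegral F F'] [HasPrincipalDivisors K F'] [FiniteDimensional F F']
    [Algebra.IsSeparable F F']
    (hres : ∀ v : Place K F, Fermat.Agent.Lib.FF.RR.ResK v)
    (hdeg' : ∀ w : Place K F', w.deg = 1) : SumRamificationInertia K F F' := by
  refine ⟨fun v => ?_⟩
  have : IsDedekindDomain (integralClosure v.toValuationSubring F') :=
    integralClosure.isDedekindDomain v.toValuationSubring F F'
  have : IsFractionRing (integralClosure v.toValuationSubring F') F' :=
    integralClosure.isFractionRing_of_finite_extension F F'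
  have : Module.Finite v.toValuationSubring (integralClosure v.toValuationSubring F') :=
    IsIntegralClosure.finite v.toValuationSubring F F' _
  have : Module.IsTorsionFree v.toValuationSubring (integralClosure v.toValuationSubring F') :=
    Subalgebra.instIsTorsionFree (integralClosure v.toValuationSubring F')
  exact Fermat.Agent.Lib.FF.ExtNorm.sum_ramificationIndex_of_dedekind v (hres v) hdeg'
    (integralClosure v.toValuationSubring F')

/-- The norm formula `div (N f) = pushforward (div f)` for a finite separable extension of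
function fields with rational places. -/
theorem pushforwardNormFormula_of_isSeparable [Algebra F F'] [IsScalarTower K F F']
    [Algebra.IsIntegral F F'] [HasPrincipalDivisors K F'] [FiniteDimensional F F']
    [Algebra.IsSeparable F F']
    (hres : ∀ v : Place K F, Fermat.Agent.Lib.FF.RR.ResK v)
    (hdeg' : ∀ w : Place K F', w.deg = 1) : Divisor.PushforwardNormFormula K F F' := by
  classical
  intro f hf D hD v
  rw [Fermat.Agent.Lib.Red.NormPlace.ord_norm_eq_sum_of_isSeparable v (hres v) hdeg' f hf,
    Divisor.pushforward_apply]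
  have hinert : ∀ w : Place K F', w.inertiaDeg F = 1 := by
    intro w
    have h := w.deg_restrict_mul_inertiaDeg (F := F)
    rw [hdeg' w] at h
    exact Nat.eq_one_of_mul_eq_one_left h
  have h1 : ∑ w ∈ D.support, (if w.restrict F = v then D w * (w.inertiaDeg F : ℤ) else 0)
      = ∑ w ∈ D.support.filter (fun w => w.restrict F = v), w.ord f := by
    rw [Finset.sum_filter]
    refine Finset.sum_congr rfl fun w _ => ?_
    rw [hinert w, hD w]
    simp
  rw [h1]
  refine Finset.sum_subset ?_ ?_
  · intro w hw
    rw [Finset.mem_filter] at hw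
    exact Place.mem_fiber.2 hw.2
  · intro w hw hnot
    rw [Finset.mem_filter, not_and_or] at hnot
    rcases hnot with h | h
    · rw [Finsupp.mem_support_iff, not_not, hD w] at h
      exact h
    · exact absurd (Place.mem_fiber.1 hw) h

/-- The fundamental identity along a finite separable embedding. -/
theorem fundamentalIdentityAlong_of_isSeparable [HasPrincipalDivisors K F'] (φ : F →ₐ[K] F')
    (hφ : φ.toRingHom.IsIntegral) (hfin : FiniteAlong K φ)
    (hsep : letI := algebraAlong φ; Algebra.IsSeparable F F')
    (hres : ∀ v : Place K F, Fermat.Agent.Lib.FF.RR.ResK v)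
    (hdeg' : ∀ w : Place K F', w.deg = 1) : FundamentalIdentityAlong K φ hφ := by
  letI := algebraAlong φ
  have := isScalarTower_along φ
  have := isIntegral_along φ hφ
  have : FiniteDimensional F F' := hfin
  have : Algebra.IsSeparable F F' := hsep
  have : SumRamificationInertia K F F' := sumRamificationInertia_of_isSeparable hres hdeg'
  exact (inferInstance : FundamentalIdentity K F F')

/-- The norm formula along a finite separable embedding. -/
theorem normFormulaAlong_of_isSeparable [HasPrincipalDivisors K F'] (φ : F →ₐ[K] F')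
    (hfin : FiniteAlong K φ)
    (hsep : letI := algebraAlong φ; Algebra.IsSeparable F F')
    (hres : ∀ v : Place K F, Fermat.Agent.Lib.FF.RR.ResK v)
    (hdeg' : ∀ w : Place K F', w.deg = 1) : NormFormulaAlong K φ hfin := by
  letI := algebraAlong φ
  have := isScalarTower_along φ
  have : Module.Finite F F' := hfin
  have : Algebra.IsIntegral F F' := Algebra.IsIntegral.of_finite F F'
  have : Algebra.IsSeparable F F' := hsep
  exact pushforwardNormFormula_of_isSeparable hres hdeg'

omit [IsAlgClosed K] in
/-- The norm formula along `φ`, unfolded. -/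
theorem pushforwardAlong_apply_norm (φ : F →ₐ[K] F') (hφ : φ.toRingHom.IsIntegral)
    (hfin : FiniteAlong K φ) (hN : NormFormulaAlong K φ hfin)
    (f : F') (hf : f ≠ 0) (D : Divisor K F') (hD : ∀ w, D w = w.ord f) (v : Place K F) :
    Divisor.pushforwardAlong φ hφ D v
      = v.ord (letI := algebraAlong φ; Algebra.norm F f) := by
  letI := algebraAlong φ
  have := isScalarTower_along φ
  have : Module.Finite F F' := hfin
  exact hN f hf D hD v

end Generic

/-! ### The special fibre -/

section SF

variable (k : Type) [Field k] (M r : ℕ) [NeZero M] [NeZero r]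

/-- `J̄(q^(M r)) = β̄ (J̄(q^M))`. -/
theorem betaC_xk : betaC k M r (Fermat.Agent.Lib.Red.xk k M) = Fermat.Agent.Lib.Red.xk k (M * r) := by
  apply Subtype.ext
  rw [coe_betaC]
  show qExpand k r (TD.Jd k M) = TD.Jd k (M * r)
  rw [TD.Jd_eq k M, TD.Jd_eq k (M * r), qExpand_qExpand]
  exact qExpand_congr (Nat.mul_comm r M) _

/-- **`κ_{M r}` is separable over `β̄ (κ_M)`** when `M * r` is invertible in `k`. -/
theorem isSeparable_betaC (hMr : ((M * r : ℕ) : k) ≠ 0) :
    letI := algebraAlong (betaC k M r)
    Algebra.IsSeparable (modularFunctionFieldFullC k M) (modularFunctionFieldFullC k (M * r)) := by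
  letI := algebraAlong (betaC k M r)
  have hsep := isSeparable_xk k (M * r) hMr
  refine ⟨fun y => ?_⟩
  have h1 : IsSeparable k⟮Fermat.Agent.Lib.Red.xk k (M * r)⟯ y :=
    Algebra.IsSeparable.isSeparable _ y
  refine isSeparable_of_range_le ?_ h1
  have hle : k⟮Fermat.Agent.Lib.Red.xk k (M * r)⟯ ≤ (betaC k M r).fieldRange := by
    rw [adjoin_simple_le_iff]
    exact ⟨Fermat.Agent.Lib.Red.xk k M, betaC_xk k M r⟩
  rintro _ ⟨a, rfl⟩
  obtain ⟨b, hb⟩ := hle a.2
  exact ⟨b, hb⟩

variable [IsAlgClosed k]

/-- The fundamental identity along `β̄ : κ_M → κ_{M r}`. -/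
theorem fundamentalIdentityAlong_betaC (hMr : ((M * r : ℕ) : k) ≠ 0) :
    haveI := hasPrincipalDivisors_fullC k (M * r)
    FundamentalIdentityAlong k (betaC k M r) (isIntegral_betaC k M r) := by
  haveI := hasPrincipalDivisors_fullC k (M * r)
  exact fundamentalIdentityAlong_of_isSeparable (betaC k M r) (isIntegral_betaC k M r)
    (finiteAlong_betaC k M r) (isSeparable_betaC k M r hMr) (isFF1_fullC k M).resK
    (deg_eq_one_fullC k (M * r))

/-- The fundamental identity along the inclusion `ᾱ : κ_M → κ_{M r}`. -/
theorem fundamentalIdentityAlong_inclC (hMr : ((M * r : ℕ) : k) ≠ 0) :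
    haveI := hasPrincipalDivisors_fullC k (M * r)
    FundamentalIdentityAlong k (inclC M r k) (isIntegral_inclC M r k) := by
  haveI := hasPrincipalDivisors_fullC k (M * r)
  exact fundamentalIdentityAlong_of_isSeparable (inclC M r k) (isIntegral_inclC M r k)
    (finiteAlong_inclC M r k) (isSeparable_inclC k M r hMr) (isFF1_fullC k M).resK
    (deg_eq_one_fullC k (M * r))

/-- **The norm formula along the inclusion `ᾱ : κ_M → κ_{M r}`** in characteristic `p ∤ M r`. -/
theorem normFormulaAlong_inclC (hMr : ((M * r : ℕ) : k) ≠ 0) :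
    haveI := hasPrincipalDivisors_fullC k (M * r)
    NormFormulaAlong k (inclC M r k) (finiteAlong_inclC M r k) := by
  haveI := hasPrincipalDivisors_fullC k (M * r)
  exact normFormulaAlong_of_isSeparable (inclC M r k) (finiteAlong_inclC M r k)
    (isSeparable_inclC k M r hMr) (isFF1_fullC k M).resK (deg_eq_one_fullC k (M * r))

/-- The norm formula along `β̄ : κ_M → κ_{M r}`. -/
theorem normFormulaAlong_betaC (hMr : ((M * r : ℕ) : k) ≠ 0) :
    haveI := hasPrincipalDivisors_fullC k (M * r)
    NormFormulaAlong k (betaC k M r) (finiteAlong_betaC k M r) := by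
  haveI := hasPrincipalDivisors_fullC k (M * r)
  exact normFormulaAlong_of_isSeparable (betaC k M r) (finiteAlong_betaC k M r)
    (isSeparable_betaC k M r hMr) (isFF1_fullC k M).resK (deg_eq_one_fullC k (M * r))

/-- **The Hecke correspondence `T_r = ᾱ_* β̄^*` on the special fibre**, on divisor classes of
degree zero of `κ_M`. -/
def heckeC (hMr : ((M * r : ℕ) : k) ≠ 0) : JZeroC k M →+ JZeroC k M :=
  haveI := hasPrincipalDivisors_fullC k (M * r)
  Pic0.correspondence (betaC k M r) (inclC M r k) (isIntegral_betaC k M r)
    (isIntegral_inclC M r k) (fundamentalIdentityAlong_betaC k M r hMr)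
    (finiteAlong_inclC M r k) (normFormulaAlong_inclC k M r hMr)

/-- The divisor-level Hecke correspondence on the special fibre. -/
def heckeDivC : Divisor k (modularFunctionFieldFullC k M) →+
    Divisor k (modularFunctionFieldFullC k M) :=
  haveI := hasPrincipalDivisors_fullC k (M * r)
  Divisor.correspondence (betaC k M r) (inclC M r k) (isIntegral_betaC k M r)
    (isIntegral_inclC M r k)

theorem heckeDivC_apply (D : Divisor k (modularFunctionFieldFullC k M)) :
    haveI := hasPrincipalDivisors_fullC k (M * r)
    heckeDivC k M r D = Divisor.pushforwardAlong (inclC M r k) (isIntegral_inclC M r k)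
      (Divisor.pullbackAlong (betaC k M r) (isIntegral_betaC k M r) D) := rfl

theorem heckeDivC_mem_degZero (hMr : ((M * r : ℕ) : k) ≠ 0)
    {D : Divisor k (modularFunctionFieldFullC k M)}
    (hD : D ∈ Divisor.degZero (K := k) (F := modularFunctionFieldFullC k M)) :
    heckeDivC k M r D ∈ Divisor.degZero (K := k) (F := modularFunctionFieldFullC k M) := by
  haveI := hasPrincipalDivisors_fullC k (M * r)
  exact Divisor.correspondence_mem_degZero (betaC k M r) (inclC M r k) (isIntegral_betaC k M r)
    (isIntegral_inclC M r k) (fundamentalIdentityAlong_betaC k M r hMr) hD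

/-- `heckeC` on the class of a divisor. -/
theorem heckeC_mk (hMr : ((M * r : ℕ) : k) ≠ 0)
    (D : Divisor.degZero (K := k) (F := modularFunctionFieldFullC k M)) :
    heckeC k M r hMr (Pic0.mk D)
      = Pic0.mk ⟨heckeDivC k M r (D : Divisor k (modularFunctionFieldFullC k M)),
          heckeDivC_mem_degZero k M r hMr D.2⟩ := rfl

/-- The divisor of `Nm_ᾱ (β̄ f)` is `T_r (div f)`. -/
theorem heckeDivC_apply_of_ord (hMr : ((M * r : ℕ) : k) ≠ 0)
    {f : modularFunctionFieldFullC k M} (hf : f ≠ 0)
    {D : Divisor k (modularFunctionFieldFullC k M)} (hD : ∀ t, D t = t.ord f)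
    (t : Place k (modularFunctionFieldFullC k M)) :
    heckeDivC k M r D t
      = t.ord (letI := algebraAlong (inclC M r k);
          Algebra.norm (modularFunctionFieldFullC k M) (betaC k M r f)) := by
  haveI := hasPrincipalDivisors_fullC k (M * r)
  have hβf : betaC k M r f ≠ 0 := fun h0 => hf ((betaC k M r).toRingHom.injective (by
    rw [AlgHom.toRingHom_eq_coe, RingHom.coe_coe, h0, map_zero]))
  rw [heckeDivC_apply]
  exact pushforwardAlong_apply_norm (inclC M r k) (isIntegral_inclC M r k)
    (finiteAlong_inclC M r k) (normFormulaAlong_inclC k M r hMr) (betaC k M r f) hβf _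
    (fun w => pullbackAlong_apply_eq_ord (betaC k M r) (isIntegral_betaC k M r) hD w) t

/-- **Eigen-consumer.**  If `p • D = div f` and `Nm_ᾱ (β̄ f) = c · f ^ a · u ^ p`, then the class
of `D` is an eigenvector of `heckeC` with eigenvalue `a`. -/
theorem heckeC_eq_zsmul_of_norm (hMr : ((M * r : ℕ) : k) ≠ 0) {p : ℕ} (hp : p ≠ 0)
    {f : modularFunctionFieldFullC k M} (hf : f ≠ 0)
    (D : Divisor.degZero (K := k) (F := modularFunctionFieldFullC k M))
    (hD : ∀ t, (p : ℤ) * (D : Divisor k (modularFunctionFieldFullC k M)) t = t.ord f)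
    (a : ℤ) (c : k) (u : modularFunctionFieldFullC k M) (hc : c ≠ 0) (hu : u ≠ 0)
    (hnorm : (letI := algebraAlong (inclC M r k);
        Algebra.norm (modularFunctionFieldFullC k M) (betaC k M r f))
      = algebraMap k (modularFunctionFieldFullC k M) c * f ^ a * u ^ p) :
    heckeC k M r hMr (Pic0.mk D) = a • Pic0.mk D := by
  have hp' : (p : ℤ) ≠ 0 := Int.natCast_ne_zero.2 hp
  rw [heckeC_mk]
  -- the divisor `T_r D - a • D` is the divisor of `u`
  have key : ∀ t : Place k (modularFunctionFieldFullC k M),
      heckeDivC k M r (D : Divisor k (modularFunctionFieldFullC k M)) t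
        = a * (D : Divisor k (modularFunctionFieldFullC k M)) t + t.ord u := by
    intro t
    have h1 := heckeDivC_apply_of_ord k M r hMr hf
      (D := (p : ℤ) • (D : Divisor k (modularFunctionFieldFullC k M)))
      (fun t => by rw [Finsupp.smul_apply, smul_eq_mul, hD t]) t
    rw [map_zsmul, Finsupp.smul_apply, smul_eq_mul, hnorm] at h1
    have hc' : algebraMap k (modularFunctionFieldFullC k M) c ≠ 0 := by
      rw [Ne, map_eq_zero]
      exact hc
    rw [t.ord_mul (mul_ne_zero hc' (zpow_ne_zero a hf)) (pow_ne_zero p hu),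
      t.ord_mul hc' (zpow_ne_zero a hf), Fermat.Agent.S24.ord_algebraMap, zero_add, t.ord_zpow,
      ← zpow_natCast, t.ord_zpow, ← hD t] at h1
    have h2 : (p : ℤ) * heckeDivC k M r (D : Divisor k (modularFunctionFieldFullC k M)) t
        = (p : ℤ) * (a * (D : Divisor k (modularFunctionFieldFullC k M)) t + t.ord u) := by
      rw [h1]; ring
    exact mul_left_cancel₀ hp' h2
  have h3 : a • Pic0.mk D = Pic0.mk (a • D) := rfl
  rw [h3]
  refine QuotientAddGroup.eq.2 ?_
  rw [AddSubgroup.mem_addSubgroupOf]
  refine ⟨u⁻¹, inv_ne_zero hu, fun t => ?_⟩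
  rw [AddSubgroup.coe_add, AddSubgroup.coe_neg, AddSubgroup.coe_zsmul]
  show (-(heckeDivC k M r (D : Divisor k (modularFunctionFieldFullC k M)))
    + a • (D : Divisor k (modularFunctionFieldFullC k M))) t = t.ord u⁻¹
  rw [Finsupp.add_apply, Finsupp.neg_apply, Finsupp.smul_apply, smul_eq_mul, key t, t.ord_inv]
  ring

end SF

end Fermat.Agent.TR.Hecke.HeckeC

end
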