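import Mathlib
import Fermat.Prelude.Def_AlgebraicCurve_Correspondence

/-!
# TR / Hecke side, (R1) abstract half: place reductions and correspondences

Abstract setting: two finite extensions `F'/F` (over `L`) and `G'/G` (over `k`) of fields with
places, and maps of places `r : Pl(F) → Pl(G)`, `r' : Pl(F') → Pl(G')` ("reductions").

* `defect r r' = r'_* ∘ π^* − π̄^* ∘ r_*` vanishes on `Div⁰(F)` as soon as it vanishes on a set
  generating the principal divisors and `Pic⁰(F)` is divisible (`Hom(divisible, free) = 0`);
* if moreover the degrees `[F' : F] = [G' : G]` agree, the fundamental identity holds on both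
  sides, and `r` is not constant, then the defect vanishes on every single place, hence
  `(r' Q)|_G = r (Q|_F)` for every place `Q` of `F'` (`restrict_eq_of_defect`);
* consequently `r_* ∘ π_* = π̄_* ∘ r'_*` on all divisors (`mapDomain_pushforward`);
* `mapDomain_correspondence` : for two embeddings `β, α : F → F'`, `β̄, ᾱ : G → G'` with pull-back
  compatibility on `Div⁰` along `β` and push-forward compatibility along `α`:
  `r_*(α_* β^* D) = ᾱ_* β̄^* (r_* D)` for `D` of degree `0`.
-/

set_option autoImplicit false
set_option linter.style.haveILetI false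
set_option linter.unusedSectionVars false

noncomputable section

namespace Fermat.Agent.TR.Hecke.RedEqAbs

open AlgebraicCurve

section FinsuppLemmas

variable {α β : Type*}

theorem mapDomain_apply_eq_sum [DecidableEq β] (f : α → β) (x : α →₀ ℤ) (b : β) :
    Finsupp.mapDomain f x b = ∑ a ∈ x.support, if f a = b then x a else 0 := by
  rw [Finsupp.mapDomain, Finsupp.sum_apply, Finsupp.sum]
  refine Finset.sum_congr rfl fun a _ => ?_
  rw [Finsupp.single_apply]

theorem mapDomain_nonneg (f : α → β) (x : α →₀ ℤ) (hx : ∀ a, 0 ≤ x a) (b : β) :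
    0 ≤ Finsupp.mapDomain f x b := by
  classical
  rw [mapDomain_apply_eq_sum]
  refine Finset.sum_nonneg fun a _ => ?_
  split_ifs
  · exact hx a
  · exact le_rfl

theorem le_mapDomain_apply (f : α → β) (x : α →₀ ℤ) (hx : ∀ a, 0 ≤ x a) (a₀ : α) :
    x a₀ ≤ Finsupp.mapDomain f x (f a₀) := by
  classical
  rw [mapDomain_apply_eq_sum]
  have hnn : ∀ a ∈ x.support, 0 ≤ (if f a = f a₀ then x a else 0) := by
    intro a _
    split_ifs
    · exact hx a
    · exact le_rfl
  by_cases h : a₀ ∈ x.support
  · have h1 := Finset.single_le_sum hnn h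
    rwa [if_pos rfl] at h1
  · rw [Finsupp.notMem_support_iff.mp h]
    exact Finset.sum_nonneg hnn

theorem int_eq_zero_of_forall_dvd {a : ℤ} (h : ∀ n : ℕ, n ≠ 0 → (n : ℤ) ∣ a) : a = 0 :=
  Int.eq_zero_of_dvd_of_natAbs_lt_natAbs (h (a.natAbs + 1) (Nat.succ_ne_zero _))
    (by rw [Int.natAbs_natCast]; exact Nat.lt_succ_self _)

end FinsuppLemmas

section Degree

variable {K F : Type*} [Field K] [Field F] [Algebra K F]

theorem degree_eq_sum (D : Divisor K F) :
    Divisor.degree D = ∑ v ∈ D.support, D v * (v.deg : ℤ) := by
  rw [Divisor.degree, Finsupp.liftAddHom_apply, Finsupp.sum]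
  rfl

/-- An effective divisor of degree zero is zero (all places of positive degree). -/
theorem eq_zero_of_nonneg_of_degree_eq_zero (D : Divisor K F) (hpos : ∀ v : Place K F, 0 < v.deg)
    (hD : ∀ v, 0 ≤ D v) (hdeg : Divisor.degree D = 0) : D = 0 := by
  rw [degree_eq_sum] at hdeg
  ext v
  rw [Finsupp.zero_apply]
  by_contra hv
  have hmem : v ∈ D.support := Finsupp.mem_support_iff.mpr hv
  have h0 := (Finset.sum_eq_zero_iff_of_nonneg
    (fun w _ => mul_nonneg (hD w) (Int.natCast_nonneg _))).mp hdeg v hmem
  rcases mul_eq_zero.mp h0 with h | h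
  · exact hv h
  · exact absurd (by exact_mod_cast h) (hpos v).ne'

variable {k G : Type*} [Field k] [Field G] [Algebra k G]

/-- A degree-preserving map of places preserves the degree of divisors. -/
theorem degree_mapDomain (r : Place K F → Place k G) (hdeg : ∀ P, (r P).deg = P.deg)
    (D : Divisor K F) : Divisor.degree (Finsupp.mapDomain r D) = Divisor.degree D := by
  induction D using Finsupp.induction with
  | zero => simp
  | single_add P n D _ _ ih =>
    rw [Finsupp.mapDomain_add, map_add, map_add, ih, Finsupp.mapDomain_single,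
      Divisor.degree_single, Divisor.degree_single, hdeg]

end Degree

section Abstract

variable {L : Type*} [Field L]
variable {F F' : Type*} [Field F] [Field F'] [Algebra L F] [Algebra L F'] [Algebra F F']
  [IsScalarTower L F F'] [Algebra.IsIntegral F F'] [HasPrincipalDivisors L F']
variable {k : Type*} [Field k]
variable {G G' : Type*} [Field G] [Field G'] [Algebra k G] [Algebra k G'] [Algebra G G']
  [IsScalarTower k G G'] [Algebra.IsIntegral G G'] [HasPrincipalDivisors k G']
variable (r : Place L F → Place k G) (r' : Place L F' → Place k G')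

/-- The defect of compatibility of two maps of places with pull-back of divisors. -/
def defect : Divisor L F →+ Divisor k G' :=
  (Finsupp.mapDomain.addMonoidHom r').comp (Divisor.pullback F') -
    (Divisor.pullback G').comp (Finsupp.mapDomain.addMonoidHom r)

theorem defect_apply (D : Divisor L F) :
    defect r r' D = Finsupp.mapDomain r' (Divisor.pullback F' D) -
      Divisor.pullback G' (Finsupp.mapDomain r D) := rfl

theorem defect_eq_zero_of_principal (S : Set (Divisor L F))
    (hgen : Divisor.principal (K := L) (F := F) ≤ AddSubgroup.closure S)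
    (hS : ∀ D ∈ S, Finsupp.mapDomain r' (Divisor.pullback F' D) =
      Divisor.pullback G' (Finsupp.mapDomain r D))
    {D : Divisor L F} (hD : D ∈ Divisor.principal (K := L) (F := F)) : defect r r' D = 0 := by
  have hD' := hgen hD
  clear hD
  induction hD' using AddSubgroup.closure_induction with
  | mem E hE => rw [defect_apply, hS E hE, sub_self]
  | zero => exact map_zero _
  | add E E' _ _ hE hE' => rw [map_add, hE, hE', add_zero]
  | neg E _ hE => rw [map_neg, hE, neg_zero]

/-- `Hom(divisible, free) = 0`: the defect vanishes on the divisors of degree zero. -/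
theorem defect_eq_zero_of_degZero (S : Set (Divisor L F))
    (hgen : Divisor.principal (K := L) (F := F) ≤ AddSubgroup.closure S)
    (hS : ∀ D ∈ S, Finsupp.mapDomain r' (Divisor.pullback F' D) =
      Divisor.pullback G' (Finsupp.mapDomain r D))
    (hdiv : ∀ n : ℕ, n ≠ 0 → ∀ x : Pic0 L F, ∃ y : Pic0 L F, n • y = x)
    {D : Divisor L F} (hD : D ∈ Divisor.degZero (K := L) (F := F)) : defect r r' D = 0 := by
  ext Q
  rw [Finsupp.zero_apply]
  refine int_eq_zero_of_forall_dvd fun n hn => ?_
  obtain ⟨y, hy⟩ := hdiv n hn (Pic0.mk ⟨D, hD⟩)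
  obtain ⟨E, rfl⟩ := Pic0.mk_surjective y
  have hmem : ((⟨D, hD⟩ : Divisor.degZero (K := L) (F := F)) - n • E :
      Divisor.degZero (K := L) (F := F)) ∈
        (Divisor.principal (K := L) (F := F)).addSubgroupOf
          (Divisor.degZero (K := L) (F := F)) := by
    rw [← QuotientAddGroup.eq_iff_sub_mem, QuotientAddGroup.mk_nsmul]
    exact hy.symm
  rw [AddSubgroup.mem_addSubgroupOf, AddSubgroupClass.coe_sub, AddSubgroupClass.coe_nsmul] at hmem
  have h0 := defect_eq_zero_of_principal r r' S hgen hS hmem
  rw [map_sub, map_nsmul, sub_eq_zero] at h0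
  refine ⟨defect r r' (E : Divisor L F) Q, ?_⟩
  rw [h0, Finsupp.smul_apply, nsmul_eq_mul]

theorem pullback_single_one_nonneg (P : Place L F) (Q : Place L F') :
    0 ≤ Divisor.pullback F' (Finsupp.single P (1 : ℤ)) Q := by
  classical
  rw [Divisor.pullback_apply]
  refine mul_nonneg (Int.natCast_nonneg _) ?_
  rw [Finsupp.single_apply]
  split_ifs <;> norm_num

variable {r r'}

theorem defect_single_eq (hzero : ∀ D ∈ Divisor.degZero (K := L) (F := F), defect r r' D = 0)
    (P P' : Place L F) (hPP' : P.deg = P'.deg) :
    defect r r' (Finsupp.single P 1) = defect r r' (Finsupp.single P' 1) := by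
  have hmem : Finsupp.single P (1 : ℤ) - Finsupp.single P' 1 ∈
      Divisor.degZero (K := L) (F := F) := by
    rw [Divisor.mem_degZero, map_sub, Divisor.degree_single, Divisor.degree_single, hPP',
      sub_self]
  have h := hzero _ hmem
  rwa [map_sub, sub_eq_zero] at h

variable (r r')

theorem defect_single_apply_nonneg (P : Place L F) (t : Place k G') (ht : t.restrict G ≠ r P) :
    0 ≤ defect r r' (Finsupp.single P 1) t := by
  rw [defect_apply, Finsupp.sub_apply, Finsupp.mapDomain_single,
    Divisor.pullback_single_apply_of_restrict_ne ht, sub_zero]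
  exact mapDomain_nonneg r' _ (pullback_single_one_nonneg P) t

theorem degree_defect_single [FundamentalIdentity L F F'] [FundamentalIdentity k G G']
    (hdeg : ∀ P, (r P).deg = P.deg) (hdeg' : ∀ Q, (r' Q).deg = Q.deg)
    (hfin : Module.finrank F F' = Module.finrank G G') (P : Place L F) :
    Divisor.degree (defect r r' (Finsupp.single P 1)) = 0 := by
  rw [defect_apply, map_sub, degree_mapDomain r' hdeg', Divisor.degree_pullback,
    Finsupp.mapDomain_single, Divisor.degree_pullback, Divisor.degree_single,
    Divisor.degree_single, hdeg P, hfin, sub_self]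

variable {r r'}

/-- If the degrees agree and `r` is not constant, the defect vanishes on every place. -/
theorem defect_single_eq_zero [FundamentalIdentity L F F'] [FundamentalIdentity k G G']
    (hzero : ∀ D ∈ Divisor.degZero (K := L) (F := F), defect r r' D = 0)
    (hdeg : ∀ P, (r P).deg = P.deg) (hdeg' : ∀ Q, (r' Q).deg = Q.deg)
    (hfin : Module.finrank F F' = Module.finrank G G')
    (hnc : ∀ t₀ : Place k G, ∃ P, r P ≠ t₀) (hone : ∀ P : Place L F, P.deg = 1)
    (hpos' : ∀ t : Place k G', 0 < t.deg) (P : Place L F) :
    defect r r' (Finsupp.single P 1) = 0 := by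
  refine eq_zero_of_nonneg_of_degree_eq_zero _ hpos' (fun t => ?_)
    (degree_defect_single r r' hdeg hdeg' hfin P)
  obtain ⟨P₁, hP₁⟩ := hnc (t.restrict G)
  rw [defect_single_eq hzero P P₁ (by rw [hone, hone])]
  exact defect_single_apply_nonneg r r' P₁ t (Ne.symm hP₁)

/-- **Reduction commutes with restriction of places.** -/
theorem restrict_eq_of_defect (hsingle : ∀ P, defect r r' (Finsupp.single P 1) = 0)
    (Q : Place L F') : (r' Q).restrict G = r (Q.restrict F) := by
  by_contra hne
  have h : defect r r' (Finsupp.single (Q.restrict F) 1) (r' Q) = 0 := by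
    rw [hsingle, Finsupp.zero_apply]
  rw [defect_apply, Finsupp.sub_apply, Finsupp.mapDomain_single,
    Divisor.pullback_single_apply_of_restrict_ne hne, sub_zero] at h
  have h1 := le_mapDomain_apply r' (Divisor.pullback F' (Finsupp.single (Q.restrict F) 1))
    (pullback_single_one_nonneg (Q.restrict F)) Q
  rw [h, Divisor.pullback_single_apply_of_restrict_eq rfl, one_mul] at h1
  have h2 := Q.ramificationIndex_pos (F := F)
  omega

variable (r r')

/-- **Reduction commutes with push-forward of divisors.** -/
theorem mapDomain_pushforward (hres : ∀ Q : Place L F', (r' Q).restrict G = r (Q.restrict F))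
    (hin : ∀ Q : Place L F', (r' Q).inertiaDeg G = Q.inertiaDeg F) (E : Divisor L F') :
    Finsupp.mapDomain r (Divisor.pushforward F E) =
      Divisor.pushforward G (Finsupp.mapDomain r' E) := by
  induction E using Finsupp.induction with
  | zero => simp
  | single_add Q n E _ _ ih =>
    rw [map_add, Finsupp.mapDomain_add, Finsupp.mapDomain_add, map_add, ih,
      Divisor.pushforward_single, Finsupp.mapDomain_single, Finsupp.mapDomain_single,
      Divisor.pushforward_single, hres, hin]

end Abstract

section Along

variable {L : Type*} [Field L]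
variable {F F' : Type*} [Field F] [Field F'] [Algebra L F] [Algebra L F']
  [HasPrincipalDivisors L F']
variable {k : Type*} [Field k]
variable {G G' : Type*} [Field G] [Field G'] [Algebra k G] [Algebra k G']
  [HasPrincipalDivisors k G']
variable (φ : F →ₐ[L] F') (hφ : φ.toRingHom.IsIntegral) (ψ : G →ₐ[k] G')
  (hψ : ψ.toRingHom.IsIntegral)
variable (r : Place L F → Place k G) (r' : Place L F' → Place k G')

/-- Pull-back compatibility on the divisors of degree zero, from a generating set of the
principal divisors and the divisibility of `Pic⁰`. -/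
theorem mapDomain_pullbackAlong_of_degZero (S : Set (Divisor L F))
    (hgen : Divisor.principal (K := L) (F := F) ≤ AddSubgroup.closure S)
    (hS : ∀ D ∈ S, Finsupp.mapDomain r' (Divisor.pullbackAlong φ hφ D) =
      Divisor.pullbackAlong ψ hψ (Finsupp.mapDomain r D))
    (hdiv : ∀ n : ℕ, n ≠ 0 → ∀ x : Pic0 L F, ∃ y : Pic0 L F, n • y = x)
    {D : Divisor L F} (hD : D ∈ Divisor.degZero (K := L) (F := F)) :
    Finsupp.mapDomain r' (Divisor.pullbackAlong φ hφ D) =
      Divisor.pullbackAlong ψ hψ (Finsupp.mapDomain r D) := by
  letI := algebraAlong φ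
  haveI := isScalarTower_along φ
  haveI := isIntegral_along φ hφ
  letI := algebraAlong ψ
  haveI := isScalarTower_along ψ
  haveI := isIntegral_along ψ hψ
  have h := defect_eq_zero_of_degZero r r' S hgen hS hdiv hD
  rw [defect_apply, sub_eq_zero] at h
  exact h

/-- **Reduction commutes with restriction of places along an embedding** of equal degrees. -/
theorem restrictAlong_eq (S : Set (Divisor L F))
    (hgen : Divisor.principal (K := L) (F := F) ≤ AddSubgroup.closure S)
    (hS : ∀ D ∈ S, Finsupp.mapDomain r' (Divisor.pullbackAlong φ hφ D) =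
      Divisor.pullbackAlong ψ hψ (Finsupp.mapDomain r D))
    (hdiv : ∀ n : ℕ, n ≠ 0 → ∀ x : Pic0 L F, ∃ y : Pic0 L F, n • y = x)
    (hFI : FundamentalIdentityAlong L φ hφ) (hFI' : FundamentalIdentityAlong k ψ hψ)
    (hdeg : ∀ P, (r P).deg = P.deg) (hdeg' : ∀ Q, (r' Q).deg = Q.deg)
    (hfin : finrankAlong L φ = finrankAlong k ψ)
    (hnc : ∀ t₀ : Place k G, ∃ P, r P ≠ t₀) (hone : ∀ P : Place L F, P.deg = 1)
    (hpos' : ∀ t : Place k G', 0 < t.deg) (Q : Place L F') :
    (r' Q).restrictAlong ψ hψ = r (Q.restrictAlong φ hφ) := by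
  letI := algebraAlong φ
  haveI := isScalarTower_along φ
  haveI := isIntegral_along φ hφ
  letI := algebraAlong ψ
  haveI := isScalarTower_along ψ
  haveI := isIntegral_along ψ hψ
  haveI : FundamentalIdentity L F F' := hFI
  haveI : FundamentalIdentity k G G' := hFI'
  exact restrict_eq_of_defect
    (defect_single_eq_zero (fun D hD => defect_eq_zero_of_degZero r r' S hgen hS hdiv hD)
      hdeg hdeg' hfin hnc hone hpos') Q

/-- Reduction commutes with push-forward along an embedding. -/
theorem mapDomain_pushforwardAlong
    (hres : ∀ Q : Place L F', (r' Q).restrictAlong ψ hψ = r (Q.restrictAlong φ hφ))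
    (hin : ∀ Q : Place L F', (r' Q).inertiaDegAlong ψ hψ = Q.inertiaDegAlong φ hφ)
    (E : Divisor L F') :
    Finsupp.mapDomain r (Divisor.pushforwardAlong φ hφ E) =
      Divisor.pushforwardAlong ψ hψ (Finsupp.mapDomain r' E) := by
  letI := algebraAlong φ
  haveI := isScalarTower_along φ
  haveI := isIntegral_along φ hφ
  letI := algebraAlong ψ
  haveI := isScalarTower_along ψ
  haveI := isIntegral_along ψ hψ
  exact mapDomain_pushforward r r' hres hin E

/-- If all places have degree one, all inertia degrees are one. -/
theorem inertiaDegAlong_eq_one (hone : ∀ P : Place L F, P.deg = 1)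
    (hone' : ∀ Q : Place L F', Q.deg = 1) (Q : Place L F') : Q.inertiaDegAlong φ hφ = 1 := by
  letI := algebraAlong φ
  haveI := isScalarTower_along φ
  haveI := isIntegral_along φ hφ
  have h := Q.deg_restrict_mul_inertiaDeg (F := F)
  rw [hone' Q, hone, one_mul] at h
  exact h

variable (β α : F →ₐ[L] F') (hβ : β.toRingHom.IsIntegral) (hα : α.toRingHom.IsIntegral)
  (βb αb : G →ₐ[k] G') (hβb : βb.toRingHom.IsIntegral) (hαb : αb.toRingHom.IsIntegral)

/-- **Reduction commutes with a correspondence** `α_* β^*` on the divisors of degree zero. -/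
theorem mapDomain_correspondence
    (hpull : ∀ D ∈ Divisor.degZero (K := L) (F := F),
      Finsupp.mapDomain r' (Divisor.pullbackAlong β hβ D) =
        Divisor.pullbackAlong βb hβb (Finsupp.mapDomain r D))
    (hpush : ∀ E : Divisor L F', Finsupp.mapDomain r (Divisor.pushforwardAlong α hα E) =
      Divisor.pushforwardAlong αb hαb (Finsupp.mapDomain r' E))
    {D : Divisor L F} (hD : D ∈ Divisor.degZero (K := L) (F := F)) :
    Finsupp.mapDomain r (Divisor.correspondence β α hβ hα D) =
      Divisor.correspondence βb αb hβb hαb (Finsupp.mapDomain r D) := by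
  rw [Divisor.correspondence_apply, Divisor.correspondence_apply, hpush, hpull D hD]

end Along

end Fermat.Agent.TR.Hecke.RedEqAbs
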