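import Mathlib
import Fermat.Agent.TR.Hecke.NormOrd
import Fermat.Agent.Lib.FF.ModLSep
import Fermat.Agent.Lib.FF.Ext
import Fermat.Agent.Lib.FF.CharP.ModLInst

/-!
# TR / Hecke side, (R1): the fundamental identity along `ᾱ`, `β̄` in characteristic `p`

* `sumRamificationInertia_of_isSeparable` : `∑ e f = [F' : F]` for a finite SEPARABLE extension of
  function fields of one variable over an algebraically closed field of any characteristic
  (`Lib.FF.ExtNorm.sum_ramificationIndex_of_dedekind` is characteristic-free);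
* `separableAlong_inclC`, `separableAlong_betaC` : `κ_{Mℓ}` is separable over `ᾱ κ_M` and over
  `β̄ κ_M` when `M ℓ` is invertible in `k`;
* `fundamentalIdentityAlong_inclC`, `fundamentalIdentityAlong_betaC`.
-/

set_option autoImplicit false
set_option linter.style.haveILetI false
set_option linter.unusedSectionVars false

noncomputable section

namespace Fermat.Agent.TR.Hecke.RedEqSep

open AlgebraicCurve ModularCurve IntermediateField
open Fermat.Agent.S24 Fermat.Agent.S28
open Fermat.Agent.Lib.Red.LevelDescent (inclC coe_inclC finiteAlong_inclC isIntegral_inclC)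
open Fermat.Agent.TR.Hecke.NormOrd (betaC coe_betaC)

section Abstract

variable {K F F' : Type*} [Field K] [Field F] [Field F']
  [Algebra K F] [Algebra K F'] [Algebra F F'] [IsScalarTower K F F']
  [Algebra.IsIntegral F F'] [HasPrincipalDivisors K F'] [IsAlgClosed K]

/-- **Fundamental identity** `∑_{w | v} e(w|v) f(w|v) = [F' : F]` for a finite separable extension
of function fields over an algebraically closed field of arbitrary characteristic. -/
theorem sumRamificationInertia_of_isSeparable [FiniteDimensional F F'] [Algebra.IsSeparable F F']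
    (x : F) [Algebra.IsAlgebraic K⟮x⟯ F] (x' : F') [Algebra.IsAlgebraic K⟮x'⟯ F'] :
    SumRamificationInertia K F F' := by
  refine ⟨fun v => ?_⟩
  haveI : IsDedekindDomain (integralClosure v.toValuationSubring F') :=
    integralClosure.isDedekindDomain v.toValuationSubring F F'
  haveI : IsFractionRing (integralClosure v.toValuationSubring F') F' :=
    integralClosure.isFractionRing_of_finite_extension F F'
  haveI : Module.Finite v.toValuationSubring (integralClosure v.toValuationSubring F') :=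
    IsIntegralClosure.finite v.toValuationSubring F F' _
  haveI : Module.IsTorsionFree v.toValuationSubring (integralClosure v.toValuationSubring F') :=
    Subalgebra.instIsTorsionFree (integralClosure v.toValuationSubring F')
  exact Fermat.Agent.Lib.FF.ExtNorm.sum_ramificationIndex_of_dedekind v (residueTrivial x v)
    (fun w => deg_eq_one_of_isAlgebraic x' w) (integralClosure v.toValuationSubring F')

end Abstract

section AbstractAlong

variable {K F F' : Type*} [Field K] [Field F] [Field F'] [Algebra K F] [Algebra K F']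

/-- The fundamental identity along a finite separable embedding of function fields. -/
theorem fundamentalIdentityAlong_of_separableAlong [IsAlgClosed K] [HasPrincipalDivisors K F']
    (φ : F →ₐ[K] F') (hφ : φ.toRingHom.IsIntegral) (hfin : FiniteAlong K φ)
    (hsep : SeparableAlong K φ)
    (x : F) [Algebra.IsAlgebraic K⟮x⟯ F] (x' : F') [Algebra.IsAlgebraic K⟮x'⟯ F'] :
    FundamentalIdentityAlong K φ hφ := by
  letI := algebraAlong φ
  haveI := isScalarTower_along φ
  haveI := isIntegral_along φ hφ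
  haveI : FiniteDimensional F F' := hfin
  haveI : Algebra.IsSeparable F F' := hsep
  haveI : SumRamificationInertia K F F' := sumRamificationInertia_of_isSeparable x x'
  exact (inferInstance : FundamentalIdentity K F F')

/-- Separability along an embedding, checked inside an ambient field. -/
theorem separableAlong_of_range {Mm : Type*} [Field Mm] (ψ : F →ₐ[K] F') (ι : F' →+* Mm)
    {A₁ : Type*} [Field A₁] [Algebra A₁ Mm]
    (h : (algebraMap A₁ Mm).range ≤ (ι.comp ψ.toRingHom).range)
    (hsep : ∀ y : F', IsSeparable A₁ (ι y)) : SeparableAlong K ψ := by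
  letI := algebraAlong ψ
  letI : Algebra F' Mm := ι.toAlgebra
  letI : Algebra F Mm := (ι.comp ψ.toRingHom).toAlgebra
  haveI : IsScalarTower F F' Mm := IsScalarTower.of_algebraMap_eq (fun _ => rfl)
  show Algebra.IsSeparable F F'
  refine ⟨fun y => ?_⟩
  have h2 : IsSeparable F (ι y) := Fermat.Agent.Lib.FF.ModL.isSeparable_of_range_le h (hsep y)
  show (minpoly F y).Separable
  rw [← minpoly.algebraMap_eq (A := F) (B := F') (B' := Mm) ι.injective y]
  exact h2

end AbstractAlong

section Modular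

variable (k : Type) [Field k] (M ℓ : ℕ) [NeZero M] [NeZero ℓ]

/-- `β̄ = (q ↦ q^ℓ)` is finite. -/
theorem finiteAlong_betaC : FiniteAlong k (betaC k M ℓ) :=
  haveI := Fermat.Agent.Lib.FF.ModL.finiteDimensional_Jbar k (M * ℓ)
  Fermat.Agent.ESJ.HeckeInputs.finiteAlong (betaC k M ℓ)
    (Fermat.Agent.Lib.FF.ModL.transcendental_Jbar k M) (Fermat.Agent.Lib.FF.ModL.Jbar k (M * ℓ))

theorem isIntegral_betaC : (betaC k M ℓ).toRingHom.IsIntegral :=
  Fermat.Agent.ESJ.HeckeInputs.isIntegral_of_finiteAlong _ (finiteAlong_betaC k M ℓ)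

/-- `κ_{Mℓ}` is separable over `ᾱ κ_M`. -/
theorem separableAlong_inclC (hNk : ((M * ℓ : ℕ) : k) ≠ 0) : SeparableAlong k (inclC M ℓ k) := by
  refine separableAlong_of_range (inclC M ℓ k)
    (algebraMap (modularFunctionFieldFullC k (M * ℓ)) (LaurentSeries k))
    (A₁ := k⟮jqModC k⟯) ?_
    (fun y => Fermat.Agent.Lib.FF.ModL.isSeparable_of_mem_fullC_J k (M * ℓ) hNk y.2)
  rintro _ ⟨a, rfl⟩
  have hle : k⟮jqModC k⟯ ≤ modularFunctionFieldFullC k M := by
    rw [adjoin_simple_le_iff]
    exact jqModC_mem_full k M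
  refine ⟨⟨(a : LaurentSeries k), hle a.2⟩, ?_⟩
  exact coe_inclC M ℓ k ⟨(a : LaurentSeries k), hle a.2⟩

/-- `κ_{Mℓ}` is separable over `β̄ κ_M`. -/
theorem separableAlong_betaC (hNk : ((M * ℓ : ℕ) : k) ≠ 0) : SeparableAlong k (betaC k M ℓ) := by
  refine separableAlong_of_range (betaC k M ℓ)
    (algebraMap (modularFunctionFieldFullC k (M * ℓ)) (LaurentSeries k))
    (A₁ := k⟮TD.Jd k (M * ℓ)⟯) ?_
    (fun y => Fermat.Agent.Lib.FF.ModL.isSeparable_of_mem_fullC k (M * ℓ) hNk y.2)
  rintro _ ⟨a, rfl⟩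
  haveI : NeZero (ℓ * M) := ⟨Nat.mul_ne_zero (NeZero.ne ℓ) (NeZero.ne M)⟩
  have hJ : TD.Jd k (M * ℓ) = qExpandAlgHomC k ℓ (TD.Jd k M) := by
    rw [mul_comm M ℓ, TD.Jd_eq k (ℓ * M), TD.Jd_eq k M, qExpandAlgHomC_apply, qExpand_qExpand]
  have hmap : k⟮TD.Jd k (M * ℓ)⟯ = (k⟮TD.Jd k M⟯).map (qExpandAlgHomC k ℓ) := by
    rw [IntermediateField.adjoin_map, Set.image_singleton, hJ]
  have ha : (a : LaurentSeries k) ∈ (k⟮TD.Jd k M⟯).map (qExpandAlgHomC k ℓ) := by
    rw [← hmap]
    exact a.2
  obtain ⟨b, hb, hba⟩ := ha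
  have hle : k⟮TD.Jd k M⟯ ≤ modularFunctionFieldFullC k M := by
    rw [adjoin_simple_le_iff, TD.Jd_eq k M]
    exact jqModCd_mem_full k M dvd_rfl
  refine ⟨⟨b, hle hb⟩, ?_⟩
  show ((betaC k M ℓ ⟨b, hle hb⟩ : modularFunctionFieldFullC k (M * ℓ)) : LaurentSeries k) = _
  rw [coe_betaC]
  exact hba

variable [IsAlgClosed k]

/-- The fundamental identity along `ᾱ` in characteristic prime to `M ℓ`. -/
theorem fundamentalIdentityAlong_inclC (hNk : ((M * ℓ : ℕ) : k) ≠ 0) :
    haveI := Fermat.Agent.Lib.FF.CharP.hasPrincipalDivisors_fullC k (M * ℓ)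
    FundamentalIdentityAlong k (inclC M ℓ k) (isIntegral_inclC M ℓ k) := by
  haveI := Fermat.Agent.Lib.FF.CharP.hasPrincipalDivisors_fullC k (M * ℓ)
  haveI := Fermat.Agent.Lib.FF.ModL.finiteDimensional_Jbar k M
  haveI := Fermat.Agent.Lib.FF.ModL.finiteDimensional_Jbar k (M * ℓ)
  haveI : Algebra.IsAlgebraic k⟮Fermat.Agent.Lib.FF.ModL.Jbar k M⟯
      (modularFunctionFieldFullC k M) := Algebra.IsAlgebraic.of_finite _ _
  haveI : Algebra.IsAlgebraic k⟮Fermat.Agent.Lib.FF.ModL.Jbar k (M * ℓ)⟯
      (modularFunctionFieldFullC k (M * ℓ)) := Algebra.IsAlgebraic.of_finite _ _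
  exact fundamentalIdentityAlong_of_separableAlong (inclC M ℓ k) (isIntegral_inclC M ℓ k)
    (finiteAlong_inclC M ℓ k) (separableAlong_inclC k M ℓ hNk)
    (Fermat.Agent.Lib.FF.ModL.Jbar k M) (Fermat.Agent.Lib.FF.ModL.Jbar k (M * ℓ))

/-- The fundamental identity along `β̄` in characteristic prime to `M ℓ`. -/
theorem fundamentalIdentityAlong_betaC (hNk : ((M * ℓ : ℕ) : k) ≠ 0) :
    haveI := Fermat.Agent.Lib.FF.CharP.hasPrincipalDivisors_fullC k (M * ℓ)
    FundamentalIdentityAlong k (betaC k M ℓ) (isIntegral_betaC k M ℓ) := by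
  haveI := Fermat.Agent.Lib.FF.CharP.hasPrincipalDivisors_fullC k (M * ℓ)
  haveI := Fermat.Agent.Lib.FF.ModL.finiteDimensional_Jbar k M
  haveI := Fermat.Agent.Lib.FF.ModL.finiteDimensional_Jbar k (M * ℓ)
  haveI : Algebra.IsAlgebraic k⟮Fermat.Agent.Lib.FF.ModL.Jbar k M⟯
      (modularFunctionFieldFullC k M) := Algebra.IsAlgebraic.of_finite _ _
  haveI : Algebra.IsAlgebraic k⟮Fermat.Agent.Lib.FF.ModL.Jbar k (M * ℓ)⟯
      (modularFunctionFieldFullC k (M * ℓ)) := Algebra.IsAlgebraic.of_finite _ _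
  exact fundamentalIdentityAlong_of_separableAlong (betaC k M ℓ) (isIntegral_betaC k M ℓ)
    (finiteAlong_betaC k M ℓ) (separableAlong_betaC k M ℓ hNk)
    (Fermat.Agent.Lib.FF.ModL.Jbar k M) (Fermat.Agent.Lib.FF.ModL.Jbar k (M * ℓ))

end Modular

end Fermat.Agent.TR.Hecke.RedEqSep
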