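import Mathlib
import Fermat.Agent.TR.Hecke.RedEqAbs
import Fermat.Agent.TR.Hecke.RedEqSep
import Fermat.Agent.Lib.Red.SpecUnit
import Fermat.Agent.Lib.Red.LevelDescent
import Fermat.Agent.MW.DivC.Main
import Fermat.Agent.ESJ.Red.R2OfOw
import Fermat.Agent.ESJ.Cong.LevelDeg

/-!
# TR / Hecke side, (R1): reduction at a good level is surjective and commutes with `T_ℓ`
(divisor level)

`A` a valuation subring of `ℚ̄` with residue field `k`, `M` a level, `ℓ ∤ M` a prime,
`M ℓ` invertible in `k`; `r`, `r'` place reductions at the levels `M`, `M ℓ`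
(`IsPlaceReductionAlong`).

* `mapDomain_pullbackAlong_beta_of_mem_integral` : pull-back compatibility along `β` on the
  integral principal divisors (twin of `LevelDescent.mapDomain_pullbackAlong_of_mem_integral`);
* `restrictAlong_alpha` : `(r' Q)|_{κ_M} = r (Q|_{F_M})` for every place `Q` of `F_{Mℓ}`;
* `mapDomain_pushforwardAlong_alpha` : `r_* ∘ α_* = ᾱ_* ∘ r'_*` on all divisors;
* `mapDomain_pullbackAlong_beta` : `r'_* ∘ β^* = β̄^* ∘ r_*` on `Div⁰(F_M)`;
* `mapDomain_heckeDiv` : `r_*(α_* β^* D) = ᾱ_* β̄^* (r_* D)` for `D ∈ Div⁰(F_M)`;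
* `placeReduction_surjective`, `reductionModL_surjective`.
-/

set_option autoImplicit false
set_option linter.style.haveILetI false
set_option linter.unusedSectionVars false
set_option synthInstance.maxHeartbeats 400000
set_option maxHeartbeats 1000000

noncomputable section

namespace Fermat.Agent.TR.Hecke.RedEq

open AlgebraicCurve ModularCurve IntermediateField HahnSeries
open Fermat.Agent.Lib.Red Fermat.Agent.ESJ.HeckeInputs
open Fermat.Agent.Lib.Red.LevelDescent Fermat.Agent.TR.Hecke.NormOrd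
open Fermat.Agent.TR.Hecke.RedEqAbs Fermat.Agent.TR.Hecke.RedEqSep

local notation "Qb" => AlgebraicClosure ℚ

/-! ### Pull-back compatibility along `β` on the integral principal divisors -/

section General

variable {L : Type*} [Field L] [Algebra ℚ L] (A : ValuationSubring L)
variable {k : Type} [Field k] (π : A →+* k) (N q : ℕ) [NeZero N] [NeZero q]
variable [HasPrincipalDivisors L (laurentBaseChange L (modularFunctionFieldFull (N * q)))]
variable [HasPrincipalDivisors k (modularFunctionFieldFullC k (N * q))]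

theorem mapDomain_pullbackAlong_beta_of_mem_integral
    (hβ : (heckeBetaBar L N q).toRingHom.IsIntegral)
    (hβt : (betaC k N q).toRingHom.IsIntegral)
    (r : Place L (laurentBaseChange L (modularFunctionFieldFull N)) →
      Place k (modularFunctionFieldFullC k N))
    (hr : IsPlaceReductionAlong A π N r)
    (r' : Place L (laurentBaseChange L (modularFunctionFieldFull (N * q))) →
      Place k (modularFunctionFieldFullC k (N * q)))
    (hr' : IsPlaceReductionAlong A π (N * q) r')
    (E : Divisor L (laurentBaseChange L (modularFunctionFieldFull N)))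
    (hE : E ∈ integralPrincipalDivisors A π N) :
    Finsupp.mapDomain r' (Divisor.pullbackAlong (heckeBetaBar L N q) hβ E) =
      Divisor.pullbackAlong (betaC k N q) hβt (Finsupp.mapDomain r E) := by
  obtain ⟨y, hy, hyk, hne, hE⟩ := hE
  have hc1 : coeffMap A.subtype (qExpand A q y) = qExpand L q (coeffMap A.subtype y) :=
    coeffMap_qExpand _ q y
  have hc2 : coeffMap π (qExpand A q y) = qExpand k q (coeffMap π y) :=
    coeffMap_qExpand _ q y
  have hy' : coeffMap A.subtype (qExpand A q y) ∈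
      laurentBaseChange L (modularFunctionFieldFull (N * q)) := by
    rw [hc1]
    exact (heckeBetaBar L N q ⟨coeffMap A.subtype y, hy⟩).2
  have hyk' : coeffMap π (qExpand A q y) ∈ modularFunctionFieldFullC k (N * q) := by
    rw [hc2]
    exact (betaC k N q ⟨coeffMap π y, hyk⟩).2
  have hne' : coeffMap π (qExpand A q y) ≠ 0 := by
    rw [hc2]
    exact (map_ne_zero (qExpand k q)).mpr hne
  have e1 : heckeBetaBar L N q ⟨coeffMap A.subtype y, hy⟩ =
      ⟨coeffMap A.subtype (qExpand A q y), hy'⟩ := Subtype.ext hc1.symm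
  have e2 : betaC k N q ⟨coeffMap π y, hyk⟩ = ⟨coeffMap π (qExpand A q y), hyk'⟩ :=
    Subtype.ext hc2.symm
  ext Q
  rw [hr'.2 (qExpand A q y) hy' hyk' hne' (Divisor.pullbackAlong (heckeBetaBar L N q) hβ E)
    (fun P => ?_) Q]
  · rw [pullbackAlong_apply_eq_ord (betaC k N q) hβt
      (f := (⟨coeffMap π y, hyk⟩ : modularFunctionFieldFullC k N))
      (fun Q0 => hr.2 y hy hyk hne E hE Q0) Q, e2]
  · rw [pullbackAlong_apply_eq_ord (heckeBetaBar L N q) hβ hE P, e1]

end General

/-! ### The good level over `ℚ̄` -/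

section Main

variable (A : ValuationSubring Qb) (M ℓ : ℕ) [NeZero M] [NeZero ℓ]

local notation "kA" => IsLocalRing.ResidueField A
local notation "πA" => IsLocalRing.residue A

theorem hπA (a : A) (ha : ¬ IsUnit a) : πA a = 0 :=
  Fermat.Agent.ESJ.Red.residue_eq_zero_of_not_isUnit A a ha

theorem hfinBar (N : ℕ) [NeZero N] (f : modularFunctionFieldBar N) (hf : f ≠ 0) :
    ∃ D : Divisor Qb (modularFunctionFieldBar N), ∀ P, D P = P.ord f := by
  haveI := hasPrincipalDivisors_bar N
  obtain ⟨D, hD, -⟩ := HasPrincipalDivisors.exists_divisor (K := Qb) f hf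
  exact ⟨D, hD⟩

/-- A place reduction at a good level is surjective. -/
theorem placeReduction_surjective (hMk : (M : kA) ≠ 0)
    (r : Place Qb (modularFunctionFieldBar M) → Place kA (modularFunctionFieldFullC kA M))
    (hr : IsPlaceReductionAlong A πA M r) : Function.Surjective r :=
  SpecUnit.r_surjective (hπA A) IsLocalRing.residue_surjective hMk (hfinBar M) r hr

/-- The mod-`p` modular function field has two distinct places. -/
theorem exists_place_ne (t₀ : Place kA (modularFunctionFieldFullC kA M)) :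
    ∃ t : Place kA (modularFunctionFieldFullC kA M), t ≠ t₀ := by
  haveI : IsAlgClosed kA := Fermat.Agent.Lib.FF.CharP.isAlgClosed_residueField A
  haveI := Fermat.Agent.Lib.FF.ModL.finiteDimensional_Jbar kA M
  set J := Fermat.Agent.Lib.FF.ModL.Jbar kA M with hJ
  have htr : Transcendental kA J := Fermat.Agent.Lib.FF.ModL.transcendental_Jbar kA M
  have hJ0 : J ≠ 0 := fun h => htr (h ▸ isAlgebraic_zero)
  have hnc : ∀ f : modularFunctionFieldFullC kA M, Transcendental kA f →
      ∃ v : Place kA (modularFunctionFieldFullC kA M), v.ord f < 0 := by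
    intro f hf
    by_contra hcon
    push Not at hcon
    obtain ⟨c, hc⟩ := Fermat.Agent.Lib.FF.CharP.const_of_ord_nonneg J f hcon
    exact hf (hc ▸ isAlgebraic_algebraMap c)
  obtain ⟨v, hv⟩ := hnc J htr
  have htr' : Transcendental kA J⁻¹ := fun h => htr (by simpa using h.inv)
  obtain ⟨w, hw⟩ := hnc J⁻¹ htr'
  rw [Place.ord_inv] at hw
  by_cases h : v = t₀
  · refine ⟨w, fun hwt => ?_⟩
    rw [hwt, ← h] at hw
    omega
  · exact ⟨v, h⟩

variable {A M}

theorem exists_reduction_ne (hMk : (M : kA) ≠ 0)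
    {r : Place Qb (modularFunctionFieldBar M) → Place kA (modularFunctionFieldFullC kA M)}
    (hr : IsPlaceReductionAlong A πA M r) (t₀ : Place kA (modularFunctionFieldFullC kA M)) :
    ∃ P, r P ≠ t₀ := by
  obtain ⟨t, ht⟩ := exists_place_ne A M t₀
  obtain ⟨P, rfl⟩ := placeReduction_surjective A M hMk r hr t
  exact ⟨P, ht⟩

theorem jZero_div (n : ℕ) (hn : n ≠ 0) (x : Pic0 Qb (modularFunctionFieldBar M)) :
    ∃ y : Pic0 Qb (modularFunctionFieldBar M), n • y = x :=
  Fermat.Agent.MW.DivC.jZero_divisible M (Nat.pos_of_ne_zero hn) x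

variable {ℓ}

theorem natCast_ne_zero_left (hNk : ((M * ℓ : ℕ) : kA) ≠ 0) : (M : kA) ≠ 0 := by
  intro h
  apply hNk
  rw [Nat.cast_mul, h, zero_mul]

theorem finrank_alpha_eq_inclC (hℓ : ℓ.Prime) (hℓM : ¬ ℓ ∣ M) (hNk : ((M * ℓ : ℕ) : kA) ≠ 0) :
    finrankAlong Qb (heckeAlphaBar Qb M ℓ) = finrankAlong kA (inclC M ℓ kA) := by
  rw [Fermat.Agent.ESJ.Cong.LevelDeg.finrank_alpha_of_not_dvd Qb M ℓ hℓ hℓM,
    finrank_inclC kA M ℓ hℓ hNk, if_neg hℓM]

section Places

/-- **Reduction commutes with restriction of places along `α`.** -/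
theorem restrictAlong_alpha (hℓ : ℓ.Prime) (hℓM : ¬ ℓ ∣ M) (hNk : ((M * ℓ : ℕ) : kA) ≠ 0)
    {r : Place Qb (modularFunctionFieldBar M) → Place kA (modularFunctionFieldFullC kA M)}
    (hr : IsPlaceReductionAlong A πA M r) (hgen : PrincipalGeneratedByIntegral A πA M)
    {r' : Place Qb (modularFunctionFieldBar (M * ℓ)) →
      Place kA (modularFunctionFieldFullC kA (M * ℓ))}
    (hr' : IsPlaceReductionAlong A πA (M * ℓ) r')
    (Q : Place Qb (modularFunctionFieldBar (M * ℓ))) :
    (r' Q).restrictAlong (inclC M ℓ kA) (isIntegral_inclC M ℓ kA) =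
      r (Q.restrictAlong (heckeAlphaBar Qb M ℓ) (heckeAlphaBarIntegral M ℓ)) := by
  haveI : IsAlgClosed kA := Fermat.Agent.Lib.FF.CharP.isAlgClosed_residueField A
  haveI := hasPrincipalDivisors_bar (M * ℓ)
  haveI := Fermat.Agent.Lib.FF.CharP.hasPrincipalDivisors_fullC kA (M * ℓ)
  have hMk : (M : kA) ≠ 0 := natCast_ne_zero_left hNk
  exact restrictAlong_eq (heckeAlphaBar Qb M ℓ) (heckeAlphaBarIntegral M ℓ) (inclC M ℓ kA)
    (isIntegral_inclC M ℓ kA) r r' (integralPrincipalDivisors A πA M) hgen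
    (fun E hE => mapDomain_pullbackAlong_of_mem_integral M ℓ A πA (heckeAlphaBarIntegral M ℓ)
      (isIntegral_inclC M ℓ kA) r hr r' hr' E hE)
    jZero_div (fundamentalIdentityAlong_heckeAlphaBar M ℓ)
    (fundamentalIdentityAlong_inclC kA M ℓ hNk) hr.1 hr'.1
    (finrank_alpha_eq_inclC hℓ hℓM hNk) (exists_reduction_ne hMk hr) (deg_eq_one_bar M)
    (fun t => by rw [Fermat.Agent.Lib.FF.CharP.deg_eq_one_fullC]; exact Nat.one_pos) Q

/-- **Reduction commutes with push-forward along `α`**, on all divisors. -/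
theorem mapDomain_pushforwardAlong_alpha (hℓ : ℓ.Prime) (hℓM : ¬ ℓ ∣ M) (hNk : ((M * ℓ : ℕ) : kA) ≠ 0)
    {r : Place Qb (modularFunctionFieldBar M) → Place kA (modularFunctionFieldFullC kA M)}
    (hr : IsPlaceReductionAlong A πA M r) (hgen : PrincipalGeneratedByIntegral A πA M)
    {r' : Place Qb (modularFunctionFieldBar (M * ℓ)) →
      Place kA (modularFunctionFieldFullC kA (M * ℓ))}
    (hr' : IsPlaceReductionAlong A πA (M * ℓ) r')
    (E : Divisor Qb (modularFunctionFieldBar (M * ℓ))) :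
    Finsupp.mapDomain r
        (Divisor.pushforwardAlong (heckeAlphaBar Qb M ℓ) (heckeAlphaBarIntegral M ℓ) E) =
      Divisor.pushforwardAlong (inclC M ℓ kA) (isIntegral_inclC M ℓ kA)
        (Finsupp.mapDomain r' E) := by
  haveI : IsAlgClosed kA := Fermat.Agent.Lib.FF.CharP.isAlgClosed_residueField A
  haveI := hasPrincipalDivisors_bar (M * ℓ)
  haveI := Fermat.Agent.Lib.FF.CharP.hasPrincipalDivisors_fullC kA (M * ℓ)
  refine mapDomain_pushforwardAlong (heckeAlphaBar Qb M ℓ) (heckeAlphaBarIntegral M ℓ)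
    (inclC M ℓ kA) (isIntegral_inclC M ℓ kA) r r'
    (restrictAlong_alpha hℓ hℓM hNk hr hgen hr') (fun Q => ?_) E
  rw [inertiaDegAlong_eq_one (heckeAlphaBar Qb M ℓ) (heckeAlphaBarIntegral M ℓ)
      (deg_eq_one_bar M) (deg_eq_one_bar (M * ℓ)) Q,
    inertiaDegAlong_eq_one (inclC M ℓ kA) (isIntegral_inclC M ℓ kA)
      (Fermat.Agent.Lib.FF.CharP.deg_eq_one_fullC kA M)
      (Fermat.Agent.Lib.FF.CharP.deg_eq_one_fullC kA (M * ℓ)) (r' Q)]

/-- **Reduction commutes with pull-back along `β`**, on the divisors of degree zero. -/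
theorem mapDomain_pullbackAlong_beta
    {r : Place Qb (modularFunctionFieldBar M) → Place kA (modularFunctionFieldFullC kA M)}
    (hr : IsPlaceReductionAlong A πA M r) (hgen : PrincipalGeneratedByIntegral A πA M)
    {r' : Place Qb (modularFunctionFieldBar (M * ℓ)) →
      Place kA (modularFunctionFieldFullC kA (M * ℓ))}
    (hr' : IsPlaceReductionAlong A πA (M * ℓ) r')
    {D : Divisor Qb (modularFunctionFieldBar M)}
    (hD : D ∈ Divisor.degZero (K := Qb) (F := modularFunctionFieldBar M)) :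
    haveI := hasPrincipalDivisors_bar (M * ℓ)
    haveI : IsAlgClosed kA := Fermat.Agent.Lib.FF.CharP.isAlgClosed_residueField A
    haveI := Fermat.Agent.Lib.FF.CharP.hasPrincipalDivisors_fullC kA (M * ℓ)
    Finsupp.mapDomain r'
        (Divisor.pullbackAlong (heckeBetaBar Qb M ℓ) (heckeBetaBarIntegral M ℓ) D) =
      Divisor.pullbackAlong (betaC kA M ℓ) (isIntegral_betaC kA M ℓ) (Finsupp.mapDomain r D) := by
  haveI := hasPrincipalDivisors_bar (M * ℓ)
  haveI : IsAlgClosed kA := Fermat.Agent.Lib.FF.CharP.isAlgClosed_residueField A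
  haveI := Fermat.Agent.Lib.FF.CharP.hasPrincipalDivisors_fullC kA (M * ℓ)
  exact mapDomain_pullbackAlong_of_degZero (heckeBetaBar Qb M ℓ) (heckeBetaBarIntegral M ℓ)
    (betaC kA M ℓ) (isIntegral_betaC kA M ℓ) r r' (integralPrincipalDivisors A πA M) hgen
    (fun E hE => mapDomain_pullbackAlong_beta_of_mem_integral A πA M ℓ (heckeBetaBarIntegral M ℓ)
      (isIntegral_betaC kA M ℓ) r hr r' hr' E hE)
    jZero_div hD

/-- **Reduction commutes with the Hecke correspondence** `α_* β^*` on `Div⁰(F_M)`. -/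
theorem mapDomain_heckeDiv (hℓ : ℓ.Prime) (hℓM : ¬ ℓ ∣ M) (hNk : ((M * ℓ : ℕ) : kA) ≠ 0)
    {r : Place Qb (modularFunctionFieldBar M) → Place kA (modularFunctionFieldFullC kA M)}
    (hr : IsPlaceReductionAlong A πA M r) (hgen : PrincipalGeneratedByIntegral A πA M)
    {r' : Place Qb (modularFunctionFieldBar (M * ℓ)) →
      Place kA (modularFunctionFieldFullC kA (M * ℓ))}
    (hr' : IsPlaceReductionAlong A πA (M * ℓ) r')
    {D : Divisor Qb (modularFunctionFieldBar M)}
    (hD : D ∈ Divisor.degZero (K := Qb) (F := modularFunctionFieldBar M)) :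
    haveI := hasPrincipalDivisors_bar (M * ℓ)
    haveI : IsAlgClosed kA := Fermat.Agent.Lib.FF.CharP.isAlgClosed_residueField A
    haveI := Fermat.Agent.Lib.FF.CharP.hasPrincipalDivisors_fullC kA (M * ℓ)
    Finsupp.mapDomain r
        (Divisor.correspondence (heckeBetaBar Qb M ℓ) (heckeAlphaBar Qb M ℓ)
          (heckeBetaBarIntegral M ℓ) (heckeAlphaBarIntegral M ℓ) D) =
      Divisor.correspondence (betaC kA M ℓ) (inclC M ℓ kA) (isIntegral_betaC kA M ℓ)
        (isIntegral_inclC M ℓ kA) (Finsupp.mapDomain r D) := by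
  haveI := hasPrincipalDivisors_bar (M * ℓ)
  haveI : IsAlgClosed kA := Fermat.Agent.Lib.FF.CharP.isAlgClosed_residueField A
  haveI := Fermat.Agent.Lib.FF.CharP.hasPrincipalDivisors_fullC kA (M * ℓ)
  exact mapDomain_correspondence r r' (heckeBetaBar Qb M ℓ) (heckeAlphaBar Qb M ℓ)
    (heckeBetaBarIntegral M ℓ) (heckeAlphaBarIntegral M ℓ) (betaC kA M ℓ) (inclC M ℓ kA)
    (isIntegral_betaC kA M ℓ) (isIntegral_inclC M ℓ kA)
    (fun D' hD' => mapDomain_pullbackAlong_beta hr hgen hr' hD')
    (mapDomain_pushforwardAlong_alpha hℓ hℓM hNk hr hgen hr') hD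

end Places

end Main

end Fermat.Agent.TR.Hecke.RedEq
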