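import Mathlib
import Fermat.Agent.TR.Hecke.RedEq
import Fermat.Agent.TR.Hecke.HeckeC
import Fermat.Agent.ESJ.Red.R2Good
import Fermat.Agent.ESJ.Red.R1Spec

/-!
# TR / Hecke side, (R1): the reduction `J₀(M)(ℚ̄) → J₀(M)(k)` at a good level is surjective and
commutes with `T_ℓ`

`A` a valuation subring of `ℚ̄` with residue field `k`, `ℓ ∤ M` a prime, `M ℓ` invertible in `k`;
`HeckeC.heckeC k M ℓ hMℓ : JZeroC k M →+ JZeroC k M` is the class map of `ᾱ_* β̄^*`.

* `reductionModL_heckeC` : `r (T_ℓ x) = T̄_ℓ (r x)`;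
* `reductionModL_surjective`;
* `heckeCFam A M : Nat.Primes → Module.End ℤ (JZeroC k M)` (total family), `heckeCFam_apply`;
* `reductionModL_heckeCFam_good`, `reductionModL_surjective_good` : at a good pair `(M, p)`,
  `p ≥ 5`, with no hypothesis left.
-/

set_option autoImplicit false
set_option linter.style.haveILetI false
set_option linter.unusedSectionVars false
set_option synthInstance.maxHeartbeats 400000
set_option maxHeartbeats 1000000

noncomputable section

namespace Fermat.Agent.TR.Hecke.RedEq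

open AlgebraicCurve ModularCurve IntermediateField HahnSeries
open Fermat.Agent.Lib.Red Fermat.Agent.ESJ.HeckeInputs
open Fermat.Agent.Lib.Red.LevelDescent Fermat.Agent.TR.Hecke.NormOrd
open Fermat.Agent.TR.Hecke.RedEqAbs

local notation "Qb" => AlgebraicClosure ℚ

section Main

variable {A : ValuationSubring Qb} {M : ℕ} [NeZero M]

local notation "kA" => IsLocalRing.ResidueField A
local notation "πA" => IsLocalRing.residue A

/-- `T_q` on a class of `J₀(M)(ℚ̄)`. -/
theorem heckeOperatorBar_mk (q : Nat.Primes)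
    (D : Divisor.degZero (K := Qb) (F := modularFunctionFieldBar M)) :
    haveI : NeZero (q : ℕ) := ⟨q.2.ne_zero⟩
    haveI := hasPrincipalDivisors_bar (M * (q : ℕ))
    heckeOperatorBar M q (Pic0.mk D) =
      Pic0.mk (Pic0.degZeroCorrespondence (heckeBetaBar Qb M q) (heckeAlphaBar Qb M q)
        (heckeBetaBarIntegral M q) (heckeAlphaBarIntegral M q)
        (heckeInputsAlong_bar M q).snd.snd.snd.snd.1 D) := by
  haveI : NeZero (q : ℕ) := ⟨q.2.ne_zero⟩
  obtain ⟨hα, hβ, hP, hfin, hFI, hN⟩ := heckeInputsAlong_bar M (q : ℕ)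
  haveI := hP
  rw [heckeOperatorBar_apply]
  exact congrFun (congrArg DFunLike.coe (heckeOperatorAlong_eq hα hβ hFI hfin hN)) (Pic0.mk D)

/-- **(R1) The reduction `J₀(M)(ℚ̄) → J₀(M)(k)` commutes with `T_q`**, `q ∤ M` a prime with
`M q` invertible in `k`. -/
theorem reductionModL_heckeC (q : Nat.Primes) (hqM : ¬ (q : ℕ) ∣ M)
    (hNk : ((M * (q : ℕ) : ℕ) : kA) ≠ 0)
    (hR : ReductionInputsModL A M) (hR' : ReductionInputsModL A (M * (q : ℕ))) (x : JZero M) :
    haveI : NeZero (q : ℕ) := ⟨q.2.ne_zero⟩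
    haveI : IsAlgClosed kA := Fermat.Agent.Lib.FF.CharP.isAlgClosed_residueField A
    reductionModL A M (heckeOperatorBar M q x) =
      HeckeC.heckeC kA M (q : ℕ) hNk (reductionModL A M x) := by
  haveI : NeZero (q : ℕ) := ⟨q.2.ne_zero⟩
  haveI : IsAlgClosed kA := Fermat.Agent.Lib.FF.CharP.isAlgClosed_residueField A
  obtain ⟨D, rfl⟩ := Pic0.mk_surjective x
  have hr := isPlaceReductionModL_placeReductionModL hR
  have hgen : PrincipalGeneratedByIntegral A πA M := hR.choose_spec.2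
  obtain ⟨r', hr', -⟩ := id hR'
  rw [heckeOperatorBar_mk q D, reductionModL_mk hR, reductionModL_mk hR, HeckeC.heckeC_mk]
  congr 1
  apply Subtype.ext
  exact mapDomain_heckeDiv q.2 hqM hNk hr hgen hr' D.2

/-- **(R1) The reduction `J₀(M)(ℚ̄) → J₀(M)(k)` is surjective** at a good level. -/
theorem reductionModL_surjective (hMk : (M : kA) ≠ 0) (hR : ReductionInputsModL A M) :
    Function.Surjective (reductionModL A M) := by
  intro y
  obtain ⟨Db, rfl⟩ := Pic0.mk_surjective y
  have hr := isPlaceReductionModL_placeReductionModL hR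
  have hsurj := placeReduction_surjective A M hMk _ hr
  have hrs : ∀ t, placeReductionModL hR (Function.surjInv hsurj t) = t :=
    Function.surjInv_eq hsurj
  have hmap : Finsupp.mapDomain (placeReductionModL hR)
      (Finsupp.mapDomain (Function.surjInv hsurj)
        (Db : Divisor kA (modularFunctionFieldFullC kA M))) =
        (Db : Divisor kA (modularFunctionFieldFullC kA M)) := by
    rw [← Finsupp.mapDomain_comp]
    have hid : (placeReductionModL hR) ∘ (Function.surjInv hsurj) = id := funext hrs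
    rw [hid, Finsupp.mapDomain_id]
  have hdeg : Finsupp.mapDomain (Function.surjInv hsurj)
      (Db : Divisor kA (modularFunctionFieldFullC kA M)) ∈
      Divisor.degZero (K := Qb) (F := modularFunctionFieldBar M) := by
    rw [Divisor.mem_degZero, ← degree_mapDomain (placeReductionModL hR) hr.1, hmap]
    exact Db.2
  refine ⟨Pic0.mk ⟨_, hdeg⟩, ?_⟩
  rw [reductionModL_mk hR]
  congr 1
  exact Subtype.ext hmap

end Main

/-! ### The total family `T̄_q` and the good pairs -/

section Family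

variable (A : ValuationSubring Qb) (M : ℕ) [NeZero M]

local notation "kA" => IsLocalRing.ResidueField A

open Classical in
/-- The mod-`p` Hecke operators as a total family of `ℤ`-linear endomorphisms of `J₀(M)(k)`
(zero at the primes `q` with `M q = 0` in `k`). -/
def heckeCFam : Nat.Primes → Module.End ℤ (JZeroC kA M) := fun q =>
  haveI : NeZero (q : ℕ) := ⟨q.2.ne_zero⟩
  haveI : IsAlgClosed kA := Fermat.Agent.Lib.FF.CharP.isAlgClosed_residueField A
  if h : ((M * (q : ℕ) : ℕ) : kA) ≠ 0 then (HeckeC.heckeC kA M (q : ℕ) h).toIntLinearMap else 0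

variable {A M}

theorem heckeCFam_apply (q : Nat.Primes) (h : ((M * (q : ℕ) : ℕ) : kA) ≠ 0) (y : JZeroC kA M) :
    haveI : NeZero (q : ℕ) := ⟨q.2.ne_zero⟩
    haveI : IsAlgClosed kA := Fermat.Agent.Lib.FF.CharP.isAlgClosed_residueField A
    heckeCFam A M q y = HeckeC.heckeC kA M (q : ℕ) h y := by
  rw [heckeCFam, dif_pos h]
  rfl

theorem natCast_mul_ne_zero {p : ℕ} (hp : p.Prime) (hA : A.LiesOverPrime p) (hpM : ¬ p ∣ M)
    {ℓ : ℕ} (hℓ : ℓ.Prime) (hℓp : ℓ ≠ p) : ((M * ℓ : ℕ) : kA) ≠ 0 := by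
  refine Fermat.Agent.ESJ.Red.R1Spec.natCast_ne_zero_of_not_dvd hp hA (M * ℓ) fun h => ?_
  rcases (Nat.Prime.dvd_mul hp).mp h with h1 | h1
  · exact hpM h1
  · exact hℓp ((Nat.prime_dvd_prime_iff_eq hp hℓ).mp h1).symm

/-- (R1), family form. -/
theorem reductionModL_heckeCFam (q : Nat.Primes) (hqM : ¬ (q : ℕ) ∣ M)
    (hNk : ((M * (q : ℕ) : ℕ) : kA) ≠ 0)
    (hR : ReductionInputsModL A M) (hR' : ReductionInputsModL A (M * (q : ℕ))) (x : JZero M) :
    reductionModL A M (heckeOperatorBar M q x) = heckeCFam A M q (reductionModL A M x) := by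
  rw [heckeCFam_apply q hNk]
  exact reductionModL_heckeC q hqM hNk hR hR' x

/-- **(R1) at a good pair**: for `p ≥ 5`, `p ∤ M`, `A` over `p`, the reduction
`J₀(M)(ℚ̄) → J₀(M)(k)` commutes with `T_q` for every prime `q ∤ M`, `q ≠ p`. -/
theorem reductionModL_heckeCFam_good {p : ℕ} (hp : p.Prime) (h5 : 5 ≤ p) (hpM : ¬ p ∣ M)
    (hA : A.LiesOverPrime p) (q : Nat.Primes) (hqM : ¬ (q : ℕ) ∣ M) (hqp : (q : ℕ) ≠ p)
    (x : JZero M) :
    reductionModL A M (heckeOperatorBar M q x) = heckeCFam A M q (reductionModL A M x) := by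
  haveI : NeZero (q : ℕ) := ⟨q.2.ne_zero⟩
  have hpMq : ¬ p ∣ M * (q : ℕ) := fun h => by
    rcases (Nat.Prime.dvd_mul hp).mp h with h1 | h1
    · exact hpM h1
    · exact hqp ((Nat.prime_dvd_prime_iff_eq hp q.2).mp h1).symm
  exact reductionModL_heckeCFam q hqM (natCast_mul_ne_zero hp hA hpM q.2 hqp)
    (Fermat.Agent.ESJ.reductionInputsModL_good M p hp hpM (Or.inl h5) A hA)
    (Fermat.Agent.ESJ.reductionInputsModL_good (M * (q : ℕ)) p hp hpMq (Or.inl h5) A hA) x

/-- **(R1) at a good pair**: the reduction is surjective. -/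
theorem reductionModL_surjective_good {p : ℕ} (hp : p.Prime) (h5 : 5 ≤ p) (hpM : ¬ p ∣ M)
    (hA : A.LiesOverPrime p) : Function.Surjective (reductionModL A M) :=
  reductionModL_surjective
    (Fermat.Agent.ESJ.Red.R1Spec.natCast_ne_zero_of_not_dvd hp hA M hpM)
    (Fermat.Agent.ESJ.reductionInputsModL_good M p hp hpM (Or.inl h5) A hA)

/-- **Eigenclasses from norm relations**, family form: if `p · D = div f` and
`Nm_{κ_{Mq}/κ_M}(β̄_q f) = c · f^a · u^p`, then `T̄_q [D] = a • [D]`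
(`HeckeC.heckeC_eq_zsmul_of_norm`). -/
theorem heckeCFam_eq_zsmul_of_norm (q : Nat.Primes) (hNk : ((M * (q : ℕ) : ℕ) : kA) ≠ 0)
    {p : ℕ} (hp0 : p ≠ 0) {f : modularFunctionFieldFullC kA M} (hf : f ≠ 0)
    (D : Divisor.degZero (K := kA) (F := modularFunctionFieldFullC kA M))
    (hD : ∀ t, (p : ℤ) * (D : Divisor kA (modularFunctionFieldFullC kA M)) t = t.ord f)
    (a : ℤ) (c : kA) (u : modularFunctionFieldFullC kA M) (hc : c ≠ 0) (hu : u ≠ 0)
    (hnorm : (haveI : NeZero (q : ℕ) := ⟨q.2.ne_zero⟩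
        letI := algebraAlong (inclC M (q : ℕ) kA)
        Algebra.norm (modularFunctionFieldFullC kA M) (betaC kA M (q : ℕ) f)) =
      algebraMap kA (modularFunctionFieldFullC kA M) c * f ^ a * u ^ p) :
    heckeCFam A M q (Pic0.mk D) = a • Pic0.mk D := by
  haveI : NeZero (q : ℕ) := ⟨q.2.ne_zero⟩
  haveI : IsAlgClosed kA := Fermat.Agent.Lib.FF.CharP.isAlgClosed_residueField A
  rw [heckeCFam_apply q hNk]
  exact HeckeC.heckeC_eq_zsmul_of_norm kA M (q : ℕ) hNk hp0 hf D hD a c u hc hu hnorm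

end Family

end Fermat.Agent.TR.Hecke.RedEq
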