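/-
helper95 — TR / H-R2 (FIN), Mathlib-only part.

`exists_fixed_of_semilinear`: a "Lang–Steinberg for GL_n" statement.  Let `k` be an algebraically
closed field, `V ≠ 0` a finite-dimensional `k`-vector space, `q > 1`, and `Φ : V →+ V` an injective
additive map with `Φ (c • v) = c ^ q • Φ v`.  Then `Φ` has a nonzero fixed vector.
-/
import Mathlib

namespace Fermat.Agent.TR.Hecke.FrobFix

open Polynomial

variable {k V : Type*} [Field k] [AddCommGroup V] [Module k V]

/-- The coordinates of the candidate fixed vector, as functions of the last coordinate `t`. -/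
noncomputable def xs (q : ℕ) (c : ℕ → k) (t : k) : ℕ → k
  | 0 => c 0 * t ^ q
  | (j + 1) => (xs q c t j) ^ q + c (j + 1) * t ^ q

/-- The polynomials computing the coordinates `xs`. -/
noncomputable def Ps (q : ℕ) (c : ℕ → k) : ℕ → k[X]
  | 0 => C (c 0) * X ^ q
  | (j + 1) => (Ps q c j) ^ q + C (c (j + 1)) * X ^ q

theorem eval_Ps (q : ℕ) (c : ℕ → k) (t : k) (j : ℕ) : (Ps q c j).eval t = xs q c t j := by
  induction j with
  | zero => simp [Ps, xs]
  | succ j ih => simp [Ps, xs, ih]

theorem X_pow_dvd_Ps (q : ℕ) (hq : 0 < q) (c : ℕ → k) (j : ℕ) : (X : k[X]) ^ q ∣ Ps q c j := by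
  induction j with
  | zero => exact Dvd.intro_left _ rfl
  | succ j ih =>
    refine dvd_add ?_ (Dvd.intro_left _ rfl)
    exact ih.trans (dvd_pow_self _ hq.ne')

theorem natDegree_Ps (q : ℕ) (hq : 1 < q) (c : ℕ → k) (hc : c 0 ≠ 0) (j : ℕ) :
    (Ps q c j).natDegree = q ^ (j + 1) := by
  induction j with
  | zero => simp [Ps, natDegree_C_mul_X_pow _ _ hc]
  | succ j ih =>
    have h1 : ((Ps q c j) ^ q).natDegree = q ^ (j + 2) := by
      rw [natDegree_pow, ih]; ring
    have h2 : (C (c (j + 1)) * X ^ q : k[X]).natDegree < ((Ps q c j) ^ q).natDegree := by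
      rw [h1]
      calc (C (c (j + 1)) * X ^ q : k[X]).natDegree ≤ q := natDegree_C_mul_X_pow_le _ _
        _ = q ^ 1 := (pow_one q).symm
        _ < q ^ (j + 2) := Nat.pow_lt_pow_right hq (by omega)
    show ((Ps q c j) ^ q + C (c (j + 1)) * X ^ q).natDegree = _
    rw [natDegree_add_eq_left_of_natDegree_lt h2, h1]

/-- The equation `x_j(t) = t` has a nonzero solution. -/
theorem exists_root_xs [IsAlgClosed k] (q : ℕ) (hq : 1 < q) (c : ℕ → k) (hc : c 0 ≠ 0) (j : ℕ) :
    ∃ t : k, t ≠ 0 ∧ xs q c t j = t := by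
  obtain ⟨S, hS⟩ := X_pow_dvd_Ps q (by omega) c j
  have hP0 : Ps q c j ≠ 0 := by
    intro h
    have h1 := natDegree_Ps q hq c hc j
    rw [h, natDegree_zero] at h1
    exact (pow_pos (by omega : 0 < q) _).ne h1
  have hS0 : S ≠ 0 := by
    rintro rfl
    exact hP0 (by rw [hS, mul_zero])
  have hdeg : (X ^ (q - 1) * S - 1 : k[X]).degree ≠ 0 := by
    have h1 : (0 : WithBot ℕ) < (X ^ (q - 1) * S : k[X]).degree := by
      rw [degree_mul, degree_X_pow, degree_eq_natDegree hS0]
      have : (0 : WithBot ℕ) < ((q - 1 : ℕ) : WithBot ℕ) := by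
        exact_mod_cast (by omega : 0 < q - 1)
      exact lt_of_lt_of_le this (le_add_of_nonneg_right (by exact_mod_cast Nat.zero_le _))
    rw [degree_sub_eq_left_of_degree_lt (by rwa [degree_one])]
    exact h1.ne'
  obtain ⟨t, ht⟩ := IsAlgClosed.exists_root _ hdeg
  have ht' : t ^ (q - 1) * S.eval t = 1 := by
    have h2 : (X ^ (q - 1) * S - 1 : k[X]).eval t = 0 := ht
    simpa [sub_eq_zero] using h2
  have ht0 : t ≠ 0 := by
    rintro rfl
    rw [zero_pow (by omega), zero_mul] at ht'
    exact zero_ne_one ht'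
  refine ⟨t, ht0, ?_⟩
  rw [← eval_Ps, hS, eval_mul, eval_pow, eval_X]
  calc t ^ q * S.eval t = t * (t ^ (q - 1) * S.eval t) := by
        rw [← mul_assoc, ← pow_succ']
        congr 2
        omega
    _ = t := by rw [ht', mul_one]

/-- **Lang–Steinberg for `GL_n`, vector form.**  An injective `q`-semilinear additive endomorphism
of a nonzero finite-dimensional vector space over an algebraically closed field has a nonzero
fixed vector. -/
theorem exists_fixed_of_semilinear [IsAlgClosed k] [FiniteDimensional k V] {q : ℕ} (hq : 1 < q)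
    (Φ : V →+ V) (hΦ : ∀ (c : k) (v : V), Φ (c • v) = c ^ q • Φ v)
    (hinj : Function.Injective Φ) {v : V} (hv : v ≠ 0) : ∃ w : V, w ≠ 0 ∧ Φ w = w := by
  classical
  set g : ℕ → V := fun i => Φ^[i] v with hg
  have hgs : ∀ i, g (i + 1) = Φ (g i) := fun i => Function.iterate_succ_apply' _ _ _
  have hbdd : ∀ n, LinearIndependent k (fun i : Fin n => g i) → n ≤ Module.finrank k V := by
    intro n h
    simpa using h.fintype_card_le_finrank
  have h1 : LinearIndependent k (fun i : Fin 1 => g i) :=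
    (linearIndependent_unique_iff (v := fun i : Fin 1 => g i)).2 hv
  obtain ⟨m, hm, hm'⟩ : ∃ m, LinearIndependent k (fun i : Fin (m + 1) => g i) ∧
      ¬ LinearIndependent k (fun i : Fin (m + 2) => g i) := by
    by_contra hcon
    push Not at hcon
    have hall : ∀ m, LinearIndependent k (fun i : Fin (m + 1) => g i) := by
      intro m
      induction m with
      | zero => exact h1
      | succ m ih => exact hcon m ih
    have := hbdd _ (hall (Module.finrank k V))
    omega
  have hmem : g (m + 1) ∈ Submodule.span k (Set.range (fun i : Fin (m + 1) => g i)) := by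
    by_contra hnot
    exact hm' (linearIndependent_finSucc'.2 ⟨hm, hnot⟩)
  obtain ⟨c, hc⟩ := (Submodule.mem_span_range_iff_exists_fun k).1 hmem
  set cN : ℕ → k := fun i => if h : i < m + 1 then c ⟨i, h⟩ else 0 with hcNdef
  have hcN : ∀ i : Fin (m + 1), cN i = c i := by
    intro i
    simp only [hcNdef]
    rw [dif_pos i.2]
  have hexp : g (m + 1) = cN 0 • g 0 + ∑ i : Fin m, cN (i + 1) • g (i + 1) := by
    rw [← hc, Fin.sum_univ_succ]
    have e0 : c 0 = cN 0 := (hcN 0).symm
    have e1 : ∀ i : Fin m, c i.succ = cN (i + 1) := fun i => (hcN i.succ).symm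
    simp only [e0, e1, Fin.val_zero, Fin.val_succ]
  have hc0 : cN 0 ≠ 0 := by
    intro h0
    rw [h0, zero_smul, zero_add] at hexp
    choose d hd using fun i : Fin m => IsAlgClosed.exists_pow_nat_eq (cN (i + 1)) (by omega : 0 < q)
    have h2 : Φ (g m) = Φ (∑ i : Fin m, d i • g i) := by
      rw [← hgs, hexp, map_sum]
      refine Finset.sum_congr rfl fun i _ => ?_
      rw [hΦ, hd, hgs]
    have h3 := hinj h2
    exact (linearIndependent_finSucc'.1 hm).2
      ((Submodule.mem_span_range_iff_exists_fun k).2 ⟨d, h3.symm⟩)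
  obtain ⟨t, ht0, ht⟩ := exists_root_xs q hq cN hc0 m
  refine ⟨∑ i : Fin (m + 1), xs q cN t i • g i, ?_, ?_⟩
  · intro hw
    have h4 := Fintype.linearIndependent_iff.1 hm (fun i => xs q cN t i) hw (Fin.last m)
    simp only [Fin.val_last] at h4
    rw [ht] at h4
    exact ht0 h4
  · rw [map_sum]
    have h5 : ∀ i : Fin (m + 1), Φ (xs q cN t i • g i) = xs q cN t i ^ q • g (i + 1) := by
      intro i
      rw [hΦ, hgs]
    rw [Finset.sum_congr rfl fun i _ => h5 i, Fin.sum_univ_castSucc, Fin.sum_univ_succ]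
    simp only [Fin.val_castSucc, Fin.val_last, Fin.val_succ, Fin.val_zero]
    rw [ht, hexp, smul_add, Finset.smul_sum]
    have h6 : xs q cN t 0 = cN 0 * t ^ q := rfl
    have h7 : ∀ i : ℕ, xs q cN t (i + 1) = xs q cN t i ^ q + cN (i + 1) * t ^ q := fun i => rfl
    rw [h6]
    simp only [h7, add_smul, Finset.sum_add_distrib, smul_smul]
    simp only [mul_comm (t ^ q)]
    abel

end Fermat.Agent.TR.Hecke.FrobFix
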