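/-
helper95 — TR / H-R2 (FIN), abstract part.

Setting: `h : IsFF1 K F x` (function field of one variable over an algebraically closed field
`K`, all places rational, Riemann's inequality available), `g : SemilinearAut K F` acting on the
constants by `a ↦ a ^ q` (`q > 1`) and fixing `x`.

Main result `finite_fixed_classes`: the set of `g`-fixed classes of `Pic0 K F` is finite.

Proof: (1) a place fixed by a power of `g` is a pole of `x` or lies over a value `c` of `x` with
`c ^ Q = c` — finitely many; (2) a `g`-fixed effective divisor of degree `d` is supported on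
places fixed by `g ^ d!`, with coefficients in `[0, d]` — finitely many; (3) (Lang) every `g`-fixed
class is `E - B` with `E` a `g`-fixed effective divisor of degree `deg B`, `B` a fixed multiple of
the pole divisor of `x`: the `q`-semilinear map `s ↦ u * g s` of `L(D + B)` has a fixed vector
(`FrobFix.exists_fixed_of_semilinear`).
-/
import Mathlib
import Fermat.Agent.TR.Hecke.FrobFix
import Fermat.Agent.Lib.FF.RRFF1
import Fermat.Prelude.Def_AlgebraicCurve_BaseChangeGalois

set_option autoImplicit false

noncomputable section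

namespace Fermat.Agent.TR.Hecke.FrobFin

open AlgebraicCurve Fermat.Agent.Lib.FF

variable {K F : Type*} [Field K] [Field F] [Algebra K F] {x : F}

/-! ### Generalities -/

/-- A nonzero function has finitely many zeros and poles. -/
theorem finite_ord_ne_zero [HasPrincipalDivisors K F] {f : F} (hf : f ≠ 0) :
    {v : Place K F | v.ord f ≠ 0}.Finite := by
  obtain ⟨D, hD, -⟩ := HasPrincipalDivisors.exists_divisor (K := K) f hf
  refine D.support.finite_toSet.subset fun v hv => ?_
  rw [Finset.mem_coe, Finsupp.mem_support_iff, hD]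
  exact hv

/-- Finitely supported functions with support in a finite set and values in `[0, d]`. -/
theorem finite_bounded_finsupp {α : Type*} {S : Set α} (hS : S.Finite) (d : ℤ) :
    {E : α →₀ ℤ | (↑E.support ⊆ S) ∧ ∀ v, 0 ≤ E v ∧ E v ≤ d}.Finite := by
  classical
  have hfin : Finite S := hS
  let f : {E : α →₀ ℤ | (↑E.support ⊆ S) ∧ ∀ v, 0 ≤ E v ∧ E v ≤ d} → (S → Set.Icc (0 : ℤ) d) :=
    fun E v => ⟨E.1 v, E.2.2 v⟩
  have hf : Function.Injective f := by
    intro E E' hEE'
    apply Subtype.ext
    ext v
    by_cases hv : v ∈ S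
    · exact congrArg Subtype.val (congrFun hEE' ⟨v, hv⟩)
    · have h1 : E.1 v = 0 := by
        by_contra hne
        exact hv (E.2.1 (Finset.mem_coe.2 (Finsupp.mem_support_iff.2 hne)))
      have h2 : E'.1 v = 0 := by
        by_contra hne
        exact hv (E'.2.1 (Finset.mem_coe.2 (Finsupp.mem_support_iff.2 hne)))
      rw [h1, h2]
  exact Set.finite_coe_iff.1 (Finite.of_injective f hf)

theorem baseAut_pow (g : SemilinearAut K F) {q : ℕ}
    (hg : ∀ a : K, SemilinearAut.baseAut g a = a ^ q) (n : ℕ) (a : K) :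
    SemilinearAut.baseAut (g ^ n) a = a ^ (q ^ n) := by
  induction n generalizing a with
  | zero => simp
  | succ n ih =>
    rw [pow_succ, SemilinearAut.baseAut_mul]
    show SemilinearAut.baseAut (g ^ n) (SemilinearAut.baseAut g a) = _
    rw [ih, hg, ← pow_mul, pow_succ, mul_comm]

theorem pow_smul_fixed {α G : Type*} [Group G] [MulAction G α] (g : G) {a : α} (h : g • a = a)
    (n : ℕ) : g ^ n • a = a := by
  induction n with
  | zero => simp
  | succ n ih => rw [pow_succ, mul_smul, h, ih]

/-! ### Places fixed by a Frobenius-semilinear automorphism -/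

/-- A fixed place which is not a pole of `x` lies over a value `c` of `x` with `c ^ Q = c`. -/
theorem exists_const_of_fixed (h : IsFF1 K F x) (ψ : SemilinearAut K F) (hx : ψ • x = x)
    {Q : ℕ} (hψ : ∀ a : K, SemilinearAut.baseAut ψ a = a ^ Q) (v : Place K F) (hv : ψ • v = v)
    (hv0 : 0 ≤ v.ord x) : ∃ c : K, c ^ Q = c ∧ 0 < v.ord (x - algebraMap K F c) := by
  have hxt := h.transcendental
  have hne : ∀ c : K, x - algebraMap K F c ≠ 0 := fun c hc =>
    hxt (by rw [sub_eq_zero.1 hc]; exact isAlgebraic_algebraMap c)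
  obtain ⟨c, hc⟩ := h.resK v ⟨x, Fermat.Agent.S24.mem_of_ord_nonneg v hv0⟩
  have h1 := RR.val_le_exp_neg_one_of_mem_maximalIdeal v _ hc
  have h2 : (((⟨x, Fermat.Agent.S24.mem_of_ord_nonneg v hv0⟩ : v.toValuationSubring)
      - algebraMap K v.toValuationSubring c : v.toValuationSubring) : F)
      = x - algebraMap K F c := rfl
  rw [h2, v.adicValuation_eq_exp_neg_ord (hne c), WithZero.exp_le_exp] at h1
  have hpos : 0 < v.ord (x - algebraMap K F c) := by omega
  refine ⟨c, ?_, hpos⟩
  have h3 : ψ • (x - algebraMap K F c) = x - algebraMap K F (c ^ Q) := by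
    rw [smul_sub, hx, SemilinearAut.smul_algebraMap, hψ]
  have h4 : 0 < v.ord (x - algebraMap K F (c ^ Q)) := by
    have h5 := SemilinearAut.ord_smul ψ v (x - algebraMap K F c)
    rw [hv, h3] at h5
    omega
  by_contra hcq
  have h6 : x - algebraMap K F c - (x - algebraMap K F (c ^ Q)) = algebraMap K F (c ^ Q - c) := by
    rw [map_sub]; ring
  have h7 : algebraMap K F (c ^ Q - c) ≠ 0 := by
    rw [Ne, map_eq_zero, sub_eq_zero]
    exact hcq
  have h8 := Fermat.Agent.S24.ord_sub_ge v (hne c) (hne (c ^ Q)) (by rw [h6]; exact h7)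
  rw [h6, Fermat.Agent.S24.ord_algebraMap] at h8
  have h9 := lt_min hpos h4
  omega

/-- The places fixed by a Frobenius-semilinear automorphism fixing `x` are finite in number. -/
theorem finite_fixed_places (h : IsFF1 K F x) (ψ : SemilinearAut K F) (hx : ψ • x = x)
    {Q : ℕ} (hQ : 1 < Q) (hψ : ∀ a : K, SemilinearAut.baseAut ψ a = a ^ Q) :
    {v : Place K F | ψ • v = v}.Finite := by
  have := h.hasPrincipalDivisors
  have hxt := h.transcendental
  have hne : ∀ c : K, x - algebraMap K F c ≠ 0 := fun c hc =>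
    hxt (by rw [sub_eq_zero.1 hc]; exact isAlgebraic_algebraMap c)
  have hx0 : x ≠ 0 := fun h0 => hxt (by rw [h0]; exact isAlgebraic_zero)
  have hroots : {c : K | c ^ Q = c}.Finite := by
    have hp : (Polynomial.X ^ Q - Polynomial.X : Polynomial K) ≠ 0 :=
      FiniteField.X_pow_card_sub_X_ne_zero K hQ
    refine (Polynomial.finite_setOfPred_isRoot hp).subset fun c hc => ?_
    show Polynomial.IsRoot _ c
    simp only [Polynomial.IsRoot, Polynomial.eval_sub, Polynomial.eval_pow, Polynomial.eval_X]
    exact sub_eq_zero.2 hc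
  refine ((finite_ord_ne_zero (K := K) hx0).union
    (hroots.biUnion fun c _ => finite_ord_ne_zero (K := K) (hne c))).subset fun v hv => ?_
  by_cases hv0 : 0 ≤ v.ord x
  · obtain ⟨c, hc, hpos⟩ := exists_const_of_fixed h ψ hx hψ v hv hv0
    refine Or.inr (Set.mem_biUnion (x := c) hc ?_)
    show v.ord (x - algebraMap K F c) ≠ 0
    omega
  · refine Or.inl ?_
    show v.ord x ≠ 0
    omega

/-! ### Fixed effective divisors of given degree -/

/-- A `g`-fixed divisor is constant on `g`-orbits. -/
theorem apply_pow_smul (g : SemilinearAut K F) {E : Divisor K F} (hE : g • E = E) (n : ℕ)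
    (v : Place K F) : E (g ^ n • v) = E v := by
  induction n with
  | zero => simp
  | succ n ih =>
    rw [pow_succ', mul_smul]
    have h1 := SemilinearAut.divisor_smul_apply_smul g E (g ^ n • v)
    rw [hE] at h1
    rw [h1, ih]

/-- The support of a `g`-fixed effective divisor of degree `d` consists of places fixed by
`g ^ d!`. -/
theorem fixed_of_mem_support (h : IsFF1 K F x) (g : SemilinearAut K F) {E : Divisor K F}
    (hE0 : ∀ v, 0 ≤ E v) (hE : g • E = E) (d : ℕ) (hd : Divisor.degree E = d) {v : Place K F}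
    (hv : E v ≠ 0) : g ^ d.factorial • v = v := by
  classical
  have hsum : ∑ w ∈ E.support, E w = d := by rw [← h.degree_eq_sum, hd]
  have hcard : (E.support.card : ℤ) ≤ d := by
    rw [← hsum, Finset.card_eq_sum_ones, Nat.cast_sum]
    refine Finset.sum_le_sum fun w hw => ?_
    have h1 := hE0 w
    have h2 := Finsupp.mem_support_iff.1 hw
    simp only [Nat.cast_one]
    omega
  have hcard' : E.support.card < (Finset.range (d + 1)).card := by
    rw [Finset.card_range]
    omega
  obtain ⟨i, hi, j, hj, hij, hfij⟩ := Finset.exists_ne_map_eq_of_card_lt_of_maps_to hcard'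
    (f := fun n : ℕ => g ^ n • v) (fun n _ => by
      show g ^ n • v ∈ (E.support : Set (Place K F))
      rw [Finset.mem_coe, Finsupp.mem_support_iff, apply_pow_smul g hE]
      exact hv)
  simp only [Finset.mem_range] at hi hj
  -- wlog i < j
  have key : ∀ i j : ℕ, i < j → j < d + 1 → g ^ i • v = g ^ j • v → g ^ d.factorial • v = v := by
    intro i j hlt hj hfij
    have h1 : g ^ (j - i) • v = v := by
      have h2 : g ^ j • v = g ^ i • (g ^ (j - i) • v) := by
        rw [← mul_smul, ← pow_add]
        congr 2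
        omega
      rw [h2] at hfij
      exact (MulAction.injective (g ^ i) hfij).symm
    have hdvd : (j - i) ∣ d.factorial := Nat.dvd_factorial (by omega) (by omega)
    obtain ⟨m, hm⟩ := hdvd
    rw [hm, pow_mul]
    exact pow_smul_fixed _ h1 m
  rcases lt_or_gt_of_ne hij with hlt | hlt
  · exact key i j hlt hj hfij
  · exact key j i hlt hi hfij.symm

/-- There are finitely many `g`-fixed effective divisors of a given degree. -/
theorem finite_fixed_effective (h : IsFF1 K F x) (g : SemilinearAut K F) {q : ℕ} (hq : 1 < q)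
    (hg : ∀ a : K, SemilinearAut.baseAut g a = a ^ q) (hx : g • x = x) (d : ℕ) :
    {E : Divisor K F | (∀ v, 0 ≤ E v) ∧ Divisor.degree E = d ∧ g • E = E}.Finite := by
  classical
  have hS : {v : Place K F | g ^ d.factorial • v = v}.Finite :=
    finite_fixed_places h (g ^ d.factorial) (pow_smul_fixed g hx _)
      (Nat.one_lt_pow (Nat.factorial_ne_zero d) hq) (baseAut_pow g hg _)
  refine (finite_bounded_finsupp hS (d : ℤ)).subset ?_
  rintro E ⟨hE0, hEd, hE⟩
  refine ⟨fun v hv => ?_, fun v => ⟨hE0 v, ?_⟩⟩
  · exact fixed_of_mem_support h g hE0 hE d hEd (Finsupp.mem_support_iff.1 (Finset.mem_coe.1 hv))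
  · have hsum : ∑ w ∈ E.support, E w = d := by rw [← h.degree_eq_sum, hEd]
    by_cases hv : v ∈ E.support
    · rw [← hsum]
      exact Finset.single_le_sum (f := fun w => E w) (fun w _ => hE0 w) hv
    · rw [Finsupp.notMem_support_iff.1 hv]
      exact Int.natCast_nonneg d

/-! ### Lang's step -/

/-- The pole divisor of `x` is fixed by `g`. -/
theorem smul_poleDiv (h : IsFF1 K F x) (g : SemilinearAut K F) (hx : g • x = x) :
    g • h.poleDiv = h.poleDiv := by
  ext v
  rw [SemilinearAut.divisor_smul_apply, IsFF1.poleDiv_apply, IsFF1.poleDiv_apply]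
  have h1 := SemilinearAut.ord_smul g (g⁻¹ • v) x
  rw [smul_inv_smul, hx] at h1
  rw [← h1]

/-- **Lang's step.**  If `g D - D = div u` and `B` is a `g`-fixed divisor of degree `≥ g(F)`, the
`q`-semilinear map `s ↦ u * g s` of `L(D + B)` has a nonzero fixed vector. -/
theorem exists_fixed_section [IsAlgClosed K] (h : IsFF1 K F x) (g : SemilinearAut K F) {q : ℕ}
    (hq : 1 < q) (hg : ∀ a : K, SemilinearAut.baseAut g a = a ^ q)
    (B : Divisor K F) (hB : g • B = B) (hBdeg : (genusFF K F : ℤ) ≤ Divisor.degree B)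
    (D : Divisor K F) (hD : Divisor.degree D = 0)
    (u : F) (hu : u ≠ 0) (hDu : ∀ v : Place K F, (g • D) v - D v = v.ord u) :
    ∃ s : F, s ≠ 0 ∧ (∀ v : Place K F, 0 ≤ v.ord s + D v + B v) ∧ u * (g • s) = s := by
  have hfin : Module.Finite K (riemannRochSpace (D + B)) := h.finite_L (D + B)
  obtain ⟨f, hf0, hf⟩ := h.exists_ne_zero_of_degree_ge (D + B)
    (by rw [map_add, hD, zero_add]; exact hBdeg)
  have hfmem : f ∈ riemannRochSpace (D + B) := by
    rw [mem_riemannRochSpace_iff]
    intro v
    right
    have h1 := hf v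
    omega
  have hmem : ∀ s : F, s ∈ riemannRochSpace (D + B) → u * (g • s) ∈ riemannRochSpace (D + B) := by
    intro s hs
    rw [mem_riemannRochSpace_iff] at hs ⊢
    intro v
    by_cases hs0 : s = 0
    · left
      rw [hs0, smul_zero, mul_zero]
    · right
      have hgs : g • s ≠ 0 := by
        rw [Ne, smul_eq_zero_iff_eq]
        exact hs0
      rw [v.ord_mul hu hgs]
      have h1 := SemilinearAut.ord_smul g (g⁻¹ • v) s
      rw [smul_inv_smul] at h1
      rw [h1]
      have h2 := (hs (g⁻¹ • v)).resolve_left hs0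
      have h3 := hDu v
      have h4 : (g • D) v = D (g⁻¹ • v) := SemilinearAut.divisor_smul_apply g D v
      have h5 : B (g⁻¹ • v) = B v := by
        rw [← SemilinearAut.divisor_smul_apply g B v, hB]
      rw [Finsupp.add_apply] at h2 ⊢
      omega
  let Φ : riemannRochSpace (D + B) →+ riemannRochSpace (D + B) :=
    { toFun := fun s => ⟨u * (g • (s : F)), hmem _ s.2⟩
      map_zero' := Subtype.ext (by simp)
      map_add' := fun s t => Subtype.ext (by simp [smul_add, mul_add]) }
  have hΦ : ∀ (c : K) (s : riemannRochSpace (D + B)), Φ (c • s) = c ^ q • Φ s := by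
    intro c s
    apply Subtype.ext
    show u * (g • ((c • s : riemannRochSpace (D + B)) : F)) = c ^ q • (u * (g • (s : F)))
    rw [Submodule.coe_smul, Algebra.smul_def, Algebra.smul_def, smul_mul',
      SemilinearAut.smul_algebraMap, hg]
    ring
  have hinj : Function.Injective Φ := by
    intro s t hst
    have h1 : u * (g • (s : F)) = u * (g • (t : F)) := congrArg Subtype.val hst
    have h2 := mul_left_cancel₀ hu h1
    exact Subtype.ext (MulAction.injective g h2)
  obtain ⟨w, hw0, hw⟩ := FrobFix.exists_fixed_of_semilinear hq Φ hΦ hinj (v := ⟨f, hfmem⟩)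
    (fun h0 => hf0 (congrArg Subtype.val h0))
  have hws : (w : F) ≠ 0 := fun h0 => hw0 (Subtype.ext h0)
  refine ⟨w, hws, fun v => ?_, congrArg Subtype.val hw⟩
  have h1 := (mem_riemannRochSpace_iff.1 w.2 v).resolve_left hws
  rw [Finsupp.add_apply] at h1
  omega

/-- Every `g`-fixed class is the class of `E - B` for a `g`-fixed effective divisor `E` of
degree `deg B`. -/
theorem exists_fixed_effective_of_fixed_class [IsAlgClosed K] (h : IsFF1 K F x)
    (g : SemilinearAut K F) {q : ℕ} (hq : 1 < q)
    (hg : ∀ a : K, SemilinearAut.baseAut g a = a ^ q)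
    (B : Divisor K F) (hB : g • B = B) (hBdeg : (genusFF K F : ℤ) ≤ Divisor.degree B)
    (D : Divisor.degZero (K := K) (F := F)) (hfix : g • Pic0.mk D = Pic0.mk D) :
    ∃ E : Divisor K F, (∀ v, 0 ≤ E v) ∧ Divisor.degree E = Divisor.degree B ∧ g • E = E ∧
      ∃ hE : E - B ∈ Divisor.degZero (K := K) (F := F), Pic0.mk ⟨E - B, hE⟩ = Pic0.mk D := by
  have := h.hasPrincipalDivisors
  have hD0 : Divisor.degree (D : Divisor K F) = 0 := Divisor.mem_degZero.1 D.2
  rw [SemilinearAut.pic0_smul_mk] at hfix
  have hpr : (g • (D : Divisor K F) - D) ∈ Divisor.principal (K := K) (F := F) := by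
    have h1 := QuotientAddGroup.eq.1 hfix
    rw [AddSubgroup.mem_addSubgroupOf] at h1
    have h2 := neg_mem h1
    have h3 : -((-(SemilinearAut.degZeroSMulHom g D) + D : Divisor.degZero (K := K) (F := F)) :
        Divisor K F) = g • (D : Divisor K F) - D := by
      rw [AddSubgroup.coe_add, AddSubgroup.coe_neg, SemilinearAut.coe_degZeroSMulHom]
      abel
    rwa [h3] at h2
  obtain ⟨u, hu, hDu⟩ := hpr
  have hDu' : ∀ v : Place K F, (g • (D : Divisor K F)) v - (D : Divisor K F) v = v.ord u :=
    fun v => by rw [← hDu v, Finsupp.sub_apply]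
  obtain ⟨s, hs0, hsE, hsfix⟩ := exists_fixed_section h g hq hg B hB hBdeg D hD0 u hu hDu'
  obtain ⟨Ds, hDs, hDsdeg⟩ := HasPrincipalDivisors.exists_divisor (K := K) s hs0
  refine ⟨Ds + D + B, fun v => ?_, ?_, ?_, ?_⟩
  · simp only [Finsupp.add_apply, hDs]
    exact hsE v
  · rw [map_add, map_add, hDsdeg, hD0]
    simp
  · ext v
    rw [SemilinearAut.divisor_smul_apply]
    simp only [Finsupp.add_apply, hDs]
    have h1 := SemilinearAut.ord_smul g (g⁻¹ • v) s
    rw [smul_inv_smul] at h1
    have hgs : g • s ≠ 0 := by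
      rw [Ne, smul_eq_zero_iff_eq]
      exact hs0
    have h2 : v.ord s = v.ord u + v.ord (g • s) := by
      conv_lhs => rw [← hsfix]
      exact v.ord_mul hu hgs
    have h3 := hDu' v
    have h4 : (g • (D : Divisor K F)) v = (D : Divisor K F) (g⁻¹ • v) :=
      SemilinearAut.divisor_smul_apply g _ v
    have h5 : B (g⁻¹ • v) = B v := by
      rw [← SemilinearAut.divisor_smul_apply g B v, hB]
    omega
  · have hE : Ds + (D : Divisor K F) + B - B ∈ Divisor.degZero (K := K) (F := F) := by
      rw [Divisor.mem_degZero, add_sub_cancel_right, map_add, hDsdeg, hD0]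
      simp
    refine ⟨hE, ?_⟩
    refine QuotientAddGroup.eq.2 ?_
    rw [AddSubgroup.mem_addSubgroupOf]
    have h6 : ((-(⟨Ds + (D : Divisor K F) + B - B, hE⟩ : ↥(Divisor.degZero (K := K) (F := F))) + D :
        ↥(Divisor.degZero (K := K) (F := F))) : Divisor K F) = -Ds := by
      rw [AddSubgroup.coe_add, AddSubgroup.coe_neg]
      show -(Ds + (D : Divisor K F) + B - B) + (D : Divisor K F) = -Ds
      rw [add_sub_cancel_right, neg_add, add_assoc, neg_add_cancel, add_zero]
    rw [h6]
    exact neg_mem ⟨s, hs0, hDs⟩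

/-- **Finiteness of the fixed classes.**  Over an algebraically closed field, the classes of
`Pic⁰` fixed by a Frobenius-semilinear automorphism fixing `x` are finite in number. -/
theorem finite_fixed_classes [IsAlgClosed K] (h : IsFF1 K F x) (g : SemilinearAut K F) {q : ℕ}
    (hq : 1 < q) (hg : ∀ a : K, SemilinearAut.baseAut g a = a ^ q) (hx : g • x = x) :
    {y : Pic0 K F | g • y = y}.Finite := by
  classical
  set B : Divisor K F := (genusFF K F) • h.poleDiv with hBdef
  have hB : g • B = B := by
    rw [hBdef, smul_comm, smul_poleDiv h g hx]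
  have hdegB : Divisor.degree B = (genusFF K F : ℤ) * Divisor.degree h.poleDiv := by
    rw [hBdef, map_nsmul, nsmul_eq_mul]
  have hBdeg : (genusFF K F : ℤ) ≤ Divisor.degree B := by
    rw [hdegB]
    have h1 := h.degree_poleDiv_pos
    have h2 : (0 : ℤ) ≤ (genusFF K F : ℤ) := Int.natCast_nonneg _
    nlinarith
  have hd : ((Divisor.degree B).toNat : ℤ) = Divisor.degree B :=
    Int.toNat_of_nonneg (le_trans (Int.natCast_nonneg _) hBdeg)
  let cls : Divisor K F → Pic0 K F := fun E =>
    if hE : E - B ∈ Divisor.degZero (K := K) (F := F) then Pic0.mk ⟨E - B, hE⟩ else 0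
  refine ((finite_fixed_effective h g hq hg hx (Divisor.degree B).toNat).image cls).subset ?_
  intro y hy
  obtain ⟨D, rfl⟩ := Pic0.mk_surjective y
  obtain ⟨E, hE0, hEd, hEfix, hE, hcls⟩ :=
    exists_fixed_effective_of_fixed_class h g hq hg B hB hBdeg D hy
  refine ⟨E, ⟨hE0, by rw [hEd, hd], hEfix⟩, ?_⟩
  show cls E = _
  simp only [cls]
  rw [dif_pos hE, hcls]

/-- The fixed classes form a subgroup of finite exponent: there is `e > 0` killing them all. -/
theorem exists_exponent_fixed_classes [IsAlgClosed K] (h : IsFF1 K F x) (g : SemilinearAut K F)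
    {q : ℕ} (hq : 1 < q) (hg : ∀ a : K, SemilinearAut.baseAut g a = a ^ q) (hx : g • x = x) :
    ∃ e : ℕ, 0 < e ∧ ∀ y : Pic0 K F, g • y = y → e • y = 0 := by
  classical
  let H : AddSubgroup (Pic0 K F) :=
    { carrier := {y | g • y = y}
      zero_mem' := smul_zero g
      add_mem' := fun {a b} ha hb => by
        show g • (a + b) = a + b
        rw [smul_add, show g • a = a from ha, show g • b = b from hb]
      neg_mem' := fun {a} ha => by
        show g • (-a) = -a
        rw [smul_neg, show g • a = a from ha] }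
  have hfin : Finite H := (finite_fixed_classes h g hq hg hx).to_subtype
  refine ⟨Nat.card H, Nat.card_pos, fun y hy => ?_⟩
  have h1 : Nat.card H • (⟨y, hy⟩ : H) = 0 := card_nsmul_eq_zero' (G := H)
  have h2 := congrArg (Subtype.val : H → Pic0 K F) h1
  rwa [AddSubgroup.coe_nsmul] at h2

end Fermat.Agent.TR.Hecke.FrobFin

end
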