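import Mathlib
import Fermat.Agent.S58.Tate
import Fermat.Agent.S58.FrobFinal
import Fermat.Agent.S58.AbsIrred
import Fermat.Agent.Lib.GalRep.TraceRigid
import Fermat.Agent.S31.Lucas

/-!
# TR / Hecke side, brick (REP), the elliptic-curve half

For an integral Weierstrass model `W` with `Δ ≠ 0`, an odd prime `p` and `E[p]` irreducible, the
Galois module `E[p]` is given IN COORDINATES by a homomorphism `ρ̄ : G_ℚ → M₂(𝔽_p)` with

* a `𝔽_p`-linear bijection `e : 𝔽_p² → E[p]` with `e (ρ̄ σ · c) = σ • e c`;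
* `span ρ̄(G_ℚ) = M₂(𝔽_p)` (absolute irreducibility, S58 `AbsIrred.tRes` + Burnside/Nakayama);
* finite level;
* `tr ρ̄(σ) = a_ℓ(W)`, `det ρ̄(σ) = ℓ` for every Frobenius element `σ` at a good prime `ℓ ≠ p`
  (S58 `FrobFinal.tFrob`).

`ρ̄` is the reduction modulo `p` of the matrices of the `p`-adic Tate module (S58 `TateData`) in
a basis.
-/

set_option autoImplicit false

namespace Fermat.Agent.TR.Hecke.Rep

open Fermat.Agent.S58 WeierstrassCurve
open scoped WeierstrassCurve.Affine

section Tate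

variable {W : WeierstrassCurve ℤ} {p : ℕ} [Fact p.Prime] (D : TateData W p)
  (b : Module.Basis (Fin 2) ℤ_[p] D.T.V)

/-- The reduction modulo `p` of the matrices of the Tate module in the basis `b`. -/
noncomputable def rhoBar : GQ →* Matrix (Fin 2) (Fin 2) (ZMod p) where
  toFun g := (PadicInt.toZMod (p := p)).mapMatrix (LinearMap.toMatrix b b (D.T.ρ g))
  map_one' := by rw [map_one, LinearMap.toMatrix_one, map_one]
  map_mul' g h := by rw [map_mul, LinearMap.toMatrix_mul, map_mul]

theorem rhoBar_apply (g : GQ) (i j : Fin 2) :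
    rhoBar D b g i j = PadicInt.toZMod (b.repr (D.T.ρ g (b j)) i) := by
  show (PadicInt.toZMod (p := p)).mapMatrix (LinearMap.toMatrix b b (D.T.ρ g)) i j = _
  rw [RingHom.mapMatrix_apply, Matrix.map_apply, LinearMap.toMatrix_apply]

/-- `π₁ t` is killed by `p`. -/
theorem pi_one_mem (t : D.T.V) :
    D.π 1 t ∈ Submodule.torsionBy ℤ (EPt W) (p : ℤ) := by
  rw [Submodule.mem_torsionBy_iff, natCast_zsmul, ← map_nsmul, ← Nat.cast_smul_eq_nsmul ℤ_[p]]
  exact (D.ker_π 1 _).mpr ⟨t, by rw [pow_one]⟩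

/-- The level-one map into `E[p]`. -/
noncomputable def piE : D.T.V →+ Submodule.torsionBy ℤ (EPt W) (p : ℤ) where
  toFun t := ⟨D.π 1 t, pi_one_mem D t⟩
  map_zero' := Subtype.ext (map_zero _)
  map_add' s t := Subtype.ext (map_add _ s t)

theorem coe_piE (t : D.T.V) : ((piE D t : Submodule.torsionBy ℤ (EPt W) (p : ℤ)) : EPt W)
    = D.π 1 t := rfl

theorem piE_eq_zero_iff (t : D.T.V) : piE D t = 0 ↔ ∃ w : D.T.V, t = (p : ℤ_[p]) • w := by
  have h := D.ker_π 1 t
  rw [pow_one] at h
  rw [← h]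
  constructor
  · intro h0
    exact congrArg Subtype.val h0
  · intro h0
    exact Subtype.ext h0

theorem piE_surjective : Function.Surjective (piE D) := by
  intro x
  have hx : p ^ 1 • (x : EPt W) = 0 := by
    have h := x.2
    rw [Submodule.mem_torsionBy_iff, natCast_zsmul] at h
    rwa [pow_one]
  obtain ⟨t, ht⟩ := D.surj_π 1 (x : EPt W) hx
  exact ⟨t, Subtype.ext ht⟩

/-- `π₁` is semilinear along `ℤ_p → 𝔽_p`. -/
theorem piE_smul (a : ℤ_[p]) (t : D.T.V) : piE D (a • t) = PadicInt.toZMod a • piE D t := by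
  have h := PadicInt.toZMod_spec a
  rw [PadicInt.maximalIdeal_eq_span_p, Ideal.mem_span_singleton'] at h
  obtain ⟨c, hc⟩ := h
  have ha : a = (((PadicInt.toZMod a).val : ℕ) : ℤ_[p]) + (p : ℤ_[p]) * c := by
    rw [ZMod.natCast_val]
    linear_combination -hc
  have h1 : piE D (((p : ℤ_[p]) * c) • t) = 0 :=
    (piE_eq_zero_iff D _).mpr ⟨c • t, by rw [mul_smul]⟩
  have h2 : PadicInt.toZMod a • piE D t = (PadicInt.toZMod a).val • piE D t := by
    rw [← Nat.cast_smul_eq_nsmul (ZMod p), ZMod.natCast_zmod_val]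
  conv_lhs => rw [ha]
  rw [add_smul, map_add, h1, add_zero, Nat.cast_smul_eq_nsmul, map_nsmul, h2]

/-- `π₁ t` in the coordinates of `t`. -/
theorem piE_eq_sum (t : D.T.V) :
    piE D t = ∑ i, PadicInt.toZMod (b.repr t i) • piE D (b i) := by
  conv_lhs => rw [← b.sum_repr t]
  rw [map_sum]
  exact Finset.sum_congr rfl fun i _ => piE_smul D _ _

/-- The Galois action on `E[p]`, as an additive map. -/
noncomputable def galE (σ : GQ) :
    Submodule.torsionBy ℤ (EPt W) (p : ℤ) →+ Submodule.torsionBy ℤ (EPt W) (p : ℤ) where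
  toFun x := σ • x
  map_zero' := smul_zero σ
  map_add' x y := smul_add σ x y

omit [Fact p.Prime] in
theorem galE_apply (σ : GQ) (x : Submodule.torsionBy ℤ (EPt W) (p : ℤ)) :
    galE (W := W) (p := p) σ x = σ • x := rfl

theorem gal_piE (σ : GQ) (t : D.T.V) : σ • piE D t = piE D (D.T.ρ σ t) :=
  Subtype.ext (D.equivariant σ 1 t).symm

/-- The coordinate map `𝔽_p² → E[p]`. -/
noncomputable def coordE : (Fin 2 → ZMod p) →ₗ[ZMod p] Submodule.torsionBy ℤ (EPt W) (p : ℤ) :=
  Fintype.linearCombination (ZMod p) fun i => piE D (b i)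

theorem coordE_apply (c : Fin 2 → ZMod p) : coordE D b c = ∑ i, c i • piE D (b i) := by
  rw [coordE, Fintype.linearCombination_apply]

theorem coordE_repr (t : D.T.V) :
    coordE D b (fun i => PadicInt.toZMod (b.repr t i)) = piE D t := by
  rw [coordE_apply, ← piE_eq_sum]

theorem coordE_surjective : Function.Surjective (coordE D b) := by
  intro x
  obtain ⟨t, rfl⟩ := piE_surjective D x
  exact ⟨_, coordE_repr D b t⟩

theorem coordE_injective : Function.Injective (coordE D b) := by
  rw [← LinearMap.ker_eq_bot, LinearMap.ker_eq_bot']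
  intro c hc
  -- lift `c` to the Tate module
  set t : D.T.V := ∑ i, (((c i).val : ℕ) : ℤ_[p]) • b i with ht
  have hrepr : ∀ i, b.repr t i = (((c i).val : ℕ) : ℤ_[p]) := by
    intro i
    rw [ht, map_sum, Finset.sum_apply']
    simp only [map_smul, Module.Basis.repr_self, Finsupp.smul_apply, smul_eq_mul]
    rw [Finset.sum_eq_single i]
    · rw [Finsupp.single_eq_same, mul_one]
    · intro j _ hji
      rw [Finsupp.single_eq_of_ne (Ne.symm hji), mul_zero]
    · intro h
      exact absurd (Finset.mem_univ i) h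
  have hc' : ∀ i, PadicInt.toZMod (b.repr t i) = c i := by
    intro i
    rw [hrepr, map_natCast, ZMod.natCast_zmod_val]
  have h0 : piE D t = 0 := by
    rw [← coordE_repr D b t]
    have : (fun i => PadicInt.toZMod (b.repr t i)) = c := funext hc'
    rw [this, hc]
  obtain ⟨w, hw⟩ := (piE_eq_zero_iff D t).mp h0
  funext i
  rw [← hc' i, hw, map_smul, Finsupp.smul_apply, smul_eq_mul, map_mul, map_natCast,
    ZMod.natCast_self, zero_mul]
  rfl

/-- Equivariance of the coordinate map. -/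
theorem coordE_mulVec (σ : GQ) (c : Fin 2 → ZMod p) :
    coordE D b ((rhoBar D b σ).mulVec c) = σ • coordE D b c := by
  have hb : ∀ i, σ • piE D (b i) = ∑ j, rhoBar D b σ j i • piE D (b j) := by
    intro i
    rw [gal_piE, piE_eq_sum D b]
    exact Finset.sum_congr rfl fun j _ => by rw [rhoBar_apply]
  rw [coordE_apply, coordE_apply, ← galE_apply, map_sum]
  have h1 : ∀ i, galE (W := W) (p := p) σ (c i • piE D (b i))
      = ∑ j, (rhoBar D b σ j i * c i) • piE D (b j) := by
    intro i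
    rw [ZMod.map_smul, galE_apply, hb, Finset.smul_sum]
    exact Finset.sum_congr rfl fun j _ => by rw [smul_smul, mul_comm]
  rw [Finset.sum_congr rfl fun i _ => h1 i, Finset.sum_comm]
  refine Finset.sum_congr rfl fun j _ => ?_
  rw [← Finset.sum_smul]
  rfl

end Tate

/-- **(REP), elliptic half**: `E[p]` in coordinates. -/
theorem exists_rho (W : WeierstrassCurve ℤ) (hΔ : W.Δ ≠ 0) {p : ℕ} (hp : p.Prime) (hp2 : p ≠ 2)
    (hirr : W.ModRepIsIrreducible p) :
    ∃ (ρ : GQ →* Matrix (Fin 2) (Fin 2) (ZMod p))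
      (e : (Fin 2 → ZMod p) →+ Submodule.torsionBy ℤ (EPt W) (p : ℤ)),
      Function.Bijective e ∧ (∀ (σ : GQ) c, e ((ρ σ).mulVec c) = σ • e c) ∧
      Submodule.span (ZMod p) (Set.range ρ) = ⊤ ∧
      (∃ L : IntermediateField ℚ Qb, FiniteDimensional ℚ L ∧
        ∀ τ : GQ, (∀ x ∈ L, τ x = x) → ρ τ = 1) ∧
      ∀ ℓ : ℕ, ℓ.Prime → ℓ ≠ p → ¬ (ℓ : ℤ) ∣ W.Δ → ∀ A : ValuationSubring Qb,
        A.LiesOverPrime ℓ → ∀ σ : GQ, A.IsFrobeniusAt σ ℓ →
          (ρ σ).trace = ((W.apOfModel ℓ : ℤ) : ZMod p) ∧ (ρ σ).det = ((ℓ : ℕ) : ZMod p) := by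
  classical
  have : Fact p.Prime := ⟨hp⟩
  obtain ⟨D⟩ := Tate.tateExists W hΔ p
  let b : Module.Basis (Fin 2) ℤ_[p] D.T.V :=
    Module.finBasisOfFinrankEq ℤ_[p] D.T.V D.T.finrank_eq
  have hequiv : ∀ (σ : GQ) c, coordE D b ((rhoBar D b σ).mulVec c) = σ • coordE D b c :=
    coordE_mulVec D b
  refine ⟨rhoBar D b, (coordE D b).toAddMonoidHom, ⟨coordE_injective D b, coordE_surjective D b⟩,
    hequiv, ?_, ?_, ?_⟩
  · -- span
    have habs := (AbsIrred.tRes FrobFinal.tFrob W p D hΔ hp2 hirr).1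
    have hZ := Fermat.Agent.Lib.GalRep.span_range_toMatrix_eq_top_of_residual_absIrr D.T habs b
    rw [eq_top_iff]
    intro M _
    obtain ⟨M', rfl⟩ : ∃ M' : Matrix (Fin 2) (Fin 2) ℤ_[p],
        (PadicInt.toZMod (p := p)).mapMatrix M' = M := by
      refine ⟨M.map fun c => ((c.val : ℕ) : ℤ_[p]), ?_⟩
      ext i j
      rw [RingHom.mapMatrix_apply, Matrix.map_apply, Matrix.map_apply, map_natCast,
        ZMod.natCast_zmod_val]
    have hM' : M' ∈ Submodule.span ℤ_[p]
        (Set.range fun g : GQ => LinearMap.toMatrix b b (D.T.ρ g)) := by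
      rw [hZ]
      trivial
    induction hM' using Submodule.span_induction with
    | mem x hx =>
      obtain ⟨g, rfl⟩ := hx
      exact Submodule.subset_span ⟨g, rfl⟩
    | zero =>
      rw [map_zero]
      exact Submodule.zero_mem _
    | add x y _ _ hx hy =>
      rw [map_add]
      exact Submodule.add_mem _ (hx trivial) (hy trivial)
    | smul a x _ hx =>
      have h1 : (PadicInt.toZMod (p := p)).mapMatrix (a • x)
          = PadicInt.toZMod a • (PadicInt.toZMod (p := p)).mapMatrix x := by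
        ext i j
        simp only [RingHom.mapMatrix_apply, Matrix.map_apply, Matrix.smul_apply, smul_eq_mul,
          map_mul]
      rw [h1]
      exact Submodule.smul_mem _ _ (hx trivial)
  · -- finite level
    obtain ⟨L0, hL0, h0⟩ := Tate.exists_field_fixing W (D.π 1 (b 0))
    obtain ⟨L1, hL1, h1⟩ := Tate.exists_field_fixing W (D.π 1 (b 1))
    have : FiniteDimensional ℚ (L0 ⊔ L1 : IntermediateField ℚ Qb) :=
      IntermediateField.finiteDimensional_sup L0 L1
    refine ⟨L0 ⊔ L1, inferInstance, fun τ hτ => ?_⟩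
    have hfix : ∀ i : Fin 2, τ • piE D (b i) = piE D (b i) := by
      intro i
      apply Subtype.ext
      show τ • D.π 1 (b i) = D.π 1 (b i)
      fin_cases i
      · exact h0 τ fun x hx => hτ x (le_sup_left (b := L1) hx)
      · exact h1 τ fun x hx => hτ x (le_sup_right (a := L0) hx)
    have hsingle : ∀ i : Fin 2, coordE D b (Pi.single i 1) = piE D (b i) := by
      intro i
      rw [coordE_apply, Finset.sum_eq_single i]
      · rw [Pi.single_eq_same, one_smul]
      · intro j _ hji
        rw [Pi.single_eq_of_ne hji, zero_smul]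
      · intro h
        exact absurd (Finset.mem_univ i) h
    ext i j
    have h2 : coordE D b ((rhoBar D b τ).mulVec (Pi.single j 1)) = coordE D b (Pi.single j 1) := by
      rw [hequiv, hsingle, hfix]
    have h3 := congrFun (coordE_injective D b h2) i
    rw [Matrix.mulVec_single_one] at h3
    rw [Matrix.one_apply]
    rw [Pi.single_apply] at h3
    exact h3
  · -- Frobenius
    intro ℓ hℓ hℓp hℓΔ A hA σ hσ
    have hch := FrobFinal.tFrob W p D ℓ hℓ hℓp hℓΔ A hA σ hσ
    rw [← LinearMap.charpoly_toMatrix (D.T.ρ σ) b] at hch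
    obtain ⟨htr, hdet⟩ := Fermat.Agent.S31.trace_det_of_charpoly _ hch
    constructor
    · show ((PadicInt.toZMod (p := p)).mapMatrix (LinearMap.toMatrix b b (D.T.ρ σ))).trace = _
      have h1 : ((PadicInt.toZMod (p := p)).mapMatrix (LinearMap.toMatrix b b (D.T.ρ σ))).trace
          = PadicInt.toZMod (LinearMap.toMatrix b b (D.T.ρ σ)).trace := by
        simp only [Matrix.trace, RingHom.mapMatrix_apply, Matrix.diag_apply, Matrix.map_apply,
          map_sum]
      rw [h1, htr, map_intCast]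
    · show ((PadicInt.toZMod (p := p)).mapMatrix (LinearMap.toMatrix b b (D.T.ρ σ))).det = _
      rw [← RingHom.map_det, hdet, map_natCast]

end Fermat.Agent.TR.Hecke.Rep
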