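import Mathlib

/-!
# TR / Hecke side, brick (REP): the two pieces of pure algebra

* `pow_rel` : **the power lemma**.  If `X` (in any algebra over a commutative ring `R`) satisfies
  the characteristic polynomial of a `2 × 2` matrix `B`, then `X ^ k` satisfies the
  characteristic polynomial of `B ^ k`.
* `exists_eigenvector_of_functional` : **the socle lemma**.  For a commuting family of additive
  endomorphisms `T i` of a FINITE abelian group `M` and integers `θ i`: a nonzero additive
  functional `lam` with `lam ∘ T i = θ i • lam` for all `i` forces a nonzero `m : M` with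
  `T i m = θ i • m` for all `i`.  (No ring of operators, no Nakayama: induction on the order of a
  stable subgroup.)
-/

set_option autoImplicit false

namespace Fermat.Agent.TR.Hecke.RepAlg

/-! ### The power lemma -/

section Power

variable {R : Type*} [CommRing R] {𝒜 : Type*} [Ring 𝒜] [Algebra R 𝒜]

/-- Cayley–Hamilton for `2 × 2` matrices. -/
theorem cayley_two (B : Matrix (Fin 2) (Fin 2) R) :
    B * B = B.trace • B - B.det • (1 : Matrix (Fin 2) (Fin 2) R) := by
  ext i j
  fin_cases i <;> fin_cases j <;>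
    simp [Matrix.mul_apply, Fin.sum_univ_two, Matrix.trace, Matrix.det_fin_two] <;> ring

/-- `B ^ k = u B + v` and `X ^ k = u X + v` with the same `u`, `v`, and `N(u B + v) = det B ^ k`. -/
theorem exists_pow_coeffs (B : Matrix (Fin 2) (Fin 2) R) (X : 𝒜)
    (h : X * X - B.trace • X + B.det • (1 : 𝒜) = 0) (k : ℕ) :
    ∃ u v : R, B ^ k = u • B + v • (1 : Matrix (Fin 2) (Fin 2) R) ∧ X ^ k = u • X + v • (1 : 𝒜) ∧
      v * v + B.trace * u * v + B.det * u * u = B.det ^ k := by
  have hXX : X * X = B.trace • X - B.det • (1 : 𝒜) := by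
    rw [eq_sub_iff_add_eq, ← sub_eq_zero]
    rw [← h]; abel
  induction k with
  | zero => exact ⟨0, 1, by simp, by simp, by simp⟩
  | succ k ih =>
    obtain ⟨u, v, hB, hX, hN⟩ := ih
    refine ⟨u * B.trace + v, - (u * B.det), ?_, ?_, ?_⟩
    · rw [pow_succ, hB, add_mul, smul_mul_assoc, smul_mul_assoc, one_mul, cayley_two]
      module
    · rw [pow_succ, hX, add_mul, smul_mul_assoc, smul_mul_assoc, one_mul, hXX]
      module
    · rw [pow_succ, ← hN]; ring

/-- **The power lemma.** -/
theorem pow_rel (B : Matrix (Fin 2) (Fin 2) R) (X : 𝒜)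
    (h : X * X - B.trace • X + B.det • (1 : 𝒜) = 0) (k : ℕ) :
    X ^ k * X ^ k - (B ^ k).trace • X ^ k + (B ^ k).det • (1 : 𝒜) = 0 := by
  obtain ⟨u, v, hB, hX, hN⟩ := exists_pow_coeffs B X h k
  have hXX : X * X = B.trace • X - B.det • (1 : 𝒜) := by
    rw [eq_sub_iff_add_eq, ← sub_eq_zero]
    rw [← h]; abel
  have htr : (B ^ k).trace = u * B.trace + 2 * v := by
    rw [hB, Matrix.trace_add, Matrix.trace_smul, Matrix.trace_smul, Matrix.trace_one]
    simp only [Fintype.card_fin, smul_eq_mul]
    push_cast; ring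
  have hdet : (B ^ k).det = B.det ^ k := Matrix.det_pow B k
  have hsq : (u • X + v • (1 : 𝒜)) * (u • X + v • (1 : 𝒜))
      = (u * u) • (X * X) + (2 * u * v) • X + (v * v) • (1 : 𝒜) := by
    simp only [add_mul, mul_add, smul_mul_assoc, mul_smul_comm, one_mul, mul_one]
    module
  rw [htr, hdet, ← hN, hX, hsq, hXX]
  module

/-- The power lemma for endomorphisms of a module (with the scalar action of `Module.End`). -/
theorem pow_rel_end {M : Type*} [AddCommGroup M] [Module R M] (B : Matrix (Fin 2) (Fin 2) R)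
    (X : Module.End R M) (h : X * X - B.trace • X + B.det • (1 : Module.End R M) = 0) (k : ℕ) :
    X ^ k * X ^ k - (B ^ k).trace • X ^ k + (B ^ k).det • (1 : Module.End R M) = 0 :=
  pow_rel B X h k

/-- The form used for Galois representations: `X = X₀ ^ k`, `B = B₀ ^ k`, and `X₀` satisfies
`X₀² - t X₀ + d = 0` with `t = tr B₀`, `d = det B₀`. -/
theorem rel_of_pow {M : Type*} [AddCommGroup M] [Module R M] (B B₀ : Matrix (Fin 2) (Fin 2) R)
    (X X₀ : Module.End R M) (k : ℕ) (hB : B = B₀ ^ k) (hX : X = X₀ ^ k) (t d : R)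
    (ht : B₀.trace = t) (hd : B₀.det = d)
    (h : X₀ * X₀ - t • X₀ + d • (1 : Module.End R M) = 0) :
    X * X - B.trace • X + B.det • (1 : Module.End R M) = 0 := by
  subst hB hX ht hd
  exact pow_rel_end B₀ X₀ h k

/-- In a monoid hom, `f g = f σ ^ k` as soon as `f (g⁻¹ σ^k) = 1`. -/
theorem map_eq_pow_of_map_eq_one {G H : Type*} [Group G] [Monoid H] (f : G →* H) (g σ : G)
    (k : ℕ) (h : f (g⁻¹ * σ ^ k) = 1) : f g = f σ ^ k :=
  calc f g = f g * 1 := (mul_one _).symm
    _ = f g * f (g⁻¹ * σ ^ k) := by rw [h]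
    _ = f (g * (g⁻¹ * σ ^ k)) := (f.map_mul _ _).symm
    _ = f (σ ^ k) := congrArg f (mul_inv_cancel_left g (σ ^ k))
    _ = f σ ^ k := f.map_pow σ k

end Power

/-! ### The socle lemma -/

section Socle

variable {M : Type*} [AddCommGroup M] {ι : Type*} (D : ι → M →+ M)

/-- `𝔞 N`: the subgroup generated by the images `D i N`. -/
def aN (N : AddSubgroup M) : AddSubgroup M := ⨆ i, N.map (D i)

theorem aN_mono {N N' : AddSubgroup M} (h : N ≤ N') : aN D N ≤ aN D N' :=
  iSup_mono fun _ => AddSubgroup.map_mono h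

theorem aN_le {N : AddSubgroup M} (hN : ∀ i, ∀ x ∈ N, D i x ∈ N) : aN D N ≤ N :=
  iSup_le fun i => by
    rintro _ ⟨x, hx, rfl⟩
    exact hN i x hx

theorem aN_map (hD : ∀ i j x, D i (D j x) = D j (D i x)) (N : AddSubgroup M) (i₀ : ι) :
    aN D (N.map (D i₀)) = (aN D N).map (D i₀) := by
  unfold aN
  rw [AddSubgroup.map_iSup]
  congr 1
  funext i
  rw [AddSubgroup.map_map, AddSubgroup.map_map]
  congr 1
  ext x
  exact hD i i₀ x

theorem card_lt_of_lt [Finite M] {H K : AddSubgroup M} (h : H < K) : Nat.card H < Nat.card K := by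
  have h1 : Nat.card H = (H : Set M).ncard := rfl
  have h2 : Nat.card K = (K : Set M).ncard := rfl
  rw [h1, h2]
  exact Set.ncard_lt_ncard (SetLike.coe_ssubset_coe.mpr h) (Set.toFinite _)

theorem socle_aux [Finite M] (hD : ∀ i j x, D i (D j x) = D j (D i x)) :
    ∀ (n : ℕ) (N : AddSubgroup M), Nat.card N ≤ n → (∀ i, ∀ x ∈ N, D i x ∈ N) →
      aN D N ≠ N → ∃ m ∈ N, m ≠ 0 ∧ ∀ i, D i m = 0 := by
  intro n
  induction n with
  | zero =>
    intro N hc
    exfalso
    have := Nat.card_pos (α := N)
    omega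
  | succ n ih =>
    intro N hc hst hne
    by_cases hall : ∀ i, ∀ x ∈ N, D i x = 0
    · have hNbot : N ≠ ⊥ := by
        rintro rfl
        exact hne (le_antisymm (aN_le D hst) bot_le)
      obtain ⟨m, hm, hm0⟩ := (AddSubgroup.bot_or_exists_ne_zero N).resolve_left hNbot
      exact ⟨m, hm, hm0, fun i => hall i m hm⟩
    · push Not at hall
      obtain ⟨i₀, n₀, hn₀, hn₀'⟩ := hall
      have hKle : N ⊓ (D i₀).ker ≤ N := inf_le_left
      have hKN : N ⊓ (D i₀).ker < N := by
        refine lt_of_le_of_ne hKle fun h => hn₀' ?_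
        have : n₀ ∈ N ⊓ (D i₀).ker := by
          rw [h]
          exact hn₀
        exact this.2
      have hRle : N.map (D i₀) ≤ N := by
        rintro _ ⟨x, hx, rfl⟩
        exact hst i₀ x hx
      have hRaN : N.map (D i₀) ≤ aN D N := le_iSup (fun i => N.map (D i)) i₀
      have hRN : N.map (D i₀) < N :=
        lt_of_le_of_ne hRle fun h => hne (le_antisymm (aN_le D hst) (h.symm.le.trans hRaN))
      have hKst : ∀ i, ∀ x ∈ N ⊓ (D i₀).ker, D i x ∈ N ⊓ (D i₀).ker := by
        intro i x hx
        refine ⟨hst i x hx.1, ?_⟩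
        show D i₀ (D i x) = 0
        rw [hD i₀ i x]
        have : D i₀ x = 0 := hx.2
        rw [this, map_zero]
      have hRst : ∀ i, ∀ x ∈ N.map (D i₀), D i x ∈ N.map (D i₀) := by
        rintro i _ ⟨x, hx, rfl⟩
        exact ⟨D i x, hst i x hx, (hD i i₀ x).symm⟩
      have hcK : Nat.card (N ⊓ (D i₀).ker : AddSubgroup M) ≤ n := by
        have := card_lt_of_lt hKN
        omega
      have hcR : Nat.card (N.map (D i₀) : AddSubgroup M) ≤ n := by
        have := card_lt_of_lt hRN
        omega
      by_cases h1 : aN D (N ⊓ (D i₀).ker) = N ⊓ (D i₀).ker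
      · by_cases h2 : aN D (N.map (D i₀)) = N.map (D i₀)
        · exfalso
          apply hne
          refine le_antisymm (aN_le D hst) ?_
          intro x hx
          have hDx : D i₀ x ∈ (aN D N).map (D i₀) := by
            rw [← aN_map D hD, h2]
            exact ⟨x, hx, rfl⟩
          obtain ⟨x', hx', hxx'⟩ := hDx
          have hxK : x - x' ∈ N ⊓ (D i₀).ker :=
            ⟨N.sub_mem hx (aN_le D hst hx'), by
              show D i₀ (x - x') = 0
              rw [map_sub, hxx', sub_self]⟩
          have h3 : x - x' ∈ aN D N := by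
            rw [← h1] at hxK
            exact aN_mono D hKle hxK
          have h4 := (aN D N).add_mem h3 hx'
          rwa [sub_add_cancel] at h4
        · obtain ⟨m, hm, hm0, hmD⟩ := ih _ hcR hRst h2
          exact ⟨m, hRle hm, hm0, hmD⟩
      · obtain ⟨m, hm, hm0, hmD⟩ := ih _ hcK hKst h1
        exact ⟨m, hKle hm, hm0, hmD⟩

/-- **The socle lemma**: for a commuting family of additive endomorphisms of a finite abelian
group, an eigen-functional forces an eigen-vector with the same (integral) eigenvalues. -/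
theorem exists_eigenvector_of_functional [Finite M] (T : ι → M →+ M)
    (hT : ∀ i j x, T i (T j x) = T j (T i x)) (θ : ι → ℤ)
    {K : Type*} [AddCommGroup K] (lam : M →+ K)
    (hlam : ∀ i x, lam (T i x) = θ i • lam x) (h0 : lam ≠ 0) :
    ∃ m : M, m ≠ 0 ∧ ∀ i, T i m = θ i • m := by
  set D : ι → M →+ M := fun i => T i - θ i • AddMonoidHom.id M with hDdef
  have hDapp : ∀ i x, D i x = T i x - θ i • x := fun i x => rfl
  have hD : ∀ i j x, D i (D j x) = D j (D i x) := by
    intro i j x
    simp only [hDapp, map_sub, map_zsmul, hT i j x, smul_sub]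
    rw [smul_comm (θ i) (θ j) x]
    abel
  have hne : aN D (⊤ : AddSubgroup M) ≠ ⊤ := by
    intro htop
    apply h0
    have hle : aN D (⊤ : AddSubgroup M) ≤ lam.ker := by
      refine iSup_le fun i => ?_
      rintro _ ⟨x, -, rfl⟩
      rw [AddMonoidHom.mem_ker, hDapp, map_sub, map_zsmul, hlam, sub_self]
    rw [htop] at hle
    ext x
    exact hle (AddSubgroup.mem_top x)
  obtain ⟨m, -, hm0, hm⟩ := socle_aux D hD (Nat.card (⊤ : AddSubgroup M)) ⊤ le_rfl
    (fun _ _ _ => AddSubgroup.mem_top _) hne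
  refine ⟨m, hm0, fun i => ?_⟩
  have := hm i
  rw [hDapp, sub_eq_zero] at this
  exact this

end Socle

end Fermat.Agent.TR.Hecke.RepAlg
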