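import Mathlib
import Fermat.Agent.ESJ.Jac.Main
import Fermat.Agent.ESJ.Cong.Comm
import Fermat.Agent.ESJ.RedK.GoodRed
import Fermat.Agent.ESJ.ParHom.Cmp
import Fermat.Agent.Frob.Main
import Fermat.Agent.Lib.GalRep.BLR
import Fermat.Agent.TR.Hecke.RepAlg

/-!
# TR / Hecke side, brick (REP), the `J₀(N)` half

Let `ρ : G_ℚ → M₂(𝔽_p)` be ANY representation whose image spans `M₂(𝔽_p)`, which factors through
a finite level, and whose Frobenius elements at the primes `ℓ ∈ S` (a cofinite set of primes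
`ℓ ∤ N p`) have trace `θ ℓ` and determinant `ℓ`.  If the system `(θ ℓ)_{ℓ ∈ S}` is the reduction
of the eigenvalues of a normalised eigenform of level `Γ₀(N)` modulo a maximal ideal over `p`,
then `ρ` EMBEDS into `J₀(N)[p]`, Galois-equivariantly and inside the `θ`-eigenspace of the Hecke
operators `T_ℓ`, `ℓ ∈ S` (`exists_embedding_of_rho`).

Ingredients (all on main): the eigen-functional `ESJ.eigenFunctionalModP`, the Kummer comparison
`ESJ.kummerCmp` with `ParHom.heckePE_comm` (commutativity of the `T_ℓ` on `J₀(N)[p]`), the socle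
lemma `RepAlg.exists_eigenvector_of_functional`, `ESJ.heckeGaloisCommute`, the Eichler–Shimura
relation `ESJ.RedK.torsionESRelation`, the Frobenius density theorem
`Frob.exists_frobenius_generating` with the power lemma `RepAlg.pow_rel`, and
Boston–Lenstra–Ribet `Lib.GalRep.BLR.exists_equiv`.
-/

set_option autoImplicit false

open CongruenceSubgroup ModularCurve AlgebraicCurve
open scoped MatrixGroups

namespace Fermat.Agent.TR.Hecke.Rep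

open Fermat.Agent.ESJ Fermat.Agent.ESJ.ParHom

local notation "Qb" => AlgebraicClosure ℚ

variable {N : ℕ} [NeZero N] {p : ℕ}

/-! ### Hecke operators on torsion -/

omit [NeZero N] in
theorem gal_zsmul (σ : GQ) (m : ℤ) (x : JZero N) : σ • (m • x) = m • (σ • x) :=
  map_zsmul (DistribSMul.toAddMonoidHom (JZero N) σ) m x

omit [NeZero N] in
theorem gal_zero (σ : GQ) : σ • (0 : JZero N) = 0 :=
  map_zero (DistribSMul.toAddMonoidHom (JZero N) σ)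

omit [NeZero N] in
theorem gal_add (σ : GQ) (x y : JZero N) : σ • (x + y) = σ • x + σ • y :=
  map_add (DistribSMul.toAddMonoidHom (JZero N) σ) x y

/-- `T_ℓ` preserves `J₀(N)[n]`. -/
theorem hecke_mem_torsion (n : ℕ) (ℓ : Nat.Primes) {x : JZero N}
    (hx : x ∈ Pic0.torsion Qb (modularFunctionFieldBar N) n) :
    heckeOperatorBar N ℓ x ∈ Pic0.torsion Qb (modularFunctionFieldBar N) n := by
  rw [Pic0.mem_torsion] at hx ⊢
  rw [← map_zsmul, hx, map_zero]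

/-- The Hecke operators on `Hom_PE(Γ₀(N), ℤ/m)` commute (the `ℤ`-module form of
`ParHom.heckePE_comm`). -/
theorem heckePE_comm_zmod (m : ℕ) (ℓ ℓ' : Nat.Primes) (φ : peHoms (Gamma0 N) ℤ (ZMod m)) :
    heckePE N ℓ ℤ (ZMod m) (heckePE N ℓ' ℤ (ZMod m) φ)
      = heckePE N ℓ' ℤ (ZMod m) (heckePE N ℓ ℤ (ZMod m) φ) := by
  have hφ : (φ : Additive (Gamma0 N) →+ ZMod m) ∈ peHoms (Gamma0 N) (ZMod m) (ZMod m) :=
    mem_peHoms_iff.mpr (mem_peHoms_iff.mp φ.2)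
  have h := congrArg (fun T : Module.End (ZMod m) (peHoms (Gamma0 N) (ZMod m) (ZMod m)) =>
    ((T ⟨(φ : Additive (Gamma0 N) →+ ZMod m), hφ⟩ : peHoms (Gamma0 N) (ZMod m) (ZMod m)) :
      Additive (Gamma0 N) →+ ZMod m)) (heckePE_comm N (ZMod m) ℓ ℓ').eq
  apply Subtype.ext
  simpa only [Module.End.mul_apply, coe_heckePE_apply] using h

/-- The Hecke operators `T_ℓ`, `ℓ ∤ N`, commute on `J₀(N)[p]`. -/
theorem hecke_comm_torsion (hp : 0 < p) (ℓ ℓ' : Nat.Primes) (hℓ : ¬ (ℓ : ℕ) ∣ N)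
    (hℓ' : ¬ (ℓ' : ℕ) ∣ N) {x : JZero N}
    (hx : x ∈ Pic0.torsion Qb (modularFunctionFieldBar N) p) :
    heckeOperatorBar N ℓ (heckeOperatorBar N ℓ' x)
      = heckeOperatorBar N ℓ' (heckeOperatorBar N ℓ x) := by
  obtain ⟨κ, -, hκ⟩ := kummerCmp N p hp
  have hx1 : x ∈ Pic0.torsion Qb (modularFunctionFieldBar N) (p ^ 1) := by rwa [pow_one]
  have h1 := hecke_mem_torsion (p ^ 1) ℓ hx1
  have h1' := hecke_mem_torsion (p ^ 1) ℓ' hx1
  have h2 := hecke_mem_torsion (p ^ 1) ℓ h1'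
  have h2' := hecke_mem_torsion (p ^ 1) ℓ' h1
  have e : (⟨heckeOperatorBar N ℓ (heckeOperatorBar N ℓ' x), h2⟩ :
      Pic0.torsion Qb (modularFunctionFieldBar N) (p ^ 1))
      = ⟨heckeOperatorBar N ℓ' (heckeOperatorBar N ℓ x), h2'⟩ := by
    apply (κ 1).injective
    rw [hκ 1 ℓ hℓ _ h1' h2, hκ 1 ℓ' hℓ' x hx1 h1', hκ 1 ℓ' hℓ' _ h1 h2', hκ 1 ℓ hℓ x hx1 h1]
    exact heckePE_comm_zmod (p ^ 1) ℓ ℓ' _
  exact congrArg Subtype.val e

/-! ### The eigenvector -/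

/-- **(REP-A)** a system of eigenvalues `θ` which is the reduction of a normalised eigenform
modulo a maximal ideal over `p` has a nonzero eigenvector in `J₀(N)[p]`. -/
theorem exists_eigenvector (hp : p.Prime) (S : Set Nat.Primes)
    (hS : ∀ ℓ ∈ S, ¬ (ℓ : ℕ) ∣ N * p) (θ : Nat.Primes → ℤ)
    (g : CuspForm (Gamma0 N) 2) (hg : g.IsNormalizedEigenform)
    (𝔪 : Ideal (integralClosure ℤ ℂ)) (h𝔪 : 𝔪.IsMaximal) (hp𝔪 : (p : integralClosure ℤ ℂ) ∈ 𝔪)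
    (hθ : ∀ ℓ ∈ S, ∃ a : integralClosure ℤ ℂ, (a : ℂ) = ModularFormClass.qCoeff g ℓ ∧
      a - ((θ ℓ : ℤ) : integralClosure ℤ ℂ) ∈ 𝔪) :
    ∃ x : JZero N, x ≠ 0 ∧ (p : ℤ) • x = 0 ∧ ∀ ℓ ∈ S, heckeOperatorBar N ℓ x = θ ℓ • x := by
  classical
  have := h𝔪
  let _ : Field (integralClosure ℤ ℂ ⧸ 𝔪) := Ideal.Quotient.field 𝔪
  have hp0 : ((p : ℕ) : integralClosure ℤ ℂ ⧸ 𝔪) = 0 := by
    rw [← map_natCast (Ideal.Quotient.mk 𝔪)]
    exact Ideal.Quotient.eq_zero_iff_mem.mpr hp𝔪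
  have : CharP (integralClosure ℤ ℂ ⧸ 𝔪) p := (CharP.charP_iff_prime_eq_zero hp).mpr hp0
  obtain ⟨lam, hlam0, hlam⟩ := eigenFunctionalModP N p hp g hg (integralClosure ℤ ℂ ⧸ 𝔪)
    (Ideal.Quotient.mk 𝔪)
  have : Finite (Pic0.torsion Qb (modularFunctionFieldBar N) p) :=
    Set.finite_coe_iff.mpr (torsionFinite N p hp.pos)
  -- the Hecke operators on the torsion
  let T : S → (Pic0.torsion Qb (modularFunctionFieldBar N) p →+
      Pic0.torsion Qb (modularFunctionFieldBar N) p) := fun ℓ =>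
    { toFun := fun x => ⟨heckeOperatorBar N ℓ.1 (x : JZero N), hecke_mem_torsion p ℓ.1 x.2⟩
      map_zero' := Subtype.ext (map_zero _)
      map_add' := fun x y => Subtype.ext (map_add _ _ _) }
  have hTcomm : ∀ i j x, T i (T j x) = T j (T i x) := by
    intro i j x
    apply Subtype.ext
    exact hecke_comm_torsion hp.pos i.1 j.1
      (fun h => hS i.1 i.2 (Dvd.dvd.mul_right h p)) (fun h => hS j.1 j.2 (Dvd.dvd.mul_right h p))
      x.2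
  have hTlam : ∀ i x, lam (T i x) = θ i.1 • lam x := by
    intro i x
    obtain ⟨a, ha, hax⟩ := hlam i.1 (hS i.1 i.2)
    obtain ⟨a', ha', hmem⟩ := hθ i.1 i.2
    have haa : a = a' := Subtype.ext (ha.trans ha'.symm)
    have h1 := hax x (T i x) rfl
    rw [h1, zsmul_eq_mul]
    congr 1
    rw [haa]
    have h2 := Ideal.Quotient.eq_zero_iff_mem.mpr hmem
    rw [map_sub, sub_eq_zero] at h2
    rw [h2, map_intCast]
  obtain ⟨m, hm0, hm⟩ := RepAlg.exists_eigenvector_of_functional T hTcomm (fun i => θ i.1) lam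
    hTlam hlam0
  refine ⟨(m : JZero N), fun h => hm0 (Subtype.ext h), Pic0.mem_torsion.mp m.2, fun ℓ hℓ => ?_⟩
  exact congrArg Subtype.val (hm ⟨ℓ, hℓ⟩)

/-! ### The eigen-subgroup as a `𝔽_p[G_ℚ]`-module -/

/-- The `θ`-eigen-subgroup of `J₀(N)[p]` for the Hecke operators `T_ℓ`, `ℓ ∈ S`. -/
def eigSub (N p : ℕ) [NeZero N] (S : Set Nat.Primes) (θ : Nat.Primes → ℤ) :
    AddSubgroup (JZero N) where
  carrier := {x | (p : ℤ) • x = 0 ∧ ∀ ℓ ∈ S, heckeOperatorBar N ℓ x = θ ℓ • x}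
  zero_mem' := ⟨zsmul_zero _, fun ℓ _ => by rw [map_zero, zsmul_zero]⟩
  add_mem' := fun {x y} hx hy =>
    ⟨by rw [zsmul_add, hx.1, hy.1, add_zero], fun ℓ hℓ => by
      rw [map_add, hx.2 ℓ hℓ, hy.2 ℓ hℓ, zsmul_add]⟩
  neg_mem' := fun {x} hx =>
    ⟨by rw [zsmul_neg, hx.1, neg_zero], fun ℓ hℓ => by rw [map_neg, hx.2 ℓ hℓ, zsmul_neg]⟩

variable {S : Set Nat.Primes} {θ : Nat.Primes → ℤ}

theorem mem_eigSub {x : JZero N} :
    x ∈ eigSub N p S θ ↔ (p : ℤ) • x = 0 ∧ ∀ ℓ ∈ S, heckeOperatorBar N ℓ x = θ ℓ • x :=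
  Iff.rfl

theorem smul_mem_eigSub (σ : GQ) {x : JZero N} (hx : x ∈ eigSub N p S θ) :
    σ • x ∈ eigSub N p S θ :=
  ⟨by rw [← gal_zsmul, hx.1, gal_zero], fun ℓ hℓ => by
    rw [Cong.heckeGaloisCommute N ℓ σ x, hx.2 ℓ hℓ, gal_zsmul]⟩

noncomputable instance eigSubModule : Module (ZMod p) (eigSub N p S θ) :=
  AddCommGroup.zmodModule fun x => by
    apply Subtype.ext
    have h := x.2.1
    rw [AddSubgroup.coe_nsmul, ← natCast_zsmul]
    exact h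

/-- The action of `σ ∈ G_ℚ` on the eigen-subgroup. -/
noncomputable def galEnd (σ : GQ) : eigSub N p S θ →+ eigSub N p S θ where
  toFun x := ⟨σ • (x : JZero N), smul_mem_eigSub σ x.2⟩
  map_zero' := Subtype.ext (gal_zero σ)
  map_add' _ _ := Subtype.ext (gal_add σ _ _)

/-- The eigen-subgroup as a representation of `G_ℚ` over `𝔽_p`. -/
noncomputable def galRep : GQ →* Module.End (ZMod p) (eigSub N p S θ) where
  toFun σ := (galEnd σ).toZModLinearMap p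
  map_one' := by
    refine LinearMap.ext fun x => Subtype.ext ?_
    exact one_smul GQ (x : JZero N)
  map_mul' σ τ := by
    refine LinearMap.ext fun x => Subtype.ext ?_
    exact mul_smul σ τ (x : JZero N)

theorem coe_galRep_apply (σ : GQ) (x : eigSub N p S θ) :
    ((galRep σ x : eigSub N p S θ) : JZero N) = σ • (x : JZero N) := rfl

theorem coe_intCast_smul (c : ℤ) (x : eigSub N p S θ) :
    (((c : ZMod p) • x : eigSub N p S θ) : JZero N) = c • (x : JZero N) := by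
  rw [Int.cast_smul_eq_zsmul]
  rfl

theorem coe_natCast_smul (c : ℕ) (x : eigSub N p S θ) :
    (((c : ZMod p) • x : eigSub N p S θ) : JZero N) = c • (x : JZero N) := by
  rw [Nat.cast_smul_eq_nsmul]
  rfl

/-! ### The quadratic relation -/

/-- The quadratic relation for a Frobenius element at `ℓ ∈ S`, pointwise. -/
theorem galRep_frob_rel_apply (hS : ∀ ℓ ∈ S, ¬ (ℓ : ℕ) ∣ N * p) (ℓ : Nat.Primes) (hℓ : ℓ ∈ S)
    (A : ValuationSubring Qb) (hA : A.LiesOverPrime ℓ) (σ : GQ) (hσ : A.IsFrobeniusAt σ ℓ)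
    (x : eigSub N p S θ) :
    galRep σ (galRep σ x) - ((θ ℓ : ℤ) : ZMod p) • galRep σ x
      + (((ℓ : ℕ) : ℕ) : ZMod p) • x = 0 := by
  have hES := (RedK.torsionESRelation N p (ℓ : ℕ) ℓ.2 (hS ℓ hℓ) A hA).2 σ hσ (x : JZero N)
    ⟨1, by
      rw [pow_one, ← natCast_zsmul]
      exact x.2.1⟩
  have hT : heckeOperatorBar N ⟨(ℓ : ℕ), ℓ.2⟩ (σ • (x : JZero N)) = θ ℓ • (σ • (x : JZero N)) :=
    (smul_mem_eigSub σ x.2).2 ℓ hℓ
  rw [hT] at hES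
  have e1 : (((θ ℓ : ℤ) : ZMod p) • galRep σ x : eigSub N p S θ) = θ ℓ • galRep σ x :=
    Int.cast_smul_eq_zsmul (ZMod p) (θ ℓ) (galRep σ x)
  have e2 : ((((ℓ : ℕ) : ℕ) : ZMod p) • x : eigSub N p S θ) = (ℓ : ℕ) • x :=
    Nat.cast_smul_eq_nsmul (ZMod p) (ℓ : ℕ) x
  rw [e1, e2]
  exact Subtype.ext hES

/-- The quadratic relation for a Frobenius element at `ℓ ∈ S`. -/
theorem galRep_frob_rel (hS : ∀ ℓ ∈ S, ¬ (ℓ : ℕ) ∣ N * p) (ℓ : Nat.Primes) (hℓ : ℓ ∈ S)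
    (A : ValuationSubring Qb) (hA : A.LiesOverPrime ℓ) (σ : GQ) (hσ : A.IsFrobeniusAt σ ℓ) :
    (galRep σ : Module.End (ZMod p) (eigSub N p S θ)) * galRep σ
      - ((θ ℓ : ℤ) : ZMod p) • galRep σ + (((ℓ : ℕ) : ℕ) : ZMod p) • 1 = 0 :=
  LinearMap.ext fun x => galRep_frob_rel_apply hS ℓ hℓ A hA σ hσ x

/-- An element of `G_ℚ` acting trivially on `J₀(N)[p]` acts trivially on the eigen-subgroup. -/
theorem galRep_eq_one (τ : GQ)
    (hτ : ∀ z ∈ Pic0.torsion Qb (modularFunctionFieldBar N) p, τ • z = z) :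
    (galRep τ : Module.End (ZMod p) (eigSub N p S θ)) = 1 :=
  LinearMap.ext fun x => Subtype.ext (hτ (x : JZero N) (Pic0.mem_torsion.mpr x.2.1))

set_option maxHeartbeats 1000000 in
/-- **(REP-B)** every `g ∈ G_ℚ` satisfies the characteristic polynomial of `ρ g` on the
eigen-subgroup. -/
theorem galRep_rel (hp : p.Prime) (hS : ∀ ℓ ∈ S, ¬ (ℓ : ℕ) ∣ N * p)
    (hSfin : ∃ B : Finset ℕ, ∀ ℓ : Nat.Primes, (ℓ : ℕ) ∉ B → ℓ ∈ S)
    (ρ : GQ →* Matrix (Fin 2) (Fin 2) (ZMod p))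
    (hlevel : ∃ L : IntermediateField ℚ Qb, FiniteDimensional ℚ L ∧
      ∀ τ : GQ, (∀ x ∈ L, τ x = x) → ρ τ = 1)
    (hfrob : ∀ ℓ ∈ S, ∀ A : ValuationSubring Qb, A.LiesOverPrime ℓ → ∀ σ : GQ,
      A.IsFrobeniusAt σ ℓ → (ρ σ).trace = ((θ ℓ : ℤ) : ZMod p) ∧
        (ρ σ).det = (((ℓ : ℕ) : ℕ) : ZMod p))
    (g : GQ) :
    (galRep g : Module.End (ZMod p) (eigSub N p S θ)) * galRep g
      - (ρ g).trace • galRep g + (ρ g).det • 1 = 0 := by
  obtain ⟨LJ, hLJfin, hLJ⟩ := torsionFiniteLevel N p hp.pos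
  obtain ⟨LE, hLEfin, hLE⟩ := hlevel
  obtain ⟨B, hB⟩ := hSfin
  have : FiniteDimensional ℚ (LJ ⊔ LE : IntermediateField ℚ Qb) :=
    IntermediateField.finiteDimensional_sup LJ LE
  obtain ⟨ℓ, hℓ, hℓB, A, σ, k, -, hA, hσ, hgk, -⟩ :=
    Fermat.Agent.Frob.exists_frobenius_generating (LJ ⊔ LE) B g
  have hℓS : (⟨ℓ, hℓ⟩ : Nat.Primes) ∈ S := hB ⟨ℓ, hℓ⟩ hℓB
  -- `τ = g⁻¹ σ^k` is trivial on the level
  have hτ : ∀ x ∈ (LJ ⊔ LE : IntermediateField ℚ Qb), (g⁻¹ * σ ^ k) x = x := by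
    intro x hx
    rw [AlgEquiv.mul_apply, ← hgk x hx]
    exact (AlgEquiv.symm_apply_apply g x)
  have hρτ : ρ (g⁻¹ * σ ^ k) = 1 := hLE _ fun x hx => hτ x (le_sup_right (a := LJ) hx)
  have hρ : ρ g = ρ σ ^ k := RepAlg.map_eq_pow_of_map_eq_one ρ g σ k hρτ
  have haτ : (galRep (g⁻¹ * σ ^ k) : Module.End (ZMod p) (eigSub N p S θ)) = 1 :=
    galRep_eq_one _ fun z hz => hLJ _ (fun y hy => hτ y (le_sup_left (b := LE) hy)) z hz
  have ha : (galRep g : Module.End (ZMod p) (eigSub N p S θ)) = galRep σ ^ k :=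
    RepAlg.map_eq_pow_of_map_eq_one galRep g σ k haτ
  have hF := galRep_frob_rel (θ := θ) hS ⟨ℓ, hℓ⟩ hℓS A hA σ hσ
  obtain ⟨htr, hdet⟩ := hfrob ⟨ℓ, hℓ⟩ hℓS A hA σ hσ
  exact RepAlg.rel_of_pow (ρ g) (ρ σ) (galRep g) (galRep σ) k hρ ha _ _ htr hdet hF

/-! ### The embedding -/

/-- **(REP), `J₀(N)` half**: a representation `ρ : G_ℚ → M₂(𝔽_p)` spanning `M₂(𝔽_p)`, of finite
level, whose Frobenius traces and determinants at the primes of `S` are `(θ ℓ, ℓ)`, embeds into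
the `θ`-eigenspace of `J₀(N)[p]` as soon as `θ` is the reduction of a normalised eigenform of
level `Γ₀(N)`. -/
theorem exists_embedding_of_rho (hp : p.Prime) (hp2 : p ≠ 2) (S : Set Nat.Primes)
    (hS : ∀ ℓ ∈ S, ¬ (ℓ : ℕ) ∣ N * p)
    (hSfin : ∃ B : Finset ℕ, ∀ ℓ : Nat.Primes, (ℓ : ℕ) ∉ B → ℓ ∈ S)
    (θ : Nat.Primes → ℤ)
    (g : CuspForm (Gamma0 N) 2) (hg : g.IsNormalizedEigenform)
    (𝔪 : Ideal (integralClosure ℤ ℂ)) (h𝔪 : 𝔪.IsMaximal) (hp𝔪 : (p : integralClosure ℤ ℂ) ∈ 𝔪)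
    (hθ : ∀ ℓ ∈ S, ∃ a : integralClosure ℤ ℂ, (a : ℂ) = ModularFormClass.qCoeff g ℓ ∧
      a - ((θ ℓ : ℤ) : integralClosure ℤ ℂ) ∈ 𝔪)
    (ρ : GQ →* Matrix (Fin 2) (Fin 2) (ZMod p))
    (hspan : Submodule.span (ZMod p) (Set.range ρ) = ⊤)
    (hlevel : ∃ L : IntermediateField ℚ Qb, FiniteDimensional ℚ L ∧
      ∀ τ : GQ, (∀ x ∈ L, τ x = x) → ρ τ = 1)
    (hfrob : ∀ ℓ ∈ S, ∀ A : ValuationSubring Qb, A.LiesOverPrime ℓ → ∀ σ : GQ,
      A.IsFrobeniusAt σ ℓ → (ρ σ).trace = ((θ ℓ : ℤ) : ZMod p) ∧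
        (ρ σ).det = (((ℓ : ℕ) : ℕ) : ZMod p)) :
    ∃ j : (Fin 2 → ZMod p) →+ JZero N, Function.Injective j ∧ (∀ c, (p : ℤ) • j c = 0) ∧
      (∀ (σ : GQ) c, j ((ρ σ).mulVec c) = σ • j c) ∧
      ∀ ℓ ∈ S, ∀ c, heckeOperatorBar N ℓ (j c) = θ ℓ • j c := by
  classical
  have : Fact p.Prime := ⟨hp⟩
  obtain ⟨x₀, hx₀, hx₀p, hx₀T⟩ := exists_eigenvector hp S hS θ g hg 𝔪 h𝔪 hp𝔪 hθ
  have h2 : IsUnit (2 : ZMod p) := by
    refine IsUnit.mk0 _ fun h => hp2 ?_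
    have h' : ((2 : ℕ) : ZMod p) = 0 := by exact_mod_cast h
    have hdvd : p ∣ 2 := (ZMod.natCast_eq_zero_iff 2 p).mp h'
    exact (Nat.prime_dvd_prime_iff_eq hp Nat.prime_two).mp hdvd
  obtain ⟨X₀, Φ, hΦ⟩ := Fermat.Agent.Lib.GalRep.BLR.exists_equiv ρ
    (galRep : GQ →* Module.End (ZMod p) (eigSub N p S θ))
    (galRep_rel hp hS hSfin ρ hlevel hfrob) h2 hspan
  -- a nonzero element of `X₀`
  obtain ⟨y₀, hy₀⟩ : ∃ y₀ : X₀, y₀ ≠ 0 := by
    by_contra hcon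
    push Not at hcon
    apply hx₀
    have hx₀mem : x₀ ∈ eigSub N p S θ := ⟨hx₀p, hx₀T⟩
    obtain ⟨v, hv⟩ := Φ.surjective ⟨x₀, hx₀mem⟩
    have hv0 : v = 0 := funext fun i => hcon (v i)
    have h0 : (⟨x₀, hx₀mem⟩ : eigSub N p S θ) = 0 :=
      hv.symm.trans ((congrArg Φ hv0).trans (LinearEquiv.map_zero Φ))
    exact congrArg Subtype.val h0
  let L : (Fin 2 → ZMod p) →ₗ[ZMod p] (Fin 2 → X₀) :=
    LinearMap.pi fun i => (LinearMap.proj i : (Fin 2 → ZMod p) →ₗ[ZMod p] ZMod p).smulRight y₀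
  have hL : ∀ c i, L c i = c i • y₀ := fun c i => rfl
  let j : (Fin 2 → ZMod p) →+ JZero N :=
    (eigSub N p S θ).subtype.comp (Φ.toLinearMap.comp L).toAddMonoidHom
  have hj : ∀ c, j c = ((Φ (L c) : eigSub N p S θ) : JZero N) := fun c => rfl
  refine ⟨j, ?_, fun c => (Φ (L c)).2.1, ?_, fun ℓ hℓ c => (Φ (L c)).2.2 ℓ hℓ⟩
  · rw [injective_iff_map_eq_zero]
    intro c hc
    have hc' : ((Φ (L c) : eigSub N p S θ) : JZero N) = 0 := hc
    have h1 : Φ (L c) = 0 := Subtype.ext hc'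
    have h3 : L c = 0 := (LinearEquiv.map_eq_zero_iff Φ).mp h1
    funext i
    have h4 : c i • y₀ = 0 := congrFun h3 i
    exact (smul_eq_zero.mp h4).resolve_right hy₀
  · intro σ c
    have hLeq : L ((ρ σ).mulVec c) = fun i => ∑ k, ρ σ i k • (L c) k := by
      funext i
      show ((ρ σ).mulVec c) i • y₀ = ∑ k, ρ σ i k • (c k • y₀)
      simp only [Matrix.mulVec, dotProduct, Finset.sum_smul, mul_smul]
    have key : Φ (L ((ρ σ).mulVec c)) = galRep σ (Φ (L c)) :=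
      (congrArg Φ hLeq).trans (hΦ σ (L c)).symm
    exact congrArg Subtype.val key

end Fermat.Agent.TR.Hecke.Rep
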