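import Mathlib
import Fermat.Agent.TR.Hecke.RepJ
import Fermat.Agent.TR.Hecke.RepE

/-!
# TR / Hecke side, brick (REP): `E[p]` embeds into `J₀(N)[p]`

`exists_embedding`: for an integral Weierstrass model `W` (`Δ ≠ 0`), an odd prime `p` with `E[p]`
irreducible, and a level `N` at which `W` is residually modular at `p`, there is an injective,
`G_ℚ`-equivariant additive map `j : E[p] → J₀(N)` with image in `J₀(N)[p]` on which every Hecke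
operator `T_ℓ` (`ℓ ∤ N p` a good prime) acts through the integer `a_ℓ(W)`.

Everything is over `𝔽_p` (the eigenvalues are rational integers): no extension of scalars.
-/

set_option autoImplicit false

open CongruenceSubgroup ModularCurve AlgebraicCurve

namespace Fermat.Agent.TR.Hecke.Rep

open Fermat.Agent.S58

/-- **(REP)** `E[p]` embeds Galois- and Hecke-equivariantly into `J₀(N)[p]`. -/
theorem exists_embedding (W : WeierstrassCurve ℤ) (hΔ : W.Δ ≠ 0) {p : ℕ} (hp : p.Prime)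
    (hp2 : p ≠ 2) (hirr : W.ModRepIsIrreducible p) {N : ℕ} [NeZero N]
    (hmod : W.IsResiduallyModularOfLevel p N) :
    ∃ j : Submodule.torsionBy ℤ (EPt W) (p : ℤ) →+ JZero N,
      Function.Injective j ∧ (∀ x, (p : ℤ) • j x = 0) ∧
      (∀ (σ : GQ) x, j (σ • x) = σ • j x) ∧
      ∀ ℓ : Nat.Primes, W.IsGoodPrimeFor ℓ → ¬ (ℓ : ℕ) ∣ N → (ℓ : ℕ) ≠ p → ∀ x,
        heckeOperatorBar N ℓ (j x) = W.apOfModel ℓ • j x := by
  classical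
  obtain ⟨f, 𝔪, hf, h𝔪, hp𝔪, hcong⟩ := hmod
  obtain ⟨ρ, e, he, heq, hspan, hlevel, hfrob⟩ := exists_rho W hΔ hp hp2 hirr
  let S : Set Nat.Primes := {ℓ | W.IsGoodPrimeFor ℓ ∧ ¬ (ℓ : ℕ) ∣ N ∧ (ℓ : ℕ) ≠ p}
  have hS : ∀ ℓ ∈ S, ¬ (ℓ : ℕ) ∣ N * p := by
    rintro ℓ ⟨-, hℓN, hℓp⟩ hdvd
    rcases (Nat.Prime.dvd_mul ℓ.2).mp hdvd with h | h
    · exact hℓN h
    · exact hℓp ((Nat.prime_dvd_prime_iff_eq ℓ.2 hp).mp h)
  have hSfin : ∃ B : Finset ℕ, ∀ ℓ : Nat.Primes, (ℓ : ℕ) ∉ B → ℓ ∈ S := by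
    refine ⟨W.Δ.natAbs.primeFactors ∪ N.primeFactors ∪ {p}, fun ℓ hℓ => ?_⟩
    simp only [Finset.mem_union, Finset.mem_singleton, not_or] at hℓ
    obtain ⟨⟨h1, h2⟩, h3⟩ := hℓ
    refine ⟨fun hdvd => h1 ?_, fun hdvd => h2 ?_, h3⟩
    · rw [Nat.mem_primeFactors]
      exact ⟨ℓ.2, Int.natCast_dvd.mp hdvd, Int.natAbs_ne_zero.mpr hΔ⟩
    · rw [Nat.mem_primeFactors]
      exact ⟨ℓ.2, hdvd, NeZero.ne N⟩
  obtain ⟨j₀, hj₀inj, hj₀p, hj₀gal, hj₀T⟩ := exists_embedding_of_rho hp hp2 S hS hSfin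
    (fun ℓ => W.apOfModel ℓ) f hf 𝔪 h𝔪 hp𝔪
    (fun ℓ hℓ => hcong ℓ ℓ.2 hℓ.1 hℓ.2.1 hℓ.2.2) ρ hspan hlevel
    (fun ℓ hℓ A hA σ hσ => hfrob ℓ ℓ.2 hℓ.2.2 hℓ.1 A hA σ hσ)
  let E : (Fin 2 → ZMod p) ≃+ Submodule.torsionBy ℤ (EPt W) (p : ℤ) := AddEquiv.ofBijective e he
  have hE : ∀ c, E c = e c := fun c => rfl
  refine ⟨j₀.comp E.symm.toAddMonoidHom, hj₀inj.comp E.symm.injective, fun x => hj₀p _, ?_,
    fun ℓ h1 h2 h3 x => hj₀T ℓ ⟨h1, h2, h3⟩ _⟩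
  intro σ x
  show j₀ (E.symm (σ • x)) = σ • j₀ (E.symm x)
  rw [← hj₀gal]
  congr 1
  apply E.injective
  rw [AddEquiv.apply_symm_apply, hE, heq, ← hE, AddEquiv.apply_symm_apply]

end Fermat.Agent.TR.Hecke.Rep
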