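import Mathlib
import Fermat.Agent.TR.Hecke.Rep
import Fermat.Agent.S05.FreyTransfer

/-!
# TR / Hecke side, brick (REP) in the form of the frozen statements

* `exists_embedding_of_model` : `Rep.exists_embedding` for a rational Weierstrass curve `E` with
  an integral model `W` (`C • E = W.map (Int.castRingHom ℚ)`): the carrier of `j` is the
  Prelude's `E[p] = Submodule.torsionBy ℤ (E⁄ℚ̄).Point p` with its Galois action.
* `exists_embedding_frey` : the Frey-package form.  From `hirr` and `hmod : P.ModularRepOfLevel N`: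
  the integral model `W` of `hmod`, and an injective `G_ℚ`-equivariant
  `j : E[p] → J₀(N)` (`E = P.freyCurve`, `p = P.p`) with image in `J₀(N)[p]` on which `T_ℓ` acts
  through `a_ℓ(W)` for every good prime `ℓ ∤ N p`.
-/

set_option autoImplicit false

open CongruenceSubgroup ModularCurve AlgebraicCurve

namespace Fermat.Agent.TR.Hecke.Rep

open Fermat.Agent.S58 WeierstrassCurve WeierstrassCurve.Affine WeierstrassCurve.Affine.Point
open scoped WeierstrassCurve.Affine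

section Transfer

variable {E : WeierstrassCurve ℚ} {W : WeierstrassCurve ℤ} (C : VariableChange ℚ)
  (hC : C • E = W.map (Int.castRingHom ℚ)) (n : ℕ)

/-- The transfer of the `n`-torsion along a change of variables over `ℚ`. -/
noncomputable def torsEquiv :
    Submodule.torsionBy ℤ (EPt W) (n : ℤ) ≃+ Submodule.torsionBy ℤ (E⁄Qb).Point (n : ℤ) where
  toFun x := ⟨Fermat.Agent.S05.Transfer.ratEquiv (K := Qb) C hC (x : EPt W), by
    have hx := x.2
    rw [Submodule.mem_torsionBy_iff] at hx ⊢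
    rw [← map_zsmul, hx, _root_.map_zero]⟩
  invFun y := ⟨(Fermat.Agent.S05.Transfer.ratEquiv (K := Qb) C hC).symm (y : (E⁄Qb).Point), by
    have hy := y.2
    rw [Submodule.mem_torsionBy_iff] at hy ⊢
    rw [← map_zsmul, hy, _root_.map_zero]⟩
  left_inv x := Subtype.ext (AddEquiv.symm_apply_apply _ _)
  right_inv y := Subtype.ext (AddEquiv.apply_symm_apply _ _)
  map_add' x y := Subtype.ext (map_add _ _ _)

theorem torsEquiv_smul (σ : GQ) (x : Submodule.torsionBy ℤ (EPt W) (n : ℤ)) :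
    torsEquiv C hC n (σ • x) = σ • torsEquiv C hC n x :=
  Subtype.ext (Fermat.Agent.S05.Transfer.ratEquiv_smul (K := Qb) C hC σ (x : EPt W))

theorem torsEquiv_symm_smul (σ : GQ) (y : Submodule.torsionBy ℤ (E⁄Qb).Point (n : ℤ)) :
    (torsEquiv C hC n).symm (σ • y) = σ • (torsEquiv C hC n).symm y := by
  apply (torsEquiv C hC n).injective
  rw [torsEquiv_smul, AddEquiv.apply_symm_apply, AddEquiv.apply_symm_apply]

include hC in
/-- Irreducibility passes from `E` to its integral model. -/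
theorem modRepIsIrreducible_of_model
    (hirr : GaloisRepIsIrreducible (K := Qb) ℚ E n) : W.ModRepIsIrreducible n := by
  obtain ⟨hnt, hsub⟩ := hirr
  refine ⟨(torsEquiv C hC n).toEquiv.nontrivial, fun M hM => ?_⟩
  let eL : Submodule.torsionBy ℤ (EPt W) (n : ℤ) →ₗ[ZMod n]
      Submodule.torsionBy ℤ (E⁄Qb).Point (n : ℤ) :=
    (torsEquiv C hC n).toAddMonoidHom.toZModLinearMap n
  have heL : ∀ x, eL x = torsEquiv C hC n x := fun x => rfl
  have hstab : IsGaloisStable ℚ (M.map eL) := by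
    rintro σ _ ⟨x, hx, rfl⟩
    exact ⟨σ • x, hM σ x hx, by rw [heL, heL, torsEquiv_smul]⟩
  rcases hsub (M.map eL) hstab with h | h
  · left
    rw [eq_bot_iff]
    intro x hx
    have h1 : eL x ∈ M.map eL := ⟨x, hx, rfl⟩
    rw [h, Submodule.mem_bot, heL] at h1
    rw [Submodule.mem_bot]
    exact (torsEquiv C hC n).map_eq_zero_iff.mp h1
  · right
    rw [eq_top_iff]
    intro x _
    have h1 : eL x ∈ M.map eL := by
      rw [h]
      trivial
    obtain ⟨x', hx', hxx'⟩ := h1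
    have h2 : x' = x := (torsEquiv C hC n).injective hxx'
    rw [← h2]
    exact hx'

include hC in
/-- The discriminant of an integral model of a curve with `Δ ≠ 0` is nonzero. -/
theorem model_disc_ne_zero (hE : E.Δ ≠ 0) : W.Δ ≠ 0 := by
  intro h0
  have h1 : (C • E).Δ = 0 := by
    rw [hC, map_Δ, h0, _root_.map_zero]
  rw [variableChange_Δ] at h1
  rcases mul_eq_zero.mp h1 with h2 | h2
  · exact (pow_ne_zero 12 (Units.ne_zero _)) h2
  · exact hE h2

end Transfer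

/-- **(REP)** for a rational curve `E` with integral model `W`. -/
theorem exists_embedding_of_model (E : WeierstrassCurve ℚ) (hE : E.Δ ≠ 0)
    {W : WeierstrassCurve ℤ} (hW : W.IsIntegralModelOf E) {p : ℕ} (hp : p.Prime) (hp2 : p ≠ 2)
    (hirr : GaloisRepIsIrreducible (K := Qb) ℚ E p) {N : ℕ} [NeZero N]
    (hmod : W.IsResiduallyModularOfLevel p N) :
    ∃ j : Submodule.torsionBy ℤ (E⁄Qb).Point (p : ℤ) →+ JZero N,
      Function.Injective j ∧ (∀ x, (p : ℤ) • j x = 0) ∧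
      (∀ (σ : GQ) x, j (σ • x) = σ • j x) ∧
      ∀ ℓ : Nat.Primes, W.IsGoodPrimeFor ℓ → ¬ (ℓ : ℕ) ∣ N → (ℓ : ℕ) ≠ p → ∀ x,
        heckeOperatorBar N ℓ (j x) = W.apOfModel ℓ • j x := by
  obtain ⟨C, hC⟩ := hW
  obtain ⟨j, hinj, hjp, hgal, hT⟩ := exists_embedding W (model_disc_ne_zero C hC hE) hp hp2
    (modRepIsIrreducible_of_model C hC p hirr) hmod
  refine ⟨j.comp (torsEquiv C hC p).symm.toAddMonoidHom,
    hinj.comp (torsEquiv C hC p).symm.injective, fun x => hjp _, fun σ x => ?_,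
    fun ℓ h1 h2 h3 x => hT ℓ h1 h2 h3 _⟩
  show j ((torsEquiv C hC p).symm (σ • x)) = σ • j ((torsEquiv C hC p).symm x)
  rw [torsEquiv_symm_smul, hgal]

/-- The discriminant of the Frey curve is nonzero. -/
theorem frey_disc_ne_zero (P : FreyPackage) : P.freyCurve.Δ ≠ 0 := by
  have hFLT : (P.c : ℚ) ^ P.p = (P.a : ℚ) ^ P.p + (P.b : ℚ) ^ P.p := by
    exact_mod_cast P.hFLT.symm
  have h1 : P.freyCurve.a₁ = 1 := rfl
  have h2 : P.freyCurve.a₂ = ((P.b : ℚ) ^ P.p - 1 - (P.a : ℚ) ^ P.p) / 4 := rfl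
  have h3 : P.freyCurve.a₃ = 0 := rfl
  have h4 : P.freyCurve.a₄ = -((P.a : ℚ) ^ P.p) * ((P.b : ℚ) ^ P.p) / 16 := rfl
  have h6 : P.freyCurve.a₆ = 0 := rfl
  have hΔ : P.freyCurve.Δ =
      ((P.a : ℚ) ^ P.p) ^ 2 * ((P.b : ℚ) ^ P.p) ^ 2 * ((P.c : ℚ) ^ P.p) ^ 2 / 256 := by
    simp only [WeierstrassCurve.Δ, WeierstrassCurve.b₂, WeierstrassCurve.b₄, WeierstrassCurve.b₆,
      WeierstrassCurve.b₈, h1, h2, h3, h4, h6, hFLT]
    ring
  rw [hΔ]
  have ha : (P.a : ℚ) ≠ 0 := by exact_mod_cast P.ha0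
  have hb : (P.b : ℚ) ≠ 0 := by exact_mod_cast P.hb0
  have hc : (P.c : ℚ) ≠ 0 := by exact_mod_cast P.hc0
  positivity

/-- **(REP), Frey-package form.** -/
theorem exists_embedding_frey (P : FreyPackage) {N : ℕ} [NeZero N]
    (hirr : GaloisRepIsIrreducible (K := Qb) ℚ P.freyCurve P.p)
    (hmod : P.ModularRepOfLevel N) :
    ∃ W : WeierstrassCurve ℤ, W.IsIntegralModelOf P.freyCurve ∧ W.Δ ≠ 0 ∧
      W.IsResiduallyModularOfLevel P.p N ∧
      ∃ j : Submodule.torsionBy ℤ (P.freyCurve⁄Qb).Point (P.p : ℤ) →+ JZero N,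
        Function.Injective j ∧ (∀ x, (P.p : ℤ) • j x = 0) ∧
        (∀ (σ : GQ) x, j (σ • x) = σ • j x) ∧
        ∀ ℓ : Nat.Primes, W.IsGoodPrimeFor ℓ → ¬ (ℓ : ℕ) ∣ N → (ℓ : ℕ) ≠ P.p → ∀ x,
          heckeOperatorBar N ℓ (j x) = W.apOfModel ℓ • j x := by
  obtain ⟨f, W, 𝔪, hf, hW, h𝔪, hp𝔪, hcong⟩ := hmod
  have hres : W.IsResiduallyModularOfLevel P.p N := ⟨f, 𝔪, hf, h𝔪, hp𝔪, hcong⟩
  have hp2 : P.p ≠ 2 := by
    have := P.hp5
    omega
  obtain ⟨C, hC⟩ := hW
  exact ⟨W, ⟨C, hC⟩, model_disc_ne_zero C hC (frey_disc_ne_zero P), hres,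
    exists_embedding_of_model P.freyCurve (frey_disc_ne_zero P) ⟨C, hC⟩ P.pp hp2 hirr hres⟩

end Fermat.Agent.TR.Hecke.Rep
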