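import Mathlib
import Fermat.Agent.BAD.TwoVal.GaloisPair
import Fermat.Agent.G1.GaloisOps

/-!
# TR (0-SIDE), row 479: the Atkin–Lehner operator on `JZero (M * p)`

Setting of `BAD/TwoVal`: `h : BadSetup A π M p`, `W` an Atkin–Lehner involution of
`F := laurentBaseChange Qb (modularFunctionFieldFull (M * p))` (`hW : IsAL M p W`),
`OZero h W = W⁻¹(OInf h)`, `redZero h W = redInf h ∘ W`.

`alAct W : JZero (M * p) →+ JZero (M * p)` is `x ↦ W • x` (push-forward of divisor classes).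

* `isKummerPair_alAct` : `IsKummerPair n x f → IsKummerPair n (alAct W x) (W f)`;
* `alAct_galois` : `alAct W (σ • x) = σ • alAct W x` for `σ : Qb ≃ₐ[ℚ] Qb`;
* `alAct_alAct`, `alAct_injective`, `alAct_surjective`, `alActEquiv`;
* `kumRedZero_iff` : a Kummer function of `x` in `OZero` with reduction `hbar` is the same as a
  Kummer function of `alAct W x` in `OInf` with reduction `hbar`  (so every `0`-side statement
  about `x` is the `∞`-side statement about `alAct W x`);
* transport of the hypotheses: torsion, Galois-fixedness, Galois-stable subgroups, Hecke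
  eigen-relations (the last one from the commutation `HeckeComm W` of `alAct W` with the Hecke
  operators away from the level);
* `exists_alAct` : the package of row 479 (ruling H#2 §3).
-/

set_option autoImplicit false
set_option linter.unusedSectionVars false

noncomputable section

namespace Fermat.Agent.TR.Hecke.ALAct

open AlgebraicCurve ModularCurve HahnSeries
open Fermat.Agent.BAD.TwoVal Fermat.Agent.ESJ.Jac Fermat.Agent.G1.GaloisOps

local notation "Qb" => AlgebraicClosure ℚ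

section Basic

variable {M p : ℕ} [NeZero M] [NeZero p]

/-- The Atkin–Lehner operator `x ↦ W • x` on `JZero (M * p)`. -/
def alAct (W : laurentBaseChange Qb (modularFunctionFieldFull (M * p)) ≃ₐ[Qb]
    laurentBaseChange Qb (modularFunctionFieldFull (M * p))) : JZero (M * p) →+ JZero (M * p) :=
  autOp W

variable {W : laurentBaseChange Qb (modularFunctionFieldFull (M * p)) ≃ₐ[Qb]
    laurentBaseChange Qb (modularFunctionFieldFull (M * p))}

theorem alAct_apply (x : JZero (M * p)) : alAct W x = W • x := rfl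

theorem alAct_eq_autOp : alAct W = autOp W := rfl

/-- (i) Kummer pairs are transported by `W`. -/
theorem isKummerPair_alAct {n : ℕ} {x : JZero (M * p)}
    {f : laurentBaseChange Qb (modularFunctionFieldFull (M * p))} (hf : IsKummerPair n x f) :
    IsKummerPair n (alAct W x) (W f) :=
  hf.smul W

/-- (ii) `alAct W` commutes with the Galois action on `JZero (M * p)`. -/
theorem alAct_galois (hW : IsAL M p W) (hp : p.Prime) (hpM : ¬ p ∣ M) (σ : Qb ≃ₐ[ℚ] Qb)
    (x : JZero (M * p)) : alAct W (σ • x) = σ • alAct W x :=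
  comm_autOp W σ (fun f => hW.galois_comm hp hpM σ f) x

/-- `alAct W` is an involution. -/
theorem alAct_alAct (hW : IsAL M p W) (hp : p.Prime) (hpM : ¬ p ∣ M) (x : JZero (M * p)) :
    alAct W (alAct W x) = x := by
  have hWW : W * W = 1 := AlgEquiv.ext fun z => hW.invol hp hpM z
  rw [alAct_apply, alAct_apply, ← mul_smul, hWW, one_smul]

/-- (iv) `alAct W` is injective. -/
theorem alAct_injective (hW : IsAL M p W) (hp : p.Prime) (hpM : ¬ p ∣ M) :
    Function.Injective (alAct W) :=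
  Function.LeftInverse.injective (alAct_alAct hW hp hpM)

theorem alAct_surjective (hW : IsAL M p W) (hp : p.Prime) (hpM : ¬ p ∣ M) :
    Function.Surjective (alAct W) :=
  fun x => ⟨alAct W x, alAct_alAct hW hp hpM x⟩

theorem alAct_bijective (hW : IsAL M p W) (hp : p.Prime) (hpM : ¬ p ∣ M) :
    Function.Bijective (alAct W) :=
  ⟨alAct_injective hW hp hpM, alAct_surjective hW hp hpM⟩

/-- `alAct W` as an additive automorphism. -/
def alActEquiv (hW : IsAL M p W) (hp : p.Prime) (hpM : ¬ p ∣ M) :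
    JZero (M * p) ≃+ JZero (M * p) :=
  { alAct W with
    invFun := alAct W
    left_inv := alAct_alAct hW hp hpM
    right_inv := alAct_alAct hW hp hpM }

theorem alActEquiv_apply (hW : IsAL M p W) (hp : p.Prime) (hpM : ¬ p ∣ M) (x : JZero (M * p)) :
    alActEquiv hW hp hpM x = alAct W x := rfl

theorem alAct_eq_zero_iff (hW : IsAL M p W) (hp : p.Prime) (hpM : ¬ p ∣ M) {x : JZero (M * p)} :
    alAct W x = 0 ↔ x = 0 :=
  map_eq_zero_iff _ (alAct_injective hW hp hpM)

/-! ### Transport of the hypotheses -/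

/-- Torsion is preserved. -/
theorem alAct_nsmul_eq_zero {n : ℕ} {x : JZero (M * p)} (hx : n • x = 0) :
    n • alAct W x = 0 := by
  rw [← map_nsmul, hx, map_zero]

theorem alAct_nsmul_eq_zero_iff (hW : IsAL M p W) (hp : p.Prime) (hpM : ¬ p ∣ M) {n : ℕ}
    {x : JZero (M * p)} : n • alAct W x = 0 ↔ n • x = 0 := by
  rw [← map_nsmul, alAct_eq_zero_iff hW hp hpM]

/-- Galois-fixedness is preserved. -/
theorem alAct_fixed (hW : IsAL M p W) (hp : p.Prime) (hpM : ¬ p ∣ M) {σ : Qb ≃ₐ[ℚ] Qb}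
    {x : JZero (M * p)} (hx : σ • x = x) : σ • alAct W x = alAct W x := by
  rw [← alAct_galois hW hp hpM, hx]

theorem alAct_fixed_iff (hW : IsAL M p W) (hp : p.Prime) (hpM : ¬ p ∣ M) {σ : Qb ≃ₐ[ℚ] Qb}
    {x : JZero (M * p)} : σ • alAct W x = alAct W x ↔ σ • x = x := by
  rw [← alAct_galois hW hp hpM]
  exact (alAct_injective hW hp hpM).eq_iff

/-- The Galois defect `σ • x - x` is transported. -/
theorem alAct_galois_sub (hW : IsAL M p W) (hp : p.Prime) (hpM : ¬ p ∣ M) (σ : Qb ≃ₐ[ℚ] Qb)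
    (x : JZero (M * p)) : σ • alAct W x - alAct W x = alAct W (σ • x - x) := by
  rw [map_sub, alAct_galois hW hp hpM]

/-- The image of a Galois-stable subgroup is Galois-stable. -/
theorem map_alAct_galois_stable (hW : IsAL M p W) (hp : p.Prime) (hpM : ¬ p ∣ M)
    {V : AddSubgroup (JZero (M * p))} {σ : Qb ≃ₐ[ℚ] Qb} (hV : ∀ x ∈ V, σ • x ∈ V) :
    ∀ y ∈ V.map (alAct W), σ • y ∈ V.map (alAct W) := by
  rintro _ ⟨x, hx, rfl⟩
  exact ⟨σ • x, hV x hx, alAct_galois hW hp hpM σ x⟩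

/-- The image of a subgroup under `alAct W` has the same cardinality. -/
theorem card_map_alAct (hW : IsAL M p W) (hp : p.Prime) (hpM : ¬ p ∣ M)
    (V : AddSubgroup (JZero (M * p))) : Nat.card (V.map (alAct W)) = Nat.card V :=
  Nat.card_congr ((V.equivMapOfInjective (alAct W) (alAct_injective hW hp hpM)).symm.toEquiv)

theorem mem_map_alAct_iff (hW : IsAL M p W) (hp : p.Prime) (hpM : ¬ p ∣ M)
    {V : AddSubgroup (JZero (M * p))} {y : JZero (M * p)} :
    y ∈ V.map (alAct W) ↔ alAct W y ∈ V := by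
  constructor
  · rintro ⟨x, hx, rfl⟩
    rwa [alAct_alAct hW hp hpM]
  · intro hy
    exact ⟨alAct W y, hy, alAct_alAct hW hp hpM y⟩

/-! ### Hecke operators -/

/-- The commutation of `alAct W` with the Hecke operators `T_ℓ`, `ℓ ∤ M * p`
(the hypothesis `hWT`; a theorem by the Atkin–Lehner involution of level `(M ℓ) p`). -/
def HeckeComm (W : laurentBaseChange Qb (modularFunctionFieldFull (M * p)) ≃ₐ[Qb]
    laurentBaseChange Qb (modularFunctionFieldFull (M * p))) : Prop :=
  ∀ ℓ : Nat.Primes, ¬ (ℓ : ℕ) ∣ M * p → ∀ x : JZero (M * p),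
    heckeOperatorBar (M * p) ℓ (W • x) = W • heckeOperatorBar (M * p) ℓ x

/-- (iii) `alAct W` commutes with the Hecke operators away from the level. -/
theorem alAct_hecke (hWT : HeckeComm W) (ℓ : Nat.Primes) (hℓ : ¬ (ℓ : ℕ) ∣ M * p)
    (x : JZero (M * p)) :
    alAct W (heckeOperatorBar (M * p) ℓ x) = heckeOperatorBar (M * p) ℓ (alAct W x) :=
  (hWT ℓ hℓ x).symm

/-- Hecke eigen-relations are transported. -/
theorem alAct_eigen (hWT : HeckeComm W) (ℓ : Nat.Primes) (hℓ : ¬ (ℓ : ℕ) ∣ M * p) {a : ℤ}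
    {x : JZero (M * p)} (hx : heckeOperatorBar (M * p) ℓ x = a • x) :
    heckeOperatorBar (M * p) ℓ (alAct W x) = a • alAct W x := by
  rw [← alAct_hecke hWT ℓ hℓ, hx, map_zsmul]

theorem alAct_eigen_iff (hW : IsAL M p W) (hp : p.Prime) (hpM : ¬ p ∣ M) (hWT : HeckeComm W)
    (ℓ : Nat.Primes) (hℓ : ¬ (ℓ : ℕ) ∣ M * p) {a : ℤ} {x : JZero (M * p)} :
    heckeOperatorBar (M * p) ℓ (alAct W x) = a • alAct W x ↔
      heckeOperatorBar (M * p) ℓ x = a • x := by
  rw [← alAct_hecke hWT ℓ hℓ, ← map_zsmul]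
  exact (alAct_injective hW hp hpM).eq_iff

/-- The image of a Hecke-stable subgroup is Hecke-stable. -/
theorem map_alAct_hecke_stable (hWT : HeckeComm W) (ℓ : Nat.Primes) (hℓ : ¬ (ℓ : ℕ) ∣ M * p)
    {V : AddSubgroup (JZero (M * p))} (hV : ∀ x ∈ V, heckeOperatorBar (M * p) ℓ x ∈ V) :
    ∀ y ∈ V.map (alAct W), heckeOperatorBar (M * p) ℓ y ∈ V.map (alAct W) := by
  rintro _ ⟨x, hx, rfl⟩
  exact ⟨heckeOperatorBar (M * p) ℓ x, hV x hx, alAct_hecke hWT ℓ hℓ x⟩

end Basic

/-! ### The two Gauss valuations -/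

section Red

variable {A : ValuationSubring Qb} {k : Type} [Field k] {π : A →+* k} {M p : ℕ} [NeZero M]
  [NeZero p]
variable {W : laurentBaseChange Qb (modularFunctionFieldFull (M * p)) ≃ₐ[Qb]
    laurentBaseChange Qb (modularFunctionFieldFull (M * p))}

/-- (v) `O_0 = W⁻¹(O_∞)`. -/
theorem mem_OZero_iff_W (h : BadSetup A π M p)
    (f : laurentBaseChange Qb (modularFunctionFieldFull (M * p))) :
    f ∈ OZero h W ↔ W f ∈ OInf h := Iff.rfl

/-- (v) `red_0 = red_∞ ∘ W`. -/
theorem redZero_eq_redInf_W (h : BadSetup A π M p)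
    (f : laurentBaseChange Qb (modularFunctionFieldFull (M * p))) (hf : f ∈ OZero h W) :
    redZero h W ⟨f, hf⟩ = redInf h ⟨W f, hf⟩ := rfl

theorem W_mem_OZero_iff (h : BadSetup A π M p) (hW : IsAL M p W) (hp : p.Prime) (hpM : ¬ p ∣ M)
    (f : laurentBaseChange Qb (modularFunctionFieldFull (M * p))) :
    W f ∈ OZero h W ↔ f ∈ OInf h := by
  rw [mem_OZero_iff_W, hW.invol hp hpM]

theorem W_mem_OZero (h : BadSetup A π M p) (hW : IsAL M p W) (hp : p.Prime) (hpM : ¬ p ∣ M)
    {f : laurentBaseChange Qb (modularFunctionFieldFull (M * p))} (hf : f ∈ OInf h) :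
    W f ∈ OZero h W :=
  (W_mem_OZero_iff h hW hp hpM f).mpr hf

/-- `red_0 (W f) = red_∞ f`. -/
theorem redZero_W (h : BadSetup A π M p) (hW : IsAL M p W) (hp : p.Prime) (hpM : ¬ p ∣ M)
    (f : laurentBaseChange Qb (modularFunctionFieldFull (M * p))) (hf : f ∈ OInf h) :
    redZero h W ⟨W f, W_mem_OZero h hW hp hpM hf⟩ = redInf h ⟨f, hf⟩ := by
  rw [redZero_eq_redInf_W]
  exact redInf_congr h (hW.invol hp hpM f) _ _

/-- **(0-SIDE) for Kummer functions**: a Kummer function of `x` in `O_0` with reduction `hbar`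
is the same thing as a Kummer function of `alAct W x` in `O_∞` with reduction `hbar`. -/
theorem kumRedZero_iff (h : BadSetup A π M p) (hW : IsAL M p W) (hp : p.Prime) (hpM : ¬ p ∣ M)
    (n : ℕ) (x : JZero (M * p)) (hbar : ↥(modularFunctionFieldFullC k M)) :
    (∃ f, IsKummerPair n x f ∧ ∃ hf : f ∈ OZero h W, redZero h W ⟨f, hf⟩ = hbar) ↔
      ∃ g, IsKummerPair n (alAct W x) g ∧ ∃ hg : g ∈ OInf h, redInf h ⟨g, hg⟩ = hbar := by
  constructor
  · rintro ⟨f, hf, hfO, hred⟩
    exact ⟨W f, isKummerPair_alAct hf, hfO, hred⟩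
  · rintro ⟨g, hg, hgO, hred⟩
    have hg' : IsKummerPair n x (W g) := by
      have := isKummerPair_alAct (W := W) hg
      rwa [alAct_alAct hW hp hpM] at this
    exact ⟨W g, hg', W_mem_OZero h hW hp hpM hgO, (redZero_W h hW hp hpM g hgO).trans hred⟩

/-- The same with `alAct W x` on the `0`-side. -/
theorem kumRedZero_alAct_iff (h : BadSetup A π M p) (hW : IsAL M p W) (hp : p.Prime)
    (hpM : ¬ p ∣ M) (n : ℕ) (x : JZero (M * p)) (hbar : ↥(modularFunctionFieldFullC k M)) :
    (∃ f, IsKummerPair n (alAct W x) f ∧ ∃ hf : f ∈ OZero h W, redZero h W ⟨f, hf⟩ = hbar) ↔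
      ∃ g, IsKummerPair n x g ∧ ∃ hg : g ∈ OInf h, redInf h ⟨g, hg⟩ = hbar := by
  rw [kumRedZero_iff h hW hp hpM, alAct_alAct hW hp hpM]

/-- Unit form: a Kummer function of `x` which is a unit of `O_0`, transported. -/
theorem kumUnitZero_iff (h : BadSetup A π M p) (hW : IsAL M p W) (hp : p.Prime) (hpM : ¬ p ∣ M)
    (n : ℕ) (x : JZero (M * p)) (hbar : ↥(modularFunctionFieldFullC k M)) :
    (∃ f, IsKummerPair n x f ∧ f⁻¹ ∈ OZero h W ∧
        ∃ hf : f ∈ OZero h W, redZero h W ⟨f, hf⟩ = hbar) ↔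
      ∃ g, IsKummerPair n (alAct W x) g ∧ g⁻¹ ∈ OInf h ∧
        ∃ hg : g ∈ OInf h, redInf h ⟨g, hg⟩ = hbar := by
  constructor
  · rintro ⟨f, hf, hfi, hfO, hred⟩
    refine ⟨W f, isKummerPair_alAct hf, ?_, hfO, hred⟩
    rw [← map_inv₀]
    exact hfi
  · rintro ⟨g, hg, hgi, hgO, hred⟩
    have hg' : IsKummerPair n x (W g) := by
      have := isKummerPair_alAct (W := W) hg
      rwa [alAct_alAct hW hp hpM] at this
    refine ⟨W g, hg', ?_, W_mem_OZero h hW hp hpM hgO, (redZero_W h hW hp hpM g hgO).trans hred⟩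
    rw [← map_inv₀]
    exact W_mem_OZero h hW hp hpM hgi

/-- **Row 479 (ruling H#2 §3)**: the Atkin–Lehner operator `w` on `JZero (M * p)`:
(i) Kummer pairs, (ii) Galois-equivariant, (iii) Hecke-equivariant away from the level,
(iv) injective (an involution), (v) `O_0 = W⁻¹ O_∞`, `red_0 = red_∞ ∘ W`. -/
theorem exists_alAct (h : BadSetup A π M p) (hW : IsAL M p W)
    (hWT : HeckeComm W) :
    ∃ w : JZero (M * p) →+ JZero (M * p),
      (∀ (n : ℕ) (x : JZero (M * p)) (f : laurentBaseChange Qb (modularFunctionFieldFull (M * p))),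
        IsKummerPair n x f → IsKummerPair n (w x) (W f)) ∧
      (∀ (σ : Qb ≃ₐ[ℚ] Qb) (x : JZero (M * p)), w (σ • x) = σ • w x) ∧
      (∀ ℓ : Nat.Primes, ¬ (ℓ : ℕ) ∣ M * p → ∀ x : JZero (M * p),
        w (heckeOperatorBar (M * p) ℓ x) = heckeOperatorBar (M * p) ℓ (w x)) ∧
      Function.Injective w ∧ (∀ x, w (w x) = x) ∧
      (∀ f : laurentBaseChange Qb (modularFunctionFieldFull (M * p)),
        f ∈ OZero h W ↔ W f ∈ OInf h) ∧
      (∀ (f : laurentBaseChange Qb (modularFunctionFieldFull (M * p))) (hf : f ∈ OZero h W),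
        redZero h W ⟨f, hf⟩ = redInf h ⟨W f, hf⟩) ∧
      ∀ x, w x = W • x :=
  ⟨alAct W, fun _ _ _ hf => isKummerPair_alAct hf, alAct_galois hW h.hℓ h.not_dvd,
    fun ℓ hℓ x => alAct_hecke hWT ℓ hℓ x, alAct_injective hW h.hℓ h.not_dvd,
    alAct_alAct hW h.hℓ h.not_dvd, fun _ => Iff.rfl, fun _ _ => rfl, fun _ => rfl⟩

end Red

end Fermat.Agent.TR.Hecke.ALAct
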