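import Mathlib
import Fermat.Agent.CAR.V3.AL3
import Fermat.Agent.ESJ.Cong.Comm
import Fermat.Agent.ESJ.Jac.HeckeKummer
import Fermat.Agent.G1.GaloisOps

/-!
# TR / Hecke side: the Atkin–Lehner involution commutes with the Hecke correspondences

Setting: `L ⊇ ℚ` a field, `p ∤ M` a prime, `W` an Atkin–Lehner involution of
`F_{Mp} := laurentBaseChange L (modularFunctionFieldFull (M * p))` (`IsAL M p W`: `W ∘ α_p = β_p`,
`W ∘ β_p = α_p`), and `ℓ` prime to `p`.

* `exists_lift_of_not_dvd`, `exists_lift` : there is an `L`-automorphism `W'` of `F_{Mpℓ}` with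
  `W' ∘ α_ℓ = α_ℓ ∘ W` and `W' ∘ β_ℓ = β_ℓ ∘ W` (`W'` is the Atkin–Lehner involution at `p` of
  level `(M ℓ) p`, transported along `F_{M ℓ p} = F_{M p ℓ}`; the two identities are checked on
  the generators `α_p(F_M)`, `β_p(F_M)` of `F_{Mp}`, where they are identities of `q`-series);
* `norm_lift`, `normAlong_lift`, `normAlong_beta_lift` : `W (Nm_{α_ℓ} z) = Nm_{α_ℓ} (W' z)`, hence
  `W (Nm_{α_ℓ} (β_ℓ f)) = Nm_{α_ℓ} (β_ℓ (W f))`: the Hecke norm `f ↦ Nm_{α_ℓ} (β_ℓ f)` commutes
  with `W`;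
* `intertwines_alpha`, `intertwines_beta`, `heckeOperatorAlong_ofAlgAut`,
  `heckeOperatorBar_ofAlgAut` : the Hecke operator `T_ℓ` of `Pic0 (F_{Mp})` (`JZero (M * p)`)
  commutes with the action of `W` (as the semilinear automorphism `SemilinearAut.ofAlgAut W`).
-/

set_option autoImplicit false
set_option linter.style.haveILetI false

noncomputable section

namespace Fermat.Agent.TR.Hecke.ALHecke

open AlgebraicCurve ModularCurve IntermediateField HahnSeries
open Fermat.Agent.ESJ.Cong.LevelGen Fermat.Agent.BAD.TwoVal Fermat.Agent.ESJ.Cong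
open Fermat.Agent.ESJ.Jac.HeckeKummer Fermat.Agent.G1.GaloisOps

/-! ### Generic: two ring homomorphisms out of `F_{Mp}` agreeing on `α_p(F_M)` and `β_p(F_M)` -/

section Gens

variable {L : Type*} [Field L] [Algebra ℚ L] (M p : ℕ) [NeZero M] [NeZero p]

/-- Two ring homomorphisms out of `F_{Mp}` which agree on `α_p(F_M)` and on `β_p(F_M)` are
equal. -/
theorem eq_of_alpha_beta {R : Type*} [Semiring R] [Nontrivial R] (hp : p.Prime) (hpM : ¬ p ∣ M)
    (f g : laurentBaseChange L (modularFunctionFieldFull (M * p)) →+* R)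
    (hα : ∀ x, f (heckeAlphaBar L M p x) = g (heckeAlphaBar L M p x))
    (hβ : ∀ x, f (heckeBetaBar L M p x) = g (heckeBetaBar L M p x))
    (y : laurentBaseChange L (modularFunctionFieldFull (M * p))) : f y = g y := by
  have hle : Subfield.closure (Set.range (heckeAlphaBar L M p) ∪
      {heckeBetaBar L M p (jLevel L M)}) ≤ f.eqLocusField g := by
    rw [Subfield.closure_le]
    rintro z (⟨x, rfl⟩ | hz)
    · exact hα x
    · rw [Set.mem_singleton_iff] at hz
      rw [hz]
      exact hβ _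
  rw [closure_range_heckeAlphaBar_union L M p hp hpM] at hle
  exact hle (Subfield.mem_top y)

end Gens

/-! ### The lift of `W` to level `M p ℓ` -/

/-- The underlying element of `IntermediateField.equivOfEq`. -/
theorem coe_equivOfEq_aux {K E : Type*} [Field K] [Field E] [Algebra K E]
    {S T : IntermediateField K E} (h : S = T) (x : S) :
    ((IntermediateField.equivOfEq h x : T) : E) = (x : E) := by
  subst h
  rfl

section Lift

variable {L : Type} [Field L] [Algebra ℚ L] (M p ℓ : ℕ) [NeZero M] [NeZero p] [NeZero ℓ]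

omit [NeZero M] [NeZero p] [NeZero ℓ] in
theorem bar_mul_right_comm :
    laurentBaseChange L (modularFunctionFieldFull (M * ℓ * p)) =
      laurentBaseChange L (modularFunctionFieldFull (M * p * ℓ)) := by
  rw [mul_right_comm]

variable (L) in
/-- The identification `F_{M ℓ p} = F_{M p ℓ}`. -/
def swapLevel : laurentBaseChange L (modularFunctionFieldFull (M * ℓ * p)) ≃ₐ[L]
    laurentBaseChange L (modularFunctionFieldFull (M * p * ℓ)) :=
  IntermediateField.equivOfEq (bar_mul_right_comm M p ℓ)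

omit [NeZero M] [NeZero p] [NeZero ℓ] in
@[simp]
theorem coe_swapLevel (x : laurentBaseChange L (modularFunctionFieldFull (M * ℓ * p))) :
    ((swapLevel L M p ℓ x : laurentBaseChange L (modularFunctionFieldFull (M * p * ℓ))) :
      LaurentSeries L) = (x : LaurentSeries L) :=
  coe_equivOfEq_aux (bar_mul_right_comm M p ℓ) x

omit [NeZero M] [Algebra ℚ L] in
theorem qExpand_swap (x : LaurentSeries L) :
    qExpand L p (qExpand L ℓ x) = qExpand L ℓ (qExpand L p x) := by
  rw [qExpand_qExpand, qExpand_qExpand]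
  exact qExpand_congr (mul_comm p ℓ) x

/-- **The Atkin–Lehner involution at `p` lifts along the degeneracy maps at `ℓ`** (`ℓ` prime to
`p`, not necessarily prime): there is an automorphism `W'` of `F_{M p ℓ}` with
`W' ∘ α_ℓ = α_ℓ ∘ W` and `W' ∘ β_ℓ = β_ℓ ∘ W`. -/
theorem exists_lift_of_not_dvd
    {W : laurentBaseChange L (modularFunctionFieldFull (M * p)) ≃ₐ[L]
      laurentBaseChange L (modularFunctionFieldFull (M * p))}
    (hW : IsAL M p W) (hp : p.Prime) (hpM : ¬ p ∣ M) (hpℓ : ¬ p ∣ ℓ) :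
    ∃ W' : laurentBaseChange L (modularFunctionFieldFull (M * p * ℓ)) ≃ₐ[L]
        laurentBaseChange L (modularFunctionFieldFull (M * p * ℓ)),
      (∀ y, W' (heckeAlphaBar L (M * p) ℓ y) = heckeAlphaBar L (M * p) ℓ (W y)) ∧
      (∀ y, W' (heckeBetaBar L (M * p) ℓ y) = heckeBetaBar L (M * p) ℓ (W y)) := by
  have hpMℓ : ¬ p ∣ M * ℓ := fun h => (hp.dvd_mul.mp h).elim hpM hpℓ
  obtain ⟨W₀, hW₀⟩ := Fermat.Agent.CAR.V3.AL3.exists_isAL_of_charZero (L := L) (M * ℓ) p hp hpMℓ
  set e := swapLevel L M p ℓ with he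
  set W' : laurentBaseChange L (modularFunctionFieldFull (M * p * ℓ)) ≃ₐ[L]
      laurentBaseChange L (modularFunctionFieldFull (M * p * ℓ)) := (e.symm.trans W₀).trans e
    with hW'
  have hW'e : ∀ z, W' (e z) = e (W₀ z) := fun z => by
    rw [hW']
    show e (W₀ (e.symm (e z))) = e (W₀ z)
    rw [AlgEquiv.symm_apply_apply]
  have hWα : ∀ x, W' (e (heckeAlphaBar L (M * ℓ) p x)) = e (heckeBetaBar L (M * ℓ) p x) :=
    fun x => by rw [hW'e, hW₀.alpha]
  have hWβ : ∀ x, W' (e (heckeBetaBar L (M * ℓ) p x)) = e (heckeAlphaBar L (M * ℓ) p x) :=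
    fun x => by rw [hW'e, hW₀.beta]
  -- the four commutative squares of degeneracy maps
  have sq1 : ∀ x : laurentBaseChange L (modularFunctionFieldFull M),
      heckeAlphaBar L (M * p) ℓ (heckeAlphaBar L M p x) =
        e (heckeAlphaBar L (M * ℓ) p (heckeAlphaBar L M ℓ x)) := fun x => by
    apply Subtype.ext
    rw [coe_swapLevel, coe_heckeAlphaBar, coe_heckeAlphaBar, coe_heckeAlphaBar, coe_heckeAlphaBar]
  have sq2 : ∀ x : laurentBaseChange L (modularFunctionFieldFull M),
      heckeAlphaBar L (M * p) ℓ (heckeBetaBar L M p x) =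
        e (heckeBetaBar L (M * ℓ) p (heckeAlphaBar L M ℓ x)) := fun x => by
    apply Subtype.ext
    rw [coe_swapLevel, coe_heckeAlphaBar, coe_heckeBetaBar, coe_heckeBetaBar, coe_heckeAlphaBar]
  have sq3 : ∀ x : laurentBaseChange L (modularFunctionFieldFull M),
      heckeBetaBar L (M * p) ℓ (heckeAlphaBar L M p x) =
        e (heckeAlphaBar L (M * ℓ) p (heckeBetaBar L M ℓ x)) := fun x => by
    apply Subtype.ext
    rw [coe_swapLevel, coe_heckeBetaBar, coe_heckeAlphaBar, coe_heckeAlphaBar, coe_heckeBetaBar]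
  have sq4 : ∀ x : laurentBaseChange L (modularFunctionFieldFull M),
      heckeBetaBar L (M * p) ℓ (heckeBetaBar L M p x) =
        e (heckeBetaBar L (M * ℓ) p (heckeBetaBar L M ℓ x)) := fun x => by
    apply Subtype.ext
    rw [coe_swapLevel, coe_heckeBetaBar, coe_heckeBetaBar, coe_heckeBetaBar, coe_heckeBetaBar,
      qExpand_swap]
  refine ⟨W', fun y => ?_, fun y => ?_⟩
  · refine eq_of_alpha_beta M p hp hpM
      ((W'.toRingEquiv.toRingHom).comp (heckeAlphaBar L (M * p) ℓ).toRingHom)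
      ((heckeAlphaBar L (M * p) ℓ).toRingHom.comp W.toRingEquiv.toRingHom) (fun x => ?_)
      (fun x => ?_) y
    · show W' (heckeAlphaBar L (M * p) ℓ (heckeAlphaBar L M p x)) =
        heckeAlphaBar L (M * p) ℓ (W (heckeAlphaBar L M p x))
      rw [sq1, hWα, hW.alpha, sq2]
    · show W' (heckeAlphaBar L (M * p) ℓ (heckeBetaBar L M p x)) =
        heckeAlphaBar L (M * p) ℓ (W (heckeBetaBar L M p x))
      rw [sq2, hWβ, hW.beta, sq1]
  · refine eq_of_alpha_beta M p hp hpM
      ((W'.toRingEquiv.toRingHom).comp (heckeBetaBar L (M * p) ℓ).toRingHom)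
      ((heckeBetaBar L (M * p) ℓ).toRingHom.comp W.toRingEquiv.toRingHom) (fun x => ?_)
      (fun x => ?_) y
    · show W' (heckeBetaBar L (M * p) ℓ (heckeAlphaBar L M p x)) =
        heckeBetaBar L (M * p) ℓ (W (heckeAlphaBar L M p x))
      rw [sq3, hWα, hW.alpha, sq4]
    · show W' (heckeBetaBar L (M * p) ℓ (heckeBetaBar L M p x)) =
        heckeBetaBar L (M * p) ℓ (W (heckeBetaBar L M p x))
      rw [sq4, hWβ, hW.beta, sq3]

/-- `exists_lift_of_not_dvd` for a prime `ℓ ∤ M p`. -/
theorem exists_lift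
    {W : laurentBaseChange L (modularFunctionFieldFull (M * p)) ≃ₐ[L]
      laurentBaseChange L (modularFunctionFieldFull (M * p))}
    (hW : IsAL M p W) (hp : p.Prime) (hpM : ¬ p ∣ M) (hℓ : ℓ.Prime) (hℓMp : ¬ ℓ ∣ M * p) :
    ∃ W' : laurentBaseChange L (modularFunctionFieldFull (M * p * ℓ)) ≃ₐ[L]
        laurentBaseChange L (modularFunctionFieldFull (M * p * ℓ)),
      (∀ y, W' (heckeAlphaBar L (M * p) ℓ y) = heckeAlphaBar L (M * p) ℓ (W y)) ∧
      (∀ y, W' (heckeBetaBar L (M * p) ℓ y) = heckeBetaBar L (M * p) ℓ (W y)) := by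
  refine exists_lift_of_not_dvd M p ℓ hW hp hpM (fun h => hℓMp ?_)
  rw [(Nat.prime_dvd_prime_iff_eq hp hℓ).mp h]
  exact dvd_mul_left ℓ M

end Lift

/-! ### Norms -/

section NormAbs

variable {K F F' : Type*} [Field K] [Field F] [Field F'] [Algebra K F] [Algebra K F']

/-- The norm along `φ` is equivariant for a pair of ring automorphisms intertwined by `φ`. -/
theorem normAlong_equiv (φ : F →ₐ[K] F') (W : F ≃+* F) (W' : F' ≃+* F')
    (h : ∀ y, W' (φ y) = φ (W y)) (z : F') :
    W (normAlong φ z) = normAlong φ (W' z) := by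
  letI := algebraAlong φ
  have he : RingHom.comp (algebraMap F F') (W : F →+* F) =
      RingHom.comp (W' : F' →+* F') (algebraMap F F') := by
    ext y
    exact (h y).symm
  have h1 := Algebra.norm_eq_of_equiv_equiv W W' he z
  show W (Algebra.norm F z) = Algebra.norm F (W' z)
  rw [h1, RingEquiv.apply_symm_apply]

/-- The correspondence norm `f ↦ Nm_φ (ψ f)` commutes with a pair of automorphisms intertwined
by both `φ` and `ψ`. -/
theorem normAlong_comp_equiv (φ ψ : F →ₐ[K] F') (W : F ≃+* F) (W' : F' ≃+* F')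
    (hφ : ∀ y, W' (φ y) = φ (W y)) (hψ : ∀ y, W' (ψ y) = ψ (W y)) (f : F) :
    W (normAlong φ (ψ f)) = normAlong φ (ψ (W f)) := by
  rw [normAlong_equiv φ W W' hφ, hψ]

end NormAbs

section Norm

variable {L : Type} [Field L] [Algebra ℚ L] (M p ℓ : ℕ) [NeZero M] [NeZero p] [NeZero ℓ]
  {W : laurentBaseChange L (modularFunctionFieldFull (M * p)) ≃ₐ[L]
    laurentBaseChange L (modularFunctionFieldFull (M * p))}

/-- `W (Nm_{α_ℓ} z) = Nm_{α_ℓ} (W' z)` for every lift `W'` of `W` along `α_ℓ`. -/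
theorem norm_lift
    (W' : laurentBaseChange L (modularFunctionFieldFull (M * p * ℓ)) ≃ₐ[L]
      laurentBaseChange L (modularFunctionFieldFull (M * p * ℓ)))
    (hα : ∀ y, W' (heckeAlphaBar L (M * p) ℓ y) = heckeAlphaBar L (M * p) ℓ (W y))
    (z : laurentBaseChange L (modularFunctionFieldFull (M * p * ℓ))) :
    letI := algebraAlong (heckeAlphaBar L (M * p) ℓ)
    W (Algebra.norm (laurentBaseChange L (modularFunctionFieldFull (M * p))) z) =
      Algebra.norm (laurentBaseChange L (modularFunctionFieldFull (M * p))) (W' z) :=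
  normAlong_equiv (heckeAlphaBar L (M * p) ℓ) W.toRingEquiv W'.toRingEquiv hα z

/-- **The Hecke norm `f ↦ Nm_{α_ℓ} (β_ℓ f)` commutes with the Atkin–Lehner involution at `p`**
(`ℓ` prime to `p`). -/
theorem normAlong_beta_isAL (hW : IsAL M p W) (hp : p.Prime) (hpM : ¬ p ∣ M) (hpℓ : ¬ p ∣ ℓ)
    (f : laurentBaseChange L (modularFunctionFieldFull (M * p))) :
    W (normAlong (heckeAlphaBar L (M * p) ℓ) (heckeBetaBar L (M * p) ℓ f)) =
      normAlong (heckeAlphaBar L (M * p) ℓ) (heckeBetaBar L (M * p) ℓ (W f)) := by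
  obtain ⟨W', hα, hβ⟩ := exists_lift_of_not_dvd M p ℓ hW hp hpM hpℓ
  exact normAlong_comp_equiv (heckeAlphaBar L (M * p) ℓ) (heckeBetaBar L (M * p) ℓ)
    W.toRingEquiv W'.toRingEquiv hα hβ f

/-- The same with the roles of `α_ℓ` and `β_ℓ` exchanged. -/
theorem normAlong_alpha_isAL (hW : IsAL M p W) (hp : p.Prime) (hpM : ¬ p ∣ M) (hpℓ : ¬ p ∣ ℓ)
    (f : laurentBaseChange L (modularFunctionFieldFull (M * p))) :
    W (normAlong (heckeBetaBar L (M * p) ℓ) (heckeAlphaBar L (M * p) ℓ f)) =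
      normAlong (heckeBetaBar L (M * p) ℓ) (heckeAlphaBar L (M * p) ℓ (W f)) := by
  obtain ⟨W', hα, hβ⟩ := exists_lift_of_not_dvd M p ℓ hW hp hpM hpℓ
  exact normAlong_comp_equiv (heckeBetaBar L (M * p) ℓ) (heckeAlphaBar L (M * p) ℓ)
    W.toRingEquiv W'.toRingEquiv hβ hα f

end Norm

/-! ### The Hecke operators commute with the Atkin–Lehner involution -/

section Hecke

variable {L : Type} [Field L] [Algebra ℚ L] (M p ℓ : ℕ) [NeZero M] [NeZero p] [NeZero ℓ]
  {W : laurentBaseChange L (modularFunctionFieldFull (M * p)) ≃ₐ[L]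
    laurentBaseChange L (modularFunctionFieldFull (M * p))}

/-- `α_ℓ` intertwines `W` and a lift `W'`. -/
theorem intertwines_alpha
    (W' : laurentBaseChange L (modularFunctionFieldFull (M * p * ℓ)) ≃ₐ[L]
      laurentBaseChange L (modularFunctionFieldFull (M * p * ℓ)))
    (hα : ∀ y, W' (heckeAlphaBar L (M * p) ℓ y) = heckeAlphaBar L (M * p) ℓ (W y)) :
    SemilinearAut.IntertwinesAlong
      ((heckeAlphaBar L (M * p) ℓ :
          laurentBaseChange L (modularFunctionFieldFull (M * p)) →ₐ[L]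
            laurentBaseChange L (modularFunctionFieldFull (M * p * ℓ))) :
        laurentBaseChange L (modularFunctionFieldFull (M * p)) →+*
          laurentBaseChange L (modularFunctionFieldFull (M * p * ℓ)))
      (SemilinearAut.ofAlgAut W) (SemilinearAut.ofAlgAut W') :=
  fun y => hα y

omit [NeZero M] [NeZero p] in
/-- `β_ℓ` intertwines `W` and a lift `W'`. -/
theorem intertwines_beta
    (W' : laurentBaseChange L (modularFunctionFieldFull (M * p * ℓ)) ≃ₐ[L]
      laurentBaseChange L (modularFunctionFieldFull (M * p * ℓ)))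
    (hβ : ∀ y, W' (heckeBetaBar L (M * p) ℓ y) = heckeBetaBar L (M * p) ℓ (W y)) :
    SemilinearAut.IntertwinesAlong
      ((heckeBetaBar L (M * p) ℓ :
          laurentBaseChange L (modularFunctionFieldFull (M * p)) →ₐ[L]
            laurentBaseChange L (modularFunctionFieldFull (M * p * ℓ))) :
        laurentBaseChange L (modularFunctionFieldFull (M * p)) →+*
          laurentBaseChange L (modularFunctionFieldFull (M * p * ℓ)))
      (SemilinearAut.ofAlgAut W) (SemilinearAut.ofAlgAut W') :=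
  fun y => hβ y

/-- **`T_ℓ` commutes with the Atkin–Lehner involution at `p`** on `Pic0 (F_{Mp})`, over any
field `L ⊇ ℚ`, for every `ℓ` prime to `p` (semilinear-automorphism form). -/
theorem heckeOperatorAlong_ofAlgAut (hW : IsAL M p W) (hp : p.Prime) (hpM : ¬ p ∣ M)
    (hpℓ : ¬ p ∣ ℓ) (x : Pic0 L (laurentBaseChange L (modularFunctionFieldFull (M * p)))) :
    heckeOperatorAlong L (M * p) ℓ (SemilinearAut.ofAlgAut W • x) =
      SemilinearAut.ofAlgAut W • heckeOperatorAlong L (M * p) ℓ x := by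
  obtain ⟨W', hα', hβ'⟩ := exists_lift_of_not_dvd M p ℓ hW hp hpM hpℓ
  by_cases h : HeckeInputsAlong L (M * p) ℓ
  · obtain ⟨hα, hβ, hP, hfin, hFI, hN⟩ := h
    have := hP
    rw [heckeOperatorAlong_eq hα hβ hFI hfin hN]
    exact comm_pic0_correspondence _ _ hβ hα hFI hfin hN
      (intertwines_beta M p ℓ W' hβ') (intertwines_alpha M p ℓ W' hα') x
  · rw [heckeOperatorAlong_of_not h, AddMonoidHom.zero_apply, AddMonoidHom.zero_apply,
      smul_zero]

/-- **`T_ℓ` commutes with the Atkin–Lehner involution at `p`** (`autOp` form). -/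
theorem heckeOperatorAlong_autOp (hW : IsAL M p W) (hp : p.Prime) (hpM : ¬ p ∣ M)
    (hpℓ : ¬ p ∣ ℓ) (x : Pic0 L (laurentBaseChange L (modularFunctionFieldFull (M * p)))) :
    heckeOperatorAlong L (M * p) ℓ (autOp W x) = autOp W (heckeOperatorAlong L (M * p) ℓ x) := by
  rw [autOp_apply, autOp_apply, ← ofAlgAut_smul_pic0, ← ofAlgAut_smul_pic0]
  exact heckeOperatorAlong_ofAlgAut M p ℓ hW hp hpM hpℓ x

/-- **The Atkin–Lehner involution is defined over `ℚ`**: it commutes with the coefficientwise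
Galois action on `F_{Mp}`. -/
theorem isAL_galois_comm (hW : IsAL M p W) (hp : p.Prime) (hpM : ¬ p ∣ M) (σ : L ≃ₐ[ℚ] L)
    (f : laurentBaseChange L (modularFunctionFieldFull (M * p))) :
    W (arithmeticGalois (modularFunctionFieldFull (M * p)) σ • f) =
      arithmeticGalois (modularFunctionFieldFull (M * p)) σ • W f := by
  set τ : laurentBaseChange L (modularFunctionFieldFull (M * p)) ≃+*
      laurentBaseChange L (modularFunctionFieldFull (M * p)) :=
    SemilinearAut.toRingAut (arithmeticGalois (modularFunctionFieldFull (M * p)) σ) with hτ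
  have hA : ∀ x : laurentBaseChange L (modularFunctionFieldFull M),
      τ (heckeAlphaBar L M p x) =
        heckeAlphaBar L M p (arithmeticGalois (modularFunctionFieldFull M) σ • x) :=
    fun x => comm_intertwines_alpha M p σ x
  have hB : ∀ x : laurentBaseChange L (modularFunctionFieldFull M),
      τ (heckeBetaBar L M p x) =
        heckeBetaBar L M p (arithmeticGalois (modularFunctionFieldFull M) σ • x) :=
    fun x => comm_intertwines_beta M p σ x
  have h1 : ∀ x : laurentBaseChange L (modularFunctionFieldFull M),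
      W (τ (heckeAlphaBar L M p x)) = τ (W (heckeAlphaBar L M p x)) := fun x => by
    rw [hA, hW.alpha, hW.alpha, hB]
  have h2 : ∀ x : laurentBaseChange L (modularFunctionFieldFull M),
      W (τ (heckeBetaBar L M p x)) = τ (W (heckeBetaBar L M p x)) := fun x => by
    rw [hB, hW.beta, hW.beta, hA]
  exact eq_of_alpha_beta M p hp hpM
    ((W.toRingEquiv.toRingHom).comp τ.toRingHom) (τ.toRingHom.comp W.toRingEquiv.toRingHom)
    h1 h2 f

/-- The Atkin–Lehner involution commutes with the Galois action on `Pic0 (F_{Mp})`. -/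
theorem autOp_galois (hW : IsAL M p W) (hp : p.Prime) (hpM : ¬ p ∣ M) (σ : L ≃ₐ[ℚ] L)
    (x : Pic0 L (laurentBaseChange L (modularFunctionFieldFull (M * p)))) :
    autOp W (σ • x) = σ • autOp W x :=
  comm_autOp W σ (isAL_galois_comm M p hW hp hpM σ) x

end Hecke

section Bar

local notation "Qb" => AlgebraicClosure ℚ

variable (M p : ℕ) [NeZero M] [NeZero p]
  {W : laurentBaseChange Qb (modularFunctionFieldFull (M * p)) ≃ₐ[Qb]
    laurentBaseChange Qb (modularFunctionFieldFull (M * p))}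

/-- **`T_ℓ` commutes with the Atkin–Lehner involution at `p`** on `JZero (M * p)`, for every
prime `ℓ ≠ p` (semilinear-automorphism form). -/
theorem heckeOperatorBar_ofAlgAut (hW : IsAL M p W) (hp : p.Prime) (hpM : ¬ p ∣ M)
    (ℓ : Nat.Primes) (hℓp : (ℓ : ℕ) ≠ p) (x : JZero (M * p)) :
    heckeOperatorBar (M * p) ℓ (SemilinearAut.ofAlgAut W • x) =
      SemilinearAut.ofAlgAut W • heckeOperatorBar (M * p) ℓ x := by
  haveI : NeZero (ℓ : ℕ) := ⟨ℓ.2.ne_zero⟩
  have hpℓ : ¬ p ∣ (ℓ : ℕ) := fun h => hℓp ((Nat.prime_dvd_prime_iff_eq hp ℓ.2).mp h).symm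
  rw [heckeOperatorBar_apply, heckeOperatorBar_apply]
  exact heckeOperatorAlong_ofAlgAut M p ℓ hW hp hpM hpℓ x

/-- **`T_ℓ` commutes with the Atkin–Lehner involution at `p`** on `JZero (M * p)`, for every
prime `ℓ ≠ p` (`autOp` form). -/
theorem heckeOperatorBar_autOp (hW : IsAL M p W) (hp : p.Prime) (hpM : ¬ p ∣ M)
    (ℓ : Nat.Primes) (hℓp : (ℓ : ℕ) ≠ p) (x : JZero (M * p)) :
    heckeOperatorBar (M * p) ℓ (autOp W x) = autOp W (heckeOperatorBar (M * p) ℓ x) := by
  rw [autOp_apply, autOp_apply, ← ofAlgAut_smul_pic0, ← ofAlgAut_smul_pic0]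
  exact heckeOperatorBar_ofAlgAut M p hW hp hpM ℓ hℓp x

/-- The Atkin–Lehner involution commutes with the Galois action on `JZero (M * p)`. -/
theorem autOp_galois_bar (hW : IsAL M p W) (hp : p.Prime) (hpM : ¬ p ∣ M) (σ : Qb ≃ₐ[ℚ] Qb)
    (x : JZero (M * p)) : autOp W (σ • x) = σ • autOp W x :=
  autOp_galois M p hW hp hpM σ x

/-- The Atkin–Lehner involution is an involution of `JZero (M * p)`. -/
theorem autOp_autOp (hW : IsAL M p W) (hp : p.Prime) (hpM : ¬ p ∣ M) (x : JZero (M * p)) :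
    autOp W (autOp W x) = x := by
  rw [← autOp_mul]
  have h1 : W * W = 1 := AlgEquiv.ext fun z => hW.invol hp hpM z
  rw [h1, autOp_one]

end Bar

end Fermat.Agent.TR.Hecke.ALHecke
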