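import Mathlib
import Fermat.Agent.TR.Hecke.ALAct
import Fermat.Agent.TR.Hecke.ALHecke

/-!
# TR (0-SIDE), row 479, final form: the Atkin–Lehner operator on `JZero (M * p)`, unconditional

`TR/Hecke/ALAct.lean` has the Atkin–Lehner operator `alAct W` with the Hecke commutation as the
named hypothesis `HeckeComm W`; `TR/Hecke/ALHecke.lean` (helper65) proves that commutation.
This file puts the two together:

* `heckeComm` : `HeckeComm W` for every Atkin–Lehner involution `W` of level `M · p`;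
* `alAct_hecke'`, `alAct_eigen'`, `alAct_eigen_iff'`, `map_alAct_hecke_stable'` : the Hecke
  statements for every prime `ℓ ≠ p` (no hypothesis `ℓ ∤ M`);
* `exists_alAct'` : the package of ruling H#2 §3, without hypothesis;
* `zero_side` : the transport principle — a property of pairs (class, reduced Kummer function)
  which holds on the `∞`-side for every class with given torsion / fixedness / eigenvalues holds
  on the `0`-side for the same classes.
-/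

set_option autoImplicit false
set_option linter.unusedSectionVars false

noncomputable section

namespace Fermat.Agent.TR.Hecke.ALAct

open AlgebraicCurve ModularCurve HahnSeries
open Fermat.Agent.BAD.TwoVal Fermat.Agent.ESJ.Jac Fermat.Agent.G1.GaloisOps

local notation "Qb" => AlgebraicClosure ℚ

section Final

variable {M p : ℕ} [NeZero M] [NeZero p]
variable {W : laurentBaseChange Qb (modularFunctionFieldFull (M * p)) ≃ₐ[Qb]
    laurentBaseChange Qb (modularFunctionFieldFull (M * p))}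

/-- (iii), for every prime `ℓ ≠ p`: `alAct W` commutes with `T_ℓ`. -/
theorem alAct_hecke' (hW : IsAL M p W) (hp : p.Prime) (hpM : ¬ p ∣ M) (ℓ : Nat.Primes)
    (hℓp : (ℓ : ℕ) ≠ p) (x : JZero (M * p)) :
    alAct W (heckeOperatorBar (M * p) ℓ x) = heckeOperatorBar (M * p) ℓ (alAct W x) :=
  (Fermat.Agent.TR.Hecke.ALHecke.heckeOperatorBar_autOp M p hW hp hpM ℓ hℓp x).symm

/-- **The hypothesis `HeckeComm W` of `TR/Hecke/ALAct.lean` is a theorem.** -/
theorem heckeComm (hW : IsAL M p W) (hp : p.Prime) (hpM : ¬ p ∣ M) : HeckeComm W := by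
  intro ℓ hℓ x
  have hℓp : (ℓ : ℕ) ≠ p := fun e => hℓ (e ▸ dvd_mul_left _ _)
  exact (alAct_hecke' hW hp hpM ℓ hℓp x).symm

/-- Hecke eigen-relations are transported (every prime `ℓ ≠ p`). -/
theorem alAct_eigen' (hW : IsAL M p W) (hp : p.Prime) (hpM : ¬ p ∣ M) (ℓ : Nat.Primes)
    (hℓp : (ℓ : ℕ) ≠ p) {a : ℤ} {x : JZero (M * p)}
    (hx : heckeOperatorBar (M * p) ℓ x = a • x) :
    heckeOperatorBar (M * p) ℓ (alAct W x) = a • alAct W x := by
  rw [← alAct_hecke' hW hp hpM ℓ hℓp, hx, map_zsmul]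

theorem alAct_eigen_iff' (hW : IsAL M p W) (hp : p.Prime) (hpM : ¬ p ∣ M) (ℓ : Nat.Primes)
    (hℓp : (ℓ : ℕ) ≠ p) {a : ℤ} {x : JZero (M * p)} :
    heckeOperatorBar (M * p) ℓ (alAct W x) = a • alAct W x ↔
      heckeOperatorBar (M * p) ℓ x = a • x := by
  rw [← alAct_hecke' hW hp hpM ℓ hℓp, ← map_zsmul]
  exact (alAct_injective hW hp hpM).eq_iff

/-- The image of a `T_ℓ`-stable subgroup is `T_ℓ`-stable (`ℓ ≠ p`). -/
theorem map_alAct_hecke_stable' (hW : IsAL M p W) (hp : p.Prime) (hpM : ¬ p ∣ M)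
    (ℓ : Nat.Primes) (hℓp : (ℓ : ℕ) ≠ p) {V : AddSubgroup (JZero (M * p))}
    (hV : ∀ x ∈ V, heckeOperatorBar (M * p) ℓ x ∈ V) :
    ∀ y ∈ V.map (alAct W), heckeOperatorBar (M * p) ℓ y ∈ V.map (alAct W) := by
  rintro _ ⟨x, hx, rfl⟩
  exact ⟨heckeOperatorBar (M * p) ℓ x, hV x hx, alAct_hecke' hW hp hpM ℓ hℓp x⟩

end Final

section Red

variable {A : ValuationSubring Qb} {k : Type} [Field k] {π : A →+* k} {M p : ℕ} [NeZero M]
  [NeZero p]
variable {W : laurentBaseChange Qb (modularFunctionFieldFull (M * p)) ≃ₐ[Qb]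
    laurentBaseChange Qb (modularFunctionFieldFull (M * p))}

/-- **Row 479 (ruling H#2 §3), unconditional**: the Atkin–Lehner operator `w` on
`JZero (M * p)`: (i) Kummer pairs, (ii) Galois-equivariant, (iii) commutes with `T_ℓ` for every
prime `ℓ ≠ p`, (iv) an involution (injective), (v) `O_0 = W⁻¹ O_∞`, `red_0 = red_∞ ∘ W`. -/
theorem exists_alAct' (h : BadSetup A π M p) (hW : IsAL M p W) :
    ∃ w : JZero (M * p) →+ JZero (M * p),
      (∀ (n : ℕ) (x : JZero (M * p)) (f : laurentBaseChange Qb (modularFunctionFieldFull (M * p))),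
        IsKummerPair n x f → IsKummerPair n (w x) (W f)) ∧
      (∀ (σ : Qb ≃ₐ[ℚ] Qb) (x : JZero (M * p)), w (σ • x) = σ • w x) ∧
      (∀ ℓ : Nat.Primes, (ℓ : ℕ) ≠ p → ∀ x : JZero (M * p),
        w (heckeOperatorBar (M * p) ℓ x) = heckeOperatorBar (M * p) ℓ (w x)) ∧
      Function.Injective w ∧ (∀ x, w (w x) = x) ∧
      (∀ f : laurentBaseChange Qb (modularFunctionFieldFull (M * p)),
        f ∈ OZero h W ↔ W f ∈ OInf h) ∧
      (∀ (f : laurentBaseChange Qb (modularFunctionFieldFull (M * p))) (hf : f ∈ OZero h W),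
        redZero h W ⟨f, hf⟩ = redInf h ⟨W f, hf⟩) ∧
      ∀ x, w x = W • x :=
  ⟨alAct W, fun _ _ _ hf => isKummerPair_alAct hf, alAct_galois hW h.hℓ h.not_dvd,
    fun ℓ hℓ x => alAct_hecke' hW h.hℓ h.not_dvd ℓ hℓ x, alAct_injective hW h.hℓ h.not_dvd,
    alAct_alAct hW h.hℓ h.not_dvd, fun _ => Iff.rfl, fun _ _ => rfl, fun _ => rfl⟩

/-- **The transport principle ((0-SIDE))**.  Let `S` be a set of Galois elements, `S₀` a set of
primes containing `p`, `a` a system of eigenvalues, `n` a torsion exponent, and let `C` be a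
property of reduced functions.  If every class `y` which is `n`-torsion, fixed by `S` and a
`T_ℓ`-eigenclass with eigenvalue `a ℓ` for all `ℓ ∉ S₀` has a Kummer function in `O_∞` whose
reduction satisfies `C`, then every such class `x` has a Kummer function in `O_0` whose
reduction satisfies `C`. -/
theorem zero_side (h : BadSetup A π M p) (hW : IsAL M p W) (n : ℕ)
    (S : Set (Qb ≃ₐ[ℚ] Qb)) (S₀ : Set Nat.Primes) (hS₀ : ∀ ℓ : Nat.Primes, (ℓ : ℕ) = p → ℓ ∈ S₀)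
    (a : Nat.Primes → ℤ) (C : ↥(modularFunctionFieldFullC k M) → Prop)
    (hInf : ∀ y : JZero (M * p), n • y = 0 → (∀ σ ∈ S, σ • y = y) →
      (∀ ℓ : Nat.Primes, ℓ ∉ S₀ → heckeOperatorBar (M * p) ℓ y = a ℓ • y) →
      ∃ g, IsKummerPair n y g ∧ ∃ hg : g ∈ OInf h, C (redInf h ⟨g, hg⟩))
    (x : JZero (M * p)) (hx : n • x = 0) (hfix : ∀ σ ∈ S, σ • x = x)
    (heig : ∀ ℓ : Nat.Primes, ℓ ∉ S₀ → heckeOperatorBar (M * p) ℓ x = a ℓ • x) :
    ∃ f, IsKummerPair n x f ∧ ∃ hf : f ∈ OZero h W, C (redZero h W ⟨f, hf⟩) := by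
  have hp := h.hℓ
  have hpM := h.not_dvd
  obtain ⟨g, hg, hgO, hC⟩ := hInf (alAct W x) (alAct_nsmul_eq_zero hx)
    (fun σ hσ => alAct_fixed hW hp hpM (hfix σ hσ))
    (fun ℓ hℓ => alAct_eigen' hW hp hpM ℓ (fun e => hℓ (hS₀ ℓ e)) (heig ℓ hℓ))
  obtain ⟨f, hf, hfO, hred⟩ :=
    (kumRedZero_iff h hW hp hpM n x (redInf h ⟨g, hgO⟩)).mpr ⟨g, hg, hgO, rfl⟩
  exact ⟨f, hf, hfO, by rw [hred]; exact hC⟩

/-- The transport principle for unit Kummer functions (`f⁻¹ ∈ O_0` / `g⁻¹ ∈ O_∞`). -/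
theorem zero_side_unit (h : BadSetup A π M p) (hW : IsAL M p W) (n : ℕ)
    (S : Set (Qb ≃ₐ[ℚ] Qb)) (S₀ : Set Nat.Primes) (hS₀ : ∀ ℓ : Nat.Primes, (ℓ : ℕ) = p → ℓ ∈ S₀)
    (a : Nat.Primes → ℤ) (C : ↥(modularFunctionFieldFullC k M) → Prop)
    (hInf : ∀ y : JZero (M * p), n • y = 0 → (∀ σ ∈ S, σ • y = y) →
      (∀ ℓ : Nat.Primes, ℓ ∉ S₀ → heckeOperatorBar (M * p) ℓ y = a ℓ • y) →
      ∃ g, IsKummerPair n y g ∧ g⁻¹ ∈ OInf h ∧ ∃ hg : g ∈ OInf h, C (redInf h ⟨g, hg⟩))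
    (x : JZero (M * p)) (hx : n • x = 0) (hfix : ∀ σ ∈ S, σ • x = x)
    (heig : ∀ ℓ : Nat.Primes, ℓ ∉ S₀ → heckeOperatorBar (M * p) ℓ x = a ℓ • x) :
    ∃ f, IsKummerPair n x f ∧ f⁻¹ ∈ OZero h W ∧
      ∃ hf : f ∈ OZero h W, C (redZero h W ⟨f, hf⟩) := by
  have hp := h.hℓ
  have hpM := h.not_dvd
  obtain ⟨g, hg, hgi, hgO, hC⟩ := hInf (alAct W x) (alAct_nsmul_eq_zero hx)
    (fun σ hσ => alAct_fixed hW hp hpM (hfix σ hσ))
    (fun ℓ hℓ => alAct_eigen' hW hp hpM ℓ (fun e => hℓ (hS₀ ℓ e)) (heig ℓ hℓ))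
  obtain ⟨f, hf, hfi, hfO, hred⟩ :=
    (kumUnitZero_iff h hW hp hpM n x (redInf h ⟨g, hgO⟩)).mpr ⟨g, hg, hgi, hgO, rfl⟩
  exact ⟨f, hf, hfi, hfO, by rw [hred]; exact hC⟩

end Red

end Fermat.Agent.TR.Hecke.ALAct
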