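import Mathlib
import Fermat.Agent.ESJ.Dict.Defs
import Fermat.Agent.ESJ.Jac.LevelOneMer
import Fermat.Agent.ESJ.Jac.Kummer
import Fermat.Agent.ESJ.Jac.MultFixed
import Fermat.Agent.MW.DivA.AvatarCusp
import Fermat.Agent.S20.Glue

/-!
# TR / Hecke, row (OA3-A), analytic half: holomorphic differentials `a · dj` are weight-2 cusp forms

For a coefficient field `K` with embedding `ι : K →+* ℂ` and the analytic dictionary
`hD : IsDict ι N`:

* `av ι N a z = merK a z · J'(z)` is the weight-2 avatar of the differential `a · dj`;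
* `reg ι N a` is the avatar with its removable singularities removed;
* `formFun ι N a τ = (2πi)⁻¹ · reg ι N a τ` is the function on `ℍ`;
* `isCF_formFun` : if the avatar has nonnegative order at all points of `U` and `a` has order
  `≥ N + 1` (in `q_N`) at all cusps, then `formFun ι N a` is a cusp form of weight `2` for `Γ₀(N)`;
* `formFun_mul_evK` : `formFun a · ev Q = ev P · D J` for every representative `a = fm P / fm Q`.
-/

set_option autoImplicit false

open UpperHalfPlane Filter Topology CongruenceSubgroup ModularForm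
open scoped MatrixGroups Manifold Real

noncomputable section

namespace Fermat.Agent.TR.Hecke.CuspDiff

open Fermat.Agent.ESJ.Jac Fermat.Agent.ESJ.Jac.LevelOneMer Fermat.Agent.ESJ.Dict
open Fermat.Agent.S24 (Jfun)

variable {K : Type} [Field K] [Algebra ℚ K]

/-- The weight-2 avatar `merK a · J'` of the differential `a · dj`. -/
def av (ι : K →+* ℂ) (N : ℕ) [NeZero N] (a : FNK K N) : ℂ → ℂ :=
  fun z => merK ι N a z * deriv Jc z

/-- The regularised avatar: the avatar with its removable singularities removed. -/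
def reg (ι : K →+* ℂ) (N : ℕ) [NeZero N] (a : FNK K N) : ℂ → ℂ :=
  fun z => toMeromorphicNFAt (av ι N a) z z

/-- The function on `ℍ` attached to the differential `a · dj`. -/
def formFun (ι : K →+* ℂ) (N : ℕ) [NeZero N] (a : FNK K N) : ℍ → ℂ :=
  fun τ => (2 * π * Complex.I)⁻¹ * reg ι N a (τ : ℂ)

variable {ι : K →+* ℂ} {N : ℕ} [NeZero N]

theorem av_apply (a : FNK K N) (z : ℂ) : av ι N a z = merK ι N a z * deriv Jc z := rfl

theorem formFun_apply (a : FNK K N) (τ : ℍ) :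
    formFun ι N a τ = (2 * π * Complex.I)⁻¹ * reg ι N a (τ : ℂ) := rfl

/-- Weight-2 invariance of the avatar. -/
theorem av_mob (hD : IsDict ι N) (a : FNK K N) (γ : SL(2, ℤ)) (hγ : γ ∈ Gamma0 N) {z : ℂ}
    (hz : z ∈ U) : av ι N a (mob γ z) * deriv (mob γ) z = av ι N a z := by
  rw [av_apply, av_apply, hD.merK_mob a γ hγ z hz, mul_assoc, MW.DivA.deriv_Jc_mob γ hz]

theorem meromorphicAt_av (hD : IsDict ι N) (a : FNK K N) {z : ℂ} (hz : z ∈ U) :
    MeromorphicAt (av ι N a) z :=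
  (hD.meromorphicOn_merK a z hz).mul (analyticAt_Jc hz).deriv.meromorphicAt

theorem reg_eq_of_analyticAt (a : FNK K N) {z : ℂ} (h : AnalyticAt ℂ (av ι N a) z) :
    reg ι N a z = av ι N a z := by
  show toMeromorphicNFAt (av ι N a) z z = av ι N a z
  rw [toMeromorphicNFAt_eq_self.mpr h.meromorphicNFAt]

theorem reg_eventuallyEq_nhdsNE (hD : IsDict ι N) (a : FNK K N) {z : ℂ} (hz : z ∈ U) :
    reg ι N a =ᶠ[𝓝[≠] z] av ι N a := by
  filter_upwards [(meromorphicAt_av hD a hz).eventually_analyticAt] with w hw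
    using reg_eq_of_analyticAt a hw

theorem reg_eventuallyEq_nhds (hD : IsDict ι N) (a : FNK K N) {z : ℂ} (hz : z ∈ U) :
    reg ι N a =ᶠ[𝓝 z] toMeromorphicNFAt (av ι N a) z := by
  refine eventuallyEq_nhds_of_eventuallyEq_nhdsNE ?_ rfl
  exact (reg_eventuallyEq_nhdsNE hD a hz).trans
    (meromorphicAt_av hD a hz).eq_nhdsNE_toMeromorphicNFAt

theorem analyticAt_reg (hD : IsDict ι N) (a : FNK K N) {z : ℂ} (hz : z ∈ U)
    (h0 : 0 ≤ meromorphicOrderAt (av ι N a) z) : AnalyticAt ℂ (reg ι N a) z := by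
  have h1 : AnalyticAt ℂ (toMeromorphicNFAt (av ι N a) z) z :=
    (meromorphicAt_av hD a hz).meromorphicOrderAt_nonneg_iff_analyticAt_toMeromorphicNFAt.mp h0
  exact h1.congr (reg_eventuallyEq_nhds hD a hz).symm

/-- `mob γ` maps punctured neighbourhoods to punctured neighbourhoods. -/
theorem tendsto_mob_nhdsNE (γ : SL(2, ℤ)) {z : ℂ} (hz : z ∈ U) :
    Tendsto (mob γ) (𝓝[≠] z) (𝓝[≠] (mob γ z)) := by
  refine tendsto_nhdsWithin_of_tendsto_nhds_of_eventually_within _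
    ((analyticAt_mob γ hz).continuousAt.tendsto.mono_left nhdsWithin_le_nhds) ?_
  have h3 : ∀ᶠ w in 𝓝[≠] z, w ∈ U := mem_nhdsWithin_of_mem_nhds (isOpen_U.mem_nhds hz)
  filter_upwards [h3, self_mem_nhdsWithin] with w hwU hw
  intro heq
  apply hw
  have h1 : mob γ⁻¹ (mob γ w) = w := by
    rw [← mob_mul γ⁻¹ γ hwU, inv_mul_cancel, mob_one]
  have h2 : mob γ⁻¹ (mob γ z) = z := by
    rw [← mob_mul γ⁻¹ γ hz, inv_mul_cancel, mob_one]
  have heq' : mob γ w = mob γ z := heq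
  rw [← h1, heq', h2]
  rfl

/-- Weight-2 invariance of the regularised avatar. -/
theorem reg_mob (hD : IsDict ι N) (a : FNK K N)
    (hreg : ∀ z ∈ U, 0 ≤ meromorphicOrderAt (av ι N a) z)
    (γ : SL(2, ℤ)) (hγ : γ ∈ Gamma0 N) {z : ℂ} (hz : z ∈ U) :
    reg ι N a (mob γ z) * deriv (mob γ) z = reg ι N a z := by
  have hγz : mob γ z ∈ U := mob_mem_U γ hz
  have hc1 : ContinuousAt (fun w => reg ι N a (mob γ w) * deriv (mob γ) w) z := by
    have h1 : ContinuousAt (fun w => reg ι N a (mob γ w)) z :=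
      ContinuousAt.comp (g := reg ι N a) (f := mob γ)
        (analyticAt_reg hD a hγz (hreg _ hγz)).continuousAt (analyticAt_mob γ hz).continuousAt
    exact h1.mul (analyticAt_mob γ hz).deriv.continuousAt
  have hc2 : ContinuousAt (reg ι N a) z := (analyticAt_reg hD a hz (hreg z hz)).continuousAt
  have hne : (fun w => reg ι N a (mob γ w) * deriv (mob γ) w) =ᶠ[𝓝[≠] z] reg ι N a := by
    have h1 := reg_eventuallyEq_nhdsNE hD a hz
    have h2 : ∀ᶠ w in 𝓝[≠] z, reg ι N a (mob γ w) = av ι N a (mob γ w) :=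
      (tendsto_mob_nhdsNE γ hz).eventually (reg_eventuallyEq_nhdsNE hD a hγz)
    have h3 : ∀ᶠ w in 𝓝[≠] z, w ∈ U := mem_nhdsWithin_of_mem_nhds (isOpen_U.mem_nhds hz)
    filter_upwards [h1, h2, h3] with w hw1 hw2 hw3
    rw [hw2, hw1, av_mob hD a γ hγ hw3]
  exact ((hc1.eventuallyEq_nhds_iff_eventuallyEq_nhdsNE hc2).mp hne).eq_of_nhds

theorem coe_ofComplex {w : ℂ} (hw : w ∈ U) : ((ofComplex w : ℍ) : ℂ) = w := by
  rw [ofComplex_apply_of_im_pos hw]

/-- Holomorphy of `formFun`. -/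
theorem mdiff_formFun (hD : IsDict ι N) (a : FNK K N)
    (hreg : ∀ z ∈ U, 0 ≤ meromorphicOrderAt (av ι N a) z) :
    MDifferentiable 𝓘(ℂ) 𝓘(ℂ) (formFun ι N a) := by
  rw [UpperHalfPlane.mdifferentiable_iff]
  intro w hw
  have hwU : w ∈ U := hw
  have h1 : DifferentiableAt ℂ (fun w => (2 * π * Complex.I)⁻¹ * reg ι N a w) w :=
    ((analyticAt_reg hD a hwU (hreg w hwU)).differentiableAt).const_mul _
  refine (h1.congr_of_eventuallyEq ?_).differentiableWithinAt
  filter_upwards [isOpen_U.mem_nhds hwU] with y hy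
  show formFun ι N a (ofComplex y) = _
  rw [formFun_apply, coe_ofComplex hy]

/-- The weight-2 slash action on `formFun`, in terms of `mob`. -/
theorem slash_formFun (a : FNK K N) (s : SL(2, ℤ)) (τ : ℍ) :
    (formFun ι N a ∣[(2 : ℤ)] s) τ
      = (2 * π * Complex.I)⁻¹ * (reg ι N a (mob s (τ : ℂ)) * deriv (mob s) (τ : ℂ)) := by
  rw [ModularForm.SL_slash_apply, formFun_apply, ← mob_coe, MultFixed.deriv_mob' s τ.im_pos,
    zpow_neg, zpow_ofNat]
  ring

/-- `Γ₀(N)`-invariance of `formFun`. -/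
theorem formFun_slash_Gamma0 (hD : IsDict ι N) (a : FNK K N)
    (hreg : ∀ z ∈ U, 0 ≤ meromorphicOrderAt (av ι N a) z)
    (γ : SL(2, ℤ)) (hγ : γ ∈ Gamma0 N) : formFun ι N a ∣[(2 : ℤ)] γ = formFun ι N a := by
  funext τ
  rw [slash_formFun, reg_mob hD a hreg γ hγ (coe_mem_U τ), formFun_apply]

open MW.DivA.AvatarCusp in
/-- Exponential decay of the avatar at the cusp `s ∞`, if `a` has order `≥ N + 1` there. -/
theorem av_cusp (hD : IsDict ι N) (a : FNK K N) (ha : a ≠ 0) (s : SL(2, ℤ))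
    (hkN : (N : ℤ) + 1 ≤ valCuspK ι N s⁻¹ a) :
    ∃ Y C c : ℝ, 0 < c ∧ ∀ z : ℂ, Y < z.im →
      AnalyticAt ℂ (av ι N a) (mob s z) ∧
        ‖av ι N a (mob s z) * deriv (mob s) z‖ ≤ C * Real.exp (-c * z.im) := by
  have hN : 0 < N := Nat.pos_of_ne_zero (NeZero.ne N)
  have hNr : (0 : ℝ) < N := by exact_mod_cast hN
  have hpi := Real.pi_pos
  obtain ⟨ψ, hψ, -, hsh⟩ := hD.merK_cusp_shape a ha s⁻¹
  simp only [inv_inv] at hsh
  obtain ⟨δ, hδ, hδb⟩ := exists_analytic_bound hψ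
  obtain ⟨Y₁, hY₁0, hY₁⟩ := exists_norm_qParam_lt N (lt_min hδ one_pos)
  obtain ⟨Y₂, C₂, hY₂0, hC₂0, hJ⟩ := exists_deriv_Jc_bound
  refine ⟨max Y₁ Y₂, (‖ψ 0‖ + 1) * C₂, 2 * Real.pi / N, by positivity, fun z hz => ?_⟩
  have hz1 : Y₁ < z.im := lt_of_le_of_lt (le_max_left _ _) hz
  have hz2 : Y₂ < z.im := lt_of_le_of_lt (le_max_right _ _) hz
  have hzU : z ∈ U := lt_of_le_of_lt hY₁0 hz1
  have hq := hY₁ z hz1
  have hqδ : ‖Function.Periodic.qParam (N : ℝ) z‖ < δ := lt_of_lt_of_le hq (min_le_left _ _)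
  have hq1 : ‖Function.Periodic.qParam (N : ℝ) z‖ ≤ 1 := (lt_of_lt_of_le hq (min_le_right _ _)).le
  have hq0 : Function.Periodic.qParam (N : ℝ) z ≠ 0 := Complex.exp_ne_zero _
  have hw0U : mob s z ∈ U := mob_mem_U s hzU
  have hinv : ∀ w ∈ U, mob s (mob s⁻¹ w) = w := fun w hw => by
    rw [← mob_mul s s⁻¹ hw, mul_inv_cancel, mob_one]
  have hinv' : mob s⁻¹ (mob s z) = z := by
    rw [← mob_mul s⁻¹ s hzU, inv_mul_cancel, mob_one]
  constructor
  · have heq : (fun w => Function.Periodic.qParam (N : ℝ) (mob s⁻¹ w) ^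
          (valCuspK ι N s⁻¹ a) * ψ (Function.Periodic.qParam (N : ℝ) (mob s⁻¹ w)))
        =ᶠ[𝓝 (mob s z)] merK ι N a := by
      filter_upwards [isOpen_U.mem_nhds hw0U] with w hw
      have h1 := hsh (mob s⁻¹ w) (mob_mem_U s⁻¹ hw)
      rw [hinv w hw] at h1
      exact h1.symm
    have hmob : AnalyticAt ℂ (mob s⁻¹) (mob s z) := analyticAt_mob s⁻¹ hw0U
    have hqan : AnalyticAt ℂ (fun w => Function.Periodic.qParam (N : ℝ) (mob s⁻¹ w)) (mob s z) := by
      have hq' : AnalyticAt ℂ (Function.Periodic.qParam (N : ℝ)) (mob s⁻¹ (mob s z)) :=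
        (Function.Periodic.differentiable_qParam).analyticAt _
      exact hq'.comp hmob
    have hψan : AnalyticAt ℂ (fun w => ψ (Function.Periodic.qParam (N : ℝ) (mob s⁻¹ w)))
        (mob s z) := by
      have hψ' : AnalyticAt ℂ ψ (Function.Periodic.qParam (N : ℝ) z) := (hδb _ hqδ).1
      exact hψ'.comp_of_eq hqan (by rw [hinv'])
    have hpow : AnalyticAt ℂ (fun w => Function.Periodic.qParam (N : ℝ) (mob s⁻¹ w) ^
        (valCuspK ι N s⁻¹ a)) (mob s z) := by
      apply AnalyticAt.zpow hqan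
      rw [hinv']
      exact hq0
    have hmer : AnalyticAt ℂ (merK ι N a) (mob s z) := (hpow.mul hψan).congr heq
    have hJ' : AnalyticAt ℂ (deriv Jc) (mob s z) := (analyticAt_Jc hw0U).deriv
    exact hmer.mul hJ'
  · have e1 : av ι N a (mob s z) * deriv (mob s) z = merK ι N a (mob s z) * deriv Jc z := by
      rw [av_apply, mul_assoc, MW.DivA.deriv_Jc_mob s hzU]
    rw [e1, hsh z hzU, norm_mul, norm_mul, norm_zpow]
    have hqpos : 0 < ‖Function.Periodic.qParam (N : ℝ) z‖ := norm_pos_iff.mpr hq0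
    have b1 : ‖Function.Periodic.qParam (N : ℝ) z‖ ^ (valCuspK ι N s⁻¹ a)
        ≤ ‖Function.Periodic.qParam (N : ℝ) z‖ ^ ((N : ℤ) + 1) :=
      zpow_le_zpow_right_of_le_one₀ hqpos hq1 hkN
    have b2 : ‖Function.Periodic.qParam (N : ℝ) z‖ ^ ((N : ℤ) + 1)
        = Real.exp (-(2 * Real.pi / N) * z.im) * Real.exp (-(2 * Real.pi * z.im)) := by
      rw [Function.Periodic.norm_qParam, ← Real.rpow_intCast, ← Real.exp_mul, ← Real.exp_add]
      congr 1
      push_cast
      field_simp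
      ring
    have b3 := (hδb _ hqδ).2
    have b4 := hJ z hz2
    calc ‖Function.Periodic.qParam (N : ℝ) z‖ ^ (valCuspK ι N s⁻¹ a)
          * ‖ψ (Function.Periodic.qParam (N : ℝ) z)‖ * ‖deriv Jc z‖
        ≤ (Real.exp (-(2 * Real.pi / N) * z.im) * Real.exp (-(2 * Real.pi * z.im)))
          * (‖ψ 0‖ + 1) * (C₂ * Real.exp (2 * Real.pi * z.im)) := by
          rw [← b2]
          gcongr
      _ = (‖ψ 0‖ + 1) * C₂ * Real.exp (-(2 * Real.pi / N) * z.im)
          * (Real.exp (-(2 * Real.pi * z.im)) * Real.exp (2 * Real.pi * z.im)) := by ring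
      _ = (‖ψ 0‖ + 1) * C₂ * Real.exp (-(2 * Real.pi / N) * z.im) := by
          rw [← Real.exp_add, neg_add_cancel, Real.exp_zero, mul_one]

/-- Vanishing of every translate of `formFun` at `i∞`. -/
theorem isZeroAtImInfty_slash (hD : IsDict ι N) (a : FNK K N) (ha : a ≠ 0) (s : SL(2, ℤ))
    (hkN : (N : ℤ) + 1 ≤ valCuspK ι N s⁻¹ a) :
    IsZeroAtImInfty (formFun ι N a ∣[(2 : ℤ)] s) := by
  obtain ⟨Y, C, c, hc, h⟩ := av_cusp hD a ha s hkN
  have him : Tendsto (fun τ : ℍ => τ.im) atImInfty atTop := tendsto_comap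
  have hbound : ∀ᶠ τ : ℍ in atImInfty, ‖(formFun ι N a ∣[(2 : ℤ)] s) τ‖
      ≤ ‖(2 * π * Complex.I)⁻¹‖ * (C * Real.exp (-c * τ.im)) := by
    filter_upwards [him.eventually (eventually_gt_atTop Y)] with τ hτ
    obtain ⟨h1, h2⟩ := h (τ : ℂ) hτ
    rw [slash_formFun, norm_mul, reg_eq_of_analyticAt a h1]
    exact mul_le_mul_of_nonneg_left h2 (norm_nonneg _)
  have hlim : Tendsto (fun τ : ℍ => ‖(2 * π * Complex.I)⁻¹‖ * (C * Real.exp (-c * τ.im)))
      atImInfty (𝓝 0) := by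
    have h1 : Tendsto (fun τ : ℍ => -c * τ.im) atImInfty atBot :=
      him.const_mul_atTop_of_neg (by linarith)
    have h2 := Real.tendsto_exp_atBot.comp h1
    have h3 := (h2.const_mul C).const_mul ‖(2 * π * Complex.I)⁻¹‖
    simpa using h3
  exact squeeze_zero_norm' hbound hlim

/-- **The avatar of a holomorphic differential is a cusp form of weight 2.** -/
theorem isCF_formFun (hD : IsDict ι N) (a : FNK K N) (ha : a ≠ 0)
    (hreg : ∀ z ∈ U, 0 ≤ meromorphicOrderAt (av ι N a) z)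
    (hcusp : ∀ s : SL(2, ℤ), (N : ℤ) + 1 ≤ valCuspK ι N s a) :
    S20.IsCF (Gamma0 N) 2 (formFun ι N a) :=
  ⟨mdiff_formFun hD a hreg, fun γ hγ => formFun_slash_Gamma0 hD a hreg γ hγ,
    fun s => isZeroAtImInfty_slash hD a ha s (hcusp s⁻¹)⟩

/-- `formFun a · ev Q = ev P · D J` for every representative `a = fm P / fm Q`. -/
theorem formFun_mul_evK (hD : IsDict ι N) (a : FNK K N) (ha : a ≠ 0)
    (hreg : ∀ z ∈ U, 0 ≤ meromorphicOrderAt (av ι N a) z)
    {P Q : MvPolynomial (Fermat.Agent.S24.Dv N) K} (hrep : IsRepK N a P Q) (τ : ℍ) :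
    formFun ι N a τ * evK ι N Q τ
      = evK ι N P τ * Derivative.normalizedDerivOfComplex Jfun τ := by
  have hz : (τ : ℂ) ∈ U := coe_mem_U τ
  have hcont : ∀ R : MvPolynomial (Fermat.Agent.S24.Dv N) K,
      ContinuousAt (fun w : ℂ => evK ι N R (ofComplex w)) (τ : ℂ) := by
    intro R
    have h1 := UpperHalfPlane.mdifferentiable_iff.mp (hD.mdiff_evK R)
    exact (h1.differentiableAt (isOpen_U.mem_nhds hz)).continuousAt
  have key : reg ι N a (τ : ℂ) * evK ι N Q (ofComplex (τ : ℂ))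
      = evK ι N P (ofComplex (τ : ℂ)) * deriv Jc (τ : ℂ) := by
    have hc1 : ContinuousAt (fun w => reg ι N a w * evK ι N Q (ofComplex w)) (τ : ℂ) :=
      (analyticAt_reg hD a hz (hreg _ hz)).continuousAt.mul (hcont Q)
    have hc2 : ContinuousAt (fun w => evK ι N P (ofComplex w) * deriv Jc w) (τ : ℂ) :=
      (hcont P).mul (analyticAt_Jc hz).deriv.continuousAt
    have hne : (fun w => reg ι N a w * evK ι N Q (ofComplex w)) =ᶠ[𝓝[≠] (τ : ℂ)]
        fun w => evK ι N P (ofComplex w) * deriv Jc w := by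
      have h1 := reg_eventuallyEq_nhdsNE hD a hz
      have h2 := Kummer.eventuallyEq_nhdsNE_of_codiscreteWithin (hD.merK_eq_div_ae a P Q hrep) hz
      have h3 : ∀ᶠ w in 𝓝[≠] (τ : ℂ), merK ι N a w ≠ 0 :=
        (meromorphicOrderAt_ne_top_iff_eventually_ne_zero (hD.meromorphicOn_merK a _ hz)).mp
          (by rw [hD.meromorphicOrderAt_merK a ha τ]; exact WithTop.coe_ne_top)
      filter_upwards [h1, h2, h3] with w hw1 hw2 hw3
      have hQ0 : evK ι N Q (ofComplex w) ≠ 0 := by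
        intro h0
        apply hw3
        rw [hw2, h0, div_zero]
      rw [hw1, av_apply, hw2]
      field_simp
    exact ((hc1.eventuallyEq_nhds_iff_eventuallyEq_nhdsNE hc2).mp hne).eq_of_nhds
  rw [UpperHalfPlane.ofComplex_apply] at key
  have hD' : Derivative.normalizedDerivOfComplex Jfun τ
      = (2 * π * Complex.I)⁻¹ * deriv Jc (τ : ℂ) := rfl
  rw [formFun_apply, hD', mul_assoc, key]
  ring

end Fermat.Agent.TR.Hecke.CuspDiff
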