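import Mathlib
import Fermat.Agent.TR.Hecke.CuspDiff
import Fermat.Agent.ESJ.Dict.Main
import Fermat.Agent.S24.PlaceDict
import Fermat.Agent.S24.QExpJ
import Fermat.Agent.CAR.Local.ThetaJ
import Fermat.Agent.Lib.FF.DiffLocal
import Fermat.Agent.Lib.FF.CanonicalFF1
import Fermat.Agent.Lib.Red.GenusGASep
import Fermat.Prelude.Thm_CongruenceSubgroup_one_mem_strictPeriods_Gamma0
import Fermat.Prelude.Def_FLTPrelim_Modularity

/-!
# TR / Hecke, row (OA3-A): holomorphic differentials on `X₀(N)` over `ℚ̄` are weight-2 cusp forms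

`exists_cuspForm_of_mem_L` (the row's literal): for `F = ℚ̄(j(q^d) : d ∣ N)`, `J ∈ F` with
`q`-expansion `j(q)`, `W` the divisor of `dJ` and `φ ∈ L(W)` (i.e. `φ · dJ` holomorphic), there is
a cusp form `G` of weight `2` for `Γ₀(N)` whose `q`-expansion is `ι (φ · θ j)`, `θ = q d/dq`,
`ι = S24.iotaK : ℚ̄ → ℂ`.
-/

set_option autoImplicit false

open UpperHalfPlane Filter Topology CongruenceSubgroup ModularForm AlgebraicCurve
open scoped MatrixGroups Manifold Real

noncomputable section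

namespace Fermat.Agent.TR.Hecke.CuspDiff

open Fermat.Agent.S24 Fermat.Agent.ESJ.Jac Fermat.Agent.ESJ.Jac.LevelOneMer Fermat.Agent.ESJ.Dict
open Fermat.Agent.Lib.FF ModularCurve

variable (N : ℕ) [NeZero N]

/-! ### Orders at the points of `ℍ` -/

/-- `merK (j - c) = J - ι c` off a discrete subset of `U`. -/
theorem merK_jBar_sub_ae (c : KQ) :
    merK iotaK N (jBar N - algebraMap KQ (FN N) c) =ᶠ[codiscreteWithin U]
      fun z => Jc z - iotaK c := by
  have h := (isDict_Qbar N).merK_eq_div_ae _ _ _ (JPt.isRep_jBar_sub N c)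
  refine h.trans (Eventually.of_forall fun z => ?_)
  have e1 : evK iotaK N (MvPolynomial.X (JPt.d1 N) - MvPolynomial.C c) =
      fun z => Jfun z - iotaK c := JPt.ev_X_d1_sub_C N c
  show evK iotaK N (MvPolynomial.X (JPt.d1 N) - MvPolynomial.C c) (ofComplex z) /
      evK iotaK N 1 (ofComplex z) = Jc z - iotaK c
  rw [e1, map_one, Pi.one_apply, div_one]
  rfl

/-- The order of `J - ι c` at `σ` is the point valuation of `j - c`. -/
theorem meromorphicOrderAt_Jc_sub (σ : ℍ) (c : KQ) :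
    meromorphicOrderAt (fun z => Jc z - iotaK c) (σ : ℂ) =
      ((valPt N σ (jBar N - algebraMap KQ (FN N) c) : ℤ) : WithTop ℤ) := by
  have hne := PtTop.jBar_sub_ne_zero N c
  have h1 := (isDict_Qbar N).meromorphicOrderAt_merK _ hne σ
  have h2 := meromorphicOrderAt_congr (Kummer.eventuallyEq_nhdsNE_of_codiscreteWithin
    (merK_jBar_sub_ae N c) (coe_mem_U σ))
  rw [← h2, h1]
  rfl

/-- The order of `J'` at a point `σ` with `J(σ) = ι c`. -/
theorem meromorphicOrderAt_deriv_Jc (σ : ℍ) (c : KQ) (hc : Jfun σ = iotaK c) :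
    meromorphicOrderAt (deriv Jc) (σ : ℂ) =
      ((valPt N σ (jBar N - algebraMap KQ (FN N) c) - 1 : ℤ) : WithTop ℤ) := by
  have hk : 0 < valPt N σ (jBar N - algebraMap KQ (FN N) c) :=
    (PtTop.valPt_jBar_sub_pos_iff N σ c).mpr hc
  have hk0 : ((valPt N σ (jBar N - algebraMap KQ (FN N) c) : ℤ) : ℂ) ≠ 0 := by
    exact_mod_cast hk.ne'
  have h := meromorphicOrderAt_deriv_eq_sub_one hk0 (meromorphicOrderAt_Jc_sub N σ c)
  have hd : deriv (fun z => Jc z - iotaK c) = deriv Jc := by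
    funext z
    exact deriv_sub_const (iotaK c)
  rw [hd] at h
  exact h

/-- Regularity of the avatar at the points of `U`, from regularity at the point places. -/
theorem av_order_nonneg (a : FN N) (ha : a ≠ 0)
    (hpt : ∀ (v : Place KQ (FN N)) (c : KQ), 0 < v.ord (jBar N - algebraMap KQ (FN N) c) →
      0 ≤ v.ord a + v.ord (jBar N - algebraMap KQ (FN N) c) - 1) :
    ∀ z ∈ U, 0 ≤ meromorphicOrderAt (av iotaK N a) z := by
  intro z hz
  obtain ⟨σ, rfl⟩ : ∃ σ : ℍ, (σ : ℂ) = z := ⟨⟨z, hz⟩, rfl⟩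
  have hm1 : MeromorphicAt (merK iotaK N a) (σ : ℂ) :=
    (isDict_Qbar N).meromorphicOn_merK a _ (coe_mem_U σ)
  have hJ' : AnalyticAt ℂ (deriv Jc) (σ : ℂ) := (analyticAt_Jc (coe_mem_U σ)).deriv
  have h1 := (isDict_Qbar N).meromorphicOrderAt_merK a ha σ
  have h4 : av iotaK N a = merK iotaK N a * deriv Jc := rfl
  have h8 : valPtK iotaK N σ a = valPt N σ a := rfl
  rw [h4, meromorphicOrderAt_mul hm1 hJ'.meromorphicAt, h1, h8]
  by_cases halg : PlaceDict.IsAlgPt σ
  · obtain ⟨c, hc⟩ := halg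
    have halg' : PlaceDict.IsAlgPt σ := ⟨c, hc⟩
    have hne := PtTop.jBar_sub_ne_zero N c
    have h3 : valPt N σ a = PlaceDict.mulPt N σ halg' * (PlaceDict.placePt N σ halg').ord a :=
      PlaceDict.valPt_eq_mul_ord N σ halg' ha
    have h5 : valPt N σ (jBar N - algebraMap KQ (FN N) c) = PlaceDict.mulPt N σ halg' *
        (PlaceDict.placePt N σ halg').ord (jBar N - algebraMap KQ (FN N) c) :=
      PlaceDict.valPt_eq_mul_ord N σ halg' hne
    have h6 : 0 < (PlaceDict.placePt N σ halg').ord (jBar N - algebraMap KQ (FN N) c) :=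
      (PlaceDict.ord_jBar_sub_pos_iff N σ halg' c).mpr hc
    have h7 := hpt _ c h6
    have he : (1 : ℤ) ≤ (PlaceDict.mulPt N σ halg' : ℤ) := by
      exact_mod_cast PlaceDict.mulPt_pos N σ halg'
    rw [meromorphicOrderAt_deriv_Jc N σ c hc, ← WithTop.coe_add, h3, h5]
    have hnn : (0 : ℤ) ≤ (PlaceDict.mulPt N σ halg' : ℤ) * (PlaceDict.placePt N σ halg').ord a +
        ((PlaceDict.mulPt N σ halg' : ℤ) *
          (PlaceDict.placePt N σ halg').ord (jBar N - algebraMap KQ (FN N) c) - 1) := by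
      nlinarith
    exact_mod_cast hnn
  · have h3 : valPt N σ a = 0 := PlaceDict.valPt_eq_zero_of_not_isAlgPt N σ halg a ha
    rw [h3]
    have := hJ'.meromorphicOrderAt_nonneg
    simpa using this

/-! ### Orders at the cusps -/

/-- `valCusp N g j = -N` at every cusp, in the form `e · ord_v j = -N`. -/
theorem mulCusp_mul_ord_jBar (g : SL(2, ℤ)) :
    (PlaceDict.mulCusp N g : ℤ) * (PlaceDict.placeCusp N g).ord (jBar N) = -(N : ℤ) := by
  have h2 := PlaceDict.valCusp_eq_mul_ord N g (inv_ne_zero (PlaceDict.jBar_ne_zero N))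
  rw [valCusp_jBar_inv N g, AlgebraicCurve.Place.ord_inv] at h2
  linarith

/-- The cusp order of `a` is at least `N + 1` if `a · dj` is regular at the cusp places. -/
theorem valCusp_ge (a : FN N) (ha : a ≠ 0)
    (hcusp : ∀ v : Place KQ (FN N), v.ord (jBar N) < 0 → 0 ≤ v.ord a + v.ord (jBar N) - 1)
    (s : SL(2, ℤ)) : (N : ℤ) + 1 ≤ valCuspK iotaK N s a := by
  have h1 : valCuspK iotaK N s a = PlaceDict.mulCusp N s * (PlaceDict.placeCusp N s).ord a :=
    PlaceDict.valCusp_eq_mul_ord N s ha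
  have h2 := hcusp (PlaceDict.placeCusp N s) (PlaceDict.ord_jBar_placeCusp_neg N s)
  have h3 := mulCusp_mul_ord_jBar N s
  have h5 : (1 : ℤ) ≤ PlaceDict.mulCusp N s := by
    exact_mod_cast PlaceDict.mulCusp_pos N s
  rw [h1]
  nlinarith

/-! ### The divisor of `dj` -/

/-- The divisor of `dj` at a zero of `j - c`. -/
theorem ord_D_jBar_pt {W : Divisor KQ (FN N)}
    (hW : Res.Adele.IsDivisorOf (KaehlerDifferential.D KQ (FN N) (jBar N)) W)
    (v : Place KQ (FN N)) (c : KQ) (hv : 0 < v.ord (jBar N - algebraMap KQ (FN N) c)) :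
    W v = v.ord (jBar N - algebraMap KQ (FN N) c) - 1 := by
  have hF := Res.isFF1_modular N
  haveI := hF.hasPrincipalDivisors
  have hW' : Res.Adele.IsDivisorOf
      (KaehlerDifferential.D KQ (FN N) (jBar N - algebraMap KQ (FN N) c)) W := by
    rwa [Res.Adele.D_sub_algebraMap]
  exact hW'.ord_D_eq hF.resK (PtTop.jBar_sub_ne_zero N c) v (Int.cast_ne_zero.mpr hv.ne')

/-- The divisor of `dj` at a pole of `j`. -/
theorem ord_D_jBar_cusp {W : Divisor KQ (FN N)}
    (hW : Res.Adele.IsDivisorOf (KaehlerDifferential.D KQ (FN N) (jBar N)) W)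
    (v : Place KQ (FN N)) (hv : v.ord (jBar N) < 0) : W v = v.ord (jBar N) - 1 := by
  have hF := Res.isFF1_modular N
  haveI := hF.hasPrincipalDivisors
  exact hW.ord_D_eq hF.resK (PlaceDict.jBar_ne_zero N) v (Int.cast_ne_zero.mpr hv.ne)

/-- The two analytic regularity conditions, for `a ∈ L(div(dj))`. -/
theorem regular_of_mem_L {W : Divisor KQ (FN N)}
    (hW : Res.Adele.IsDivisorOf (KaehlerDifferential.D KQ (FN N) (jBar N)) W) {a : FN N}
    (ha : a ≠ 0) (haW : a ∈ riemannRochSpace W) :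
    (∀ z ∈ U, 0 ≤ meromorphicOrderAt (av iotaK N a) z) ∧
      ∀ s : SL(2, ℤ), (N : ℤ) + 1 ≤ valCuspK iotaK N s a := by
  have hL := mem_riemannRochSpace_iff.mp haW
  refine ⟨av_order_nonneg N a ha (fun v c hv => ?_), fun s => valCusp_ge N a ha (fun v hv => ?_) s⟩
  · have h1 := (hL v).resolve_left ha
    rw [ord_D_jBar_pt N hW v c hv] at h1
    omega
  · have h1 := (hL v).resolve_left ha
    rw [ord_D_jBar_cusp N hW v hv] at h1
    omega

/-! ### The `q`-expansion -/

/-- `(j : ℚ̄((q))) = j(q)`. -/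
theorem coe_jBar : ((jBar N : FN N) : LaurentSeries KQ) = jqModC KQ := by
  show coeffEmb KQ (qExpand ℚ 1 jq) = jqModC KQ
  rw [qExpand_one_apply]
  exact map_jqModC (algebraMap ℚ KQ)

theorem coeffMap_iotaK_jBar :
    coeffMap iotaK ((jBar N : FN N) : LaurentSeries KQ) = coeffMap (algebraMap ℚ ℂ) jq := by
  have h := QExp.coeffMap_iotaK_jFormal N ⟨1, one_dvd N⟩
  rw [qExpand_one_apply] at h
  exact h

open Fermat.Agent.S24.QExp Fermat.Agent.CAR.Local.ThetaJ in
/-- The `q`-expansion of the cusp form attached to `a · dj` is `ι (a · θ j)`. -/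
theorem qExpansion_formFun (a : FN N) (ha : a ≠ 0)
    (hreg : ∀ z ∈ U, 0 ≤ meromorphicOrderAt (av iotaK N a) z)
    (hcf : S20.IsCF (Gamma0 N) 2 (formFun iotaK N a)) :
    HahnSeries.ofPowerSeries ℤ ℂ (qExpansion 1 (formFun iotaK N a))
      = coeffMap iotaK ((a : LaurentSeries KQ) *
          thetaL KQ ((jBar N : FN N) : LaurentSeries KQ)) := by
  have hGq : HasQExp 1 (formFun iotaK N a)
      (HahnSeries.ofPowerSeries ℤ ℂ (qExpansion 1 (formFun iotaK N a))) := by
    refine hasQExp_of_hasSum_nat 1 _ _ (fun τ => ?_)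
    have h := ModularForm.hasSum_qExpansion (f := hcf.toCuspForm) one_pos
      (CongruenceSubgroup.one_mem_strictPeriods_Gamma0 N) τ
    rw [S20.IsCF.coe_toCuspForm] at h
    simpa using h
  obtain ⟨P, Q, hrep⟩ := (isDict_Qbar N).exists_isRepK a
  have hQ := hasQExp_ev N Q
  have hP := hasQExp_ev N P
  have hJ := hasQExp_theta hasQExp_Jfun
  have h1 := hGq.mul hQ
  have h2 := hP.mul hJ
  have hfun : formFun iotaK N a * ev N Q
      = ev N P * Derivative.normalizedDerivOfComplex Jfun := by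
    funext τ
    exact formFun_mul_evK (isDict_Qbar N) a ha hreg hrep τ
  rw [hfun] at h1
  have h3 := h1.unique h2
  have hQ0 : coeffMap iotaK ((fm N Q : FN N) : LaurentSeries KQ) ≠ 0 := by
    intro h0
    have h5 : ((fm N Q : FN N) : LaurentSeries KQ) = 0 :=
      coeffMap_injective' iotaK (by rw [h0, map_zero])
    exact hrep.1 (Subtype.ext h5)
  have hmul : (a : LaurentSeries KQ) * ((fm N Q : FN N) : LaurentSeries KQ)
      = ((fm N P : FN N) : LaurentSeries KQ) := by
    have h4 : a * fm N Q = fm N P := by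
      have h6 : a = fm N P / fm N Q := hrep.2
      rw [h6]
      exact div_mul_cancel₀ _ hrep.1
    exact congrArg (fun x : FN N => (x : LaurentSeries KQ)) h4
  apply mul_right_cancel₀ hQ0
  rw [h3, ← map_mul, mul_right_comm, hmul, map_mul, coeffMap_thetaL, coeffMap_iotaK_jBar]

/-- **(OA3-A)** for `j = jBar N`: a holomorphic differential `φ · dj` on `X₀(N)` over `ℚ̄` gives a
cusp form of weight `2` for `Γ₀(N)` with `q`-expansion `ι (φ · θ j)`. -/
theorem exists_cuspForm_of_mem_L_jBar {W : Divisor KQ (FN N)}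
    (hW : Res.Adele.IsDivisorOf (KaehlerDifferential.D KQ (FN N) (jBar N)) W) (φ : FN N)
    (hφ : φ ∈ riemannRochSpace W) :
    ∃ G : CuspForm (Gamma0 N) 2, ∀ n : ℕ,
      ModularFormClass.qCoeff G n = iotaK (((φ : LaurentSeries KQ) *
        Fermat.Agent.Lib.Red.GenusGA.thetaFun KQ (jqModC KQ)).coeff n) := by
  rcases eq_or_ne φ 0 with rfl | hφ0
  · refine ⟨0, fun n => ?_⟩
    have hcoe : ((0 : CuspForm (Gamma0 N) 2) : ℍ → ℂ) = (0 : ℍ → ℂ) := rfl
    rw [ModularFormClass.qCoeff, hcoe, qExpansion_zero]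
    simp
  · obtain ⟨hreg, hcusp⟩ := regular_of_mem_L N hW hφ0 hφ
    have hcf := isCF_formFun (isDict_Qbar N) φ hφ0 hreg hcusp
    refine ⟨hcf.toCuspForm, fun n => ?_⟩
    have h := qExpansion_formFun N φ hφ0 hreg hcf
    have h2 := congrArg (fun L : LaurentSeries ℂ => L.coeff (n : ℤ)) h
    simp only [HahnSeries.ofPowerSeries_apply_coeff, coeffMap_coeff] at h2
    show (qExpansion 1 (formFun iotaK N φ)).coeff n = _
    rw [h2, coe_jBar N]
    rfl

/-- **(OA3-A), the row's literal.**  `F = ℚ̄(j(q^d) : d ∣ N)`, `J ∈ F` with `q`-expansion `j(q)`,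
`W` the divisor of `dJ`, `φ ∈ L(W)`: there is a cusp form `G` of weight `2` for `Γ₀(N)` with
`a_n(G) = ι (a_n(φ · θ j))` for all `n`, where `ι = S24.iotaK : ℚ̄ →+* ℂ`. -/
theorem exists_cuspForm_of_mem_L
    (J : ↥(laurentBaseChange (AlgebraicClosure ℚ) (modularFunctionFieldFull N)))
    (hJ : (J : LaurentSeries (AlgebraicClosure ℚ)) = jqModC (AlgebraicClosure ℚ))
    (W : Divisor (AlgebraicClosure ℚ)
      ↥(laurentBaseChange (AlgebraicClosure ℚ) (modularFunctionFieldFull N)))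
    (hW : Res.Adele.IsDivisorOf (KaehlerDifferential.D (AlgebraicClosure ℚ)
      ↥(laurentBaseChange (AlgebraicClosure ℚ) (modularFunctionFieldFull N)) J) W)
    (φ : ↥(laurentBaseChange (AlgebraicClosure ℚ) (modularFunctionFieldFull N)))
    (hφ : φ ∈ riemannRochSpace W) :
    ∃ G : CuspForm (CongruenceSubgroup.Gamma0 N) 2, ∀ n : ℕ,
      ModularFormClass.qCoeff G n = Fermat.Agent.S24.iotaK
        (((φ : LaurentSeries (AlgebraicClosure ℚ)) *
          Fermat.Agent.Lib.Red.GenusGA.thetaFun (AlgebraicClosure ℚ)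
            (jqModC (AlgebraicClosure ℚ))).coeff n) := by
  have hJ' : J = jBar N := Subtype.ext (hJ.trans (coe_jBar N).symm)
  subst hJ'
  exact exists_cuspForm_of_mem_L_jBar N hW φ hφ

/-! ### The coefficients of `φ · θ j` in degrees `≤ 0` -/

open Fermat.Agent.CAR.Local.ThetaJ in
/-- For `φ ∈ L(div dj)` the `q`-series `φ · θ j` has no terms of degree `≤ 0`. -/
theorem coeff_nonpos_of_mem_L_jBar {W : Divisor KQ (FN N)}
    (hW : Res.Adele.IsDivisorOf (KaehlerDifferential.D KQ (FN N) (jBar N)) W) (φ : FN N)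
    (hφ : φ ∈ riemannRochSpace W) (n : ℤ) (hn : n ≤ 0) :
    ((φ : LaurentSeries KQ) *
      Fermat.Agent.Lib.Red.GenusGA.thetaFun KQ (jqModC KQ)).coeff n = 0 := by
  rcases eq_or_ne φ 0 with rfl | hφ0
  · have h0 : (((0 : FN N) : FN N) : LaurentSeries KQ) = 0 := rfl
    rw [h0, zero_mul, HahnSeries.coeff_zero]
  · obtain ⟨hreg, hcusp⟩ := regular_of_mem_L N hW hφ0 hφ
    have hcf := isCF_formFun (isDict_Qbar N) φ hφ0 hreg hcusp
    have h := qExpansion_formFun N φ hφ0 hreg hcf
    have h2 := congrArg (fun L : LaurentSeries ℂ => L.coeff n) h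
    simp only [coeffMap_coeff] at h2
    have h3 : (HahnSeries.ofPowerSeries ℤ ℂ (qExpansion 1 (formFun iotaK N φ))).coeff n = 0 := by
      rcases lt_or_eq_of_le hn with hlt | rfl
      · exact ofPowerSeries_coeff_of_neg _ hlt
      · have h5 := CuspFormClass.qExpansion_coeff_zero (f := hcf.toCuspForm) one_pos
          (CongruenceSubgroup.one_mem_strictPeriods_Gamma0 N)
        rw [S20.IsCF.coe_toCuspForm] at h5
        have h6 := HahnSeries.ofPowerSeries_apply_coeff (Γ := ℤ)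
          (qExpansion 1 (formFun iotaK N φ)) 0
        rw [Nat.cast_zero] at h6
        rw [h6, h5]
    rw [h3] at h2
    have h4 : iotaK (((φ : LaurentSeries KQ) *
        thetaL KQ ((jBar N : FN N) : LaurentSeries KQ)).coeff n) = iotaK 0 := by
      rw [← h2, map_zero]
    have h7 := iotaK.injective h4
    rw [coe_jBar N] at h7
    exact h7

/-- **(OA3-A), with the clause on the negative coefficients** (ruling H#3): the cusp form `G` with
`a_n(G) = ι (a_n(φ · θ j))` for `n : ℕ`, and `a_n(φ · θ j) = 0` for `n ≤ 0`. -/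
theorem exists_cuspForm_of_mem_L_full
    (J : ↥(laurentBaseChange (AlgebraicClosure ℚ) (modularFunctionFieldFull N)))
    (hJ : (J : LaurentSeries (AlgebraicClosure ℚ)) = jqModC (AlgebraicClosure ℚ))
    (W : Divisor (AlgebraicClosure ℚ)
      ↥(laurentBaseChange (AlgebraicClosure ℚ) (modularFunctionFieldFull N)))
    (hW : Res.Adele.IsDivisorOf (KaehlerDifferential.D (AlgebraicClosure ℚ)
      ↥(laurentBaseChange (AlgebraicClosure ℚ) (modularFunctionFieldFull N)) J) W)
    (φ : ↥(laurentBaseChange (AlgebraicClosure ℚ) (modularFunctionFieldFull N)))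
    (hφ : φ ∈ riemannRochSpace W) :
    (∃ G : CuspForm (CongruenceSubgroup.Gamma0 N) 2, ∀ n : ℕ,
      ModularFormClass.qCoeff G n = Fermat.Agent.S24.iotaK
        (((φ : LaurentSeries (AlgebraicClosure ℚ)) *
          Fermat.Agent.Lib.Red.GenusGA.thetaFun (AlgebraicClosure ℚ)
            (jqModC (AlgebraicClosure ℚ))).coeff n)) ∧
      ∀ n : ℤ, n ≤ 0 → ((φ : LaurentSeries (AlgebraicClosure ℚ)) *
          Fermat.Agent.Lib.Red.GenusGA.thetaFun (AlgebraicClosure ℚ)
            (jqModC (AlgebraicClosure ℚ))).coeff n = 0 := by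
  have hJ' : J = jBar N := Subtype.ext (hJ.trans (coe_jBar N).symm)
  subst hJ'
  exact ⟨exists_cuspForm_of_mem_L_jBar N hW φ hφ,
    fun n hn => coeff_nonpos_of_mem_L_jBar N hW φ hφ n hn⟩

end Fermat.Agent.TR.Hecke.CuspDiff
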