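import Mathlib
import Fermat.Agent.TR.Unit.IntRed
import Fermat.Agent.CAR.V3.CuspUnit

/-!
# TR (CUSP-SIGN), ruling H#3 line 4: the reduction of `f_Δ` at the cusps

Setting of `TR/Unit/FDelta`: `h : BadSetup A π M ℓ`, `f ∈ F = L·F_{Mℓ}` with `q`-expansion
`Units.u1 L ℓ = Δ(q)/Δ(q^ℓ)`, `Δ̄ := red_∞ f ∈ κ` (the mod-`ℓ` function field of level `M`,
`q`-expansion `Δ̄(q)^(1-ℓ)`), `Jb ∈ κ` with `q`-expansion `J̄(q)`.

* `ord_redInf_f_of_pole` : at a cuspidal place `Q` (a pole of `J̄`),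
  `ord_Q Δ̄ = (ℓ - 1) · ord_Q J̄` (`< 0`);
* `ord_redInf_f_nonneg` : at a non-cuspidal place, `0 ≤ ord_Q Δ̄`;
* **`cusp_sign`** : `0 < ord_Q Δ̄ → 0 ≤ ord_Q J̄` (a zero of `Δ̄` is non-cuspidal), and the
  dictionary `ord_redInf_f_nonneg_iff : 0 ≤ ord_Q Δ̄ ↔ 0 ≤ ord_Q J̄`;
* the same for the column `0` and `g = ℓ¹² · f⁻¹` (`red_0 g = red_∞ f`): `cusp_sign_zero`, ….

The input is `CAR.V3.CuspUnit.jPow_mul_u1inv_sub_one_mem_nonunits` (`(J̄ Δ̄)^(ℓ-1) ≡ 1` at every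
pole of `J̄`: `Δ̄^(ℓ-1) ∈ k(J̄)`), and `TR/Unit/IntRed` off the cusps.
-/

set_option autoImplicit false
set_option linter.unusedSectionVars false
set_option linter.style.haveILetI false

noncomputable section

namespace Fermat.Agent.TR.Hecke.CuspSign

open HahnSeries ModularCurve AlgebraicCurve Fermat.Agent.Lib.Red Fermat.Agent.S28
open Fermat.Agent.ESJ.Cong.LevelGen Fermat.Agent.BAD.TwoVal Fermat.Agent.S28.ModEq
open Fermat.Agent.CAR.V3 Fermat.Agent.TR.Unit.FDelta Fermat.Agent.TR.Unit.IntRed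

/-! ### Abstract form: a place of a function field inside `k((q))` -/

section Abs

variable {k : Type*} [Field k] (p : ℕ) [Fact p.Prime] [CharP k p]
  {κ : IntermediateField k (LaurentSeries k)}

/-- At a pole `Q` of `J̄`, an element `d` with `q`-expansion `Δ̄(q^p)/Δ̄(q) = Δ̄^(p-1)` has
`ord_Q d = -(p - 1) · ord_Q J̄`. -/
theorem ord_u1inv_of_pole (Q : Place k κ) {Jb d : κ} (hJb : (Jb : LaurentSeries k) = jqModC k)
    (hd : (d : LaurentSeries k) = Units.u1inv k p) (hQ : Q.ord Jb < 0) :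
    Q.ord d = -(((p : ℤ) - 1) * Q.ord Jb) := by
  have : NeZero p := ⟨(Fact.out : p.Prime).ne_zero⟩
  have hJ0 : Jb ≠ 0 := by
    rintro rfl
    rw [Place.ord_zero] at hQ
    exact lt_irrefl _ hQ
  have hd0 : d ≠ 0 := by
    rintro rfl
    exact UnitCert.u1inv_ne_zero p k hd.symm
  -- the element `J̄^(p-1) · d`
  have hnu : Jb ^ (p - 1) * d - 1 ∈ Q.toValuationSubring.nonunits := by
    refine CuspUnit.jPow_mul_u1inv_sub_one_mem_nonunits Q.toValuationSubring p κ.val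
      (fun a => Q.algebraMap_mem' a) (j := Jb) (f := Jb ^ (p - 1) * d) hJb ?_
      ((Fermat.Agent.S24.notMem_iff_ord_neg Q).mpr hQ)
    rw [map_mul, map_pow]
    show (Jb : LaurentSeries k) ^ (p - 1) * (d : LaurentSeries k) = _
    rw [hJb, hd]
  have hval : Q.toValuationSubring.valuation (Jb ^ (p - 1) * d) = 1 := by
    have h1 := Valuation.map_one_add_of_lt (v := Q.toValuationSubring.valuation)
      (Q.toValuationSubring.mem_nonunits_iff.mp hnu)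
    rwa [add_sub_cancel] at h1
  have hx0 : Jb ^ (p - 1) * d ≠ 0 := mul_ne_zero (pow_ne_zero _ hJ0) hd0
  have hmem : Jb ^ (p - 1) * d ∈ Q.toValuationSubring :=
    (Q.toValuationSubring.valuation_le_one_iff _).mp hval.le
  have hmem' : (Jb ^ (p - 1) * d)⁻¹ ∈ Q.toValuationSubring := by
    refine (Q.toValuationSubring.valuation_le_one_iff _).mp ?_
    rw [map_inv₀, hval, inv_one]
  have h1 := Fermat.Agent.S24.ord_nonneg_of_mem Q hmem
  have h2 := Fermat.Agent.S24.ord_nonneg_of_mem Q hmem'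
  rw [Q.ord_inv] at h2
  have h3 : Q.ord (Jb ^ (p - 1) * d) = ((p - 1 : ℕ) : ℤ) * Q.ord Jb + Q.ord d := by
    rw [Q.ord_mul (pow_ne_zero _ hJ0) hd0]
    have h4 := Q.ord_zpow Jb ((p - 1 : ℕ) : ℤ)
    rw [zpow_natCast] at h4
    rw [h4]
  have hp1 : ((p - 1 : ℕ) : ℤ) = (p : ℤ) - 1 := by
    rw [Nat.cast_sub (Fact.out : p.Prime).one_le, Nat.cast_one]
  rw [hp1] at h3
  linarith

end Abs

/-! ### BAD's two valuations -/

section Bad

variable {L : Type*} [Field L] [Algebra ℚ L] {A : ValuationSubring L} {k : Type} [Field k]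
  {π : A →+* k} {M ℓ : ℕ} [NeZero M] [NeZero ℓ]
  {W : laurentBaseChange L (modularFunctionFieldFull (M * ℓ)) ≃ₐ[L]
    laurentBaseChange L (modularFunctionFieldFull (M * ℓ))}
  {f : laurentBaseChange L (modularFunctionFieldFull (M * ℓ))}
  {Jb : modularFunctionFieldFullC k M}

/-- `red_∞ f · red_∞ f⁻¹ = 1`. -/
theorem redInf_f_mul_inv (h : BadSetup A π M ℓ) (hf : (f : LaurentSeries L) = Units.u1 L ℓ)
    (hm : f ∈ OInf h) (hm' : f⁻¹ ∈ OInf h) :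
    redInf h ⟨f, hm⟩ * redInf h ⟨f⁻¹, hm'⟩ = 1 := by
  rw [← map_mul, ← map_one (redInf h)]
  congr 1
  exact Subtype.ext (mul_inv_cancel₀ (f_ne_zero hf))

/-- **Cusps, exact order**: at a pole `Q` of `J̄`, `ord_Q (red_∞ f_Δ) = (ℓ - 1) · ord_Q J̄`. -/
theorem ord_redInf_f_of_pole (h : BadSetup A π M ℓ) (hJb : (Jb : LaurentSeries k) = jqModC k)
    (Q : Place k ↥(modularFunctionFieldFullC k M)) (hQ : Q.ord Jb < 0)
    (hf : (f : LaurentSeries L) = Units.u1 L ℓ) (hm : f ∈ OInf h) :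
    Q.ord (redInf h ⟨f, hm⟩) = ((ℓ : ℤ) - 1) * Q.ord Jb := by
  have : Fact ℓ.Prime := ⟨h.hℓ⟩
  have : CharP k ℓ := h.charP
  have hm' : f⁻¹ ∈ OInf h := inv_f_mem_OInf h hf
  have h1 := ord_u1inv_of_pole ℓ Q hJb (coe_redInf_inv_f h hf hm') hQ
  have h2 := redInf_f_mul_inv h hf hm hm'
  have ha : redInf h ⟨f, hm⟩ ≠ 0 := redInf_f_ne_zero h hf hm
  have hb : redInf h ⟨f⁻¹, hm'⟩ ≠ 0 := redInf_inv_f_ne_zero h hf hm'
  have h3 := Q.ord_mul ha hb
  rw [h2, Place.ord_one] at h3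
  linarith

/-- At a pole of `J̄`, `red_∞ f_Δ` has a pole. -/
theorem ord_redInf_f_neg_of_pole (h : BadSetup A π M ℓ)
    (hJb : (Jb : LaurentSeries k) = jqModC k)
    (Q : Place k ↥(modularFunctionFieldFullC k M)) (hQ : Q.ord Jb < 0)
    (hf : (f : LaurentSeries L) = Units.u1 L ℓ) (hm : f ∈ OInf h) :
    Q.ord (redInf h ⟨f, hm⟩) < 0 := by
  rw [ord_redInf_f_of_pole h hJb Q hQ hf hm]
  have h2 : (2 : ℤ) ≤ (ℓ : ℤ) := by exact_mod_cast h.hℓ.two_le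
  nlinarith

/-- `f_Δ` is integral over `A[J(q), J(q^ℓ)]`, and so is `ℓ¹² · f_Δ⁻¹`. -/
theorem isIntegral_f_g_jRing (hℓ : ℓ.Prime) (hf : (f : LaurentSeries L) = Units.u1 L ℓ) :
    IsIntegral (jRing A M ℓ) f ∧
      IsIntegral (jRing A M ℓ)
        (((ℓ : ℕ) : laurentBaseChange L (modularFunctionFieldFull (M * ℓ))) ^ 12 * f⁻¹) := by
  have hJi : IsIntegral (jRing A M ℓ) (heckeAlphaBar L M ℓ (jLevel L M)) :=
    isIntegral_algebraMap (R := jRing A M ℓ)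
      (x := (⟨heckeAlphaBar L M ℓ (jLevel L M), alpha_j_mem_jRing⟩ : jRing A M ℓ))
  exact isIntegral_f_g hℓ hJi hf

/-- **Off the cusps**: `red_∞ f_Δ` is regular at every non-cuspidal place. -/
theorem ord_redInf_f_nonneg (h : BadSetup A π M ℓ) (hJb : (Jb : LaurentSeries k) = jqModC k)
    (Q : Place k ↥(modularFunctionFieldFullC k M)) (hQ : 0 ≤ Q.ord Jb)
    (hf : (f : LaurentSeries L) = Units.u1 L ℓ) (hm : f ∈ OInf h) :
    0 ≤ Q.ord (redInf h ⟨f, hm⟩) := by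
  obtain ⟨_, h1⟩ := ord_redInf_nonneg h hJb Q hQ (isIntegral_f_g_jRing (A := A) h.hℓ hf).1
  exact h1

/-- **(CUSP-SIGN)**: a zero of `Δ̄ = red_∞ f_Δ` is a non-cuspidal place. -/
theorem cusp_sign (h : BadSetup A π M ℓ) (hJb : (Jb : LaurentSeries k) = jqModC k)
    (Q : Place k ↥(modularFunctionFieldFullC k M))
    (hf : (f : LaurentSeries L) = Units.u1 L ℓ) (hm : f ∈ OInf h)
    (hpos : 0 < Q.ord (redInf h ⟨f, hm⟩)) : 0 ≤ Q.ord Jb := by
  by_contra hneg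
  have h1 := ord_redInf_f_neg_of_pole h hJb Q (not_le.mp hneg) hf hm
  exact absurd hpos (not_lt.mpr h1.le)

/-- The dictionary: `Δ̄` is regular at `Q` iff `Q` is non-cuspidal. -/
theorem ord_redInf_f_nonneg_iff (h : BadSetup A π M ℓ)
    (hJb : (Jb : LaurentSeries k) = jqModC k)
    (Q : Place k ↥(modularFunctionFieldFullC k M))
    (hf : (f : LaurentSeries L) = Units.u1 L ℓ) (hm : f ∈ OInf h) :
    0 ≤ Q.ord (redInf h ⟨f, hm⟩) ↔ 0 ≤ Q.ord Jb := by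
  constructor
  · intro h0
    by_contra hneg
    have h1 := ord_redInf_f_neg_of_pole h hJb Q (not_le.mp hneg) hf hm
    exact absurd h0 (not_le.mpr h1)
  · intro hQ
    exact ord_redInf_f_nonneg h hJb Q hQ hf hm

/-- `Δ̄` has a pole at `Q` iff `Q` is cuspidal. -/
theorem ord_redInf_f_neg_iff (h : BadSetup A π M ℓ)
    (hJb : (Jb : LaurentSeries k) = jqModC k)
    (Q : Place k ↥(modularFunctionFieldFullC k M))
    (hf : (f : LaurentSeries L) = Units.u1 L ℓ) (hm : f ∈ OInf h) :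
    Q.ord (redInf h ⟨f, hm⟩) < 0 ↔ Q.ord Jb < 0 := by
  rw [← not_le, ← not_le, ord_redInf_f_nonneg_iff h hJb Q hf hm]

/-! #### The column `0`: `g = ℓ¹² · f⁻¹`, `red_0 g = red_∞ f` -/

/-- At a pole `Q` of `J̄`, `ord_Q (red_0 g) = (ℓ - 1) · ord_Q J̄`. -/
theorem ord_redZero_g_of_pole (h : BadSetup A π M ℓ) (hW : IsAL M ℓ W)
    (hJb : (Jb : LaurentSeries k) = jqModC k)
    (Q : Place k ↥(modularFunctionFieldFullC k M)) (hQ : Q.ord Jb < 0)
    (hf : (f : LaurentSeries L) = Units.u1 L ℓ)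
    (hm : ((ℓ : ℕ) : laurentBaseChange L (modularFunctionFieldFull (M * ℓ))) ^ 12 * f⁻¹ ∈
      OZero h W) :
    Q.ord (redZero h W ⟨_, hm⟩) = ((ℓ : ℤ) - 1) * Q.ord Jb := by
  rw [redZero_g h hW hf hm (f_mem_OInf h hf)]
  exact ord_redInf_f_of_pole h hJb Q hQ hf _

/-- **(CUSP-SIGN), column `0`**: a zero of `red_0 (ℓ¹² · f_Δ⁻¹)` is a non-cuspidal place. -/
theorem cusp_sign_zero (h : BadSetup A π M ℓ) (hW : IsAL M ℓ W)
    (hJb : (Jb : LaurentSeries k) = jqModC k)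
    (Q : Place k ↥(modularFunctionFieldFullC k M))
    (hf : (f : LaurentSeries L) = Units.u1 L ℓ)
    (hm : ((ℓ : ℕ) : laurentBaseChange L (modularFunctionFieldFull (M * ℓ))) ^ 12 * f⁻¹ ∈
      OZero h W)
    (hpos : 0 < Q.ord (redZero h W ⟨_, hm⟩)) : 0 ≤ Q.ord Jb := by
  rw [redZero_g h hW hf hm (f_mem_OInf h hf)] at hpos
  exact cusp_sign h hJb Q hf _ hpos

/-- The dictionary for the column `0`. -/
theorem ord_redZero_g_nonneg_iff (h : BadSetup A π M ℓ) (hW : IsAL M ℓ W)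
    (hJb : (Jb : LaurentSeries k) = jqModC k)
    (Q : Place k ↥(modularFunctionFieldFullC k M))
    (hf : (f : LaurentSeries L) = Units.u1 L ℓ)
    (hm : ((ℓ : ℕ) : laurentBaseChange L (modularFunctionFieldFull (M * ℓ))) ^ 12 * f⁻¹ ∈
      OZero h W) :
    0 ≤ Q.ord (redZero h W ⟨_, hm⟩) ↔ 0 ≤ Q.ord Jb := by
  rw [redZero_g h hW hf hm (f_mem_OInf h hf)]
  exact ord_redInf_f_nonneg_iff h hJb Q hf _

end Bad

end Fermat.Agent.TR.Hecke.CuspSign
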