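/-
TR / Hecke side, rows (OA2) + (OA1) of helper56's cut (helper28).

* (OA2) `theta_eq_of_D_eq` : the chain rule.  For an intermediate field `E` of `k((q))/k` and
  `x y a ∈ E` with `dy = a • dx` in `Ω[E/k]`: `θ y = a * θ x` in `k((q))` (`θ = q d/dq`).
* (OA1a) `dlog_coeff_mem_L` (+ `_of_dvd`, `_ff1`) : in a function field `F/K` with all places
  rational, if `char K ∣ ord_v h` for all places `v` and `dh = (a * h) • dJ`, then
  `a ∈ L(div(dJ))`: the logarithmic differential `dh/h` is holomorphic.
* (OA1b) `exists_pow_eq_of_D_eq_zero`, `dlog_coeff_eq_zero_iff` : over an algebraically closed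
  field of characteristic `p`, `dh = 0` iff `h` is a `p`-th power; hence `a = 0 ↔ h ∈ Fᵖ`.
-/
import Mathlib
import Fermat.Agent.Lib.Red.GenusGASep
import Fermat.Agent.Lib.FF.DiffLocal
import Fermat.Agent.Lib.FF.CanonicalIsFF1
import Fermat.Agent.Lib.FF.CharP.Principal

set_option autoImplicit false

namespace Fermat.Agent.TR.Hecke.DlogFF

open KaehlerDifferential AlgebraicCurve WithZero IntermediateField
open Fermat.Agent.Lib.FF Fermat.Agent.Lib.Red.GenusGA

/-! ### (OA2) the chain rule for `θ = q d/dq` -/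

section ChainRule

/-- The universal property, in the form used below: if `dy = a • dx` in `Ω[F/K]` then
`δ y = a • δ x` for every `K`-derivation `δ` of `F`. -/
theorem derivation_eq_smul_of_D_eq {K F M : Type*} [Field K] [Field F] [Algebra K F]
    [AddCommGroup M] [Module K M] [Module F M] [IsScalarTower K F M] (δ : Derivation K F M)
    {x y a : F} (h : D K F y = a • D K F x) : δ y = a • δ x := by
  have h1 : δ.liftKaehlerDifferential (D K F y) = δ y :=
    Derivation.liftKaehlerDifferential_comp_D δ y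
  have h2 : δ.liftKaehlerDifferential (D K F x) = δ x :=
    Derivation.liftKaehlerDifferential_comp_D δ x
  rw [h, map_smul, h2] at h1
  exact h1.symm

variable {k : Type*} [Field k] (E : IntermediateField k (LaurentSeries k))

set_option synthInstance.maxHeartbeats 200000 in
/-- **Chain rule**: `dy = a • dx` in `Ω[E/k]` implies `θ y = a * θ x` in `k((q))`. -/
theorem theta_eq_of_D_eq {x y a : E} (h : D k E y = a • D k E x) :
    theta k (y : LaurentSeries k) = (a : LaurentSeries k) * theta k (x : LaurentSeries k) := by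
  have := isScalarTower_laurent E
  have h1 := derivation_eq_smul_of_D_eq (thetaRestrict E) h
  rw [theta_apply, theta_apply, ← thetaRestrict_apply, ← thetaRestrict_apply, h1]
  rfl

set_option synthInstance.maxHeartbeats 200000 in
/-- The logarithmic form: `dy = (a * y) • dx` implies `θ y = a * y * θ x`. -/
theorem theta_eq_of_D_eq_mul {x y a : E} (h : D k E y = (a * y) • D k E x) :
    theta k (y : LaurentSeries k)
      = (a : LaurentSeries k) * (y : LaurentSeries k) * theta k (x : LaurentSeries k) := by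
  rw [theta_eq_of_D_eq E h]
  rfl

end ChainRule

/-! ### (OA1a) the logarithmic differential of a function with `p`-divisible divisor -/

section Dlog

variable {K F : Type*} [Field K] [Field F] [Algebra K F]

/-- **`dh/h` is holomorphic** when `char K` divides all orders of `h`: if `dh = (a * h) • dJ` and
`W` is the divisor of `dJ`, then `a ∈ L(W)`. -/
theorem dlog_coeff_mem_L [HasPrincipalDivisors K F] (hres : ∀ v : Place K F, RR.ResK v)
    {J hbar a : F} {W : Divisor K F} (hW : Res.Adele.IsDivisorOf (D K F J) W) (hh : hbar ≠ 0)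
    (hp : ∀ v : Place K F, ((v.ord hbar : ℤ) : K) = 0)
    (hD : D K F hbar = (a * hbar) • D K F J) : a ∈ riemannRochSpace W := by
  rw [mem_riemannRochSpace_iff]
  intro v
  by_cases ha : a = 0
  · exact Or.inl ha
  right
  obtain ⟨t, c, ht, hJ, hc⟩ := hW v
  have hc0 : c ≠ 0 := by
    rintro rfl
    rw [map_zero] at hc
    exact exp_ne_zero hc.symm
  have h1 : D K F hbar = (a * hbar * c) • D K F t := by rw [hD, hJ, smul_smul]
  have h2 := Res.Adele.val_coeff_sub_le hres v ht hh h1
  have h3 : ((v.ord hbar : ℤ) : F) = 0 := by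
    have e : ((v.ord hbar : ℤ) : F) = algebraMap K F ((v.ord hbar : ℤ) : K) := by simp
    rw [e, hp v, map_zero]
  rw [h3, zero_mul, sub_zero, map_mul, map_mul, hc, v.adicValuation_eq_exp_neg_ord ha,
    v.adicValuation_eq_exp_neg_ord hh, ← exp_add, ← exp_add, exp_le_exp] at h2
  omega

/-- The same with the divisibility hypothesis `p ∣ ord_v h`, `p = char K`. -/
theorem dlog_coeff_mem_L_of_dvd [HasPrincipalDivisors K F] (hres : ∀ v : Place K F, RR.ResK v)
    (p : ℕ) [CharP K p] {J hbar a : F} {W : Divisor K F}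
    (hW : Res.Adele.IsDivisorOf (D K F J) W) (hh : hbar ≠ 0)
    (hp : ∀ v : Place K F, (p : ℤ) ∣ v.ord hbar)
    (hD : D K F hbar = (a * hbar) • D K F J) : a ∈ riemannRochSpace W :=
  dlog_coeff_mem_L hres hW hh (fun v => (CharP.intCast_eq_zero_iff K p _).mpr (hp v)) hD

/-- The same in the setting `IsFF1`. -/
theorem dlog_coeff_mem_L_ff1 {x : F} (h : IsFF1 K F x) (p : ℕ) [CharP K p] {J hbar a : F}
    {W : Divisor K F} (hW : Res.Adele.IsDivisorOf (D K F J) W) (hh : hbar ≠ 0)
    (hp : ∀ v : Place K F, (p : ℤ) ∣ v.ord hbar)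
    (hD : D K F hbar = (a * hbar) • D K F J) : a ∈ riemannRochSpace W := by
  have := h.hasPrincipalDivisors
  exact dlog_coeff_mem_L_of_dvd h.resK p hW hh hp hD

/-! ### (OA1b) `dh = 0` iff `h` is a `p`-th power -/

/-- `d(uᵖ) = 0` in characteristic `p`. -/
theorem D_pow_char (p : ℕ) [CharP K p] (u : F) : D K F (u ^ p) = 0 := by
  have : CharP F p := charP_of_injective_algebraMap (algebraMap K F).injective p
  rw [Derivation.leibniz_pow, ← Nat.cast_smul_eq_nsmul F, CharP.cast_eq_zero F p, zero_smul]

/-- Over an algebraically closed field of characteristic `p`, a function with `dh = 0` in a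
function field of one variable is a `p`-th power. -/
theorem exists_pow_eq_of_D_eq_zero [IsAlgClosed K] (p : ℕ) [Fact p.Prime] [CharP K p] (x : F)
    (hx : Transcendental K x) [FiniteDimensional K⟮x⟯ F] {y : F} (hy : D K F y = 0) :
    ∃ u : F, u ^ p = y := by
  by_cases hyt : Transcendental K y
  · have : FiniteDimensional K⟮y⟯ F :=
      Fermat.Agent.S24.finiteDimensional_of_transcendental x hyt
    obtain ⟨t, -, hsep⟩ := Fermat.Agent.Lib.FF.CharP.exists_separating (K := K) x hx
    rcases Fermat.Agent.Lib.FF.CharP.exists_pow_eq_or_isSeparable (K := K) p t y with h | h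
    · exact h
    · exfalso
      have hspan := Res.span_D_eq_top_of_isSeparable (K := K) y
      have := Res.nontrivial_kaehler_ff1 (Fermat.Agent.Lib.FF.CharP.isFF1 (K := K) x hx)
      rw [hy, Submodule.span_zero_singleton] at hspan
      exact bot_ne_top hspan
  · rw [Transcendental, not_not] at hyt
    obtain ⟨c, rfl⟩ := exists_eq_algebraMap_of_isAlgebraic hyt
    obtain ⟨d, hd⟩ := IsAlgClosed.exists_pow_nat_eq c (Fact.out : p.Prime).pos
    exact ⟨algebraMap K F d, by rw [← map_pow, hd]⟩

/-- `dh = 0 ↔ h ∈ Fᵖ`. -/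
theorem D_eq_zero_iff_exists_pow [IsAlgClosed K] (p : ℕ) [Fact p.Prime] [CharP K p] (x : F)
    (hx : Transcendental K x) [FiniteDimensional K⟮x⟯ F] {y : F} :
    D K F y = 0 ↔ ∃ u : F, u ^ p = y := by
  constructor
  · exact exists_pow_eq_of_D_eq_zero p x hx
  · rintro ⟨u, rfl⟩
    exact D_pow_char p u

/-- **(OA1b)**: if `dh = (a * h) • dJ` with `dJ ≠ 0`, `h ≠ 0`, then `a = 0` iff `h` is a `p`-th
power. -/
theorem dlog_coeff_eq_zero_iff [IsAlgClosed K] (p : ℕ) [Fact p.Prime] [CharP K p] (x : F)
    (hx : Transcendental K x) [FiniteDimensional K⟮x⟯ F] {J hbar a : F} (hJ : D K F J ≠ 0)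
    (hh : hbar ≠ 0) (hD : D K F hbar = (a * hbar) • D K F J) :
    a = 0 ↔ ∃ u : F, u ^ p = hbar := by
  rw [← D_eq_zero_iff_exists_pow p x hx, hD, smul_eq_zero]
  constructor
  · intro h
    exact Or.inl (by rw [h, zero_mul])
  · rintro (h | h)
    · exact (mul_eq_zero.mp h).resolve_right hh
    · exact absurd h hJ

end Dlog

end Fermat.Agent.TR.Hecke.DlogFF
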