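/-
TR / Hecke side (helper28): the PACKAGED form of (OA1) + (OA2) for (OA6).

`E` an intermediate field of `k((q))/k` which is a function field of one variable over the
algebraically closed field `k` of characteristic `p`; `J ∈ E` with `θ J ≠ 0` (`θ = q d/dq`).
Then `dJ` has a divisor `W` (of degree `2g - 2`), and for every `h ∈ Eˣ` all of whose orders are
divisible by `p` there is `a ∈ L(W)` with

  `θ h = a * h * θ J`   and   `a = 0 ↔ h ∈ Eᵖ`.

(`θ h / h` is the `q`-expansion of a holomorphic differential, divided by `θ J`.)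

`exists_dlog_theta_modular` : the instance `E = modularFunctionFieldFullC k N`, `J = j(q) mod p`.
-/
import Mathlib
import Fermat.Agent.TR.Hecke.DlogFF
import Fermat.Agent.Lib.FF.ModL
import Fermat.Agent.S28.Kummer.Twist

set_option autoImplicit false

namespace Fermat.Agent.TR.Hecke.DlogTheta

open KaehlerDifferential AlgebraicCurve WithZero IntermediateField
open Fermat.Agent.Lib.FF Fermat.Agent.Lib.Red.GenusGA Fermat.Agent.TR.Hecke.DlogFF

variable {k : Type*} [Field k] (E : IntermediateField k (LaurentSeries k))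

set_option synthInstance.maxHeartbeats 200000 in
/-- `dJ ≠ 0` and `dJ` spans `Ω[E/k]` when `θ J ≠ 0`. -/
theorem span_D_eq_top_of_theta_ne_zero [IsAlgClosed k] (x : E) (hx : Transcendental k x)
    [FiniteDimensional k⟮x⟯ E] (J : E) (hJ : theta k (J : LaurentSeries k) ≠ 0) :
    Submodule.span E {D k E J} = ⊤ :=
  span_D_eq_top_of_ne_zero x hx (D_ne_zero_of_theta_ne_zero E J hJ)

set_option synthInstance.maxHeartbeats 200000 in
/-- **(OA1) + (OA2), packaged.** -/
theorem exists_dlog_theta [IsAlgClosed k] (p : ℕ) [Fact p.Prime] [CharP k p] (x : E)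
    (hx : Transcendental k x) [FiniteDimensional k⟮x⟯ E] (J : E)
    (hJ : theta k (J : LaurentSeries k) ≠ 0) :
    ∃ W : Divisor k E, Res.Adele.IsDivisorOf (D k E J) W ∧
      Divisor.degree W = 2 * (genusFF k E : ℤ) - 2 ∧
      ∀ hbar : E, hbar ≠ 0 → (∀ v : Place k E, (p : ℤ) ∣ v.ord hbar) →
        ∃ a : E, a ∈ riemannRochSpace W ∧
          theta k (hbar : LaurentSeries k)
            = (a : LaurentSeries k) * (hbar : LaurentSeries k) * theta k (J : LaurentSeries k) ∧
          (a = 0 ↔ ∃ u : E, u ^ p = hbar) := by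
  have hDJ : D k E J ≠ 0 := D_ne_zero_of_theta_ne_zero E J hJ
  have hFF : IsFF1 k E x := Fermat.Agent.Lib.FF.CharP.isFF1 x hx
  have hspan := span_D_eq_top_of_theta_ne_zero E x hx J hJ
  obtain ⟨W, hW, hdeg, -, -⟩ := Res.exists_divisor_D_of_span hFF J hspan
  refine ⟨W, hW, hdeg, fun hbar hh hp => ?_⟩
  have hmem : D k E hbar ∈ Submodule.span E {D k E J} := by rw [hspan]; trivial
  obtain ⟨b, hb⟩ := Submodule.mem_span_singleton.mp hmem
  have hD : D k E hbar = (b * hbar⁻¹ * hbar) • D k E J := by
    rw [inv_mul_cancel_right₀ hh, hb]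
  exact ⟨b * hbar⁻¹, dlog_coeff_mem_L_ff1 hFF p hW hh hp hD, theta_eq_of_D_eq_mul E hD,
    dlog_coeff_eq_zero_iff p x hx hDJ hh hD⟩

/-! ### The instance: the modular function field mod `p`, `J = j(q)` -/

section Modular

open ModularCurve

/-- `θ j ≠ 0` over any field: the coefficient of `q⁻¹` is `-1`. -/
theorem theta_jqModC_ne_zero (k : Type*) [Field k] : theta k (jqModC k) ≠ 0 := by
  intro h
  have h1 := congrArg (fun f : LaurentSeries k => f.coeff (-1)) h
  simp only [theta_coeff, HahnSeries.coeff_zero,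
    Fermat.Agent.S28.Kummer.jqModC_coeff_neg_one] at h1
  simp at h1

set_option synthInstance.maxHeartbeats 200000 in
/-- **(OA1) + (OA2) for the modular function field of level `N` over `k`** (algebraically closed
of characteristic `p`), with `J = j(q)`. -/
theorem exists_dlog_theta_modular (k : Type*) [Field k] [IsAlgClosed k] (p : ℕ) [Fact p.Prime]
    [CharP k p] (N : ℕ) [NeZero N] :
    ∃ W : Divisor k (modularFunctionFieldFullC k N),
      Res.Adele.IsDivisorOf (D k (modularFunctionFieldFullC k N) (ModL.Jbar k N)) W ∧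
      Divisor.degree W = 2 * (genusFF k (modularFunctionFieldFullC k N) : ℤ) - 2 ∧
      ∀ hbar : modularFunctionFieldFullC k N, hbar ≠ 0 →
        (∀ v : Place k (modularFunctionFieldFullC k N), (p : ℤ) ∣ v.ord hbar) →
        ∃ a : modularFunctionFieldFullC k N, a ∈ riemannRochSpace W ∧
          theta k (hbar : LaurentSeries k)
            = (a : LaurentSeries k) * (hbar : LaurentSeries k) * theta k (jqModC k) ∧
          (a = 0 ↔ ∃ u : modularFunctionFieldFullC k N, u ^ p = hbar) := by
  have := ModL.finiteDimensional_Jbar k N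
  exact exists_dlog_theta (modularFunctionFieldFullC k N) p (ModL.Jbar k N)
    (ModL.transcendental_Jbar k N) (ModL.Jbar k N) (theta_jqModC_ne_zero k)

end Modular

end Fermat.Agent.TR.Hecke.DlogTheta
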