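/-
TR / Hecke side, row (BASE) of helper56's ruling H#3 (helper28): change of the base function of a
holomorphic differential.

`E` a function field of one variable inside `K((q))`, `x j ∈ E` with divisors `Wx = div(dx)`,
`Wj = div(dj)` (`Res.Adele.IsDivisorOf`), `dj` spanning `Ω[E/K]` (e.g. `θ j ≠ 0`).  Then for every
`φ ∈ L(Wx)` (`φ dx` holomorphic) there is `ψ ∈ L(Wj)` with

  `ψ * θ j = φ * θ x`   in `K((q))`      (`ψ dj = φ dx`; `ψ = φ * c`, `dx = c • dj`).

* `exists_base_of_span` : the core statement (`dj` spans);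
* `exists_base` : in the setting `IsFF1`, from `θ j ≠ 0`;
* `exists_base_jq` : for `j` with `q`-expansion `jqModC K`.
-/
import Mathlib
import Fermat.Agent.TR.Hecke.DlogTheta

set_option autoImplicit false

namespace Fermat.Agent.TR.Hecke.DiffBase

open KaehlerDifferential AlgebraicCurve WithZero IntermediateField ModularCurve
open Fermat.Agent.Lib.FF Fermat.Agent.Lib.Red.GenusGA Fermat.Agent.TR.Hecke.DlogFF

variable {K : Type*} [Field K] (E : IntermediateField K (LaurentSeries K))

set_option synthInstance.maxHeartbeats 200000 in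
/-- **(BASE), core form.**  If `dx = c • dj` then `φ ↦ φ * c` maps `L(div dx)` into `L(div dj)`,
and `(φ * c) * θ j = φ * θ x`. -/
theorem mul_mem_L_of_D_eq [HasPrincipalDivisors K E] (hres : ∀ v : Place K E, RR.ResK v)
    {x j c : E} {Wx Wj : Divisor K E} (hWx : Res.Adele.IsDivisorOf (D K E x) Wx)
    (hWj : Res.Adele.IsDivisorOf (D K E j) Wj) (hc : D K E x = c • D K E j)
    {φ : E} (hφ : φ ∈ riemannRochSpace Wx) :
    φ * c ∈ riemannRochSpace Wj ∧
      ((φ * c : E) : LaurentSeries K) * theta K (j : LaurentSeries K)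
        = (φ : LaurentSeries K) * theta K (x : LaurentSeries K) := by
  refine ⟨fun v => ?_, ?_⟩
  · obtain ⟨t, a, ht, hj, ha⟩ := hWj v
    have hx : D K E x = (c * a) • D K E t := by rw [hc, hj, smul_smul]
    have h1 := hWx.val_coeff hres v ht hx
    rw [map_mul, ha] at h1
    have hcv : v.adicValuation c = exp (Wj v - Wx v) := by
      calc v.adicValuation c = v.adicValuation c * exp (-(Wj v)) * exp (Wj v) := by
            rw [mul_assoc, ← exp_add, neg_add_cancel, exp_zero, mul_one]
        _ = exp (-(Wx v)) * exp (Wj v) := by rw [h1]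
        _ = exp (Wj v - Wx v) := by rw [← exp_add]; congr 1; ring
    have h2 : v.adicValuation φ ≤ exp (Wx v) := hφ v
    calc v.adicValuation (φ * c) = v.adicValuation φ * exp (Wj v - Wx v) := by
          rw [map_mul, hcv]
      _ ≤ exp (Wx v) * exp (Wj v - Wx v) := mul_le_mul_left h2 _
      _ = exp (Wj v) := by rw [← exp_add]; congr 1; ring
  · rw [theta_eq_of_D_eq E hc]
    show (φ : LaurentSeries K) * (c : LaurentSeries K) * theta K (j : LaurentSeries K) = _
    ring

set_option synthInstance.maxHeartbeats 200000 in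
/-- **(BASE)** when `dj` spans `Ω[E/K]`. -/
theorem exists_base_of_span [HasPrincipalDivisors K E] (hres : ∀ v : Place K E, RR.ResK v)
    {x j : E} {Wx Wj : Divisor K E} (hWx : Res.Adele.IsDivisorOf (D K E x) Wx)
    (hWj : Res.Adele.IsDivisorOf (D K E j) Wj) (hspan : Submodule.span E {D K E j} = ⊤)
    {φ : E} (hφ : φ ∈ riemannRochSpace Wx) :
    ∃ ψ : E, ψ ∈ riemannRochSpace Wj ∧
      (ψ : LaurentSeries K) * theta K (j : LaurentSeries K)
        = (φ : LaurentSeries K) * theta K (x : LaurentSeries K) := by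
  have hmem : D K E x ∈ Submodule.span E {D K E j} := by rw [hspan]; trivial
  obtain ⟨c, hc⟩ := Submodule.mem_span_singleton.mp hmem
  exact ⟨φ * c, mul_mem_L_of_D_eq E hres hWx hWj hc.symm hφ⟩

set_option synthInstance.maxHeartbeats 200000 in
/-- **(BASE)** in the setting `IsFF1` over a perfect field, from `θ j ≠ 0`. -/
theorem exists_base [PerfectField K] {t : E} (hF : IsFF1 K E t) {x j : E} {Wx Wj : Divisor K E}
    (hWx : Res.Adele.IsDivisorOf (D K E x) Wx) (hWj : Res.Adele.IsDivisorOf (D K E j) Wj)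
    (hj : theta K (j : LaurentSeries K) ≠ 0) {φ : E} (hφ : φ ∈ riemannRochSpace Wx) :
    ∃ ψ : E, ψ ∈ riemannRochSpace Wj ∧
      (ψ : LaurentSeries K) * theta K (j : LaurentSeries K)
        = (φ : LaurentSeries K) * theta K (x : LaurentSeries K) := by
  have := hF.hasPrincipalDivisors
  have := hF.finiteDimensional
  have hspan : Submodule.span E {D K E j} = ⊤ :=
    span_D_eq_top_of_ne_zero t hF.transcendental (D_ne_zero_of_theta_ne_zero E j hj)
  exact exists_base_of_span E hF.resK hWx hWj hspan hφ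

set_option synthInstance.maxHeartbeats 200000 in
/-- **(BASE)** for `j` with `q`-expansion `jqModC K` (`θ j ≠ 0` is automatic). -/
theorem exists_base_jq [PerfectField K] {t : E} (hF : IsFF1 K E t) {x j : E}
    {Wx Wj : Divisor K E} (hWx : Res.Adele.IsDivisorOf (D K E x) Wx)
    (hWj : Res.Adele.IsDivisorOf (D K E j) Wj) (hj : (j : LaurentSeries K) = jqModC K)
    {φ : E} (hφ : φ ∈ riemannRochSpace Wx) :
    ∃ ψ : E, ψ ∈ riemannRochSpace Wj ∧
      (ψ : LaurentSeries K) * theta K (jqModC K)
        = (φ : LaurentSeries K) * theta K (x : LaurentSeries K) := by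
  have h := exists_base E hF hWx hWj
    (by rw [hj]; exact Fermat.Agent.TR.Hecke.DlogTheta.theta_jqModC_ne_zero K) hφ
  rwa [hj] at h

/-! ### The same statements with `thetaFun` (`theta K f = thetaFun K f` by `rfl`) -/

set_option synthInstance.maxHeartbeats 200000 in
/-- `exists_base` in `thetaFun` form. -/
theorem exists_base_thetaFun [PerfectField K] {t : E} (hF : IsFF1 K E t) {x j : E}
    {Wx Wj : Divisor K E} (hWx : Res.Adele.IsDivisorOf (D K E x) Wx)
    (hWj : Res.Adele.IsDivisorOf (D K E j) Wj)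
    (hj : thetaFun K (j : LaurentSeries K) ≠ 0) {φ : E} (hφ : φ ∈ riemannRochSpace Wx) :
    ∃ ψ : E, ψ ∈ riemannRochSpace Wj ∧
      (ψ : LaurentSeries K) * thetaFun K (j : LaurentSeries K)
        = (φ : LaurentSeries K) * thetaFun K (x : LaurentSeries K) :=
  exists_base E hF hWx hWj hj hφ

set_option synthInstance.maxHeartbeats 200000 in
/-- `exists_base_jq` in `thetaFun` form. -/
theorem exists_base_jq_thetaFun [PerfectField K] {t : E} (hF : IsFF1 K E t) {x j : E}
    {Wx Wj : Divisor K E} (hWx : Res.Adele.IsDivisorOf (D K E x) Wx)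
    (hWj : Res.Adele.IsDivisorOf (D K E j) Wj) (hj : (j : LaurentSeries K) = jqModC K)
    {φ : E} (hφ : φ ∈ riemannRochSpace Wx) :
    ∃ ψ : E, ψ ∈ riemannRochSpace Wj ∧
      (ψ : LaurentSeries K) * thetaFun K (jqModC K)
        = (φ : LaurentSeries K) * thetaFun K (x : LaurentSeries K) :=
  exists_base_jq E hF hWx hWj hj hφ

end Fermat.Agent.TR.Hecke.DiffBase
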