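import Mathlib
import Fermat.Agent.Padic.Lattice
import Fermat.Agent.Lib.Red.InstGenusGA
import Fermat.Agent.Lib.FF.CanonicalIsFF1

/-!
# TR / Hecke side, (OA3b) + (OA3c): reduction of holomorphic differentials at a good level

Setting: the Gauss valuation ring `O_w` of the modular function field `F = L·F_N` at a valuation
ring `A` of the (algebraically closed, characteristic zero) constant field `L`, with residue map
`redF : O_w → F̃ = modularFunctionFieldFullC k N`, a place reduction `r` (Prelude specification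
`IsPlaceReductionAlong A π N r`) and equal genera.

* `theta_mem_gaussRing`, `red_theta` : `θ = q d/dq` preserves the Gauss ring and commutes with
  the reduction.
* `theta_eq_of_D_eq` : chain rule `dy = a dx ⟹ θ y = a θ x` for an intermediate field of
  `k((q))`.
* `mapDomain_divisor_D` : **`r_* div(dy) = div(d ȳ)`** for every `y ∈ O_w` with `θ ȳ ≠ 0`.
* `redF_mem_rr_divisor_D` : (OA3b) if `a dy` is holomorphic and `a ∈ O_w` then `ā dȳ` is
  holomorphic.
* `exists_lift_rr_divisor_D` : (OA3c) every holomorphic `a' dȳ` is the reduction of a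
  holomorphic `a dy` with `a ∈ O_w`.
-/

set_option autoImplicit false
set_option linter.style.haveILetI false

namespace Fermat.Agent.TR.Hecke.DiffRed

open AlgebraicCurve WithZero Module KaehlerDifferential ModularCurve HahnSeries
  Fermat.Agent.Lib.Red Fermat.Agent.Lib.Red.GenusGA Fermat.Agent.Lib.FF Fermat.Agent.Lib.FF.Res
  Fermat.Agent.Padic

noncomputable section

/-! ### `θ` and coefficient maps / the Gauss ring -/

section Theta

variable {R S : Type*} [CommRing R] [CommRing S]

theorem thetaFun_coeffMap (φ : R →+* S) (f : LaurentSeries R) :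
    thetaFun S (coeffMap φ f) = coeffMap φ (thetaFun R f) := by
  ext n
  rw [thetaFun_coeff, coeffMap_coeff, coeffMap_coeff, thetaFun_coeff, map_mul, map_intCast]

end Theta

section Gauss

variable {L : Type*} [Field L] (A : ValuationSubring L) {k : Type*} [Field k] (π : A →+* k)

theorem thetaFun_incl (g : LaurentSeries A) : thetaFun L (incl A g) = incl A (thetaFun A g) :=
  thetaFun_coeffMap _ g

theorem thetaFun_rbar (g : LaurentSeries A) :
    thetaFun k (rbar A π g) = rbar A π (thetaFun A g) :=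
  thetaFun_coeffMap _ g

/-- `θ` preserves the Gauss ring. -/
theorem theta_mem_gaussRing {y : LaurentSeries L} (hy : y ∈ gaussRing A π) :
    thetaFun L y ∈ gaussRing A π := by
  obtain ⟨s, P, hs, h⟩ := (mem_gaussRing_iff A π y).mp hy
  refine ⟨s * s, s * thetaFun A P - thetaFun A s * P, ?_, ?_⟩
  · rw [map_mul]
    exact mul_ne_zero hs hs
  · have h1 := congrArg (thetaFun L) h
    rw [thetaFun_mul, thetaFun_incl, thetaFun_incl] at h1
    rw [map_mul, map_sub, map_mul, map_mul, ← h1, ← h]
    ring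

/-- `θ` commutes with the reduction of the Gauss ring. -/
theorem red_theta {y : LaurentSeries L} (hy : y ∈ gaussRing A π) :
    red A π ⟨thetaFun L y, theta_mem_gaussRing A π hy⟩ = thetaFun k (red A π ⟨y, hy⟩) := by
  obtain ⟨s, P, hs, h⟩ := (mem_gaussRing_iff A π y).mp hy
  have hmem : incl A (s * s) * thetaFun L y = incl A (s * thetaFun A P - thetaFun A s * P) := by
    have h1 := congrArg (thetaFun L) h
    rw [thetaFun_mul, thetaFun_incl, thetaFun_incl] at h1
    rw [map_mul, map_sub, map_mul, map_mul, ← h1, ← h]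
    ring
  rw [red_eq A π ⟨thetaFun L y, theta_mem_gaussRing A π hy⟩ (s := s * s)
    (by rw [map_mul]; exact mul_ne_zero hs hs) hmem, red_eq A π ⟨y, hy⟩ hs h]
  have h2 : rbar A π P = rbar A π s * (rbar A π P / rbar A π s) := by
    rw [mul_div_cancel₀ _ hs]
  have h3 := congrArg (thetaFun k) h2
  rw [thetaFun_mul, thetaFun_rbar, thetaFun_rbar] at h3
  rw [map_sub, map_mul, map_mul, map_mul, h3]
  field_simp
  ring

end Gauss

/-! ### The chain rule for `θ` on an intermediate field of `k((q))` -/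

section Chain

variable {k : Type*} [Field k] (E : IntermediateField k (LaurentSeries k))

set_option synthInstance.maxHeartbeats 400000 in
/-- `dy = a dx` in `Ω[E/k]` implies `θ y = a θ x`. -/
theorem theta_eq_of_D_eq {x y a : E} (h : D k E y = a • D k E x) :
    thetaFun k (y : LaurentSeries k) = (a : LaurentSeries k) * thetaFun k (x : LaurentSeries k) := by
  haveI := isScalarTower_laurent E
  have h1 : (thetaRestrict E).liftKaehlerDifferential (D k E y) = thetaRestrict E y :=
    Derivation.liftKaehlerDifferential_comp_D (thetaRestrict E) y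
  have h2 : (thetaRestrict E).liftKaehlerDifferential (D k E x) = thetaRestrict E x :=
    Derivation.liftKaehlerDifferential_comp_D (thetaRestrict E) x
  rw [h, map_smul, h2, thetaRestrict_apply, thetaRestrict_apply] at h1
  rw [← h1]
  rfl

end Chain

/-! ### The modular function field: reduction of `dy/dτ` -/

section Modular

set_option linter.unusedSectionVars false

variable {L : Type*} [Field L] [Algebra ℚ L] {A : ValuationSubring L} {k : Type} [Field k]
  {π : A →+* k} {N : ℕ} [NeZero N]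

set_option quotPrecheck false in
local notation "FN" => ↥(laurentBaseChange L (modularFunctionFieldFull N))
set_option quotPrecheck false in
local notation "κN" => ↥(modularFunctionFieldFullC k N)

/-- The underlying `k((q))`-series of `redF f`, as the Gauss reduction of the series of `f`. -/
theorem coe_redF' (hπ : ∀ a : A, ¬ IsUnit a → π a = 0) (hNk : (N : k) ≠ 0)
    (f : Ow A π N hNk) :
    ((redF A π N hπ hNk f : κN) : LaurentSeries k) =
      red A π ⟨((f : FN) : LaurentSeries L), f.2⟩ := rfl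

set_option synthInstance.maxHeartbeats 400000 in
set_option maxHeartbeats 1000000 in
/-- **Reduction commutes with `d/dτ`**: if `dy = b dτ` with `y, τ ∈ O_w` and `θ τ̄ ≠ 0`, then
`b ∈ O_w` and `b̄ · θ τ̄ = θ ȳ`. -/
theorem exists_mem_Ow_of_D_eq (hπ : ∀ a : A, ¬ IsUnit a → π a = 0) (hNk : (N : k) ≠ 0)
    (y τ : Ow A π N hNk) {b : FN}
    (h : D L FN (y : FN) = b • D L FN (τ : FN))
    (hτ : thetaFun k ((redF A π N hπ hNk τ : κN) : LaurentSeries k) ≠ 0) :
    ∃ hb : b ∈ Ow A π N hNk,
      ((redF A π N hπ hNk ⟨b, hb⟩ : κN) : LaurentSeries k) *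
          thetaFun k ((redF A π N hπ hNk τ : κN) : LaurentSeries k) =
        thetaFun k ((redF A π N hπ hNk y : κN) : LaurentSeries k) := by
  have hch := theta_eq_of_D_eq (laurentBaseChange L (modularFunctionFieldFull N)) h
  have hyG : ((y : FN) : LaurentSeries L) ∈ gaussRing A π := y.2
  have hτG : ((τ : FN) : LaurentSeries L) ∈ gaussRing A π := τ.2
  have hθy := theta_mem_gaussRing A π hyG
  have hθτ := theta_mem_gaussRing A π hτG
  have hne : red A π ⟨_, hθτ⟩ ≠ 0 := by
    rw [red_theta A π hτG]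
    exact hτ
  have hθτ0 : thetaFun L ((τ : FN) : LaurentSeries L) ≠ 0 := by
    intro h0
    apply hne
    have : (⟨_, hθτ⟩ : gaussRing A π) = 0 := Subtype.ext h0
    rw [this, map_zero]
  have hbeq : ((b : FN) : LaurentSeries L) =
      thetaFun L ((y : FN) : LaurentSeries L) / thetaFun L ((τ : FN) : LaurentSeries L) :=
    eq_div_of_mul_eq hθτ0 hch.symm
  have hdiv := div_mem_gaussRing A π hθy hθτ hne
  have hbG : ((b : FN) : LaurentSeries L) ∈ gaussRing A π := by
    rw [hbeq]
    exact hdiv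
  refine ⟨hbG, ?_⟩
  rw [coe_redF' hπ hNk, coe_redF' hπ hNk, coe_redF' hπ hNk, ← red_theta A π hτG,
    ← red_theta A π hyG]
  have e : (⟨((b : FN) : LaurentSeries L), hbG⟩ : gaussRing A π) = ⟨_, hdiv⟩ := Subtype.ext hbeq
  rw [e, red_div A π hθy hθτ hne hdiv, div_mul_cancel₀ _ hne]

set_option synthInstance.maxHeartbeats 400000 in
set_option maxHeartbeats 1000000 in
/-- In the mod-`ℓ` function field: if `θ w ≠ 0` for some `w`, then `dz ≠ 0 ⟹ θ z ≠ 0`. -/
theorem theta_ne_zero_of_D_ne_zero [IsAlgClosed k] {x : κN}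
    (hFk : IsFF1 k κN x) {w z : κN}
    (hw : thetaFun k (w : LaurentSeries k) ≠ 0) (hz : D k κN z ≠ 0) :
    thetaFun k (z : LaurentSeries k) ≠ 0 := by
  haveI := hFk.finiteDimensional
  have hspan := span_D_eq_top_of_ne_zero (K := k) x hFk.transcendental hz
  have hmem : D k κN w ∈ Submodule.span κN {D k κN z} := by rw [hspan]; trivial
  obtain ⟨c, hc⟩ := Submodule.mem_span_singleton.mp hmem
  have h1 := theta_eq_of_D_eq (modularFunctionFieldFullC k N) hc.symm
  intro h0
  rw [h0, mul_zero] at h1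
  exact hw h1

set_option synthInstance.maxHeartbeats 400000 in
set_option maxHeartbeats 1000000 in
/-- **Reduction commutes with `d/dτ`**, in `Ω[F̃/k]`: `dȳ = b̄ dτ̄`. -/
theorem D_redF_eq [IsAlgClosed k] {x : κN} (hFk : IsFF1 k κN x)
    (hπ : ∀ a : A, ¬ IsUnit a → π a = 0) (hNk : (N : k) ≠ 0)
    (y τ : Ow A π N hNk) {b : FN}
    (h : D L FN (y : FN) = b • D L FN (τ : FN))
    (hτ : thetaFun k ((redF A π N hπ hNk τ : κN) : LaurentSeries k) ≠ 0)
    (hb : b ∈ Ow A π N hNk) :
    D k κN (redF A π N hπ hNk y) =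
      redF A π N hπ hNk ⟨b, hb⟩ • D k κN (redF A π N hπ hNk τ) := by
  haveI := hFk.finiteDimensional
  obtain ⟨hb', hmul⟩ := exists_mem_Ow_of_D_eq hπ hNk y τ h hτ
  have hDτ : D k κN (redF A π N hπ hNk τ) ≠ 0 :=
    D_ne_zero_of_theta_ne_zero (modularFunctionFieldFullC k N) _ hτ
  have hspan := span_D_eq_top_of_ne_zero (K := k) x hFk.transcendental hDτ
  have hmem : D k κN (redF A π N hπ hNk y) ∈
      Submodule.span κN {D k κN (redF A π N hπ hNk τ)} := by rw [hspan]; trivial
  obtain ⟨c, hc⟩ := Submodule.mem_span_singleton.mp hmem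
  have h1 := theta_eq_of_D_eq (modularFunctionFieldFullC k N) hc.symm
  have h2 : c = redF A π N hπ hNk ⟨b, hb⟩ := by
    apply Subtype.ext
    exact mul_right_cancel₀ hτ (h1.symm.trans hmul.symm)
  rw [← h2, hc]

/-! ### Lifting through a lattice basis -/

/-- An element of the span of the reductions of a lattice basis of `L(B)` is the reduction of an
element of `L(B) ∩ O_w`. -/
theorem exists_lift_of_mem_span (hπ : ∀ a : A, ¬ IsUnit a → π a = 0)
    (hsurj : Function.Surjective π) (hNk : (N : k) ≠ 0) {B : Divisor L FN}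
    {ι : Type*} [Fintype ι] {b : ι → Ow A π N hNk}
    (hb : IsLatBasis k (redF A π N hπ hNk) (riemannRochSpace B) b) {z : κN}
    (hz : z ∈ Submodule.span k (Set.range fun i => redF A π N hπ hNk (b i))) :
    ∃ y : Ow A π N hNk, (y : FN) ∈ riemannRochSpace B ∧ redF A π N hπ hNk y = z := by
  have hR := redData_Ow (A := A) (π := π) (N := N) hπ hsurj hNk
  obtain ⟨c, hc⟩ := (Submodule.mem_span_range_iff_exists_fun k).mp hz
  choose a ha using fun i => hsurj (c i)
  refine ⟨∑ i, hR.cO (a i) * b i, ?_, ?_⟩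
  · rw [hR.coe_sum]
    exact Submodule.sum_mem _ fun i _ => Submodule.smul_mem _ _ (hb.mem i)
  · rw [hR.red_sum, ← hc]
    refine Finset.sum_congr rfl fun i _ => ?_
    rw [ha i]

variable [IsAlgClosed L] [IsAlgClosed k]

set_option synthInstance.maxHeartbeats 400000 in
set_option maxHeartbeats 1000000 in
/-- **A uniformiser at `t` lifts to a function regular on the whole residue disc of `t`.** -/
theorem exists_unif_lift (hπ : ∀ a : A, ¬ IsUnit a → π a = 0) (hsurj : Function.Surjective π)
    (hNk : (N : k) ≠ 0) (r : Place L FN → Place k κN) (hr : IsPlaceReductionAlong A π N r)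
    (hg : genusFF k κN = genusFF L FN) (t : Place k κN) :
    ∃ τ : Ow A π N hNk, (∀ P, r P = t → 0 ≤ P.ord (τ : FN)) ∧
      t.ord (redF A π N hπ hNk τ) = 1 := by
  classical
  have hFL := InstGenus.isFF1_xL (A := A) (π := π) (N := N) hπ hsurj hNk
  have hFk := InstGenus.isFF1_xk (A := A) (π := π) (N := N) hπ hsurj hNk
  haveI := hFL.hasPrincipalDivisors
  haveI := hFk.hasPrincipalDivisors
  -- a second place
  obtain ⟨t', ht'⟩ : ∃ t' : Place k κN, t' ≠ t := by
    obtain ⟨v₀, hv₀⟩ := hFk.exists_pole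
    obtain ⟨v₁, hv₁⟩ := hFk.exists_zero_sub 0
    rw [map_zero, sub_zero] at hv₁
    by_cases h : v₀ = t
    · refine ⟨v₁, fun h1 => ?_⟩
      rw [h1, ← h] at hv₁
      omega
    · exact ⟨v₀, h⟩
  -- a function with a simple zero at `t`, regular off `t'`
  obtain ⟨f, hf0, hfS, hfout⟩ := hFk.exists_ord_eq {t} t' (by simpa using ht') (fun _ => 1)
  have hft : t.ord f = 1 := hfS t (Finset.mem_singleton_self t)
  have hfinD : ∀ g : FN, g ≠ 0 → ∃ D : Divisor L FN, ∀ P, D P = P.ord g := fun g hg0 => by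
    obtain ⟨D, hD, -⟩ := HasPrincipalDivisors.exists_divisor (K := L) g hg0
    exact ⟨D, hD⟩
  obtain ⟨P₀, hP₀⟩ := SpecUnit.r_surjective hπ hsurj hNk hfinD r hr t'
  obtain ⟨c₀, hc₀⟩ := exists_bound_latBasis_rr hπ hsurj hNk r hr hg
  set n : ℕ := (max c₀ (-(t'.ord f))).toNat with hn
  have hn0 : max c₀ (-(t'.ord f)) ≤ (n : ℤ) := Int.self_le_toNat _
  have hn1 : c₀ ≤ (n : ℤ) := le_trans (le_max_left _ _) hn0
  have hn2 : -(t'.ord f) ≤ (n : ℤ) := le_trans (le_max_right _ _) hn0
  set B : Divisor L FN := Finsupp.single P₀ (n : ℤ) with hB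
  have hdegB : Divisor.degree B = n := by
    rw [hB, Divisor.degree_single, hFL.deg_eq_one]
    simp
  have hrB : Finsupp.mapDomain r B = Finsupp.single t' (n : ℤ) := by
    rw [hB, Finsupp.mapDomain_single, hP₀]
  obtain ⟨-, -, hbas⟩ := hc₀ B (by rw [hdegB]; exact hn1)
  obtain ⟨d, b, hb⟩ := exists_isLatBasis_rr hπ hsurj hNk B
  have hspan := (hbas b hb).1
  have hfmem : f ∈ riemannRochSpace (Finsupp.mapDomain r B) := by
    rw [hrB, mem_riemannRochSpace_iff]
    intro Q
    right
    by_cases hQ : Q = t'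
    · subst hQ
      rw [Finsupp.single_eq_same]
      omega
    · rw [Finsupp.single_apply, if_neg (fun h => hQ h.symm), neg_zero]
      by_cases hQt : Q = t
      · subst hQt
        omega
      · exact hfout Q (by simpa using hQt) hQ
  rw [← hspan] at hfmem
  obtain ⟨τ, hτB, hτred⟩ := exists_lift_of_mem_span hπ hsurj hNk hb hfmem
  refine ⟨τ, fun P hP => ?_, by rw [hτred]; exact hft⟩
  rw [mem_riemannRochSpace_iff] at hτB
  rcases hτB P with h0 | h1
  · rw [h0, Place.ord_zero]
  · have hPP₀ : P₀ ≠ P := fun h => ht' (by rw [← hP₀, h, hP])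
    rw [hB, Finsupp.single_apply, if_neg hPP₀, neg_zero] at h1
    exact h1

set_option synthInstance.maxHeartbeats 400000 in
set_option maxHeartbeats 1000000 in
/-- **No ramification on the residue disc**: a function of `O_w`, regular on the residue disc of
`t`, whose reduction is a uniformiser at `t`, is a uniformiser (up to a constant) at every point
of the disc. -/
theorem exists_sub_const_ord_eq_one (hπ : ∀ a : A, ¬ IsUnit a → π a = 0)
    (hsurj : Function.Surjective π)
    (hNk : (N : k) ≠ 0) (r : Place L FN → Place k κN) (hr : IsPlaceReductionAlong A π N r)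
    (τ : Ow A π N hNk) (t : Place k κN) (hreg : ∀ P, r P = t → 0 ≤ P.ord (τ : FN))
    (hτ : t.ord (redF A π N hπ hNk τ) = 1) (P : Place L FN) (hP : r P = t) :
    ∃ c : L, P.ord ((τ : FN) - algebraMap L FN c) = 1 := by
  classical
  have hFL := InstGenus.isFF1_xL (A := A) (π := π) (N := N) hπ hsurj hNk
  haveI := hFL.hasPrincipalDivisors
  obtain ⟨c, hc⟩ := Fermat.Agent.Lib.Red.OneStep.exists_const_sub_pos P (hFL.resK P) (hreg P hP)
  rcases hc with hc | hc
  · exfalso
    have hcA : c ∈ A := (algebraMap_mem_Ow_iff hπ hNk c).mp (hc ▸ τ.2)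
    have e : redF A π N hπ hNk τ = algebraMap k κN (π ⟨c, hcA⟩) := by
      rw [← redF_algebraMap hπ hNk ⟨c, hcA⟩]
      congr 1
      exact Subtype.ext hc
    rw [e, Fermat.Agent.S24.ord_algebraMap] at hτ
    exact zero_ne_one hτ
  · refine ⟨c, ?_⟩
    have hg0 : (τ : FN) - algebraMap L FN c ≠ 0 := by
      intro h0
      rw [h0, Place.ord_zero] at hc
      exact lt_irrefl _ hc
    obtain ⟨Dg, hDg, -⟩ := HasPrincipalDivisors.exists_divisor (K := L) _ hg0
    have hnn : ∀ P', r P' = t → 0 ≤ Dg P' := by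
      intro P' hP'
      rw [hDg P']
      refine Fermat.Agent.S24.ord_nonneg_of_mem P' (sub_mem
        (Fermat.Agent.S24.mem_of_ord_nonneg P' (hreg P' hP'))
        (Fermat.Agent.S24.mem_of_ord_nonneg P' ?_))
      rw [Fermat.Agent.S24.ord_algebraMap]
    have hle : Dg P ≤ Finsupp.mapDomain r Dg t :=
      Fermat.Agent.Lib.Red.OneStep.le_mapDomain_of r Dg t hnn hP
    rw [hDg P] at hle
    by_cases hcA : c ∈ A
    · have hne : redF A π N hπ hNk τ ≠ algebraMap k κN (π ⟨c, hcA⟩) := by
        intro h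
        rw [h, Fermat.Agent.S24.ord_algebraMap] at hτ
        exact zero_ne_one hτ
      have hmd := mapDomain_sub_const hπ hNk τ r hr ⟨c, hcA⟩ hne Dg hDg t
      have hpos : 0 < t.ord (redF A π N hπ hNk τ - algebraMap k κN (π ⟨c, hcA⟩)) := by
        rw [← hmd]
        omega
      have hπc : π ⟨c, hcA⟩ = 0 := by
        by_contra hne0
        have hz0 : redF A π N hπ hNk τ ≠ 0 := by
          intro h0
          rw [h0, Place.ord_zero] at hτ
          exact zero_ne_one hτ
        have hC0 : algebraMap k κN (π ⟨c, hcA⟩) ≠ 0 := by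
          rw [Ne, map_eq_zero]
          exact hne0
        have h1 := Fermat.Agent.S24.ord_sub_ge t hz0 (sub_ne_zero.mpr hne)
          (by rw [sub_sub_cancel]; exact hC0)
        rw [sub_sub_cancel, Fermat.Agent.S24.ord_algebraMap, hτ] at h1
        have h2 : 0 < min (1 : ℤ) (t.ord (redF A π N hπ hNk τ -
            algebraMap k κN (π ⟨c, hcA⟩))) := lt_min one_pos hpos
        omega
      rw [hπc, map_zero, sub_zero, hτ] at hmd
      omega
    · have hmd := mapDomain_sub_const_inf hπ hNk τ r hr c hcA Dg hDg t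
      omega

/-! ### The divisor of `dy` reduces to the divisor of `dȳ` -/

set_option synthInstance.maxHeartbeats 400000 in
set_option maxHeartbeats 2000000 in
/-- **`r_* div(dy) = div(dȳ)`** for every `y ∈ O_w` with `θ ȳ ≠ 0` (good reduction: a place
reduction `r` and equal genera). -/
theorem mapDomain_divisor_D (hπ : ∀ a : A, ¬ IsUnit a → π a = 0) (hsurj : Function.Surjective π)
    (hNk : (N : k) ≠ 0) (r : Place L FN → Place k κN) (hr : IsPlaceReductionAlong A π N r)
    (hg : genusFF k κN = genusFF L FN) (y : Ow A π N hNk)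
    (hy : thetaFun k ((redF A π N hπ hNk y : κN) : LaurentSeries k) ≠ 0)
    {Wy : Divisor L FN} (hWy : Adele.IsDivisorOf (D L FN (y : FN)) Wy)
    {Wb : Divisor k κN} (hWb : Adele.IsDivisorOf (D k κN (redF A π N hπ hNk y)) Wb) :
    Finsupp.mapDomain r Wy = Wb := by
  classical
  have hFL := InstGenus.isFF1_xL (A := A) (π := π) (N := N) hπ hsurj hNk
  have hFk := InstGenus.isFF1_xk (A := A) (π := π) (N := N) hπ hsurj hNk
  haveI := hFL.hasPrincipalDivisors
  haveI := hFk.hasPrincipalDivisors
  haveI := hFL.finiteDimensional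
  haveI : CharZero L := charZero_of_injective_algebraMap (algebraMap ℚ L).injective
  ext t
  obtain ⟨τ, hreg, hτ⟩ := exists_unif_lift hπ hsurj hNk r hr hg t
  have hτ0 : redF A π N hπ hNk τ ≠ 0 := by
    intro h0
    rw [h0, Place.ord_zero] at hτ
    exact zero_ne_one hτ
  have hτval : t.adicValuation (redF A π N hπ hNk τ) = exp (-1 : ℤ) := by
    rw [t.adicValuation_eq_exp_neg_ord hτ0, hτ]
  have hDτb : D k κN (redF A π N hπ hNk τ) ≠ 0 := Adele.D_ne_zero_of_val hFk.resK t hτval
  have hθτ : thetaFun k ((redF A π N hπ hNk τ : κN) : LaurentSeries k) ≠ 0 :=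
    theta_ne_zero_of_D_ne_zero hFk hy hDτb
  -- `dτ ≠ 0` upstairs
  have hθτL : thetaFun L (((τ : FN) : LaurentSeries L)) ≠ 0 := by
    intro h0
    apply hθτ
    rw [coe_redF' hπ hNk, ← red_theta A π τ.2]
    have : (⟨_, theta_mem_gaussRing A π τ.2⟩ : gaussRing A π) = 0 := Subtype.ext h0
    rw [this, map_zero]
  have hDτ : D L FN (τ : FN) ≠ 0 :=
    D_ne_zero_of_theta_ne_zero (laurentBaseChange L (modularFunctionFieldFull N)) _ hθτL
  have hspan := span_D_eq_top_of_ne_zero (K := L) (xL L N) hFL.transcendental hDτ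
  have hmem : D L FN (y : FN) ∈ Submodule.span FN {D L FN (τ : FN)} := by rw [hspan]; trivial
  obtain ⟨b, hb⟩ := Submodule.mem_span_singleton.mp hmem
  obtain ⟨hbO, hmul⟩ := exists_mem_Ow_of_D_eq hπ hNk y τ hb.symm hθτ
  have hDred := D_redF_eq hFk hπ hNk y τ hb.symm hθτ hbO
  have hredb : redF A π N hπ hNk ⟨b, hbO⟩ ≠ 0 := by
    intro h0
    rw [h0] at hmul
    apply hy
    rw [← hmul]
    exact zero_mul _
  have hb0 : b ≠ 0 := by
    rintro rfl
    apply hredb
    have : (⟨0, hbO⟩ : Ow A π N hNk) = 0 := rfl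
    rw [this, map_zero]
  -- the value of `Wb` at `t`
  have h1 := hWb.val_coeff hFk.resK t hτval hDred
  rw [t.adicValuation_eq_exp_neg_ord hredb, exp_inj] at h1
  -- the values of `Wy` on the residue disc
  have h2 : ∀ P, r P = t → Wy P = P.ord b := by
    intro P hP
    obtain ⟨c, hc⟩ := exists_sub_const_ord_eq_one hπ hsurj hNk r hr τ t hreg hτ P hP
    have hc0 : (τ : FN) - algebraMap L FN c ≠ 0 := by
      intro h0
      rw [h0, Place.ord_zero] at hc
      exact zero_ne_one hc
    have hval : P.adicValuation ((τ : FN) - algebraMap L FN c) = exp (-1 : ℤ) := by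
      rw [P.adicValuation_eq_exp_neg_ord hc0, hc]
    have hD : D L FN (y : FN) = b • D L FN ((τ : FN) - algebraMap L FN c) := by
      rw [Adele.D_sub_algebraMap]
      exact hb.symm
    have h3 := hWy.val_coeff hFL.resK P hval hD
    rw [P.adicValuation_eq_exp_neg_ord hb0, exp_inj] at h3
    omega
  obtain ⟨Db, hDb, -⟩ := HasPrincipalDivisors.exists_divisor (K := L) b hb0
  have h4 := SpecUnit.mapDomain_eq_ord_redF' hπ hNk r hr ⟨b, hbO⟩ hredb Db hDb t
  have h5 : Finsupp.mapDomain r (Wy - Db) t = 0 := by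
    rw [Fermat.Agent.Lib.Red.OneStep.mapDomain_apply_eq_sum]
    refine Finset.sum_eq_zero fun P hP => ?_
    rw [Finsupp.sub_apply, h2 P (Finset.mem_filter.mp hP).2, hDb P, sub_self]
  rw [Finsupp.mapDomain_sub, Finsupp.sub_apply, h4] at h5
  omega

set_option synthInstance.maxHeartbeats 400000 in
set_option maxHeartbeats 1000000 in
/-- **(OA3b) Holomorphic differentials reduce to holomorphic differentials**: if `a ∈ O_w` and
`a dy` is holomorphic (`a ∈ L(div dy)`), then `ā dȳ` is holomorphic. -/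
theorem redF_mem_rr_divisor_D (hπ : ∀ a : A, ¬ IsUnit a → π a = 0)
    (hsurj : Function.Surjective π)
    (hNk : (N : k) ≠ 0) (r : Place L FN → Place k κN) (hr : IsPlaceReductionAlong A π N r)
    (hg : genusFF k κN = genusFF L FN) (y : Ow A π N hNk)
    (hy : thetaFun k ((redF A π N hπ hNk y : κN) : LaurentSeries k) ≠ 0)
    {Wy : Divisor L FN} (hWy : Adele.IsDivisorOf (D L FN (y : FN)) Wy)
    {Wb : Divisor k κN} (hWb : Adele.IsDivisorOf (D k κN (redF A π N hπ hNk y)) Wb)
    (a : Ow A π N hNk) (ha : (a : FN) ∈ riemannRochSpace Wy) :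
    redF A π N hπ hNk a ∈ riemannRochSpace Wb := by
  have hFL := InstGenus.isFF1_xL (A := A) (π := π) (N := N) hπ hsurj hNk
  haveI := hFL.hasPrincipalDivisors
  have hfinD : ∀ g : FN, g ≠ 0 → ∃ D : Divisor L FN, ∀ P, D P = P.ord g := fun g hg0 => by
    obtain ⟨D, hD, -⟩ := HasPrincipalDivisors.exists_divisor (K := L) g hg0
    exact ⟨D, hD⟩
  rw [← mapDomain_divisor_D hπ hsurj hNk r hr hg y hy hWy hWb]
  exact Fermat.Agent.Lib.Red.Kummer.red_mem_rr_of_spec
    (fun g hg0 => HasPrincipalDivisors.exists_divisor (K := L) g hg0)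
    (fun g hg0 B hB Q => SpecUnit.mapDomain_eq_ord_redF hπ hNk hfinD r hr g hg0 B hB Q) Wy a ha

set_option synthInstance.maxHeartbeats 400000 in
set_option maxHeartbeats 1000000 in
/-- **(OA3c) Every holomorphic differential of the reduction lifts**: if `a' dȳ` is holomorphic
then `a' = ā` for some `a ∈ O_w` with `a dy` holomorphic. -/
theorem exists_lift_rr_divisor_D (hπ : ∀ a : A, ¬ IsUnit a → π a = 0)
    (hsurj : Function.Surjective π)
    (hNk : (N : k) ≠ 0) (r : Place L FN → Place k κN) (hr : IsPlaceReductionAlong A π N r)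
    (hg : genusFF k κN = genusFF L FN) (y : Ow A π N hNk)
    (hy : thetaFun k ((redF A π N hπ hNk y : κN) : LaurentSeries k) ≠ 0)
    {Wy : Divisor L FN} (hWy : Adele.IsDivisorOf (D L FN (y : FN)) Wy)
    {Wb : Divisor k κN} (hWb : Adele.IsDivisorOf (D k κN (redF A π N hπ hNk y)) Wb)
    {a' : κN} (ha' : a' ∈ riemannRochSpace Wb) :
    ∃ a : Ow A π N hNk, (a : FN) ∈ riemannRochSpace Wy ∧ redF A π N hπ hNk a = a' := by
  have hFL := InstGenus.isFF1_xL (A := A) (π := π) (N := N) hπ hsurj hNk
  have hFk := InstGenus.isFF1_xk (A := A) (π := π) (N := N) hπ hsurj hNk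
  have hmd := mapDomain_divisor_D hπ hsurj hNk r hr hg y hy hWy hWb
  obtain ⟨d, b, hb⟩ := exists_isLatBasis_rr hπ hsurj hNk Wy
  have hdim : finrank k (riemannRochSpace (Finsupp.mapDomain r Wy)) ≤
      finrank L (riemannRochSpace Wy) := by
    rw [hmd, finrank_L_ff1 hFk hWb, finrank_L_ff1 hFL hWy, hg]
  have hspan := hb.span_red_eq_rr hπ hsurj hNk r hr hdim
  rw [hmd] at hspan
  rw [← hspan] at ha'
  exact exists_lift_of_mem_span hπ hsurj hNk hb ha'

end Modular

end

end Fermat.Agent.TR.Hecke.DiffRed
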