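/-
TR / Hecke side, brick (OA1): the logarithmic differential of a function whose divisor is
divisible by the characteristic.

`F / K` a function field of one variable (`IsFF1`), `K` algebraically closed of characteristic
`p`, `x : F` with `dx` having a divisor `Wx` (so `Ω[F⁄K] = F dx`), `hb : F` nonzero with
`p ∣ ord_v hb` at every place `v`, and `a : F` the coefficient of `dlog hb`, i.e.
`d hb = (a * hb) dx`.

* `val_dlog_coeff_le` : local form — if `d hb = (c * hb) dt` with `t` a uniformizer at `v` and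
  `p ∣ ord_v hb`, then `c` is regular at `v`;
* `dlog_coeff_mem_L` : `a ∈ L(Wx)`, i.e. `dlog hb = a dx` is a holomorphic differential;
* `D_eq_zero_iff_pow` : `dy = 0 ↔ y` is a `p`-th power;
* `dlog_coeff_eq_zero_iff` : `a = 0 ↔ hb` is a `p`-th power;
* `dlog_holo` : both statements together.
-/
import Mathlib
import Fermat.Agent.Lib.FF.DiffLocal
import Fermat.Agent.Lib.FF.Setting
import Fermat.Agent.Lib.FF.CharP.SepOrPow
import Fermat.Agent.Lib.FF.CharP.Fund
import Fermat.Agent.S24.FundCor

set_option autoImplicit false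
set_option linter.style.haveILetI false

namespace Fermat.Agent.TR.Hecke.DlogHolo

open AlgebraicCurve WithZero Module KaehlerDifferential IntermediateField
open Fermat.Agent.Lib.FF Fermat.Agent.Lib.FF.Res Fermat.Agent.Lib.FF.Res.Adele

variable {K F : Type*} [Field K] [Field F] [Algebra K F]

/-- The characteristic kills `ord_v hb` in `F` when `p ∣ ord_v hb`. -/
theorem intCast_eq_zero_of_dvd (p : ℕ) [CharP K p] {n : ℤ} (hn : (p : ℤ) ∣ n) :
    ((n : ℤ) : F) = 0 := by
  obtain ⟨m, rfl⟩ := hn
  have h1 : ((p : ℕ) : F) = 0 := by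
    have h2 : ((p : ℕ) : F) = algebraMap K F ((p : ℕ) : K) := (map_natCast (algebraMap K F) p).symm
    rw [h2, CharP.cast_eq_zero K p, map_zero]
  rw [Int.cast_mul, Int.cast_natCast, h1, zero_mul]

section local'

variable [HasPrincipalDivisors K F] (hres : ∀ v : Place K F, RR.ResK v)

include hres in
/-- **Local form.**  If `d hb = (c * hb) dt` with `t` a uniformizer at `v` and the characteristic
divides `ord_v hb`, then `c` is regular at `v`. -/
theorem val_dlog_coeff_le (p : ℕ) [CharP K p] (v : Place K F) {t hb c : F}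
    (ht : v.adicValuation t = exp (-1 : ℤ)) (hb0 : hb ≠ 0) (hdiv : (p : ℤ) ∣ v.ord hb)
    (h : D K F hb = (c * hb) • D K F t) : v.adicValuation c ≤ 1 := by
  by_cases hc : c = 0
  · rw [hc, map_zero]
    exact zero_le_one
  have h1 := val_coeff_sub_le hres v ht hb0 h
  rw [intCast_eq_zero_of_dvd (K := K) (F := F) p hdiv, zero_mul, sub_zero, map_mul,
    v.adicValuation_eq_exp_neg_ord hc, v.adicValuation_eq_exp_neg_ord hb0, ← exp_add,
    exp_le_exp] at h1
  rw [v.adicValuation_eq_exp_neg_ord hc, ← exp_zero, exp_le_exp]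
  omega

include hres in
/-- **`dlog hb` is holomorphic.**  If `p ∣ ord_v hb` for all places `v` and
`d hb = (a * hb) dx`, `div (dx) = Wx`, then `a ∈ L(Wx)`. -/
theorem dlog_coeff_mem_L (p : ℕ) [CharP K p] {x hb a : F} {Wx : Divisor K F}
    (hW : IsDivisorOf (D K F x) Wx) (hb0 : hb ≠ 0)
    (hdiv : ∀ v : Place K F, (p : ℤ) ∣ v.ord hb)
    (h : D K F hb = (a * hb) • D K F x) : a ∈ riemannRochSpace Wx := by
  rw [mem_riemannRochSpace_iff]
  intro v
  by_cases ha : a = 0
  · exact Or.inl ha
  right
  obtain ⟨t, c, ht, hx, hc⟩ := hW v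
  have hc0 : c ≠ 0 := by
    intro h0
    rw [h0, map_zero] at hc
    exact exp_ne_zero hc.symm
  have h' : D K F hb = ((a * c) * hb) • D K F t := by
    rw [h, hx, smul_smul]
    congr 1
    ring
  have h1 := val_dlog_coeff_le hres p v ht hb0 (hdiv v) h'
  rw [map_mul, hc, v.adicValuation_eq_exp_neg_ord ha, ← exp_add, ← exp_zero, exp_le_exp] at h1
  omega

include hres in
/-- A differential with a divisor is nonzero (if there is a place). -/
theorem D_ne_zero_of_isDivisorOf (v : Place K F) {x : F} {Wx : Divisor K F}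
    (hW : IsDivisorOf (D K F x) Wx) : D K F x ≠ 0 := by
  obtain ⟨t, c, ht, hx, hc⟩ := hW v
  have hc0 : c ≠ 0 := by
    intro h0
    rw [h0, map_zero] at hc
    exact exp_ne_zero hc.symm
  rw [hx]
  exact smul_ne_zero hc0 (D_ne_zero_of_val hres v ht)

end local'

/-- A function field of one variable has a place. -/
theorem exists_place {x₀ : F} (hF : IsFF1 K F x₀) : Nonempty (Place K F) := by
  by_contra hne
  rw [not_nonempty_iff] at hne
  obtain ⟨c, hc⟩ := hF.const_of_ord_nonneg x₀ (fun v => (hne.false v).elim)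
  exact hF.transcendental (hc ▸ isAlgebraic_algebraMap c)

/-- **The kernel of `d`.**  Over an algebraically closed field of characteristic `p`, `dy = 0` iff
`y` is a `p`-th power. -/
theorem D_eq_zero_iff_pow [IsAlgClosed K] (p : ℕ) [Fact p.Prime] [CharP K p] {x₀ : F}
    (hF : IsFF1 K F x₀) (y : F) : D K F y = 0 ↔ ∃ z : F, z ^ p = y := by
  haveI : CharP F p := charP_of_injective_algebraMap (algebraMap K F).injective p
  haveI := hF.finiteDimensional
  haveI := hF.hasPrincipalDivisors
  constructor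
  · intro hD
    by_cases hy : Transcendental K y
    · haveI : FiniteDimensional K⟮y⟯ F :=
        Fermat.Agent.S24.finiteDimensional_of_transcendental x₀ hy
      obtain ⟨t, -, hsep⟩ := Fermat.Agent.Lib.FF.CharP.exists_separating x₀ hF.transcendental
      haveI := hsep
      rcases Fermat.Agent.Lib.FF.CharP.exists_pow_eq_or_isSeparable (K := K) p t y with h | h
      · exact h
      · exfalso
        haveI := h
        have hspan := span_D_eq_top_of_isSeparable (K := K) y
        rw [hD] at hspan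
        obtain ⟨v⟩ := exists_place hF
        haveI := nontrivial_kaehler hF.resK v
        obtain ⟨ω, hω⟩ := exists_ne (0 : Ω[F⁄K])
        have hmem : ω ∈ Submodule.span F {(0 : Ω[F⁄K])} := by
          rw [hspan]
          trivial
        rw [Submodule.span_singleton_eq_bot.2 rfl, Submodule.mem_bot] at hmem
        exact hω hmem
    · have halg : IsAlgebraic K y := by
        by_contra h
        exact hy h
      obtain ⟨c, rfl⟩ := exists_eq_algebraMap_of_isAlgebraic halg
      obtain ⟨d, hd⟩ := IsAlgClosed.exists_pow_nat_eq c (Fact.out : p.Prime).pos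
      exact ⟨algebraMap K F d, by rw [← map_pow, hd]⟩
  · rintro ⟨z, rfl⟩
    rw [Derivation.leibniz_pow, ← Nat.cast_smul_eq_nsmul F, CharP.cast_eq_zero F p, zero_smul]

/-- `dlog hb = 0` iff `hb` is a `p`-th power. -/
theorem dlog_coeff_eq_zero_iff [IsAlgClosed K] (p : ℕ) [Fact p.Prime] [CharP K p] {x₀ : F}
    (hF : IsFF1 K F x₀) {x hb a : F} (hx : D K F x ≠ 0) (hb0 : hb ≠ 0)
    (h : D K F hb = (a * hb) • D K F x) : a = 0 ↔ ∃ u : F, hb = u ^ p := by
  constructor
  · intro ha
    rw [ha, zero_mul, zero_smul] at h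
    obtain ⟨z, hz⟩ := (D_eq_zero_iff_pow p hF hb).1 h
    exact ⟨z, hz.symm⟩
  · rintro ⟨u, hu⟩
    have h0 : D K F hb = 0 := (D_eq_zero_iff_pow p hF hb).2 ⟨u, hu.symm⟩
    rw [h0] at h
    rcases smul_eq_zero.1 h.symm with h1 | h1
    · rcases mul_eq_zero.1 h1 with h2 | h2
      · exact h2
      · exact absurd h2 hb0
    · exact absurd h1 hx

/-- **(OA1).**  `F / K` a function field over an algebraically closed field of characteristic
`p`, `div (dx) = Wx`, `hb ≠ 0` with `p ∣ ord_v hb` at all places and `d hb = (a * hb) dx`.  Then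
`a ∈ L(Wx)` (`dlog hb` is holomorphic), and `a = 0` iff `hb` is a `p`-th power. -/
theorem dlog_holo [IsAlgClosed K] (p : ℕ) [Fact p.Prime] [CharP K p] {x₀ : F}
    (hF : IsFF1 K F x₀) {x hb a : F} {Wx : Divisor K F}
    (hW : IsDivisorOf (D K F x) Wx) (hb0 : hb ≠ 0)
    (hdiv : ∀ v : Place K F, (p : ℤ) ∣ v.ord hb)
    (h : D K F hb = (a * hb) • D K F x) :
    a ∈ riemannRochSpace Wx ∧ (a = 0 ↔ ∃ u : F, hb = u ^ p) := by
  haveI := hF.hasPrincipalDivisors
  obtain ⟨v⟩ := exists_place hF
  exact ⟨dlog_coeff_mem_L hF.resK p hW hb0 hdiv h,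
    dlog_coeff_eq_zero_iff p hF (D_ne_zero_of_isDivisorOf hF.resK v hW) hb0 h⟩

end Fermat.Agent.TR.Hecke.DlogHolo
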