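/-
TR / Hecke side (helper28): (OA1) + (OA2) for an ARBITRARY divisor witness and at the base function
`x̄ = J̄(q^N)` (`Lib.Red.xk k N`) of the RED layer — the shapes consumed by (OA6).

* `dlog_theta_of_isDivisorOf` : generic; for EVERY `W` with `IsDivisorOf (dJ) W` and every `h ≠ 0`
  with `p ∣ ord_v h` for all `v`: `∃ a ∈ L(W), θ h = a * h * θ J ∧ (a = 0 ↔ h ∈ Eᵖ)`;
  `dlog_theta_div_of_isDivisorOf` : the same with `θ h / h = a * θ J`;
* `theta_xk_ne_zero` : `θ x̄ ≠ 0` when `(N : k) ≠ 0`;
* `dlog_theta_xk`, `dlog_theta_div_xk` : the instance `E = modularFunctionFieldFullC k N`,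
  `J = x̄ = xk k N`.
-/
import Mathlib
import Fermat.Agent.TR.Hecke.DlogTheta
import Fermat.Agent.Lib.FF.ModLRed

set_option autoImplicit false

namespace Fermat.Agent.TR.Hecke.DlogThetaX

open KaehlerDifferential AlgebraicCurve WithZero IntermediateField ModularCurve
open Fermat.Agent.Lib.FF Fermat.Agent.Lib.Red Fermat.Agent.Lib.Red.GenusGA
  Fermat.Agent.TR.Hecke.DlogFF Fermat.Agent.TR.Hecke.DlogTheta

section Generic

variable {k : Type*} [Field k] (E : IntermediateField k (LaurentSeries k))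

set_option synthInstance.maxHeartbeats 200000 in
/-- **(OA1) + (OA2) for every divisor witness `W` of `dJ`.** -/
theorem dlog_theta_of_isDivisorOf [IsAlgClosed k] (p : ℕ) [Fact p.Prime] [CharP k p] (x : E)
    (hx : Transcendental k x) [FiniteDimensional k⟮x⟯ E] (J : E)
    (hJ : thetaFun k (J : LaurentSeries k) ≠ 0) (W : Divisor k E)
    (hW : Res.Adele.IsDivisorOf (D k E J) W) (hbar : E) (hh : hbar ≠ 0)
    (hp : ∀ v : Place k E, (p : ℤ) ∣ v.ord hbar) :
    ∃ a : E, a ∈ riemannRochSpace W ∧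
      thetaFun k (hbar : LaurentSeries k)
        = (a : LaurentSeries k) * (hbar : LaurentSeries k) * thetaFun k (J : LaurentSeries k) ∧
      (a = 0 ↔ ∃ u : E, u ^ p = hbar) := by
  have hDJ : D k E J ≠ 0 := D_ne_zero_of_theta_ne_zero E J hJ
  have hFF : IsFF1 k E x := Fermat.Agent.Lib.FF.CharP.isFF1 x hx
  have hspan := span_D_eq_top_of_theta_ne_zero E x hx J hJ
  have hmem : D k E hbar ∈ Submodule.span E {D k E J} := by rw [hspan]; trivial
  obtain ⟨b, hb⟩ := Submodule.mem_span_singleton.mp hmem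
  have hD : D k E hbar = (b * hbar⁻¹ * hbar) • D k E J := by
    rw [inv_mul_cancel_right₀ hh, hb]
  exact ⟨b * hbar⁻¹, dlog_coeff_mem_L_ff1 hFF p hW hh hp hD, theta_eq_of_D_eq_mul E hD,
    dlog_coeff_eq_zero_iff p x hx hDJ hh hD⟩

set_option synthInstance.maxHeartbeats 200000 in
/-- The quotient form: `θ h / h = a * θ J`. -/
theorem dlog_theta_div_of_isDivisorOf [IsAlgClosed k] (p : ℕ) [Fact p.Prime] [CharP k p] (x : E)
    (hx : Transcendental k x) [FiniteDimensional k⟮x⟯ E] (J : E)
    (hJ : thetaFun k (J : LaurentSeries k) ≠ 0) (W : Divisor k E)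
    (hW : Res.Adele.IsDivisorOf (D k E J) W) (hbar : E) (hh : hbar ≠ 0)
    (hp : ∀ v : Place k E, (p : ℤ) ∣ v.ord hbar) :
    ∃ a : E, a ∈ riemannRochSpace W ∧
      thetaFun k (hbar : LaurentSeries k) / (hbar : LaurentSeries k)
        = (a : LaurentSeries k) * thetaFun k (J : LaurentSeries k) ∧
      (a = 0 ↔ ∃ u : E, u ^ p = hbar) := by
  obtain ⟨a, ha, h1, h2⟩ := dlog_theta_of_isDivisorOf E p x hx J hJ W hW hbar hh hp
  refine ⟨a, ha, ?_, h2⟩
  have hh' : (hbar : LaurentSeries k) ≠ 0 := fun h0 => hh (Subtype.ext h0)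
  rw [h1, div_eq_iff hh']
  ring

end Generic

/-! ### The instance at the base function `x̄ = J̄(q^N)` -/

section Xk

variable (k : Type*) [Field k] (N : ℕ) [NeZero N]

/-- `θ x̄ ≠ 0` when `(N : k) ≠ 0`: the coefficient of `q^(-N)` is `-N`. -/
theorem theta_xk_ne_zero (hN : (N : k) ≠ 0) :
    thetaFun k ((xk k N : modularFunctionFieldFullC k N) : LaurentSeries k) ≠ 0 := by
  intro h
  have h1 := congrArg (fun f : LaurentSeries k => f.coeff ((N : ℤ) * (-1))) h
  simp only [thetaFun_coeff, HahnSeries.coeff_zero, coe_xk] at h1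
  rw [Fermat.Agent.S28.TD.Jd_eq, qExpand_coeff_mul,
    Fermat.Agent.S28.Kummer.jqModC_coeff_neg_one, mul_one] at h1
  apply hN
  have h2 : (((N : ℤ) * (-1) : ℤ) : k) = -(N : k) := by push_cast; ring
  rw [h2, neg_eq_zero] at h1
  exact h1

variable [IsAlgClosed k]

set_option synthInstance.maxHeartbeats 200000 in
/-- **(OA1) + (OA2) at the base `x̄ = xk k N`**, for every divisor witness of `d x̄`. -/
theorem dlog_theta_xk (p : ℕ) [Fact p.Prime] [CharP k p] (hN : (N : k) ≠ 0)
    (W : Divisor k (modularFunctionFieldFullC k N))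
    (hW : Res.Adele.IsDivisorOf (D k (modularFunctionFieldFullC k N) (xk k N)) W)
    (hbar : modularFunctionFieldFullC k N) (hh : hbar ≠ 0)
    (hp : ∀ v : Place k (modularFunctionFieldFullC k N), (p : ℤ) ∣ v.ord hbar) :
    ∃ a : modularFunctionFieldFullC k N, a ∈ riemannRochSpace W ∧
      thetaFun k (hbar : LaurentSeries k)
        = (a : LaurentSeries k) * (hbar : LaurentSeries k)
          * thetaFun k ((xk k N : modularFunctionFieldFullC k N) : LaurentSeries k) ∧
      (a = 0 ↔ ∃ u : modularFunctionFieldFullC k N, u ^ p = hbar) := by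
  have := finiteDimensional_xk k N
  exact dlog_theta_of_isDivisorOf (modularFunctionFieldFullC k N) p (xk k N)
    (transcendental_xk' k N) (xk k N) (theta_xk_ne_zero k N hN) W hW hbar hh hp

set_option synthInstance.maxHeartbeats 200000 in
/-- The quotient form at the base `x̄`: `θ h / h = a * θ x̄` with `a ∈ L(div (d x̄))`. -/
theorem dlog_theta_div_xk (p : ℕ) [Fact p.Prime] [CharP k p] (hN : (N : k) ≠ 0)
    (W : Divisor k (modularFunctionFieldFullC k N))
    (hW : Res.Adele.IsDivisorOf (D k (modularFunctionFieldFullC k N) (xk k N)) W)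
    (hbar : modularFunctionFieldFullC k N) (hh : hbar ≠ 0)
    (hp : ∀ v : Place k (modularFunctionFieldFullC k N), (p : ℤ) ∣ v.ord hbar) :
    ∃ a : modularFunctionFieldFullC k N, a ∈ riemannRochSpace W ∧
      thetaFun k (hbar : LaurentSeries k) / (hbar : LaurentSeries k)
        = (a : LaurentSeries k)
          * thetaFun k ((xk k N : modularFunctionFieldFullC k N) : LaurentSeries k) ∧
      (a = 0 ↔ ∃ u : modularFunctionFieldFullC k N, u ^ p = hbar) := by
  have := finiteDimensional_xk k N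
  exact dlog_theta_div_of_isDivisorOf (modularFunctionFieldFullC k N) p (xk k N)
    (transcendental_xk' k N) (xk k N) (theta_xk_ne_zero k N hN) W hW hbar hh hp

set_option synthInstance.maxHeartbeats 200000 in
/-- A divisor of `d x̄` exists (of degree `2g - 2`). -/
theorem exists_isDivisorOf_xk (hN : (N : k) ≠ 0) :
    ∃ W : Divisor k (modularFunctionFieldFullC k N),
      Res.Adele.IsDivisorOf (D k (modularFunctionFieldFullC k N) (xk k N)) W ∧
      Divisor.degree W = 2 * (genusFF k (modularFunctionFieldFullC k N) : ℤ) - 2 := by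
  have := finiteDimensional_xk k N
  have hspan := span_D_eq_top_of_theta_ne_zero (modularFunctionFieldFullC k N) (xk k N)
    (transcendental_xk' k N) (xk k N) (theta_xk_ne_zero k N hN)
  obtain ⟨W, hW, hdeg, -, -⟩ := Res.exists_divisor_D_of_span (isFF1_xk k N) (xk k N) hspan
  exact ⟨W, hW, hdeg⟩

end Xk

end Fermat.Agent.TR.Hecke.DlogThetaX
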