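/-
TR / Hecke side, (E3): the Eisenstein argument `eis`.

Setting: `h : BadSetup A π M p` over `ℚ̄` (level `M * p`, residue characteristic `p`), `ℓ` an
auxiliary prime (`ℓ ≠ p`, `ℓ ∤ M`), `x` a class of `JZero (M * p)` with Kummer function `f`, a unit
of the Gauss valuation ring `O_∞`, `hbar = red_∞ f`; `f_Δ = Δ(q)/Δ(q^p)`, `Δ̄ = red_∞ f_Δ`,
`a(Q) = ord_Q Δ̄`.  If `T_ℓ x = a • x` and

* (PL)   `ord_Q hbar ≡ c · a(Q)  (mod p)` wherever `a(Q) > 0`,
* (SPEC) `p ∣ ord_Q hbar` wherever `a(Q) ≤ 0`,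
* (NE)   `p ∤ a - ℓ - 1`,
* (NodeUnit) `p ∤ a(Q)` at some non-cuspidal place `Q`,

then `p ∣ c`.

The only input which is not proved here is `PresC` (PRES): on the special fibre, the operator
`z ↦ Nm_{κ_{Mℓ}/κ_M} (z(q^ℓ))` preserves "all orders off the cusps are divisible by `p`".

* `IsU`, `ordRed` : units of `O_∞`, and the order at a place of the special fibre of the reduction;
* `isU_nb`, `ordRed_nb` : `g ↦ Nm_α (β g)` on units, and its reduction (from `NormOrd`);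
* `exists_pow_of_kummer` : `Nm_α (β f) = f^m · g^p` when `T_ℓ x = m • x`;
* `eis_nat` : `p ∣ n · (m - ℓ - 1) · a(Q)` at every non-cuspidal `Q`;
* `eis_of_pres` : the statement above, from `PresC`.
-/
import Mathlib
import Fermat.Agent.TR.Unit.HeckeUnitRed
import Fermat.Agent.TR.Hecke.NormOrd
import Fermat.Agent.ESJ.Jac.HeckeKummer
import Fermat.Agent.Lib.FF.CharP.Principal
import Fermat.Agent.Lib.FF.ModLRed

set_option autoImplicit false
set_option linter.style.haveILetI false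

noncomputable section

namespace Fermat.Agent.TR.Hecke.Eis

open HahnSeries ModularCurve AlgebraicCurve Fermat.Agent.Lib.Red Fermat.Agent.S28
open Fermat.Agent.ESJ.Cong.LevelGen Fermat.Agent.ESJ.Cong.LevelDeg
open Fermat.Agent.Lib.Red.LevelDescent Fermat.Agent.BAD.TwoVal Fermat.Agent.CAR.V3
open Fermat.Agent.TR.Unit Fermat.Agent.TR.Unit.IntRed Fermat.Agent.TR.Unit.HeckeUnitRed
open Fermat.Agent.TR.Hecke.NormOrd Fermat.Agent.ESJ.Jac Fermat.Agent.ESJ.Jac.HeckeKummer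

/-! ### Units of `O_∞` and the orders of their reductions -/

section Units

variable {L : Type} [Field L] [Algebra ℚ L] {A : ValuationSubring L} {k : Type} [Field k]
  {π : A →+* k} {M p : ℕ} [NeZero M] [NeZero p]

/-- `g` is a unit of the Gauss valuation ring `O_∞`. -/
def IsU (h : BadSetup A π M p)
    (g : laurentBaseChange L (modularFunctionFieldFull (M * p))) : Prop :=
  g ∈ OInf h ∧ g⁻¹ ∈ OInf h ∧ g ≠ 0

open Classical in
/-- The order at the place `P` of the special fibre of the reduction `red_∞ g` (and `0` if `g`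
is not in `O_∞`). -/
def ordRed (h : BadSetup A π M p) (P : Place k ↥(modularFunctionFieldFullC k M))
    (g : laurentBaseChange L (modularFunctionFieldFull (M * p))) : ℤ :=
  if hg : g ∈ OInf h then P.ord (redInf h ⟨g, hg⟩) else 0

variable {h : BadSetup A π M p} {g g' : laurentBaseChange L (modularFunctionFieldFull (M * p))}

theorem ordRed_eq (P : Place k ↥(modularFunctionFieldFullC k M)) (hg : g ∈ OInf h) :
    ordRed h P g = P.ord (redInf h ⟨g, hg⟩) :=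
  dif_pos hg

theorem IsU.red_ne_zero (hg : IsU h g) : redInf h ⟨g, hg.1⟩ ≠ 0 :=
  redInf_ne_zero_of_inv_mem h g hg.2.2 hg.1 hg.2.1

theorem IsU.mul (hg : IsU h g) (hg' : IsU h g') : IsU h (g * g') :=
  ⟨(OInf h).mul_mem _ _ hg.1 hg'.1, by
    rw [mul_inv]
    exact (OInf h).mul_mem _ _ hg.2.1 hg'.2.1, mul_ne_zero hg.2.2 hg'.2.2⟩

theorem IsU.inv (hg : IsU h g) : IsU h g⁻¹ :=
  ⟨hg.2.1, by
    rw [inv_inv]
    exact hg.1, inv_ne_zero hg.2.2⟩

theorem IsU.pow (hg : IsU h g) (n : ℕ) : IsU h (g ^ n) :=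
  ⟨(OInf h).pow_mem hg.1 n, by
    rw [← inv_pow]
    exact (OInf h).pow_mem hg.2.1 n, pow_ne_zero n hg.2.2⟩

theorem isU_one : IsU h (1 : laurentBaseChange L (modularFunctionFieldFull (M * p))) :=
  ⟨(OInf h).one_mem, by
    rw [inv_one]
    exact (OInf h).one_mem, one_ne_zero⟩

/-- A root of a unit is a unit. -/
theorem isU_of_pow {n : ℕ} (hn : n ≠ 0) (hg : IsU h (g ^ n)) : IsU h g := by
  have hg0 : g ≠ 0 := by
    intro h0
    rw [h0, zero_pow hn] at hg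
    exact hg.2.2 rfl
  obtain ⟨m, rfl⟩ := Nat.exists_eq_succ_of_ne_zero hn
  have e1 : g = g ^ (m + 1) * g⁻¹ ^ m := by
    rw [pow_succ, inv_pow]
    field_simp
  have e2 : g⁻¹ = (g ^ (m + 1))⁻¹ * g ^ m := by
    rw [pow_succ]
    field_simp
  refine ⟨?_, ?_, hg0⟩
  · rcases (OInf h).mem_or_inv_mem g with h1 | h1
    · exact h1
    · rw [e1]
      exact (OInf h).mul_mem _ _ hg.1 ((OInf h).pow_mem h1 m)
  · rcases (OInf h).mem_or_inv_mem g with h1 | h1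
    · rw [e2]
      exact (OInf h).mul_mem _ _ hg.2.1 ((OInf h).pow_mem h1 m)
    · exact h1

variable (P : Place k ↥(modularFunctionFieldFullC k M))

theorem ordRed_mul (hg : IsU h g) (hg' : IsU h g') :
    ordRed h P (g * g') = ordRed h P g + ordRed h P g' := by
  rw [ordRed_eq P (hg.mul hg').1, ordRed_eq P hg.1, ordRed_eq P hg'.1]
  have e : redInf h ⟨g * g', (hg.mul hg').1⟩ = redInf h ⟨g, hg.1⟩ * redInf h ⟨g', hg'.1⟩ := by
    rw [← map_mul]
    rfl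
  rw [e, P.ord_mul hg.red_ne_zero hg'.red_ne_zero]

theorem ordRed_one :
    ordRed h P (1 : laurentBaseChange L (modularFunctionFieldFull (M * p))) = 0 := by
  rw [ordRed_eq P (OInf h).one_mem]
  have e : redInf h ⟨1, (OInf h).one_mem⟩ = 1 := by
    rw [← map_one (redInf h)]
    rfl
  rw [e, Place.ord_one]

theorem ordRed_inv (hg : IsU h g) : ordRed h P g⁻¹ = - ordRed h P g := by
  have h1 := ordRed_mul P hg hg.inv
  rw [mul_inv_cancel₀ hg.2.2, ordRed_one] at h1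
  omega

theorem ordRed_pow (hg : IsU h g) (n : ℕ) : ordRed h P (g ^ n) = n * ordRed h P g := by
  induction n with
  | zero => rw [pow_zero, ordRed_one, Nat.cast_zero, zero_mul]
  | succ n ih =>
    rw [pow_succ, ordRed_mul P (hg.pow n) hg, ih]
    push_cast
    ring

end Units

/-! ### (PRES) and the operator `g ↦ Nm_α (β g)` on units -/

/-- **(PRES)** on the special fibre: `z ↦ Nm_{κ_{M r}/κ_M} (z(q^r))` preserves the property
"all orders at the non-cuspidal places are divisible by `p`". -/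
def PresC (k : Type) [Field k] (M r p : ℕ) [NeZero M] [NeZero r]
    (Jb : modularFunctionFieldFullC k M) : Prop :=
  ∀ z : modularFunctionFieldFullC k M, z ≠ 0 →
    (∀ s : Place k ↥(modularFunctionFieldFullC k M), 0 ≤ s.ord Jb → (p : ℤ) ∣ s.ord z) →
    ∀ t : Place k ↥(modularFunctionFieldFullC k M), 0 ≤ t.ord Jb →
      (p : ℤ) ∣ t.ord (letI := algebraAlong (inclC M r k)
        Algebra.norm (modularFunctionFieldFullC k M) (betaC k M r z))

section NormBeta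

variable {L : Type} [Field L] [Algebra ℚ L] {A : ValuationSubring L} {k : Type} [Field k]
  {π : A →+* k} {M p ℓ : ℕ} [NeZero M] [NeZero p] [NeZero ℓ]
  {h : BadSetup A π M p} {g : laurentBaseChange L (modularFunctionFieldFull (M * p))}

/-- `Nm_α (β g)` is a unit of `O_∞` when `g` is. -/
theorem isU_nb (hsurj : Function.Surjective π) (hℓ : ℓ.Prime) (hℓk : (ℓ : k) ≠ 0)
    (hg : IsU h g) :
    IsU h (normAlong (heckeAlphaBar L (M * p) ℓ) (heckeBetaBar L (M * p) ℓ g)) := by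
  have key : ∀ g' : laurentBaseChange L (modularFunctionFieldFull (M * p)), g' ∈ OInf h →
      normAlong (heckeAlphaBar L (M * p) ℓ) (heckeBetaBar L (M * p) ℓ g') ∈ OInf h := fun g' hg' =>
    norm_alpha_mem_OInf h ℓ hℓk hℓ hsurj ⟨_, beta_mem_OInfR h ℓ hℓk g' hg'⟩
  have hmul : normAlong (heckeAlphaBar L (M * p) ℓ) (heckeBetaBar L (M * p) ℓ g⁻¹) *
      normAlong (heckeAlphaBar L (M * p) ℓ) (heckeBetaBar L (M * p) ℓ g) = 1 := by
    rw [← map_mul, ← map_mul, inv_mul_cancel₀ hg.2.2, map_one, map_one]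
  refine ⟨key g hg.1, ?_, ?_⟩
  · rw [← eq_inv_of_mul_eq_one_left hmul]
    exact key g⁻¹ hg.2.1
  · exact right_ne_zero_of_mul_eq_one hmul

/-- The reduction of `Nm_α (β g)` is the norm of `(red_∞ g)(q^ℓ)`. -/
theorem ordRed_nb (hsurj : Function.Surjective π) (hℓ : ℓ.Prime) (hℓk : (ℓ : k) ≠ 0)
    (P : Place k ↥(modularFunctionFieldFullC k M)) (hg : g ∈ OInf h) :
    ordRed h P (normAlong (heckeAlphaBar L (M * p) ℓ) (heckeBetaBar L (M * p) ℓ g)) =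
      P.ord (letI := algebraAlong (inclC M ℓ k)
        Algebra.norm (modularFunctionFieldFullC k M) (betaC k M ℓ (redInf h ⟨g, hg⟩))) := by
  have hm : normAlong (heckeAlphaBar L (M * p) ℓ) (heckeBetaBar L (M * p) ℓ g) ∈ OInf h :=
    norm_alpha_mem_OInf h ℓ hℓk hℓ hsurj ⟨_, beta_mem_OInfR h ℓ hℓk g hg⟩
  rw [ordRed_eq P hm]
  have e1 := redInf_norm_alpha h ℓ hℓk hℓ hsurj ⟨_, beta_mem_OInfR h ℓ hℓk g hg⟩
  have e2 := redInfR_beta h ℓ hℓk g hg (beta_mem_OInfR h ℓ hℓk g hg)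
  rw [e2] at e1
  rw [← e1]
  rfl

end NormBeta

/-! ### The Kummer function of `T_ℓ x` -/

section Kummer

variable {N ℓ p : ℕ} [NeZero N] [NeZero ℓ]

/-- If `T_ℓ x = m • x` and `f` is a Kummer function of `x` (for `p`), then
`Nm_α (β f) = f^m · g^p`. -/
theorem exists_pow_of_kummer (hℓ : ℓ.Prime) (hp : 0 < p) {x : JZero N}
    {f : modularFunctionFieldBar N} (hxf : IsKummerPair p x f) {m : ℕ}
    (hT : heckeOperatorBar N ⟨ℓ, hℓ⟩ x = m • x) :
    ∃ g : modularFunctionFieldBar N, g ≠ 0 ∧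
      normAlong (heckeAlphaBar (AlgebraicClosure ℚ) N ℓ)
        (heckeBetaBar (AlgebraicClosure ℚ) N ℓ f) = f ^ m * g ^ p := by
  have h1 := isKummerPair_heckeOperatorBar N (⟨ℓ, hℓ⟩ : Nat.Primes) hxf
  rw [hT] at h1
  obtain ⟨c₀, g, hc0, hg0, hc, e⟩ := (hxf.nsmul m).exists_eq_mul_pow h1
  haveI := Fermat.Agent.Lib.FF.finiteDimensional_xL (AlgebraicClosure ℚ) N
  obtain ⟨c, rfl⟩ := Fermat.Agent.Lib.FF.CharP.const_of_ord_nonneg
    (xL (AlgebraicClosure ℚ) N) c₀ (fun v => (hc v).ge)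
  obtain ⟨d, hd⟩ := IsAlgClosed.exists_pow_nat_eq c hp
  have hd0 : d ≠ 0 := by
    rintro rfl
    rw [zero_pow hp.ne'] at hd
    rw [← hd, map_zero] at hc0
    exact hc0 rfl
  refine ⟨algebraMap (AlgebraicClosure ℚ) (modularFunctionFieldBar N) d * g,
    mul_ne_zero ((map_ne_zero _).mpr hd0) hg0, ?_⟩
  rw [mul_pow, ← map_pow, hd]
  exact e.trans (by ring)

end Kummer

/-! ### The Eisenstein argument -/

section Eis

variable {A : ValuationSubring (AlgebraicClosure ℚ)} {k : Type} [Field k] {π : A →+* k}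
  {M p ℓ : ℕ} [NeZero M] [NeZero p] [NeZero ℓ] {Jb : modularFunctionFieldFullC k M}
  {fΔ f : modularFunctionFieldBar (M * p)} {x : JZero (M * p)}

omit [NeZero M] [NeZero p] [NeZero ℓ] in
/-- `ℓ` is a unit of `A` when it is nonzero in the residue field. -/
theorem inv_natCast_mem (h : BadSetup A π M p) (hℓk : (ℓ : k) ≠ 0) :
    ((ℓ : AlgebraicClosure ℚ))⁻¹ ∈ A := by
  have hu : IsUnit ((ℓ : ℕ) : A) := by
    by_contra hnu
    apply hℓk
    rw [← map_natCast π ℓ]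
    exact h.hπ _ hnu
  obtain ⟨u, hu⟩ := hu
  have h2 : ((u : A) : AlgebraicClosure ℚ) * (((u⁻¹ : Aˣ) : A) : AlgebraicClosure ℚ) = 1 :=
    congrArg Subtype.val (Units.mul_inv u)
  have h3 : ((u : A) : AlgebraicClosure ℚ) = (ℓ : AlgebraicClosure ℚ) := by
    rw [hu]
    rfl
  rw [h3] at h2
  rw [← eq_inv_of_mul_eq_one_right h2]
  exact ((u⁻¹ : Aˣ) : A).2

/-- `f_Δ` is a unit of `O_∞`. -/
theorem isU_fDelta (h : BadSetup A π M p)
    (hfΔ : (fΔ : LaurentSeries (AlgebraicClosure ℚ)) = Units.u1 (AlgebraicClosure ℚ) p) :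
    IsU h fΔ :=
  ⟨FDelta.f_mem_OInf h hfΔ, FDelta.inv_f_mem_OInf h hfΔ, FDelta.f_ne_zero hfΔ⟩

/-- `Δ̄ = red_∞ f_Δ` has no pole at the non-cuspidal places. -/
theorem ordRed_fDelta_nonneg (h : BadSetup A π M p) (hJb : (Jb : LaurentSeries k) = jqModC k)
    (hfΔ : (fΔ : LaurentSeries (AlgebraicClosure ℚ)) = Units.u1 (AlgebraicClosure ℚ) p)
    (Q : Place k ↥(modularFunctionFieldFullC k M)) (hQ : 0 ≤ Q.ord Jb) :
    0 ≤ ordRed h Q fΔ := by
  have hJ : IsIntegral (jRing A M p)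
      (heckeAlphaBar (AlgebraicClosure ℚ) M p (jLevel (AlgebraicClosure ℚ) M)) :=
    isIntegral_algebraMap (R := jRing A M p)
      (x := (⟨heckeAlphaBar (AlgebraicClosure ℚ) M p (jLevel (AlgebraicClosure ℚ) M),
        alpha_j_mem_jRing⟩ : jRing A M p))
  have hint : IsIntegral (jRing A M p) fΔ :=
    (FDelta.isIntegral_f_g (R₁ := jRing A M p) h.hℓ hJ hfΔ).1
  obtain ⟨hm, h0⟩ := ord_redInf_nonneg h hJb Q hQ hint
  rw [ordRed_eq Q hm]
  exact h0

/-- **The Eisenstein congruence at a non-cuspidal place**: if `T_ℓ x = m • x` and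
`ord_s (red_∞ f) ≡ n · a(s) (mod p)` at all non-cuspidal `s`, then
`p ∣ n · (m - ℓ - 1) · a(Q)` at every non-cuspidal `Q`. -/
theorem eis_nat (h : BadSetup A π M p) (hsurj : Function.Surjective π) (hℓ : ℓ.Prime)
    (hℓk : (ℓ : k) ≠ 0) (hℓM : ¬ ℓ ∣ M) (hJb : (Jb : LaurentSeries k) = jqModC k)
    (hpres : PresC k M ℓ p Jb)
    (hfΔ : (fΔ : LaurentSeries (AlgebraicClosure ℚ)) = Units.u1 (AlgebraicClosure ℚ) p)
    (hxf : IsKummerPair p x f) (hf : IsU h f) {m : ℕ}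
    (hT : heckeOperatorBar (M * p) ⟨ℓ, hℓ⟩ x = m • x) {n : ℕ}
    (hPL : ∀ s : Place k ↥(modularFunctionFieldFullC k M), 0 ≤ s.ord Jb →
      (p : ℤ) ∣ ordRed h s f - n * ordRed h s fΔ)
    (Q : Place k ↥(modularFunctionFieldFullC k M)) (hQ : 0 ≤ Q.ord Jb) :
    (p : ℤ) ∣ n * ((m : ℤ) - ℓ - 1) * ordRed h Q fΔ := by
  have hΔ : IsU h fΔ := isU_fDelta h hfΔ
  have hG : IsU h (f * fΔ⁻¹ ^ n) := hf.mul (hΔ.inv.pow n)
  have hordG : ∀ s : Place k ↥(modularFunctionFieldFullC k M),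
      ordRed h s (f * fΔ⁻¹ ^ n) = ordRed h s f - n * ordRed h s fΔ := by
    intro s
    rw [ordRed_mul s hf (hΔ.inv.pow n), ordRed_pow s hΔ.inv, ordRed_inv s hΔ]
    ring
  -- (PRES) for the reduction of `G = f · f_Δ^(-n)`
  have key := hpres (redInf h ⟨_, hG.1⟩) hG.red_ne_zero (fun s hs => by
    rw [← ordRed_eq s hG.1, hordG s]
    exact hPL s hs) Q hQ
  rw [← ordRed_nb hsurj hℓ hℓk Q hG.1] at key
  -- the norm of `β G`
  have hnbΔ : IsU h (normAlong (heckeAlphaBar (AlgebraicClosure ℚ) (M * p) ℓ)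
      (heckeBetaBar (AlgebraicClosure ℚ) (M * p) ℓ fΔ)) := isU_nb hsurj hℓ hℓk hΔ
  have hnbΔi : IsU h (normAlong (heckeAlphaBar (AlgebraicClosure ℚ) (M * p) ℓ)
      (heckeBetaBar (AlgebraicClosure ℚ) (M * p) ℓ fΔ⁻¹)) := isU_nb hsurj hℓ hℓk hΔ.inv
  have hnbf : IsU h (normAlong (heckeAlphaBar (AlgebraicClosure ℚ) (M * p) ℓ)
      (heckeBetaBar (AlgebraicClosure ℚ) (M * p) ℓ f)) := isU_nb hsurj hℓ hℓk hf
  have e1 : normAlong (heckeAlphaBar (AlgebraicClosure ℚ) (M * p) ℓ)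
      (heckeBetaBar (AlgebraicClosure ℚ) (M * p) ℓ (f * fΔ⁻¹ ^ n)) =
      normAlong (heckeAlphaBar (AlgebraicClosure ℚ) (M * p) ℓ)
        (heckeBetaBar (AlgebraicClosure ℚ) (M * p) ℓ f) *
      normAlong (heckeAlphaBar (AlgebraicClosure ℚ) (M * p) ℓ)
        (heckeBetaBar (AlgebraicClosure ℚ) (M * p) ℓ fΔ⁻¹) ^ n := by
    rw [map_mul, map_pow, map_mul, map_pow]
  have e2 : ordRed h Q (normAlong (heckeAlphaBar (AlgebraicClosure ℚ) (M * p) ℓ)
      (heckeBetaBar (AlgebraicClosure ℚ) (M * p) ℓ fΔ⁻¹)) =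
      - ordRed h Q (normAlong (heckeAlphaBar (AlgebraicClosure ℚ) (M * p) ℓ)
        (heckeBetaBar (AlgebraicClosure ℚ) (M * p) ℓ fΔ)) := by
    have h1 := ordRed_mul Q hnbΔ hnbΔi
    rw [← map_mul, ← map_mul, mul_inv_cancel₀ hΔ.2.2, map_one, map_one, ordRed_one] at h1
    omega
  -- the Hecke unit: `ord (red Nm(β f_Δ)) = (ℓ + 1) · ord (red f_Δ)`
  have hℓp : ¬ ℓ ∣ M * p := by
    intro hd
    rcases (Nat.Prime.dvd_mul hℓ).mp hd with h1 | h1
    · exact hℓM h1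
    · have h2 : ℓ = p := (Nat.prime_dvd_prime_iff_eq hℓ h.hℓ).mp h1
      rw [h2] at hℓk
      exact hℓk h.hℓk
  have hdeg : finrankAlong (AlgebraicClosure ℚ) (heckeAlphaBar (AlgebraicClosure ℚ) (M * p) ℓ) =
      ℓ + 1 := finrank_alpha_of_not_dvd (AlgebraicClosure ℚ) (M * p) ℓ hℓ hℓp
  have e3 : ordRed h Q (normAlong (heckeAlphaBar (AlgebraicClosure ℚ) (M * p) ℓ)
      (heckeBetaBar (AlgebraicClosure ℚ) (M * p) ℓ fΔ)) = ((ℓ : ℤ) + 1) * ordRed h Q fΔ := by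
    obtain ⟨hm, h1⟩ := ord_redInf_norm_beta_f h hℓ (inv_natCast_mem h hℓk) hdeg hJb Q hQ hfΔ
    rw [ordRed_eq Q hnbΔ.1, ordRed_eq Q hΔ.1]
    exact h1
  -- the Kummer function of `T_ℓ x = m • x`
  obtain ⟨g, hg0, e4⟩ := exists_pow_of_kummer hℓ h.hℓ.pos hxf hT
  have hgp : IsU h (g ^ p) := by
    have e5 : g ^ p = normAlong (heckeAlphaBar (AlgebraicClosure ℚ) (M * p) ℓ)
        (heckeBetaBar (AlgebraicClosure ℚ) (M * p) ℓ f) * (f ^ m)⁻¹ := by
      rw [e4, mul_comm (f ^ m), mul_assoc, mul_inv_cancel₀ (pow_ne_zero m hf.2.2), mul_one]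
    rw [e5]
    exact hnbf.mul (hf.pow m).inv
  have hg : IsU h g := isU_of_pow h.hℓ.ne_zero hgp
  have e6 : ordRed h Q (normAlong (heckeAlphaBar (AlgebraicClosure ℚ) (M * p) ℓ)
      (heckeBetaBar (AlgebraicClosure ℚ) (M * p) ℓ f)) =
      m * ordRed h Q f + p * ordRed h Q g := by
    rw [e4, ordRed_mul Q (hf.pow m) (hg.pow p), ordRed_pow Q hf, ordRed_pow Q hg]
  rw [e1, ordRed_mul Q hnbf (hnbΔi.pow n), ordRed_pow Q hnbΔi, e2, e3, e6] at key
  obtain ⟨u, hu⟩ := key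
  obtain ⟨v, hv⟩ := hPL Q hQ
  exact ⟨u - m * v - ordRed h Q g, by linear_combination hu - (m : ℤ) * hv⟩

/-- **Theorem `eis`, modulo (PRES).**  `x` a class with Kummer function `f` (a unit of `O_∞`),
`T_ℓ x = a • x`, `a(Q) = ord_Q (red_∞ f_Δ)`; from (PL), (SPEC), (NE) and a non-cuspidal place
with `p ∤ a(Q)`:  `p ∣ c`. -/
theorem eis_of_pres (h : BadSetup A π M p) (hsurj : Function.Surjective π) (hℓ : ℓ.Prime)
    (hℓk : (ℓ : k) ≠ 0) (hℓM : ¬ ℓ ∣ M) (hJb : (Jb : LaurentSeries k) = jqModC k)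
    (hpres : PresC k M ℓ p Jb)
    (hfΔ : (fΔ : LaurentSeries (AlgebraicClosure ℚ)) = Units.u1 (AlgebraicClosure ℚ) p)
    (hxf : IsKummerPair p x f) (hf : f ∈ OInf h) (hf' : f⁻¹ ∈ OInf h) {a : ℤ}
    (hT : heckeOperatorBar (M * p) ⟨ℓ, hℓ⟩ x = a • x) {c : ℤ}
    (hPL : ∀ Q : Place k ↥(modularFunctionFieldFullC k M),
      0 < Q.ord (redInf h ⟨fΔ, FDelta.f_mem_OInf h hfΔ⟩) →
      (p : ℤ) ∣ Q.ord (redInf h ⟨f, hf⟩) -
        c * Q.ord (redInf h ⟨fΔ, FDelta.f_mem_OInf h hfΔ⟩))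
    (hSPEC : ∀ Q : Place k ↥(modularFunctionFieldFullC k M),
      Q.ord (redInf h ⟨fΔ, FDelta.f_mem_OInf h hfΔ⟩) ≤ 0 →
      (p : ℤ) ∣ Q.ord (redInf h ⟨f, hf⟩))
    (hNE : ¬ (p : ℤ) ∣ a - ℓ - 1)
    (hNode : ∃ Q : Place k ↥(modularFunctionFieldFullC k M), 0 ≤ Q.ord Jb ∧
      ¬ (p : ℤ) ∣ Q.ord (redInf h ⟨fΔ, FDelta.f_mem_OInf h hfΔ⟩)) :
    (p : ℤ) ∣ c := by
  have hfU : IsU h f := ⟨hf, hf', hxf.ne_zero⟩
  have hp0 : (0 : ℤ) < p := by exact_mod_cast h.hℓ.pos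
  have hpZ : Prime (p : ℤ) := Nat.prime_iff_prime_int.mp h.hℓ
  -- natural representatives of `a` and `c` modulo `p`
  have ha1 : ((a % (p : ℤ)).toNat : ℤ) = a % p := Int.toNat_of_nonneg (Int.emod_nonneg a hp0.ne')
  have hc1 : ((c % (p : ℤ)).toNat : ℤ) = c % p := Int.toNat_of_nonneg (Int.emod_nonneg c hp0.ne')
  have ha2 : a = (a % (p : ℤ)).toNat + p * (a / p) := by
    rw [ha1]
    exact (Int.emod_add_mul_ediv a p).symm
  have hc2 : c = (c % (p : ℤ)).toNat + p * (c / p) := by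
    rw [hc1]
    exact (Int.emod_add_mul_ediv c p).symm
  have hxp : (p : ℤ) • x = 0 := Pic0.mem_torsion.mp hxf.mem_torsion
  have hT' : heckeOperatorBar (M * p) ⟨ℓ, hℓ⟩ x = (a % (p : ℤ)).toNat • x := by
    have e1 : ((p : ℤ) * (a / p)) • x = 0 := by
      rw [mul_comm (p : ℤ) (a / p), mul_zsmul, hxp, zsmul_zero]
    have e : a • x = ((a % (p : ℤ)).toNat : ℤ) • x := by
      conv_lhs => rw [ha2]
      rw [add_zsmul, e1, add_zero]
    rw [hT, e, natCast_zsmul]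
  have hPL' : ∀ s : Place k ↥(modularFunctionFieldFullC k M), 0 ≤ s.ord Jb →
      (p : ℤ) ∣ ordRed h s f - ((c % (p : ℤ)).toNat : ℕ) * ordRed h s fΔ := by
    intro s hs
    have h0 := ordRed_fDelta_nonneg h hJb hfΔ s hs
    rw [ordRed_eq s hf, ordRed_eq s (FDelta.f_mem_OInf h hfΔ)] at *
    rcases lt_or_ge 0 (s.ord (redInf h ⟨fΔ, FDelta.f_mem_OInf h hfΔ⟩)) with h1 | h1
    · obtain ⟨u, hu⟩ := hPL s h1
      exact ⟨u + c / p * s.ord (redInf h ⟨fΔ, FDelta.f_mem_OInf h hfΔ⟩), by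
        linear_combination hu + s.ord (redInf h ⟨fΔ, FDelta.f_mem_OInf h hfΔ⟩) * hc2⟩
    · have h2 : s.ord (redInf h ⟨fΔ, FDelta.f_mem_OInf h hfΔ⟩) = 0 := le_antisymm h1 h0
      rw [h2, mul_zero, sub_zero]
      exact hSPEC s h1
  obtain ⟨Q, hQ, hQa⟩ := hNode
  have key := eis_nat h hsurj hℓ hℓk hℓM hJb hpres hfΔ hxf hfU hT' hPL' Q hQ
  rw [ordRed_eq Q (FDelta.f_mem_OInf h hfΔ)] at key
  rcases hpZ.dvd_or_dvd key with h1 | h1
  · rcases hpZ.dvd_or_dvd h1 with h2 | h2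
    · rw [hc2]
      exact dvd_add h2 (dvd_mul_right _ _)
    · exfalso
      apply hNE
      obtain ⟨u, hu⟩ := h2
      exact ⟨u + a / p, by linear_combination hu + ha2⟩
  · exact absurd h1 hQa

end Eis

end Fermat.Agent.TR.Hecke.Eis

end
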