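import Mathlib
import Fermat.Agent.TR.Hecke.NormOrd
import Fermat.Agent.Lib.Red.NormPlace
import Fermat.Agent.Lib.Red.SpecCharL
import Fermat.Agent.Lib.FF.SettingP
import Fermat.Agent.S24.PlaceBasic

/-!
# TR / Hecke side, (EIS-SF): the special-fibre norm preserves `p ∣ ord` off the cusps

`k` an algebraically closed field (any characteristic), `κ_N = modularFunctionFieldFullC k N`,
`J̄ = J̄(q) ∈ κ_M`, `r` a prime, `inclC M r k : κ_M → κ_{M r}` the inclusion and
`betaC k M r : κ_M → κ_{M r}` the map `q ↦ q^r`.

* `isSeparable_of_mem_range` : abstract — `L / F` is separable as soon as `L` is separable over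
  an intermediate field all of whose elements come from `F`;
* `separableAlong_inclC` : `κ_{M r} / κ_M` is separable (no hypothesis on the characteristic);
* `ord_norm_inclC` : the norm formula `ord_s (Nm f) = ∑_{w ∣ s} ord_w f` along `inclC`;
* `ord_inclC_Jbar_nonneg`, `ord_betaC_Jbar_nonneg`, `restrictAlong_betaC_noncusp` : the places of
  `κ_{M r}` above a non-cuspidal place of `κ_M` (along `inclC`) are non-cuspidal, and so are
  their restrictions along `betaC` (the modular equation: `J̄(q^r)` is integral over `k[J̄(q)]`);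
* `dvd_ord_norm_betaC` : **(EIS-SF)** — if `p ∣ ord_t z` at every non-cuspidal place `t` of
  `κ_M`, then `p ∣ ord_s (Nm_{κ_{M r}/κ_M} (β̄_r z))` at every non-cuspidal place `s`.
-/

set_option autoImplicit false
set_option linter.style.haveILetI false

noncomputable section

namespace Fermat.Agent.TR.Hecke.NormOrdSFB

open AlgebraicCurve ModularCurve IntermediateField Polynomial
open Fermat.Agent.S28 Fermat.Agent.Lib.Red Fermat.Agent.Lib.FF
open Fermat.Agent.ESJ.Cong.LevelGen Fermat.Agent.Lib.Red.LevelDescent
open Fermat.Agent.TR.Hecke.NormOrd Fermat.Agent.ESJ.HeckeInputs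

/-! ### Abstract: separability descends along a field of definition -/

section Abs

variable {K F L : Type*} [Field K] [Field F] [Field L] [Algebra K L] [Algebra F L]

/-- If `L` is separable over an intermediate field `E` (of some `L / K`) all of whose elements
lie in the image of `F`, then `L / F` is separable. -/
theorem isSeparable_of_mem_range (E : IntermediateField K L) [Algebra.IsSeparable E L]
    (hE : ∀ x ∈ E, x ∈ (algebraMap F L).range) : Algebra.IsSeparable F L := by
  rw [Algebra.isSeparable_def]
  intro y
  have hsep : (minpoly E y).Separable := Algebra.IsSeparable.isSeparable E y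
  set P : L[X] := (minpoly E y).map (algebraMap E L) with hP
  have hPsep : P.Separable := hsep.map
  have hlift : P ∈ Polynomial.lifts (algebraMap F L) := by
    rw [Polynomial.lifts_iff_coeff_lifts]
    intro n
    rw [hP, Polynomial.coeff_map]
    exact hE _ ((minpoly E y).coeff n).2
  obtain ⟨g, hg⟩ := (Polynomial.mem_lifts P).mp hlift
  have hgsep : g.Separable := by
    rw [← Polynomial.separable_map (algebraMap F L), hg]
    exact hPsep
  have hg0 : Polynomial.aeval y g = 0 := by
    rw [Polynomial.aeval_def, ← Polynomial.eval_map, hg, hP, Polynomial.eval_map,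
      ← Polynomial.aeval_def]
    exact minpoly.aeval E y
  exact hgsep.of_dvd (minpoly.dvd F y hg0)

end Abs

/-! ### The special fibre -/

section SF

variable (k : Type) [Field k] [IsAlgClosed k] (M r : ℕ) [NeZero M] [NeZero r]

attribute [local instance] hasPrincipalDivisors_modularFullC

/-- `κ_{M r} / κ_M` is separable. -/
theorem separableAlong_inclC : SeparableAlong k (inclC M r k) := by
  letI := algebraAlong (inclC M r k)
  haveI := SpecInst.isSeparable_Jbar k (M * r)
  show Algebra.IsSeparable (modularFunctionFieldFullC k M) (modularFunctionFieldFullC k (M * r))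
  refine isSeparable_of_mem_range (K := k) k⟮ModL.Jbar k (M * r)⟯ ?_
  have hle : k⟮ModL.Jbar k (M * r)⟯ ≤ (inclC M r k).fieldRange := by
    rw [adjoin_simple_le_iff]
    exact ⟨ModL.Jbar k M, Subtype.ext (coe_inclC M r k _)⟩
  intro x hx
  exact hle hx

omit [IsAlgClosed k] in
/-- `β̄_r : κ_M → κ_{M r}` is finite. -/
theorem finiteAlong_betaC : FiniteAlong k (betaC k M r) :=
  haveI := finiteDimensional_JbarC M r k
  finiteAlong (betaC k M r) (ModL.transcendental_Jbar k M) (ModL.Jbar k (M * r))

omit [IsAlgClosed k] in
/-- `β̄_r : κ_M → κ_{M r}` is integral. -/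
theorem isIntegral_betaC : (betaC k M r).toRingHom.IsIntegral :=
  isIntegral_of_finiteAlong _ (finiteAlong_betaC k M r)

/-- **The norm formula along `κ_M ⊆ κ_{M r}`** at every place of `κ_M`. -/
theorem ord_norm_inclC (s : Place k (modularFunctionFieldFullC k M))
    (f : modularFunctionFieldFullC k (M * r)) (hf : f ≠ 0) :
    s.ord (letI := algebraAlong (inclC M r k);
        Algebra.norm (modularFunctionFieldFullC k M) f) =
      ∑ w ∈ Place.fiberAlong (inclC M r k) (isIntegral_inclC M r k) s, w.ord f := by
  letI := algebraAlong (inclC M r k)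
  haveI := isScalarTower_along (inclC M r k)
  haveI := isIntegral_along (inclC M r k) (isIntegral_inclC M r k)
  haveI : FiniteDimensional (modularFunctionFieldFullC k M)
      (modularFunctionFieldFullC k (M * r)) := finiteAlong_inclC M r k
  haveI : Algebra.IsSeparable (modularFunctionFieldFullC k M)
      (modularFunctionFieldFullC k (M * r)) := separableAlong_inclC k M r
  exact NormPlace.ord_norm_eq_sum_of_isSeparable s ((isFF1_Jbar k M).resK s)
    (fun w => deg_eq_one_modularFullC k (M * r) w) f hf

omit [IsAlgClosed k] in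
/-- A place of `κ_{M r}` above a non-cuspidal place of `κ_M` is non-cuspidal. -/
theorem ord_inclC_Jbar_nonneg (w : Place k (modularFunctionFieldFullC k (M * r)))
    (hw : 0 ≤ (w.restrictAlong (inclC M r k) (isIntegral_inclC M r k)).ord (ModL.Jbar k M)) :
    0 ≤ w.ord (inclC M r k (ModL.Jbar k M)) := by
  rw [Place.ord_restrictAlong (inclC M r k) (isIntegral_inclC M r k) w]
  exact mul_nonneg (Nat.cast_nonneg _) hw

omit [IsAlgClosed k] in
/-- **The modular equation at a place**: `J̄(q^r)` is regular wherever `J̄(q)` is. -/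
theorem ord_betaC_Jbar_nonneg (hr : r.Prime)
    (w : Place k (modularFunctionFieldFullC k (M * r)))
    (hw : 0 ≤ w.ord (inclC M r k (ModL.Jbar k M))) :
    0 ≤ w.ord (betaC k M r (ModL.Jbar k M)) := by
  obtain ⟨D⟩ := modEq_prime r hr
  set a : modularFunctionFieldFullC k (M * r) := inclC M r k (ModL.Jbar k M) with ha
  set b : modularFunctionFieldFullC k (M * r) := betaC k M r (ModL.Jbar k M) with hb
  have hrel : (TD.polyAt D.Φ a).eval b = 0 := by
    apply (algebraMap (modularFunctionFieldFullC k (M * r)) (LaurentSeries k)).injective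
    rw [TD.map_eval_polyAt, map_zero]
    have h1 : algebraMap (modularFunctionFieldFullC k (M * r)) (LaurentSeries k) a =
        TD.Jd k 1 := by
      rw [TD.Jd_one]
      exact coe_inclC M r k _
    have h2 : algebraMap (modularFunctionFieldFullC k (M * r)) (LaurentSeries k) b =
        TD.Jd k (1 * r) := by
      rw [one_mul, TD.Jd_eq k r]
      exact coe_betaC k M r _
    rw [h1, h2]
    exact D.rel₂' hr.ne_zero k 1 one_ne_zero
  have hamem : a ∈ w.toValuationSubring := Fermat.Agent.S24.mem_of_ord_nonneg w hw
  have hint : IsIntegral w.toValuationSubring b := by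
    refine ⟨TD.polyAt D.Φ (⟨a, hamem⟩ : w.toValuationSubring), TD.polyAt_monic D.monic _, ?_⟩
    rw [← Polynomial.eval_map, TD.polyAt_map]
    exact hrel
  obtain ⟨y, hy⟩ := (IsIntegrallyClosed.isIntegral_iff (R := w.toValuationSubring)
    (K := modularFunctionFieldFullC k (M * r))).mp hint
  have hbmem : b ∈ w.toValuationSubring := by
    rw [← hy]
    exact y.2
  exact Fermat.Agent.S24.ord_nonneg_of_mem w hbmem

omit [IsAlgClosed k] in
/-- The restriction along `β̄_r` of a non-cuspidal place of `κ_{M r}` is non-cuspidal. -/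
theorem restrictAlong_betaC_noncusp (hr : r.Prime)
    (w : Place k (modularFunctionFieldFullC k (M * r)))
    (hw : 0 ≤ w.ord (inclC M r k (ModL.Jbar k M))) :
    0 ≤ (w.restrictAlong (betaC k M r) (isIntegral_betaC k M r)).ord (ModL.Jbar k M) := by
  have h2 := ord_betaC_Jbar_nonneg k M r hr w hw
  rw [Place.ord_restrictAlong (betaC k M r) (isIntegral_betaC k M r) w] at h2
  have hepos : 0 < Place.ramificationIndexAlong (betaC k M r) w := by
    letI := algebraAlong (betaC k M r)
    haveI := isScalarTower_along (betaC k M r)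
    haveI := isIntegral_along (betaC k M r) (isIntegral_betaC k M r)
    exact w.ramificationIndex_pos (F := modularFunctionFieldFullC k M)
  by_contra hneg
  rw [not_le] at hneg
  have hlt : (Place.ramificationIndexAlong (betaC k M r) w : ℤ) *
      (w.restrictAlong (betaC k M r) (isIntegral_betaC k M r)).ord (ModL.Jbar k M) < 0 :=
    mul_neg_of_pos_of_neg (by exact_mod_cast hepos) hneg
  omega

omit [IsAlgClosed k] in
/-- **(EIS-SF), place form**: at a place `w` of `κ_{M r}` above a non-cuspidal place of `κ_M`,
`p ∣ ord_w (β̄_r z)` as soon as `p ∣ ord_t z` at every non-cuspidal place `t` of `κ_M`. -/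
theorem dvd_ord_betaC (hr : r.Prime) (p : ℕ) (z : modularFunctionFieldFullC k M)
    (hdiv : ∀ t : Place k (modularFunctionFieldFullC k M), 0 ≤ t.ord (ModL.Jbar k M) →
      (p : ℤ) ∣ t.ord z)
    (w : Place k (modularFunctionFieldFullC k (M * r)))
    (hw : 0 ≤ w.ord (inclC M r k (ModL.Jbar k M))) :
    (p : ℤ) ∣ w.ord (betaC k M r z) := by
  rw [Place.ord_restrictAlong (betaC k M r) (isIntegral_betaC k M r) w z]
  exact Dvd.dvd.mul_left (hdiv _ (restrictAlong_betaC_noncusp k M r hr w hw)) _

/-- **(EIS-SF)**: the special-fibre norm of `β̄_r z` has all its orders off the cusps divisible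
by `p`, if `z` has. -/
theorem dvd_ord_norm_betaC (hr : r.Prime) (p : ℕ) :
    ∀ z : modularFunctionFieldFullC k M, z ≠ 0 →
      (∀ t : Place k (modularFunctionFieldFullC k M), 0 ≤ t.ord (ModL.Jbar k M) →
        (p : ℤ) ∣ t.ord z) →
      ∀ s : Place k (modularFunctionFieldFullC k M), 0 ≤ s.ord (ModL.Jbar k M) →
        (p : ℤ) ∣ s.ord (letI := algebraAlong (inclC M r k);
          Algebra.norm (modularFunctionFieldFullC k M) (betaC k M r z)) := by
  intro z hz hdiv s hs
  rw [ord_norm_inclC k M r s (betaC k M r z) ((map_ne_zero (betaC k M r)).2 hz)]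
  refine Finset.dvd_sum fun w hw => ?_
  have hw' : w.restrictAlong (inclC M r k) (isIntegral_inclC M r k) = s :=
    Place.mem_fiberAlong.mp hw
  refine dvd_ord_betaC k M r hr p z hdiv w (ord_inclC_Jbar_nonneg k M r w ?_)
  rw [hw']
  exact hs

/-- **(EIS-SF)** for any `J̄ ∈ κ_M` with `q`-expansion `jqModC k`. -/
theorem dvd_ord_norm_betaC' (hr : r.Prime) (p : ℕ) {Jb : modularFunctionFieldFullC k M}
    (hJb : (Jb : LaurentSeries k) = jqModC k) :
    ∀ z : modularFunctionFieldFullC k M, z ≠ 0 →
      (∀ t : Place k (modularFunctionFieldFullC k M), 0 ≤ t.ord Jb → (p : ℤ) ∣ t.ord z) →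
      ∀ s : Place k (modularFunctionFieldFullC k M), 0 ≤ s.ord Jb →
        (p : ℤ) ∣ s.ord (letI := algebraAlong (inclC M r k);
          Algebra.norm (modularFunctionFieldFullC k M) (betaC k M r z)) := by
  have e : Jb = ModL.Jbar k M := Subtype.ext hJb
  subst e
  exact dvd_ord_norm_betaC k M r hr p

end SF

end Fermat.Agent.TR.Hecke.NormOrdSFB
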