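import Mathlib
import Fermat.Agent.TR.Hecke.Eis
import Fermat.Agent.TR.Hecke.NormOrdSFB
import Fermat.Agent.TR.Hecke.CuspSign
import Fermat.Agent.TR.PL.Seam

/-!
# TR / Hecke side: theorem `eis`, closed

`TR/Hecke/Eis.lean` (helper17) proves `eis_of_pres` modulo the named hypothesis `PresC`
((PRES) on the special fibre); `TR/Hecke/NormOrdSFB.lean` (helper76; also `NormOrdSF.lean`,
helper16) proves exactly that statement ((EIS-SF)); `TR/Hecke/CuspSign.lean` shows that a zero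
of `Δ̄` is non-cuspidal.  This file puts them together:

* `presC` : `Eis.PresC k M r p Jb` for `k` algebraically closed, `r` prime;
* `eis` : `Eis.eis_of_pres` without the hypothesis `PresC`;
* `eis_seam` : the same in the vocabulary of `TR/PL/Seam.lean` (`deltaBar`, `NonCusp`), with
  (PL) only at the non-cuspidal places and NodeUnit in the form
  `∃ Q, 0 < ord_Q Δ̄ ∧ ¬ p ∣ ord_Q Δ̄`:  `p ∣ c`;
* `dvd_ord_of_plConcl` : hence, from `PLConcl`, (SPEC), (NE), NodeUnit and one Hecke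
  eigen-relation: `p ∣ ord_Q (red_∞ f)` at EVERY place `Q` (the hypothesis `hdiv` of (OLD-a)).
-/

set_option autoImplicit false
set_option linter.unusedSectionVars false
set_option linter.style.haveILetI false

noncomputable section

namespace Fermat.Agent.TR.Hecke.EisClosed35

open AlgebraicCurve ModularCurve HahnSeries
open Fermat.Agent.BAD.TwoVal Fermat.Agent.CAR.V3 Fermat.Agent.ESJ.Jac
open Fermat.Agent.ESJ.Cong.LevelGen Fermat.Agent.Lib.Red.LevelDescent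
open Fermat.Agent.TR.Unit Fermat.Agent.TR.Hecke.Eis Fermat.Agent.TR.PL.Seam

local notation "Qb" => AlgebraicClosure ℚ

/-- **(PRES)** is a theorem: for `k` algebraically closed and `r` prime, the special-fibre norm
`z ↦ Nm_{κ_{M r}/κ_M} (z(q^r))` preserves "`p` divides all orders off the cusps". -/
theorem presC (k : Type) [Field k] [IsAlgClosed k] (M r p : ℕ) [NeZero M] [NeZero r]
    (hr : r.Prime) {Jb : modularFunctionFieldFullC k M}
    (hJb : (Jb : LaurentSeries k) = jqModC k) : PresC k M r p Jb :=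
  Fermat.Agent.TR.Hecke.NormOrdSFB.dvd_ord_norm_betaC' k M r hr p hJb

section

variable {A : ValuationSubring Qb} {k : Type} [Field k] [IsAlgClosed k] {π : A →+* k}
  {M p ℓ : ℕ} [NeZero M] [NeZero p] [NeZero ℓ] {Jb : modularFunctionFieldFullC k M}
  {fΔ f : modularFunctionFieldBar (M * p)} {x : JZero (M * p)}

/-- **Theorem `eis`** (`Eis.eis_of_pres` with (PRES) discharged). -/
theorem eis (h : BadSetup A π M p) (hsurj : Function.Surjective π) (hℓ : ℓ.Prime)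
    (hℓk : (ℓ : k) ≠ 0) (hℓM : ¬ ℓ ∣ M) (hJb : (Jb : LaurentSeries k) = jqModC k)
    (hfΔ : (fΔ : LaurentSeries Qb) = Units.u1 Qb p)
    (hxf : IsKummerPair p x f) (hf : f ∈ OInf h) (hf' : f⁻¹ ∈ OInf h) {a : ℤ}
    (hT : heckeOperatorBar (M * p) ⟨ℓ, hℓ⟩ x = a • x) {c : ℤ}
    (hPL : ∀ Q : Place k ↥(modularFunctionFieldFullC k M),
      0 < Q.ord (redInf h ⟨fΔ, FDelta.f_mem_OInf h hfΔ⟩) →
      (p : ℤ) ∣ Q.ord (redInf h ⟨f, hf⟩) -
        c * Q.ord (redInf h ⟨fΔ, FDelta.f_mem_OInf h hfΔ⟩))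
    (hSPEC : ∀ Q : Place k ↥(modularFunctionFieldFullC k M),
      Q.ord (redInf h ⟨fΔ, FDelta.f_mem_OInf h hfΔ⟩) ≤ 0 →
      (p : ℤ) ∣ Q.ord (redInf h ⟨f, hf⟩))
    (hNE : ¬ (p : ℤ) ∣ a - ℓ - 1)
    (hNode : ∃ Q : Place k ↥(modularFunctionFieldFullC k M), 0 ≤ Q.ord Jb ∧
      ¬ (p : ℤ) ∣ Q.ord (redInf h ⟨fΔ, FDelta.f_mem_OInf h hfΔ⟩)) :
    (p : ℤ) ∣ c :=
  eis_of_pres h hsurj hℓ hℓk hℓM hJb (presC k M ℓ p hℓ hJb) hfΔ hxf hf hf' hT hPL hSPEC hNE hNode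

/-- **Theorem `eis` in the vocabulary of `TR/PL/Seam.lean`**: (PL) at the non-cuspidal places
with `0 < ord_Q Δ̄` (constant `c`), (SPEC) at the places with `ord_Q Δ̄ ≤ 0`, (NE) at one prime
`ℓ` with `T_ℓ x = a • x`, and NodeUnit `∃ Q, 0 < ord_Q Δ̄ ∧ ¬ p ∣ ord_Q Δ̄` give `p ∣ c`. -/
theorem eis_seam (h : BadSetup A π M p) (hsurj : Function.Surjective π) (hℓ : ℓ.Prime)
    (hℓk : (ℓ : k) ≠ 0) (hℓM : ¬ ℓ ∣ M)
    (hxf : IsKummerPair p x f) (hf : f ∈ OInf h) (hf' : f⁻¹ ∈ OInf h) {a : ℤ}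
    (hT : heckeOperatorBar (M * p) ⟨ℓ, hℓ⟩ x = a • x) {c : ℤ}
    (hPL : ∀ Q : Place k (modularFunctionFieldFullC k M), NonCusp Q → 0 < Q.ord (deltaBar h) →
      (p : ℤ) ∣ Q.ord (redInf h ⟨f, hf⟩) - c * Q.ord (deltaBar h))
    (hSPEC : ∀ Q : Place k (modularFunctionFieldFullC k M), Q.ord (deltaBar h) ≤ 0 →
      (p : ℤ) ∣ Q.ord (redInf h ⟨f, hf⟩))
    (hNE : ¬ (p : ℤ) ∣ a - ℓ - 1)
    (hNode : ∃ Q : Place k (modularFunctionFieldFullC k M), 0 < Q.ord (deltaBar h) ∧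
      ¬ (p : ℤ) ∣ Q.ord (deltaBar h)) :
    (p : ℤ) ∣ c := by
  have hJb : ((Fermat.Agent.Lib.FF.ModL.Jbar k M : modularFunctionFieldFullC k M) :
      LaurentSeries k) = jqModC k := rfl
  have hfΔ : ((FDelta.fDelta Qb M p h.hℓ : modularFunctionFieldBar (M * p)) :
      LaurentSeries Qb) = Units.u1 Qb p := FDelta.coe_fDelta h.hℓ
  have hcs : ∀ Q : Place k (modularFunctionFieldFullC k M), 0 < Q.ord (deltaBar h) →
      0 ≤ Q.ord (Fermat.Agent.Lib.FF.ModL.Jbar k M) := fun Q hQ =>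
    Fermat.Agent.TR.Hecke.CuspSign.cusp_sign h hJb Q hfΔ (FDelta.f_mem_OInf h hfΔ) hQ
  obtain ⟨Q₀, hQ₀, hQ₀'⟩ := hNode
  exact eis h hsurj hℓ hℓk hℓM hJb hfΔ hxf hf hf' hT
    (fun Q hQ => hPL Q ((nonCusp_iff hJb).mpr (hcs Q hQ)) hQ) hSPEC hNE
    ⟨Q₀, hcs Q₀ hQ₀, hQ₀'⟩

/-- **All orders of `red_∞ f` are divisible by `p`** (the hypothesis `hdiv` of (OLD-a)): from
`PLConcl` (the conclusion of (PL∞)), (SPEC), (NE) at one prime `ℓ` with `T_ℓ x = a • x`, and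
NodeUnit. -/
theorem dvd_ord_of_plConcl (h : BadSetup A π M p) (hsurj : Function.Surjective π) (hℓ : ℓ.Prime)
    (hℓk : (ℓ : k) ≠ 0) (hℓM : ¬ ℓ ∣ M)
    (hxf : IsKummerPair p x f) (hf : f ∈ OInf h) (hf' : f⁻¹ ∈ OInf h) {a : ℤ}
    (hT : heckeOperatorBar (M * p) ⟨ℓ, hℓ⟩ x = a • x)
    (hPL : PLConcl h p f hf)
    (hSPEC : ∀ Q : Place k (modularFunctionFieldFullC k M), Q.ord (deltaBar h) ≤ 0 →
      (p : ℤ) ∣ Q.ord (redInf h ⟨f, hf⟩))
    (hNE : ¬ (p : ℤ) ∣ a - ℓ - 1)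
    (hNode : ∃ Q : Place k (modularFunctionFieldFullC k M), 0 < Q.ord (deltaBar h) ∧
      ¬ (p : ℤ) ∣ Q.ord (deltaBar h))
    (Q : Place k (modularFunctionFieldFullC k M)) :
    (p : ℤ) ∣ Q.ord (redInf h ⟨f, hf⟩) := by
  obtain ⟨c, hc⟩ := hPL
  have hpc : (p : ℤ) ∣ c := eis_seam h hsurj hℓ hℓk hℓM hxf hf hf' hT hc hSPEC hNE hNode
  rcases le_or_gt (Q.ord (deltaBar h)) 0 with hQ | hQ
  · exact hSPEC Q hQ
  · have hJb : ((Fermat.Agent.Lib.FF.ModL.Jbar k M : modularFunctionFieldFullC k M) :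
        LaurentSeries k) = jqModC k := rfl
    have hfΔ : ((FDelta.fDelta Qb M p h.hℓ : modularFunctionFieldBar (M * p)) :
        LaurentSeries Qb) = Units.u1 Qb p := FDelta.coe_fDelta h.hℓ
    have hnc : NonCusp Q := (nonCusp_iff hJb).mpr
      (Fermat.Agent.TR.Hecke.CuspSign.cusp_sign h hJb Q hfΔ (FDelta.f_mem_OInf h hfΔ) hQ)
    have h1 := hc Q hnc hQ
    have h2 : (p : ℤ) ∣ c * Q.ord (deltaBar h) := Dvd.dvd.mul_right hpc _
    have h3 := dvd_add h1 h2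
    rwa [sub_add_cancel] at h3

end

end Fermat.Agent.TR.Hecke.EisClosed35
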