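/-
TR / Hecke side, (PRES): divisibility by `p` of the orders off the cusps is preserved by
`z ↦ Nm_{κ_{M r}/κ_M} (z(q^r))` on the special fibre.

Abstract part (`F'/F` a finite separable extension of function fields over `K`, `β : F → F'` a
second embedding):
* `isIntegral_of_forall_mem` : an element of `F'` lying in all the valuation rings above a place
  `t` of `F` is integral over the valuation ring of `t`;
* `ord_norm_eq_zero_of_forall` : if `y` is a unit at all places above `t`, then `Nm y` is a unit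
  at `t`;
* `pres_abs` : (PRES) for a set `T` of places of `F` stable under the correspondence.
-/
import Mathlib
import Fermat.Agent.Lib.FF.ExtNorm
import Fermat.Agent.Lib.FF.RRApprox
import Fermat.Agent.Lib.FF.ModLSep
import Fermat.Agent.TR.Hecke.Eis

set_option autoImplicit false
set_option linter.style.haveILetI false

noncomputable section

namespace Fermat.Agent.TR.Hecke.Pres

open AlgebraicCurve IsDedekindDomain Fermat.Agent.S24 Fermat.Agent.Lib.FF

section Abs

variable {K F F' : Type*} [Field K] [Field F] [Field F'] [Algebra K F] [Algebra K F']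
  [Algebra F F'] [IsScalarTower K F F'] [FiniteDimensional F F'] [Algebra.IsSeparable F F']

/-- An element of `F'` lying in the valuation rings of all the places above `t` is integral over
the valuation ring of `t`. -/
theorem isIntegral_of_forall_mem (t : Place K F) {y : F'}
    (hy : ∀ P : Place K F', P.restrict F = t → y ∈ P.toValuationSubring) :
    IsIntegral t.toValuationSubring y := by
  haveI : IsDedekindDomain (integralClosure t.toValuationSubring F') :=
    integralClosure.isDedekindDomain t.toValuationSubring F F'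
  haveI : IsFractionRing (integralClosure t.toValuationSubring F') F' :=
    integralClosure.isFractionRing_of_finite_extension F F'
  have hK : ∀ a : K, algebraMap K F' a ∈
      (algebraMap (integralClosure t.toValuationSubring F') F').range :=
    ExtNorm.range_of_dedekind t (integralClosure t.toValuationSubring F')
  have h1 : ∀ Q : HeightOneSpectrum (integralClosure t.toValuationSubring F'),
      Q.valuation F' y ≤ 1 := by
    intro Q
    rw [← mem_placeOfPrime_iff hK Q]
    exact hy _ (ExtNorm.restrict_placeOfPrime t _ hK Q)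
  obtain ⟨c, hc⟩ := HeightOneSpectrum.mem_integers_of_valuation_le_one F' y h1
  rw [← hc]
  exact c.2

/-- If `y` is a unit at all the places above `t`, then `Nm y` is a unit at `t`. -/
theorem ord_norm_eq_zero_of_forall (t : Place K F) {y : F'} (hy0 : y ≠ 0)
    (hy : ∀ P : Place K F', P.restrict F = t → P.ord y = 0) :
    t.ord (Algebra.norm F y) = 0 := by
  have hi : IsIntegral t.toValuationSubring y :=
    isIntegral_of_forall_mem t fun P hP => mem_of_ord_nonneg P (hy P hP).ge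
  have hi' : IsIntegral t.toValuationSubring y⁻¹ :=
    isIntegral_of_forall_mem t fun P hP => mem_of_ord_nonneg P (by
      rw [P.ord_inv, hy P hP, neg_zero])
  have hn := Algebra.isIntegral_norm F hi
  have hn' := Algebra.isIntegral_norm F hi'
  have hm : Algebra.norm F y ∈ t.toValuationSubring :=
    mem_valuationSubring_of_isIntegral t.toValuationSubring (fun x => x.2) hn
  have hm' : Algebra.norm F y⁻¹ ∈ t.toValuationSubring :=
    mem_valuationSubring_of_isIntegral t.toValuationSubring (fun x => x.2) hn'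
  have hN0 : Algebra.norm F y ≠ 0 := Algebra.norm_ne_zero_iff.mpr hy0
  have hmul : Algebra.norm F y * Algebra.norm F y⁻¹ = 1 := by
    rw [← map_mul, mul_inv_cancel₀ hy0, map_one]
  have hN0' : Algebra.norm F y⁻¹ ≠ 0 := right_ne_zero_of_mul_eq_one hmul
  have h1 := ord_nonneg_of_mem t hm
  have h2 := ord_nonneg_of_mem t hm'
  have h3 := t.ord_mul hN0 hN0'
  rw [hmul, Place.ord_one] at h3
  omega

/-- **(PRES), abstract form.**  `T` a set of places of `F` such that every place of `F'` lying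
above a place of `T` also lies above a place of `T` along the second embedding `β`.  If all
the orders of `z` on `T` are divisible by `p`, so are those of `Nm (β z)`. -/
theorem pres_abs [HasPrincipalDivisors K F'] [Infinite K] {x : F} (hx : IsFF1 K F x)
    (β : F →ₐ[K] F') (hβ : β.toRingHom.IsIntegral) (T : Set (Place K F))
    (hT : ∀ P : Place K F', P.restrict F ∈ T → P.restrictAlong β hβ ∈ T)
    (p : ℕ) {z : F} (hz : z ≠ 0) (hzT : ∀ s ∈ T, (p : ℤ) ∣ s.ord z) {t : Place K F}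
    (ht : t ∈ T) : (p : ℤ) ∣ t.ord (Algebra.norm F (β z)) := by
  classical
  obtain ⟨w, hw0, hw⟩ := hx.exists_ord_eq'
    ((t.fiber F').image (fun P => P.restrictAlong β hβ)) (fun s => s.ord z / p)
  have hwp : w ^ p ≠ 0 := pow_ne_zero p hw0
  have hu0 : z * (w ^ p)⁻¹ ≠ 0 := mul_ne_zero hz (inv_ne_zero hwp)
  have hzu : z = z * (w ^ p)⁻¹ * w ^ p := by
    rw [mul_assoc, inv_mul_cancel₀ hwp, mul_one]
  have hpow : ∀ (s : Place K F) (g : F), s.ord (g ^ p) = p * s.ord g := by
    intro s g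
    rw [← zpow_natCast, s.ord_zpow]
  have hordu : ∀ s ∈ (t.fiber F').image (fun P => P.restrictAlong β hβ),
      s.ord (z * (w ^ p)⁻¹) = 0 := by
    intro s hs
    have hsT : s ∈ T := by
      obtain ⟨P, hP, rfl⟩ := Finset.mem_image.mp hs
      refine hT P ?_
      rw [Place.mem_fiber.mp hP]
      exact ht
    rw [s.ord_mul hz (inv_ne_zero hwp), s.ord_inv, hpow, hw s hs,
      Int.mul_ediv_cancel' (hzT s hsT)]
    ring
  have hβu : ∀ P : Place K F', P.restrict F = t → P.ord (β (z * (w ^ p)⁻¹)) = 0 := by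
    intro P hP
    rw [Place.ord_restrictAlong β hβ,
      hordu _ (Finset.mem_image.mpr ⟨P, Place.mem_fiber.mpr hP, rfl⟩), mul_zero]
  have h0 := ord_norm_eq_zero_of_forall t ((map_ne_zero β).mpr hu0) hβu
  have hN1 : Algebra.norm F (β (z * (w ^ p)⁻¹)) ≠ 0 :=
    Algebra.norm_ne_zero_iff.mpr ((map_ne_zero β).mpr hu0)
  have hN2 : Algebra.norm F (β w) ^ p ≠ 0 :=
    pow_ne_zero p (Algebra.norm_ne_zero_iff.mpr ((map_ne_zero β).mpr hw0))
  have e : Algebra.norm F (β z) =
      Algebra.norm F (β (z * (w ^ p)⁻¹)) * Algebra.norm F (β w) ^ p := by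
    conv_lhs => rw [hzu]
    rw [map_mul, map_pow, map_mul, map_pow]
  rw [e, t.ord_mul hN1 hN2, h0, zero_add, hpow]
  exact dvd_mul_right _ _

end Abs

/-! ### The modular instance -/

section Modular

open ModularCurve HahnSeries IntermediateField Fermat.Agent.S28
open Fermat.Agent.Lib.Red.LevelDescent Fermat.Agent.TR.Hecke.NormOrd Fermat.Agent.TR.Hecke.Eis
open Fermat.Agent.ESJ.HeckeInputs Fermat.Agent.Lib.FF.CharP

variable (k : Type) [Field k] (M ℓ : ℕ) [NeZero M] [NeZero ℓ]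

/-- `κ_{M ℓ}` is separable over `κ_M` when `M ℓ` is invertible in `k`. -/
theorem isSeparable_inclC (hMℓ : ((M * ℓ : ℕ) : k) ≠ 0) :
    letI := algebraAlong (inclC M ℓ k)
    Algebra.IsSeparable (modularFunctionFieldFullC k M) (modularFunctionFieldFullC k (M * ℓ)) := by
  letI := algebraAlong (inclC M ℓ k)
  haveI := ModL.isSeparable_Jbar k (M * ℓ) hMℓ
  refine ⟨fun y => ?_⟩
  refine ModL.isSeparable_of_range_le ?_
    (Algebra.IsSeparable.isSeparable k⟮ModL.Jbar k (M * ℓ)⟯ y)
  rintro _ ⟨a, rfl⟩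
  have hle : k⟮ModL.Jbar k (M * ℓ)⟯ ≤ (inclC M ℓ k).fieldRange := by
    rw [adjoin_simple_le_iff]
    exact ⟨ModL.Jbar k M, Subtype.ext (coe_inclC M ℓ k _)⟩
  exact hle a.2

/-- `κ_{M ℓ}` is finite over `β̄ κ_M`. -/
theorem finiteAlong_betaC : FiniteAlong k (betaC k M ℓ) :=
  haveI := finiteDimensional_JbarC M ℓ k
  finiteAlong (betaC k M ℓ) (ModL.transcendental_Jbar k M) (ModL.Jbar k (M * ℓ))

theorem isIntegral_betaC : (betaC k M ℓ).toRingHom.IsIntegral :=
  isIntegral_of_finiteAlong _ (finiteAlong_betaC k M ℓ)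

variable {k M ℓ}

/-- `J̄(q^ℓ)` lies in every valuation ring of `κ_{M ℓ}` containing `J̄(q)`. -/
theorem betaC_J_mem (hℓ : ℓ.Prime) (O : ValuationSubring ↥(modularFunctionFieldFullC k (M * ℓ)))
    {Jb : modularFunctionFieldFullC k M} (hJb : (Jb : LaurentSeries k) = jqModC k)
    (hz : inclC M ℓ k Jb ∈ O) : betaC k M ℓ Jb ∈ O := by
  obtain ⟨D⟩ := ModL.modEq_all_aux ℓ hℓ
  have hrel := D.rel₂' hℓ.ne_zero k 1 one_ne_zero
  rw [one_mul] at hrel
  have hroot : (TD.polyAt D.Φ (inclC M ℓ k Jb)).eval (betaC k M ℓ Jb) = 0 := by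
    apply Subtype.ext
    have h1 := TD.map_eval_polyAt
      (algebraMap (modularFunctionFieldFullC k (M * ℓ)) (LaurentSeries k)) D.Φ
      (betaC k M ℓ Jb) (inclC M ℓ k Jb)
    have h2 : algebraMap (modularFunctionFieldFullC k (M * ℓ)) (LaurentSeries k)
        (betaC k M ℓ Jb) = TD.Jd k ℓ := by
      rw [TD.Jd_eq k ℓ, ← hJb]
      rfl
    have h3 : algebraMap (modularFunctionFieldFullC k (M * ℓ)) (LaurentSeries k)
        (inclC M ℓ k Jb) = TD.Jd k 1 := by
      rw [TD.Jd_one, ← hJb]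
      exact coe_inclC M ℓ k Jb
    rw [h2, h3, hrel] at h1
    exact h1
  have hint : IsIntegral O (betaC k M ℓ Jb) := by
    refine ⟨TD.polyAt D.Φ (⟨inclC M ℓ k Jb, hz⟩ : O), TD.polyAt_monic D.monic _, ?_⟩
    rw [Polynomial.eval₂_eq_eval_map, TD.polyAt_map]
    exact hroot
  exact mem_valuationSubring_of_isIntegral O (fun x => x.2) hint

/-- **(PRES)** on the special fibre: for `k` algebraically closed and `M ℓ` invertible in `k`,
`z ↦ Nm_{κ_{M ℓ}/κ_M} (z(q^ℓ))` preserves "all orders off the cusps are divisible by `p`". -/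
theorem presC [IsAlgClosed k] (hℓ : ℓ.Prime) (hMℓ : ((M * ℓ : ℕ) : k) ≠ 0) (p : ℕ)
    {Jb : modularFunctionFieldFullC k M} (hJb : (Jb : LaurentSeries k) = jqModC k) :
    PresC k M ℓ p Jb := by
  intro z hz hzT t ht
  letI := algebraAlong (inclC M ℓ k)
  haveI := isScalarTower_along (inclC M ℓ k)
  haveI : Module.Finite (modularFunctionFieldFullC k M) (modularFunctionFieldFullC k (M * ℓ)) :=
    finiteAlong_inclC M ℓ k
  haveI := isSeparable_inclC k M ℓ hMℓ
  haveI := hasPrincipalDivisors_fullC k (M * ℓ)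
  refine pres_abs (isFF1_fullC k M) (betaC k M ℓ) (isIntegral_betaC k M ℓ)
    {s | 0 ≤ s.ord Jb} (fun P hP => ?_) p hz hzT ht
  have h1 : Jb ∈ (P.restrict (modularFunctionFieldFullC k M)).toValuationSubring :=
    mem_of_ord_nonneg _ hP
  rw [Place.mem_restrict_iff] at h1
  have h2 : betaC k M ℓ Jb ∈ P.toValuationSubring := betaC_J_mem hℓ P.toValuationSubring hJb h1
  exact ord_nonneg_of_mem (P.restrictAlong (betaC k M ℓ) (isIntegral_betaC k M ℓ)) h2

end Modular

/-! ### Theorem `eis` -/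

section Eis

open ModularCurve HahnSeries Fermat.Agent.S28 Fermat.Agent.BAD.TwoVal Fermat.Agent.CAR.V3
open Fermat.Agent.TR.Unit Fermat.Agent.TR.Hecke.Eis Fermat.Agent.ESJ.Jac

variable {A : ValuationSubring (AlgebraicClosure ℚ)} {k : Type} [Field k] {π : A →+* k}
  {M p ℓ : ℕ} [NeZero M] [NeZero p] [NeZero ℓ] {Jb : modularFunctionFieldFullC k M}
  {fΔ f : modularFunctionFieldBar (M * p)} {x : JZero (M * p)}

/-- **Theorem `eis`.**  `h : BadSetup A π M p` over `ℚ̄` with algebraically closed residue field,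
`ℓ ∤ M p` a prime, `x` a class of `JZero (M * p)` with Kummer function `f` (for `p`), a unit of
`O_∞`; `T_ℓ x = a • x`; `a(Q) = ord_Q (red_∞ f_Δ)`, `f_Δ = Δ(q)/Δ(q^p)`.  From
(PL) `ord_Q (red_∞ f) ≡ c · a(Q) (mod p)` where `a(Q) > 0`, (SPEC) `p ∣ ord_Q (red_∞ f)` where
`a(Q) ≤ 0`, (NE) `p ∤ a - ℓ - 1` and a non-cuspidal place with `p ∤ a(Q)`:  `p ∣ c`. -/
theorem eis [IsAlgClosed k] (h : BadSetup A π M p) (hsurj : Function.Surjective π)
    (hℓ : ℓ.Prime) (hℓk : (ℓ : k) ≠ 0) (hℓM : ¬ ℓ ∣ M)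
    (hJb : (Jb : LaurentSeries k) = jqModC k)
    (hfΔ : (fΔ : LaurentSeries (AlgebraicClosure ℚ)) = Units.u1 (AlgebraicClosure ℚ) p)
    (hxf : IsKummerPair p x f) (hf : f ∈ OInf h) (hf' : f⁻¹ ∈ OInf h) {a : ℤ}
    (hT : heckeOperatorBar (M * p) ⟨ℓ, hℓ⟩ x = a • x) {c : ℤ}
    (hPL : ∀ Q : Place k ↥(modularFunctionFieldFullC k M),
      0 < Q.ord (redInf h ⟨fΔ, FDelta.f_mem_OInf h hfΔ⟩) →
      (p : ℤ) ∣ Q.ord (redInf h ⟨f, hf⟩) -
        c * Q.ord (redInf h ⟨fΔ, FDelta.f_mem_OInf h hfΔ⟩))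
    (hSPEC : ∀ Q : Place k ↥(modularFunctionFieldFullC k M),
      Q.ord (redInf h ⟨fΔ, FDelta.f_mem_OInf h hfΔ⟩) ≤ 0 →
      (p : ℤ) ∣ Q.ord (redInf h ⟨f, hf⟩))
    (hNE : ¬ (p : ℤ) ∣ a - ℓ - 1)
    (hNode : ∃ Q : Place k ↥(modularFunctionFieldFullC k M), 0 ≤ Q.ord Jb ∧
      ¬ (p : ℤ) ∣ Q.ord (redInf h ⟨fΔ, FDelta.f_mem_OInf h hfΔ⟩)) :
    (p : ℤ) ∣ c := by
  have hMℓ : ((M * ℓ : ℕ) : k) ≠ 0 := by
    rw [Nat.cast_mul]
    exact mul_ne_zero h.hMk hℓk
  exact eis_of_pres h hsurj hℓ hℓk hℓM hJb (presC hℓ hMℓ p hJb) hfΔ hxf hf hf' hT hPL hSPEC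
    hNE hNode

end Eis

end Fermat.Agent.TR.Hecke.Pres

end
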