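/-
TR / Hecke side, (CUSP'): `Δ̄ = red_∞ (Δ(q)/Δ(q^p))` is a polynomial in `J̄`, hence has no zero
at the cusps of the special fibre; theorem `eis` with the node hypothesis in the form
`∃ Q, 0 < a(Q) ∧ p ∤ a(Q)`.

* `fullC_one_le` : the mod-`p` function field of level one is `k(J̄)`;
* `u1_mem_adjoin` : the `q`-expansion of `Δ̄` lies in `k(J̄)`;
* `exists_aeval_of_isIntegral` : an element of `K(x)` integral over `K[x]` is a polynomial in `x`;
* `ord_aeval_of_ord_neg` : the order of a polynomial in `x` at a pole of `x`;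
* `exists_redInf_fDelta_eq_aeval` : `Δ̄ = R(J̄)` for a nonzero polynomial `R`;
* `ord_redInf_fDelta_of_cusp` : `ord_Q Δ̄ = deg R · ord_Q J̄` at a cuspidal `Q`, hence `≤ 0`;
* `eis_node` : theorem `eis` with NodeUnit `∃ Q, 0 < a(Q) ∧ p ∤ a(Q)`.
-/
import Mathlib
import Fermat.Agent.TR.Hecke.Pres
import Fermat.Agent.Lib.ECHeight.Pole

set_option autoImplicit false
set_option linter.style.haveILetI false

noncomputable section

namespace Fermat.Agent.TR.Hecke.EisCusp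

open HahnSeries ModularCurve AlgebraicCurve IntermediateField Polynomial
open Fermat.Agent.S28 Fermat.Agent.S24 Fermat.Agent.BAD.TwoVal Fermat.Agent.CAR.V3
open Fermat.Agent.TR.Unit Fermat.Agent.TR.Unit.IntRed Fermat.Agent.Lib.FF
open Fermat.Agent.ESJ.Jac Fermat.Agent.ESJ.Cong.LevelGen

/-! ### Generalities -/

section General

variable {K F : Type*} [Field K] [Field F] [Algebra K F]

open scoped IntermediateField.algebraAdjoinAdjoin in
/-- An element of `K(x)` which is integral over `K[x]` is a polynomial in `x`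
(`x` transcendental). -/
theorem exists_aeval_of_isIntegral {x : F} (hx : Transcendental K x) {y : F} (hy : y ∈ K⟮x⟯)
    (hint : IsIntegral (Algebra.adjoin K {x}) y) : ∃ R : K[X], aeval x R = y := by
  let e := Polynomial.algEquivOfTranscendental K x hx
  haveI : IsPrincipalIdealRing (Algebra.adjoin K {x}) :=
    IsPrincipalIdealRing.of_surjective e.toRingEquiv e.surjective
  have h1 : IsIntegral (Algebra.adjoin K {x}) (⟨y, hy⟩ : K⟮x⟯) :=
    (isIntegral_algebraMap_iff (algebraMap K⟮x⟯ F).injective).mp hint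
  obtain ⟨b, hb⟩ := IsIntegrallyClosed.isIntegral_iff.mp h1
  have hb' : (b : F) = y := congrArg Subtype.val hb
  have h2 : y ∈ Algebra.adjoin K {x} := hb' ▸ b.2
  rw [Algebra.adjoin_singleton_eq_range_aeval] at h2
  exact h2

/-- At a pole of `x`, a nonzero polynomial of degree `d` in `x` has order `d * ord x`. -/
theorem ord_aeval_of_ord_neg (Q : Place K F) {x : F} (hx : Q.ord x < 0) {R : K[X]}
    (hR : R ≠ 0) : Q.ord (aeval x R) = R.natDegree * Q.ord x := by
  have hlc : R.leadingCoeff ≠ 0 := leadingCoeff_ne_zero.mpr hR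
  have hmon : (R * C R.leadingCoeff⁻¹).Monic := monic_mul_leadingCoeff_inv hR
  have hdeg : (R * C R.leadingCoeff⁻¹).natDegree = R.natDegree :=
    natDegree_mul_leadingCoeff_inv R hR
  have h1 := Fermat.Agent.Lib.ECHeight.ord_aeval_monic Q hmon hx
  rw [hdeg] at h1
  have e : aeval x R = aeval x (R * C R.leadingCoeff⁻¹) * algebraMap K F R.leadingCoeff := by
    rw [← aeval_C (A := F) x R.leadingCoeff, ← map_mul, mul_assoc, ← C_mul,
      inv_mul_cancel₀ hlc, C_1, mul_one]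
  have hx0 : x ≠ 0 := by
    rintro rfl
    rw [Place.ord_zero] at hx
    exact lt_irrefl _ hx
  have hne : aeval x (R * C R.leadingCoeff⁻¹) ≠ 0 := by
    intro h0
    rw [h0, Place.ord_zero] at h1
    have h2 : (0 : ℤ) ≤ R.natDegree := Nat.cast_nonneg _
    rcases h2.eq_or_lt with h3 | h3
    · -- degree zero: the monic polynomial is `1`
      have h4 : (R * C R.leadingCoeff⁻¹).natDegree = 0 := by
        rw [hdeg]
        exact_mod_cast h3.symm
      have h5 := hmon.natDegree_eq_zero.mp h4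
      rw [h5, map_one] at h0
      exact one_ne_zero h0
    · nlinarith
  rw [e, Q.ord_mul hne ((_root_.map_ne_zero _).mpr hlc), h1, ord_algebraMap, add_zero]

end General

/-! ### Level one -/

section LevelOne

variable (k : Type*) [Field k]

/-- The mod-`p` function field of level one is contained in (in fact equal to) `k(J̄)`. -/
theorem fullC_one_le : modularFunctionFieldFullC k 1 ≤ IntermediateField.adjoin k {jqModC k} := by
  unfold modularFunctionFieldFullC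
  rw [IntermediateField.adjoin_le_iff]
  rintro x ⟨d, hd, hd1, rfl⟩
  obtain rfl : d = 1 := Nat.dvd_one.mp hd1
  rw [qExpand_one_apply]
  exact IntermediateField.mem_adjoin_simple_self k _

end LevelOne

/-! ### `Δ̄` is a polynomial in `J̄` -/

section Bad

variable {L : Type} [Field L] [Algebra ℚ L] {A : ValuationSubring L} {k : Type} [Field k]
  {π : A →+* k} {M p : ℕ} [NeZero M] [NeZero p] {Jb : modularFunctionFieldFullC k M}
  {fΔ : laurentBaseChange L (modularFunctionFieldFull (M * p))}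

omit [NeZero M] in
/-- The `q`-expansion `Δ̄(q)/Δ̄(q^p)` lies in `k(J̄)`. -/
theorem u1_mem_adjoin (h : BadSetup A π M p) :
    Units.u1 k p ∈ IntermediateField.adjoin k {jqModC k} := by
  have h₁ : BadSetup A π 1 p :=
    ⟨h.hπ, h.hrank, h.hℓ, h.hℓk, by
      rw [Nat.cast_one]
      exact one_ne_zero⟩
  obtain ⟨f₁, hf₁⟩ := FDelta.exists_fDelta (L := L) (M := 1) h.hℓ
  have e := FDelta.coe_redInf_f h₁ hf₁ (FDelta.f_mem_OInf h₁ hf₁)
  rw [← e]
  exact fullC_one_le k (redInf h₁ ⟨f₁, FDelta.f_mem_OInf h₁ hf₁⟩).2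

/-- **`Δ̄ = R(J̄)`** for a nonzero polynomial `R`. -/
theorem exists_redInf_fDelta_eq_aeval (h : BadSetup A π M p)
    (hJb : (Jb : LaurentSeries k) = jqModC k)
    (hfΔ : (fΔ : LaurentSeries L) = Units.u1 L p) :
    ∃ R : k[X], R ≠ 0 ∧ aeval Jb R = redInf h ⟨fΔ, FDelta.f_mem_OInf h hfΔ⟩ := by
  obtain rfl : Jb = ModL.Jbar k M := Subtype.ext hJb
  have hmem : redInf h ⟨fΔ, FDelta.f_mem_OInf h hfΔ⟩ ∈ k⟮ModL.Jbar k M⟯ := by
    rw [ModL.mem_adjoin_Jbar_iff, FDelta.coe_redInf_f h hfΔ]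
    exact u1_mem_adjoin h
  have hJ : IsIntegral (jRing A M p) (heckeAlphaBar L M p (jLevel L M)) :=
    isIntegral_algebraMap (R := jRing A M p)
      (x := (⟨heckeAlphaBar L M p (jLevel L M), alpha_j_mem_jRing⟩ : jRing A M p))
  have hintΔ : IsIntegral (jRing A M p) fΔ :=
    (FDelta.isIntegral_f_g (R₁ := jRing A M p) h.hℓ hJ hfΔ).1
  obtain ⟨hm, ⟨P, hP, hP0⟩⟩ := exists_isIntegral_red (OInf h) (redInf h) (jRing A M p)
    (jRingC k M (ModL.Jbar k M)) (fun _ hs => exists_redInf_mem h hJb hs) hintΔ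
  have hle : jRingC k M (ModL.Jbar k M) ≤ (Algebra.adjoin k {ModL.Jbar k M}).toSubring := by
    unfold jRingC
    rw [Subring.closure_le]
    rintro x (⟨c, rfl⟩ | hx)
    · exact (Algebra.adjoin k {ModL.Jbar k M}).algebraMap_mem c
    · rw [Set.mem_singleton_iff] at hx
      rw [hx]
      exact Algebra.self_mem_adjoin_singleton k _
  have hint : IsIntegral (Algebra.adjoin k {ModL.Jbar k M})
      (redInf h ⟨fΔ, FDelta.f_mem_OInf h hfΔ⟩) := by
    refine ⟨P.map (Subring.inclusion hle), hP.map _, ?_⟩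
    rw [Polynomial.eval₂_map]
    exact hP0
  obtain ⟨R, hR⟩ := exists_aeval_of_isIntegral (ModL.transcendental_Jbar k M) hmem hint
  refine ⟨R, ?_, hR⟩
  rintro rfl
  rw [map_zero] at hR
  exact FDelta.redInf_f_ne_zero h hfΔ _ hR.symm

/-- **(CUSP')**: `Δ̄` has no zero at a cuspidal place (a pole of `J̄`). -/
theorem ord_redInf_fDelta_of_cusp (h : BadSetup A π M p)
    (hJb : (Jb : LaurentSeries k) = jqModC k)
    (hfΔ : (fΔ : LaurentSeries L) = Units.u1 L p)
    (Q : Place k ↥(modularFunctionFieldFullC k M)) (hQ : Q.ord Jb < 0) :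
    Q.ord (redInf h ⟨fΔ, FDelta.f_mem_OInf h hfΔ⟩) ≤ 0 := by
  obtain ⟨R, hR0, hR⟩ := exists_redInf_fDelta_eq_aeval h hJb hfΔ
  rw [← hR, ord_aeval_of_ord_neg Q hQ hR0]
  exact mul_nonpos_of_nonneg_of_nonpos (Nat.cast_nonneg _) hQ.le

/-- A place where `Δ̄` vanishes is non-cuspidal. -/
theorem ord_Jb_nonneg_of_pos (h : BadSetup A π M p)
    (hJb : (Jb : LaurentSeries k) = jqModC k)
    (hfΔ : (fΔ : LaurentSeries L) = Units.u1 L p)
    (Q : Place k ↥(modularFunctionFieldFullC k M))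
    (hQ : 0 < Q.ord (redInf h ⟨fΔ, FDelta.f_mem_OInf h hfΔ⟩)) : 0 ≤ Q.ord Jb := by
  by_contra hneg
  have := ord_redInf_fDelta_of_cusp h hJb hfΔ Q (not_le.mp hneg)
  omega

end Bad

/-! ### Theorem `eis`, literal form -/

section Eis

variable {A : ValuationSubring (AlgebraicClosure ℚ)} {k : Type} [Field k] {π : A →+* k}
  {M p ℓ : ℕ} [NeZero M] [NeZero p] [NeZero ℓ] {Jb : modularFunctionFieldFullC k M}
  {fΔ f : modularFunctionFieldBar (M * p)} {x : JZero (M * p)}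

/-- **Theorem `eis`** with the node hypothesis `∃ Q, 0 < a(Q) ∧ p ∤ a(Q)`
(`a(Q) = ord_Q (red_∞ f_Δ)`): from (PL), (SPEC), (NE), NodeUnit:  `p ∣ c`. -/
theorem eis_node [IsAlgClosed k] (h : BadSetup A π M p) (hsurj : Function.Surjective π)
    (hℓ : ℓ.Prime) (hℓk : (ℓ : k) ≠ 0) (hℓM : ¬ ℓ ∣ M)
    (hJb : (Jb : LaurentSeries k) = jqModC k)
    (hfΔ : (fΔ : LaurentSeries (AlgebraicClosure ℚ)) = Units.u1 (AlgebraicClosure ℚ) p)
    (hxf : IsKummerPair p x f) (hf : f ∈ OInf h) (hf' : f⁻¹ ∈ OInf h) {a : ℤ}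
    (hT : heckeOperatorBar (M * p) ⟨ℓ, hℓ⟩ x = a • x) {c : ℤ}
    (hPL : ∀ Q : Place k ↥(modularFunctionFieldFullC k M),
      0 < Q.ord (redInf h ⟨fΔ, FDelta.f_mem_OInf h hfΔ⟩) →
      (p : ℤ) ∣ Q.ord (redInf h ⟨f, hf⟩) -
        c * Q.ord (redInf h ⟨fΔ, FDelta.f_mem_OInf h hfΔ⟩))
    (hSPEC : ∀ Q : Place k ↥(modularFunctionFieldFullC k M),
      Q.ord (redInf h ⟨fΔ, FDelta.f_mem_OInf h hfΔ⟩) ≤ 0 →
      (p : ℤ) ∣ Q.ord (redInf h ⟨f, hf⟩))
    (hNE : ¬ (p : ℤ) ∣ a - ℓ - 1)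
    (hNode : ∃ Q : Place k ↥(modularFunctionFieldFullC k M),
      0 < Q.ord (redInf h ⟨fΔ, FDelta.f_mem_OInf h hfΔ⟩) ∧
      ¬ (p : ℤ) ∣ Q.ord (redInf h ⟨fΔ, FDelta.f_mem_OInf h hfΔ⟩)) :
    (p : ℤ) ∣ c := by
  obtain ⟨Q, hQ0, hQ⟩ := hNode
  exact Pres.eis h hsurj hℓ hℓk hℓM hJb hfΔ hxf hf hf' hT hPL hSPEC hNE
    ⟨Q, ord_Jb_nonneg_of_pos h hJb hfΔ Q hQ0, hQ⟩

end Eis

end Fermat.Agent.TR.Hecke.EisCusp

end
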