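/-
helper95 — TR / H-R2 (FIN), modular instance and Galois consumer.

* `finite_fixed_fullC` : for `k` algebraically closed and `τ : k ≃+* k` with `τ a = a ^ q`
  (`q > 1`), the classes of `JZeroC k M` fixed by the coefficientwise action of `τ` are finite in
  number; `exists_exponent_fixed_fullC` : they are killed by some `e > 0`.
* `exists_exponent_reductionModL` : for `A` over `p` with `ReductionInputsModL A M` and a subgroup
  `U` of finite index of the absolute Galois group of `ℚ`, the image under `reductionModL A M` of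
  the `U`-fixed classes of `JZero M` is killed by some `e > 0`.
-/
import Mathlib
import Fermat.Agent.TR.Hecke.FrobFin
import Fermat.Agent.Lib.FF.CharP.ModLInst
import Fermat.Agent.ESJ.Cong.GaloisRed
import Fermat.Agent.ESJ.HeckeInputs
import Fermat.Agent.Lib.FF.RRModular
import Fermat.Agent.Lib.FrobeniusExists
import Fermat.Agent.ESJ.Red.R2Good

set_option autoImplicit false

noncomputable section

namespace Fermat.Agent.TR.Hecke.FrobFin

open ModularCurve AlgebraicCurve Fermat.Agent.ESJ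

theorem ringAut_pow_apply {k : Type*} [Field k] (τ : k ≃+* k) {q : ℕ} (hτ : ∀ a, τ a = a ^ q)
    (n : ℕ) (a : k) : (τ ^ n) a = a ^ (q ^ n) := by
  induction n generalizing a with
  | zero => simp
  | succ n ih =>
    rw [pow_succ, RingAut.mul_apply, ih, hτ, ← pow_mul, pow_succ, mul_comm]

section Special

variable (k : Type*) [Field k] [IsAlgClosed k] (M : ℕ) [NeZero M]

omit [IsAlgClosed k] in
/-- `J` has coefficients in the prime ring: it is fixed by the coefficientwise automorphisms. -/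
theorem coeffAut_smul_Jbar (τ : k ≃+* k) :
    Cong.coeffAut k M τ • Fermat.Agent.Lib.FF.ModL.Jbar k M = Fermat.Agent.Lib.FF.ModL.Jbar k M :=
  Subtype.ext (by
    rw [Cong.coe_coeffAut_smul]
    exact coeffMap_jqModC _)

/-- **FIN.**  The classes of `JZeroC k M` fixed by a coefficientwise `q`-Frobenius are finite in
number. -/
theorem finite_fixed_fullC (τ : k ≃+* k) {q : ℕ} (hq : 1 < q) (hτ : ∀ a, τ a = a ^ q) :
    {y : JZeroC k M | Cong.coeffAut k M τ • y = y}.Finite :=
  finite_fixed_classes (Fermat.Agent.Lib.FF.CharP.isFF1_fullC k M) (Cong.coeffAut k M τ) hq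
    (fun a => hτ a) (coeffAut_smul_Jbar k M τ)

/-- The classes of `JZeroC k M` fixed by a coefficientwise `q`-Frobenius are killed by a positive
integer. -/
theorem exists_exponent_fixed_fullC (τ : k ≃+* k) {q : ℕ} (hq : 1 < q) (hτ : ∀ a, τ a = a ^ q) :
    ∃ e : ℕ, 0 < e ∧ ∀ y : JZeroC k M, Cong.coeffAut k M τ • y = y → e • y = 0 :=
  exists_exponent_fixed_classes (Fermat.Agent.Lib.FF.CharP.isFF1_fullC k M) (Cong.coeffAut k M τ) hq
    (fun a => hτ a) (coeffAut_smul_Jbar k M τ)

end Special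

section Galois

local notation "Qb" => AlgebraicClosure ℚ

set_option synthInstance.maxHeartbeats 400000 in
/-- **(FIN-EXP), abstract in the Galois equivariance.**  The reduction of the classes fixed by a
subgroup of finite index of `Gal(ℚ̄/ℚ)` has finite exponent. -/
theorem exists_exponent_reduction_of_galois (M : ℕ) [NeZero M] {p : ℕ} (hp : p.Prime)
    (A : ValuationSubring Qb) (hA : A.LiesOverPrime p)
    (hGal : ∀ (σ : Qb ≃ₐ[ℚ] Qb) (hσ : σ ∈ A.decompositionSubgroup ℚ) (x : JZero M),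
        reductionModL A M (σ • x)
          = Cong.coeffAut (IsLocalRing.ResidueField A) M (Cong.resAut A ⟨σ, hσ⟩) •
              reductionModL A M x)
    (U : Subgroup (Qb ≃ₐ[ℚ] Qb)) (hU : U.index ≠ 0) :
    ∃ e : ℕ, 0 < e ∧ ∀ x : JZero M, (∀ σ ∈ U, σ • x = x) → e • reductionModL A M x = 0 := by
  have : IsAlgClosed (IsLocalRing.ResidueField A) :=
    Fermat.Agent.Lib.FF.CharP.isAlgClosed_residueField A
  obtain ⟨σ0, hσ0⟩ :=
    Fermat.Agent.Lib.FrobeniusExists.exists_isFrobeniusAt_of_liesOverPrime hp A hA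
  obtain ⟨n, hn0, -, hnU⟩ := Subgroup.exists_pow_mem_of_index_ne_zero hU σ0
  have hd : σ0 ^ n ∈ A.decompositionSubgroup ℚ := pow_mem hσ0.mem_decompositionSubgroup n
  have hτ : ∀ a, Cong.resAut A ⟨σ0 ^ n, hd⟩ a = a ^ (p ^ n) := by
    have e1 : (⟨σ0 ^ n, hd⟩ : A.decompositionSubgroup ℚ)
        = ⟨σ0, hσ0.mem_decompositionSubgroup⟩ ^ n := Subtype.ext rfl
    rw [e1, map_pow]
    exact ringAut_pow_apply _ (fun a => Cong.resAut_apply_of_isFrobeniusAt A hσ0 a) n
  obtain ⟨e, he0, he⟩ := exists_exponent_fixed_fullC (IsLocalRing.ResidueField A) M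
    (Cong.resAut A ⟨σ0 ^ n, hd⟩) (Nat.one_lt_pow hn0.ne' hp.one_lt) hτ
  refine ⟨e, he0, fun x hx => he _ ?_⟩
  rw [← hGal (σ0 ^ n) hd x, hx _ hnU]

set_option synthInstance.maxHeartbeats 400000 in
/-- **(FIN-EXP).**  If `A` lies over `p` and the level `M` has a place reduction along `A`, the
reduction of the classes of `JZero M` fixed by a subgroup of finite index of `Gal(ℚ̄/ℚ)` has
finite exponent. -/
theorem exists_exponent_reductionModL (M : ℕ) [NeZero M] {p : ℕ} (hp : p.Prime)
    (A : ValuationSubring Qb) (hA : A.LiesOverPrime p) (h : ReductionInputsModL A M)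
    (U : Subgroup (Qb ≃ₐ[ℚ] Qb)) (hU : U.index ≠ 0) :
    ∃ e : ℕ, 0 < e ∧ ∀ x : JZero M, (∀ σ ∈ U, σ • x = x) → e • reductionModL A M x = 0 := by
  have := Fermat.Agent.ESJ.HeckeInputs.hasPrincipalDivisors_bar M
  have hdeg := Fermat.Agent.ESJ.HeckeInputs.deg_eq_one_bar M
  have hRR : Cong.RRLite (AlgebraicClosure ℚ) (modularFunctionFieldBar M) :=
    Fermat.Agent.Lib.FF.RR.rrLite_modular M
  exact exists_exponent_reduction_of_galois M hp A hA
    (fun σ hσ x => Cong.reductionModL_galois A M hdeg hRR h σ hσ x) U hU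

/-- **(FIN-EXP) at a good pair** `(M, p)`, `p ∤ M`. -/
theorem exists_exponent_reductionModL_good (M : ℕ) [NeZero M] {p : ℕ} (hp : p.Prime)
    (hpM : ¬ p ∣ M) (hgood : 5 ≤ p ∨ (p = 3 ∧ 2 ∣ M) ∨ (p = 2 ∧ 3 ∣ M))
    (A : ValuationSubring Qb) (hA : A.LiesOverPrime p)
    (U : Subgroup (Qb ≃ₐ[ℚ] Qb)) (hU : U.index ≠ 0) :
    ∃ e : ℕ, 0 < e ∧ ∀ x : JZero M, (∀ σ ∈ U, σ • x = x) → e • reductionModL A M x = 0 :=
  exists_exponent_reductionModL M hp A hA
    (Fermat.Agent.ESJ.reductionInputsModL_good M p hp hpM hgood A hA) U hU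

end Galois

end Fermat.Agent.TR.Hecke.FrobFin

end
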