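/-
helper95 — TR / H-R2 (FIN): the consumer shape of (R2) for H-R3 (`OldRed`), fields instead of
subgroups.
-/
import Mathlib
import Fermat.Agent.TR.Hecke.FrobFinInst

set_option autoImplicit false

noncomputable section

namespace Fermat.Agent.TR.Hecke.FrobFin

open ModularCurve AlgebraicCurve Fermat.Agent.ESJ

local notation "Qb" => AlgebraicClosure ℚ

/-- The fixing subgroup of a number field has finite index in `Gal(ℚ̄/ℚ)`. -/
theorem index_fixingSubgroup_ne_zero (L : IntermediateField ℚ Qb) [FiniteDimensional ℚ L] :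
    L.fixingSubgroup.index ≠ 0 := by
  have hGal : IsGalois ℚ Qb := Fermat.Agent.Lib.FrobeniusExists.isGalois_rat
  rw [← IntermediateField.finrank_eq_fixingSubgroup_index Qb L]
  exact Module.finrank_pos.ne'

/-- **(R2), field form.**  For every number field `L ⊆ ℚ̄`, the reduction of the classes of
`JZero M` fixed by `Gal(ℚ̄/L)` is killed by a positive integer. -/
theorem hexp_reductionModL (M : ℕ) [NeZero M] {p : ℕ} (hp : p.Prime)
    (A : ValuationSubring Qb) (hA : A.LiesOverPrime p) (h : ReductionInputsModL A M) :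
    ∀ L : IntermediateField ℚ Qb, FiniteDimensional ℚ L → ∃ e : ℕ, e ≠ 0 ∧ ∀ x : JZero M,
      (∀ σ : Qb ≃ₐ[ℚ] Qb, (∀ c ∈ L, σ c = c) → σ • x = x) → e • reductionModL A M x = 0 := by
  intro L hL
  obtain ⟨e, he0, he⟩ := exists_exponent_reductionModL M hp A hA h L.fixingSubgroup
    (index_fixingSubgroup_ne_zero L)
  refine ⟨e, he0.ne', fun x hx => he x fun σ hσ => hx σ fun c hc => ?_⟩
  exact (IntermediateField.mem_fixingSubgroup_iff L σ).1 hσ c hc

/-- **(R2), field form, at a good pair** `(M, p)`, `p ∤ M`. -/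
theorem hexp_reductionModL_good (M : ℕ) [NeZero M] {p : ℕ} (hp : p.Prime)
    (hpM : ¬ p ∣ M) (hgood : 5 ≤ p ∨ (p = 3 ∧ 2 ∣ M) ∨ (p = 2 ∧ 3 ∣ M))
    (A : ValuationSubring Qb) (hA : A.LiesOverPrime p) :
    ∀ L : IntermediateField ℚ Qb, FiniteDimensional ℚ L → ∃ e : ℕ, e ≠ 0 ∧ ∀ x : JZero M,
      (∀ σ : Qb ≃ₐ[ℚ] Qb, (∀ c ∈ L, σ c = c) → σ • x = x) → e • reductionModL A M x = 0 :=
  hexp_reductionModL M hp A hA
    (Fermat.Agent.ESJ.reductionInputsModL_good M p hp hpM hgood A hA)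

/-- **(R2), subgroup form with `FiniteIndex`.** -/
theorem hexp_reductionModL_finiteIndex (M : ℕ) [NeZero M] {p : ℕ} (hp : p.Prime)
    (A : ValuationSubring Qb) (hA : A.LiesOverPrime p) (h : ReductionInputsModL A M) :
    ∀ U : Subgroup (Qb ≃ₐ[ℚ] Qb), U.FiniteIndex → ∃ e : ℕ, e ≠ 0 ∧ ∀ x : JZero M,
      (∀ σ ∈ U, σ • x = x) → e • reductionModL A M x = 0 := by
  intro U hU
  obtain ⟨e, he0, he⟩ := exists_exponent_reductionModL M hp A hA h U hU.index_ne_zero
  exact ⟨e, he0.ne', he⟩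

end Fermat.Agent.TR.Hecke.FrobFin

end
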