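import Mathlib
import Fermat.Agent.S23
import Fermat.Agent.S49.Forms
import Fermat.Agent.Lib.Red.GaussRing
import Fermat.Prelude.Def_CuspForm_HeckeLocal

/-!
# TR / H-OLD seam: Gauss-integral cusp forms have integral `q`-coefficients

The Gauss ring `gaussRing A π` of `L((q))` is a localisation (series `y` with `s * y = P` for
`A`-integral `s`, `P`, `s` nonzero modulo `π`); it is NOT the ring of series with coefficients in
`A`.  For the `q`-expansion of a weight-2 cusp form of level `Γ₀(M)` the two notions agree, by the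
saturated integral lattice of S23:

* `exists_int_basis` (SAT): a `ℤ`-basis `g` of the lattice of forms with integral `q`-expansion,
  with integer coefficient table `e`, spanning `S₂(Γ₀(M))` over `ℂ`, and saturated:
  `p ∣ ∑ z i * e i m` for all `m` implies `p ∣ z i` for all `i` (every `p : ℕ`, also `p = 0`).
* `indep_of_sat` : hence the reduced `q`-series are linearly independent over EVERY field.
* `exists_integral_coeffs` (INT): if `y ∈ gaussRing A π` has no negative part and
  `qCoeff G n = ι (y.coeff n)` for a cusp form `G`, then all coefficients of `y` lie in `A`, and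
  the reduction of `y` is the coefficientwise reduction.
-/

set_option autoImplicit false

open CongruenceSubgroup ModularFormClass HahnSeries ModularCurve Module

namespace Fermat.Agent.TR.Hecke.GaussInt

open Fermat.Agent.Lib.Red Fermat.Agent.S49

noncomputable section

/-! ### Linear algebra: independence over a subfield -/

/-- Rows with entries in a subfield `F` that are independent over `F` stay independent over
every extension field `k`. -/
theorem indep_of_subfield {F k : Type*} [Field F] [Field k] [Algebra F k] {n : ℕ} {I : Type*}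
    (v : Fin n → I → F)
    (hv : ∀ c : Fin n → F, (∀ m, ∑ i, c i * v i m = 0) → c = 0)
    (x : Fin n → k) (hx : ∀ m, ∑ i, x i * algebraMap F k (v i m) = 0) : x = 0 := by
  classical
  let b := Basis.ofVectorSpace F k
  have key : ∀ j, (fun i => b.repr (x i) j) = 0 := by
    intro j
    apply hv
    intro m
    have h1 : b.repr (∑ i, x i * algebraMap F k (v i m)) j = 0 := by
      rw [hx m, map_zero, Finsupp.zero_apply]
    rw [map_sum, Finsupp.finsetSum_apply] at h1
    rw [← h1]
    refine Finset.sum_congr rfl fun i _ => ?_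
    have h2 : x i * algebraMap F k (v i m) = v i m • x i := by
      rw [Algebra.smul_def, mul_comm]
    rw [h2, map_smul, Finsupp.smul_apply, smul_eq_mul, mul_comm]
  funext i
  apply b.repr.injective
  ext j
  have h := congrFun (key j) i
  simpa using h

/-- A saturated integer table has rows independent over every field. -/
theorem indep_of_sat {n : ℕ} (e : Fin n → ℕ → ℤ)
    (hsat : ∀ (p : ℕ) (z : Fin n → ℤ), (∀ m, (p : ℤ) ∣ ∑ i, z i * e i m) → ∀ i, (p : ℤ) ∣ z i)
    {k : Type*} [Field k] (x : Fin n → k) (hx : ∀ m, ∑ i, x i * (e i m : k) = 0) : x = 0 := by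
  classical
  obtain ⟨p, hp⟩ := CharP.exists k
  rcases CharP.char_is_prime_or_zero k p with hpp | hp0
  · -- characteristic `p`
    haveI : Fact p.Prime := ⟨hpp⟩
    letI : Algebra (ZMod p) k := ZMod.algebra k p
    refine indep_of_subfield (F := ZMod p) (fun i m => ((e i m : ℤ) : ZMod p)) ?_ x ?_
    · intro c hc
      have h1 : ∀ i, (p : ℤ) ∣ ((c i).val : ℤ) := by
        apply hsat p
        intro m
        rw [← ZMod.intCast_zmod_eq_zero_iff_dvd]
        push_cast
        rw [← hc m]
        refine Finset.sum_congr rfl fun i _ => ?_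
        rw [ZMod.natCast_zmod_val]
      funext i
      have h2 := h1 i
      rw [← ZMod.intCast_zmod_eq_zero_iff_dvd] at h2
      push_cast at h2
      rw [ZMod.natCast_zmod_val] at h2
      exact h2
    · intro m
      rw [← hx m]
      refine Finset.sum_congr rfl fun i _ => ?_
      rw [map_intCast]
  · -- characteristic zero
    subst hp0
    haveI : CharZero k := CharP.charP_to_charZero k
    refine indep_of_subfield (F := ℚ) (fun i m => ((e i m : ℤ) : ℚ)) ?_ x ?_
    · intro c hc
      have hZ : LinearIndependent ℤ (fun i : Fin n => fun m : ℕ => ((e i m : ℤ) : ℚ)) := by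
        rw [Fintype.linearIndependent_iff]
        intro z hz i
        have h1 : ∀ i, ((0 : ℕ) : ℤ) ∣ z i := by
          apply hsat 0
          intro m
          have h2 := congrFun hz m
          simp only [Finset.sum_apply, Pi.smul_apply, Pi.zero_apply] at h2
          simp only [zsmul_eq_mul] at h2
          have h4 : (∑ i, z i * e i m : ℤ) = 0 := by exact_mod_cast h2
          rw [h4]
          exact dvd_zero _
        have := h1 i
        rw [Nat.cast_zero, zero_dvd_iff] at this
        exact this
      have hQ : LinearIndependent ℚ (fun i : Fin n => fun m : ℕ => ((e i m : ℤ) : ℚ)) :=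
        LinearIndependent.localization ℚ (nonZeroDivisors ℤ) hZ
      rw [Fintype.linearIndependent_iff] at hQ
      funext i
      apply hQ c
      funext m
      rw [Finset.sum_apply, Pi.zero_apply, ← hc m]
      refine Finset.sum_congr rfl fun i _ => ?_
      rw [Pi.smul_apply, smul_eq_mul]
    · intro m
      rw [← hx m]
      refine Finset.sum_congr rfl fun i _ => ?_
      rw [map_intCast]

/-! ### The saturated integral basis -/

variable (M : ℕ) [NeZero M]

/-- **(SAT)** A `ℤ`-basis of the lattice of cusp forms with integral `q`-expansion: integer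
coefficient table, `ℂ`-spanning, saturated. -/
theorem exists_int_basis :
    ∃ (n : ℕ) (g : Fin n → CuspForm (Gamma0 M) 2) (e : Fin n → ℕ → ℤ),
      (∀ i m, qCoeff (⇑(g i)) m = (e i m : ℂ)) ∧
      Submodule.span ℂ (Set.range g) = ⊤ ∧
      ∀ (p : ℕ) (z : Fin n → ℤ), (∀ m, (p : ℤ) ∣ ∑ i, z i * e i m) → ∀ i, (p : ℤ) ∣ z i := by
  classical
  have := CuspForm.intLattice.moduleFinite M
  have := CuspForm.intLattice.moduleFree M
  let b := Module.finBasis ℤ ↥(CuspForm.intLattice M 2)
  have hmem : ∀ i m, ∃ a : ℤ, qCoeff (⇑((b i : ↥(CuspForm.intLattice M 2)) :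
      CuspForm (Gamma0 M) 2)) m = (a : ℂ) := fun i m =>
    (mem_intLattice_iff _).mp (b i).2 m
  choose e he using hmem
  refine ⟨_, fun i => ((b i : ↥(CuspForm.intLattice M 2)) : CuspForm (Gamma0 M) 2), e, he, ?_, ?_⟩
  · -- spanning
    have h23 : Submodule.span ℂ ((CuspForm.intLattice M 2 :
        Submodule ℤ (CuspForm (Gamma0 M) 2)) : Set (CuspForm (Gamma0 M) 2)) = ⊤ :=
      Fermat.Agent.S23.result M
    rw [eq_top_iff, ← h23]
    apply Submodule.span_le.mpr
    intro f hf
    have hall : ∀ x : ↥(CuspForm.intLattice M 2), (x : CuspForm (Gamma0 M) 2) ∈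
        Submodule.span ℂ (Set.range fun i =>
          ((b i : ↥(CuspForm.intLattice M 2)) : CuspForm (Gamma0 M) 2)) := by
      intro x
      rw [← b.sum_repr x, Submodule.coe_sum]
      apply Submodule.sum_mem
      intro i _
      rw [Submodule.coe_smul_of_tower, ← Int.cast_smul_eq_zsmul ℂ]
      exact Submodule.smul_mem _ _ (Submodule.subset_span ⟨i, rfl⟩)
    exact hall ⟨f, hf⟩
  · -- saturation
    intro p z hz
    -- the lattice element with coordinates `z`
    set G : ↥(CuspForm.intLattice M 2) := ∑ i, z i • b i with hGdef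
    have hGcoe : (G : CuspForm (Gamma0 M) 2) =
        ∑ i, z i • ((b i : ↥(CuspForm.intLattice M 2)) : CuspForm (Gamma0 M) 2) := by
      rw [hGdef]
      simp
    have hGq : ∀ m, qCoeff (⇑(G : CuspForm (Gamma0 M) 2)) m = ((∑ i, z i * e i m : ℤ) : ℂ) := by
      intro m
      rw [hGcoe, ← qLin_apply, map_sum]
      push_cast
      refine Finset.sum_congr rfl fun i _ => ?_
      rw [map_zsmul, qLin_apply, he, zsmul_eq_mul]
    have hrepr : ∀ i, b.repr G i = z i := by
      intro i
      rw [hGdef, b.repr_sum_self]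
    by_cases hp : p = 0
    · subst hp
      have hG0 : (G : CuspForm (Gamma0 M) 2) = 0 := by
        apply ext_qCoeff
        intro m
        rw [hGq m]
        have := hz m
        rw [Nat.cast_zero, zero_dvd_iff] at this
        rw [this, Int.cast_zero, ← qLin_apply, map_zero]
      have hG0' : G = 0 := Subtype.ext hG0
      intro i
      rw [← hrepr i, hG0', map_zero, Finsupp.zero_apply]
      exact dvd_zero _
    · -- divide by `p`
      choose d hd using hz
      have hpC : (p : ℂ) ≠ 0 := Nat.cast_ne_zero.mpr hp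
      have hG' : ((p : ℂ)⁻¹ • (G : CuspForm (Gamma0 M) 2)) ∈ CuspForm.intLattice M 2 := by
        rw [mem_intLattice_iff]
        intro m
        refine ⟨d m, ?_⟩
        rw [qCoeff_smul, hGq m, hd m]
        push_cast
        field_simp
      have hpG : (p : ℤ) • (⟨_, hG'⟩ : ↥(CuspForm.intLattice M 2)) = G := by
        apply Subtype.ext
        show (p : ℤ) • ((p : ℂ)⁻¹ • (G : CuspForm (Gamma0 M) 2)) = (G : CuspForm (Gamma0 M) 2)
        rw [← Int.cast_smul_eq_zsmul ℂ, smul_smul]
        push_cast
        rw [mul_inv_cancel₀ hpC, one_smul]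
      intro i
      rw [← hrepr i, ← hpG, map_zsmul, Finsupp.smul_apply, smul_eq_mul]
      exact dvd_mul_right _ _

/-! ### Integrality of Gauss-integral `q`-expansions -/

/-- **(INT)** A cusp form whose `q`-expansion (transported by `ι : L →+* ℂ`) is a series of the
Gauss ring without negative part has all its coefficients in `A`; the reduction of the series is
the coefficientwise reduction. -/
theorem exists_integral_coeffs {L : Type*} [Field L] (A : ValuationSubring L) {k : Type*}
    [Field k] (π : A →+* k) (hπ : ∀ a : A, ¬ IsUnit a → π a = 0) (ι : L →+* ℂ)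
    (G : CuspForm (Gamma0 M) 2) (y : LaurentSeries L) (hy : y ∈ gaussRing A π)
    (hG : ∀ n : ℕ, qCoeff (⇑G) n = ι (y.coeff (n : ℤ)))
    (hneg : ∀ n : ℤ, n < 0 → y.coeff n = 0) :
    ∃ c : ℕ → A, (∀ n : ℕ, y.coeff (n : ℤ) = (c n : L)) ∧
      (∀ n : ℕ, (red A π ⟨y, hy⟩).coeff (n : ℤ) = π (c n)) ∧
      ∀ n : ℤ, n < 0 → (red A π ⟨y, hy⟩).coeff n = 0 := by
  classical
  obtain ⟨n, g, e, hge, hspan, hsat⟩ := exists_int_basis M
  -- `G` in the basis
  have hGmem : G ∈ Submodule.span ℂ (Set.range g) := by rw [hspan]; trivial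
  obtain ⟨γ, hγ⟩ := (Submodule.mem_span_range_iff_exists_fun ℂ).mp hGmem
  have hcoef : ∀ m : ℕ, ι (y.coeff (m : ℤ)) = ∑ i, γ i * (e i m : ℂ) := by
    intro m
    rw [← hG m, ← hγ, ← qLin_apply, map_sum]
    refine Finset.sum_congr rfl fun i _ => ?_
    rw [map_smul, qLin_apply, hge, smul_eq_mul]
  -- an `L`-linear retraction of `ι`
  let _ : Algebra L ℂ := ι.toAlgebra
  have hker : LinearMap.ker (Algebra.linearMap L ℂ) = ⊥ := by
    rw [LinearMap.ker_eq_bot]
    exact ι.injective
  obtain ⟨ρ, hρ⟩ := (Algebra.linearMap L ℂ).exists_leftInverse_of_injective hker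
  have hρι : ∀ a : L, ρ (ι a) = a := fun a => by
    have h := congrArg (fun f : L →ₗ[L] L => f a) hρ
    exact h
  set c0 : Fin n → L := fun i => ρ (γ i) with hc0def
  have hc0 : ∀ m : ℕ, y.coeff (m : ℤ) = ∑ i, c0 i * (e i m : L) := by
    intro m
    rw [← hρι (y.coeff (m : ℤ)), hcoef m, map_sum]
    refine Finset.sum_congr rfl fun i _ => ?_
    have h1 : γ i * (e i m : ℂ) = (e i m : L) • γ i := by
      rw [Algebra.smul_def, mul_comm]
      congr 1
      exact (map_intCast ι (e i m)).symm
    rw [h1, map_smul, smul_eq_mul, mul_comm]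
  -- all the `c0 i` are integral
  have hA : ∀ i, c0 i ∈ A := by
    by_contra hnot
    push Not at hnot
    obtain ⟨i1, hi1⟩ := hnot
    obtain ⟨i0, -, hmax⟩ := Finset.exists_max_image Finset.univ
      (fun i => A.valuation (c0 i)) ⟨i1, Finset.mem_univ _⟩
    have hi0 : c0 i0 ∉ A := by
      intro h
      apply hi1
      rw [← A.valuation_le_one_iff] at h ⊢
      exact le_trans (hmax i1 (Finset.mem_univ _)) h
    have hne : c0 i0 ≠ 0 := by
      intro h
      exact hi0 (h ▸ A.zero_mem)
    have ha : (c0 i0)⁻¹ ∈ A := (A.mem_or_inv_mem (c0 i0)).resolve_left hi0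
    have hπa : π ⟨(c0 i0)⁻¹, ha⟩ = 0 := pi_inv_eq_zero A π hπ hi0 ha
    have hd : ∀ i, c0 i * (c0 i0)⁻¹ ∈ A := by
      intro i
      rw [← A.valuation_le_one_iff, map_mul, map_inv₀]
      have h0 : A.valuation (c0 i0) ≠ 0 := (Valuation.ne_zero_iff _).mpr hne
      rw [mul_inv_le_iff₀ (zero_lt_iff.mpr h0), one_mul]
      exact hmax i (Finset.mem_univ _)
    -- the series `C a * y` is integral
    have hcoefA : ∀ j : ℤ, (HahnSeries.C (c0 i0)⁻¹ * y).coeff j ∈ A := by
      intro j
      rw [HahnSeries.C_mul_eq_smul, HahnSeries.coeff_smul, smul_eq_mul]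
      rcases lt_or_ge j 0 with hj | hj
      · rw [hneg j hj, mul_zero]
        exact A.zero_mem
      · obtain ⟨m, rfl⟩ := Int.eq_ofNat_of_zero_le hj
        rw [hc0 m, Finset.mul_sum]
        apply A.sum_mem
        intro i _
        have h1 : (c0 i0)⁻¹ * (c0 i * (e i m : L)) = c0 i * (c0 i0)⁻¹ * (e i m : L) := by ring
        rw [h1]
        exact A.mul_mem _ _ (hd i) (intCast_mem A (e i m))
    obtain ⟨P, hP⟩ := exists_incl_eq A _ hcoefA
    have hCa : HahnSeries.C (c0 i0)⁻¹ ∈ gaussRing A π := C_mem_gaussRing A π ha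
    have h1 : red A π (⟨HahnSeries.C (c0 i0)⁻¹, hCa⟩ * ⟨y, hy⟩) = 0 := by
      rw [map_mul, red_C A π ha hCa, hπa, map_zero, zero_mul]
    have h2 : (⟨HahnSeries.C (c0 i0)⁻¹, hCa⟩ * ⟨y, hy⟩ : gaussRing A π) =
        ⟨incl A P, incl_mem_gaussRing A π P⟩ := Subtype.ext hP.symm
    rw [h2, red_incl] at h1
    -- the reduced relation
    let D : Fin n → A := fun i => ⟨c0 i * (c0 i0)⁻¹, hd i⟩
    have hPc : ∀ m : ℕ, P.coeff (m : ℤ) = ∑ i, D i * ((e i m : ℤ) : A) := by
      intro m
      apply Subtype.ext
      have h3 : ((P.coeff (m : ℤ) : A) : L) = (HahnSeries.C (c0 i0)⁻¹ * y).coeff (m : ℤ) := by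
        rw [← hP]; rfl
      rw [h3, HahnSeries.C_mul_eq_smul, HahnSeries.coeff_smul, smul_eq_mul, hc0 m, Finset.mul_sum]
      push_cast
      refine Finset.sum_congr rfl fun i _ => ?_
      show _ = c0 i * (c0 i0)⁻¹ * _
      ring
    have hrel : ∀ m : ℕ, ∑ i, π (D i) * ((e i m : ℤ) : k) = 0 := by
      intro m
      have h3 : (rbar A π P).coeff (m : ℤ) = 0 := by rw [h1]; rfl
      rw [rbar_coeff, hPc m, map_sum] at h3
      rw [← h3]
      refine Finset.sum_congr rfl fun i _ => ?_
      rw [map_mul, map_intCast]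
    have hzero := indep_of_sat e hsat (fun i => π (D i)) hrel
    have h4 : π (D i0) = 0 := congrFun hzero i0
    have h5 : D i0 = 1 := Subtype.ext (mul_inv_cancel₀ hne)
    rw [h5, map_one] at h4
    exact one_ne_zero h4
  -- conclusion
  have hcoefA : ∀ j : ℤ, y.coeff j ∈ A := by
    intro j
    rcases lt_or_ge j 0 with hj | hj
    · rw [hneg j hj]
      exact A.zero_mem
    · obtain ⟨m, rfl⟩ := Int.eq_ofNat_of_zero_le hj
      rw [hc0 m]
      apply A.sum_mem
      intro i _
      exact A.mul_mem _ _ (hA i) (intCast_mem A (e i m))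
  obtain ⟨P, hP⟩ := exists_incl_eq A y hcoefA
  have hred : red A π ⟨y, hy⟩ = rbar A π P := by
    have h1 : (⟨y, hy⟩ : gaussRing A π) = ⟨incl A P, incl_mem_gaussRing A π P⟩ :=
      Subtype.ext hP.symm
    rw [h1, red_incl]
  refine ⟨fun m => P.coeff (m : ℤ), fun m => ?_, fun m => ?_, fun j hj => ?_⟩
  · rw [← hP]; rfl
  · rw [hred]; rfl
  · rw [hred, rbar_coeff]
    have h1 : P.coeff j = 0 := by
      apply Subtype.ext
      have h2 : ((P.coeff j : A) : L) = y.coeff j := by rw [← hP]; rfl
      rw [h2, hneg j hj]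
      rfl
    rw [h1, map_zero]

end

end Fermat.Agent.TR.Hecke.GaussInt
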