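import Mathlib
import Fermat.Agent.S28.Rot
import Fermat.Agent.CAR.Local.ThetaJ

/-!
# TR (Hecke side, (OA4)): the Hecke operator `T_ℓ` on `q`-series and logarithmic derivatives

Formal `q`-series over a field `k`; `θ = q · d/dq` (`thetaL`), `V_ℓ f = f(q^ℓ)` (`qExpand k ℓ`),
`f(q) ↦ f(c q)` (`rot c`).

* `Uop ℓ g` : `(U_ℓ g)_n = g_{ℓ n}`;  `Tl ℓ g := U_ℓ g + ℓ · V_ℓ g`, i.e.
  `(T_ℓ g)_n = g_{ℓ n} + ℓ · g_{n / ℓ}` (`coeff_Tl`);
* `dlog x := θ x / x`, with `dlog_mul`, `dlog_prod`, `dlog_pow`, `dlog_zpow`, `dlog_C`,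
  `dlog_qExpand` (`dlog (V_ℓ x) = ℓ · V_ℓ (dlog x)`), `dlog_rot`;
* `sum_rot` : `∑_{b < ℓ} g(ζ^b q) = ℓ · V_ℓ U_ℓ g` for a primitive `ℓ`-th root of unity `ζ`;
* `dlog_eq_Tl` : **if `H(t^ℓ) = z(t^(ℓ²)) · ∏_{b < ℓ} z(ζ^b t)` (the `q`-expansion of the norm of
  `z(q^ℓ)` along the degeneracy map, `BAD.NormRed.qExpand_norm_alpha`) then
  `θ H / H = T_ℓ (θ z / z)`**;
* `Tl_dlog_eq_of_rel` : if moreover `H = c · z^a · u^p` in characteristic `p`, then
  `T_ℓ (θ z / z) = a · (θ z / z)`; `coeff_eigen` : the same coefficientwise.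
-/

set_option autoImplicit false

noncomputable section

namespace Fermat.Agent.TR.Hecke.QHecke

open ModularCurve HahnSeries Fermat.Agent.S28.Chain Fermat.Agent.CAR.Local.ThetaJ

/-! ### The operators `U_ℓ` and `T_ℓ` on Laurent series -/

section Ring

variable {R : Type*} [CommRing R]

theorem bddBelow_support_comp_mul (ℓ : ℕ) [NeZero ℓ] (g : LaurentSeries R) :
    BddBelow (Function.support fun n : ℤ => g.coeff ((ℓ : ℤ) * n)) := by
  refine ⟨min g.order 0, ?_⟩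
  intro n hn
  rw [Function.mem_support] at hn
  have h1 : g.order ≤ (ℓ : ℤ) * n := HahnSeries.order_le_of_coeff_ne_zero hn
  have hℓ : (1 : ℤ) ≤ (ℓ : ℤ) := by
    have := Nat.pos_of_ne_zero (NeZero.ne ℓ)
    exact_mod_cast this
  by_contra hlt
  rw [not_le] at hlt
  have hn0 : n < 0 := lt_of_lt_of_le hlt (min_le_right _ _)
  have hnm : n < g.order := lt_of_lt_of_le hlt (min_le_left _ _)
  nlinarith

/-- `U_ℓ` on Laurent series: `(U_ℓ g)_n = g_{ℓ n}`. -/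
def Uop (ℓ : ℕ) [NeZero ℓ] (g : LaurentSeries R) : LaurentSeries R :=
  HahnSeries.ofSuppBddBelow (fun n : ℤ => g.coeff ((ℓ : ℤ) * n))
    (bddBelow_support_comp_mul ℓ g)

@[simp]
theorem coeff_Uop (ℓ : ℕ) [NeZero ℓ] (g : LaurentSeries R) (n : ℤ) :
    (Uop ℓ g).coeff n = g.coeff ((ℓ : ℤ) * n) := rfl

/-- `T_ℓ` on Laurent series (weight two): `T_ℓ g = U_ℓ g + ℓ · g(q^ℓ)`. -/
def Tl (ℓ : ℕ) [NeZero ℓ] (g : LaurentSeries R) : LaurentSeries R :=
  Uop ℓ g + HahnSeries.C (ℓ : R) * qExpand R ℓ g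

theorem coeff_C_mul (c : R) (f : LaurentSeries R) (n : ℤ) :
    (HahnSeries.C c * f).coeff n = c * f.coeff n := by
  rw [HahnSeries.C_mul_eq_smul, HahnSeries.coeff_smul, smul_eq_mul]

theorem coeff_Tl_mul (ℓ : ℕ) [NeZero ℓ] (g : LaurentSeries R) (n : ℤ) :
    (Tl ℓ g).coeff ((ℓ : ℤ) * n) = g.coeff ((ℓ : ℤ) * ((ℓ : ℤ) * n)) + (ℓ : R) * g.coeff n := by
  rw [Tl, HahnSeries.coeff_add, coeff_Uop, coeff_C_mul, qExpand_coeff_mul]

theorem coeff_Tl_of_not_dvd (ℓ : ℕ) [NeZero ℓ] (g : LaurentSeries R) {n : ℤ}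
    (hn : ¬ (ℓ : ℤ) ∣ n) : (Tl ℓ g).coeff n = g.coeff ((ℓ : ℤ) * n) := by
  rw [Tl, HahnSeries.coeff_add, coeff_Uop, coeff_C_mul, qExpand_coeff_of_not_dvd ℓ g hn,
    mul_zero, add_zero]

/-- `(T_ℓ g)_n = g_{ℓ n} + ℓ · g_{n / ℓ}`. -/
theorem coeff_Tl (ℓ : ℕ) [NeZero ℓ] (g : LaurentSeries R) (n : ℤ) :
    (Tl ℓ g).coeff n =
      g.coeff ((ℓ : ℤ) * n) + (ℓ : R) * (if (ℓ : ℤ) ∣ n then g.coeff (n / (ℓ : ℤ)) else 0) := by
  have hℓ : (ℓ : ℤ) ≠ 0 := by exact_mod_cast NeZero.ne ℓ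
  by_cases hn : (ℓ : ℤ) ∣ n
  · obtain ⟨m, rfl⟩ := hn
    rw [coeff_Tl_mul, if_pos (dvd_mul_right _ _), Int.mul_ediv_cancel_left _ hℓ]
  · rw [coeff_Tl_of_not_dvd ℓ g hn, if_neg hn, mul_zero, add_zero]

/-- `θ` commutes with the rotations. -/
theorem thetaL_rot (c : Rˣ) (f : LaurentSeries R) :
    thetaL R (rot c f) = rot c (thetaL R f) := by
  ext n
  rw [coeff_thetaL, rot_coeff, rot_coeff, coeff_thetaL]
  ring

theorem thetaL_C (c : R) : thetaL R (HahnSeries.C c) = 0 := by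
  ext n
  rw [coeff_thetaL, HahnSeries.coeff_zero]
  rcases eq_or_ne n 0 with rfl | hn
  · rw [Int.cast_zero, zero_mul]
  · have : (HahnSeries.C c : LaurentSeries R).coeff n = 0 := by
      show (HahnSeries.single 0 c).coeff n = 0
      exact HahnSeries.coeff_single_of_ne hn
    rw [this, mul_zero]

end Ring

/-! ### Logarithmic derivatives -/

section Field

variable {k : Type*} [Field k]

/-- The logarithmic derivative `θ x / x` of a Laurent series. -/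
def dlog (x : LaurentSeries k) : LaurentSeries k := thetaL k x / x

theorem dlog_def (x : LaurentSeries k) : dlog x = thetaL k x / x := rfl

theorem dlog_mul {x y : LaurentSeries k} (hx : x ≠ 0) (hy : y ≠ 0) :
    dlog (x * y) = dlog x + dlog y := by
  rw [dlog, dlog, dlog, Derivation.leibniz, smul_eq_mul, smul_eq_mul]
  field_simp
  ring

theorem dlog_one : dlog (1 : LaurentSeries k) = 0 := by
  rw [dlog, Derivation.map_one_eq_zero, zero_div]

theorem dlog_C (c : k) : dlog (HahnSeries.C c : LaurentSeries k) = 0 := by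
  rw [dlog, thetaL_C, zero_div]

theorem dlog_prod {ι : Type*} (s : Finset ι) (f : ι → LaurentSeries k)
    (hf : ∀ i ∈ s, f i ≠ 0) : dlog (∏ i ∈ s, f i) = ∑ i ∈ s, dlog (f i) := by
  classical
  induction s using Finset.induction_on with
  | empty => rw [Finset.prod_empty, Finset.sum_empty, dlog_one]
  | insert a s ha ih =>
    rw [Finset.prod_insert ha, Finset.sum_insert ha,
      dlog_mul (hf a (Finset.mem_insert_self a s))
        (Finset.prod_ne_zero_iff.mpr (fun i hi => hf i (Finset.mem_insert_of_mem hi))),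
      ih (fun i hi => hf i (Finset.mem_insert_of_mem hi))]

theorem dlog_pow (x : LaurentSeries k) (n : ℕ) :
    dlog (x ^ n) = (n : LaurentSeries k) * dlog x := by
  by_cases hx : x = 0
  · subst hx
    rcases Nat.eq_zero_or_pos n with rfl | hn
    · rw [pow_zero, dlog_one, Nat.cast_zero, zero_mul]
    · rw [zero_pow hn.ne', dlog, map_zero, zero_div, mul_zero]
  induction n with
  | zero => rw [pow_zero, dlog_one, Nat.cast_zero, zero_mul]
  | succ n ih =>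
    rw [pow_succ, dlog_mul (pow_ne_zero n hx) hx, ih]
    push_cast
    ring

theorem dlog_inv (x : LaurentSeries k) : dlog x⁻¹ = -dlog x := by
  by_cases hx : x = 0
  · subst hx
    rw [inv_zero, dlog, map_zero, zero_div, neg_zero]
  have h := dlog_mul hx (inv_ne_zero hx)
  rw [mul_inv_cancel₀ hx, dlog_one] at h
  exact eq_neg_of_add_eq_zero_right h.symm

theorem dlog_zpow (x : LaurentSeries k) (n : ℤ) :
    dlog (x ^ n) = (n : LaurentSeries k) * dlog x := by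
  obtain ⟨m, rfl | rfl⟩ := n.eq_nat_or_neg
  · rw [zpow_natCast, dlog_pow, Int.cast_natCast]
  · rw [zpow_neg, zpow_natCast, dlog_inv, dlog_pow, Int.cast_neg, Int.cast_natCast, neg_mul]

theorem dlog_qExpand (ℓ : ℕ) [NeZero ℓ] (x : LaurentSeries k) :
    dlog (qExpand k ℓ x) = HahnSeries.C (ℓ : k) * qExpand k ℓ (dlog x) := by
  rw [dlog, dlog, thetaL_qExpand, map_div₀, mul_div_assoc]

theorem dlog_rot (c : kˣ) (x : LaurentSeries k) : dlog (rot c x) = rot c (dlog x) := by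
  rw [dlog, dlog, thetaL_rot, map_div₀]

theorem natCast_eq_C (n : ℕ) : ((n : ℕ) : LaurentSeries k) = HahnSeries.C (n : k) :=
  (map_natCast (HahnSeries.C : k →+* LaurentSeries k) n).symm

theorem intCast_eq_C (n : ℤ) : ((n : ℤ) : LaurentSeries k) = HahnSeries.C (n : k) :=
  (map_intCast (HahnSeries.C : k →+* LaurentSeries k) n).symm

/-- **Averaging over the rotations by the `ℓ`-th roots of unity**:
`∑_{b < ℓ} g(ζ^b q) = ℓ · (U_ℓ g)(q^ℓ)`. -/
theorem sum_rot {ℓ : ℕ} [NeZero ℓ] (ζ : kˣ) (hζ : IsPrimitiveRoot ζ ℓ) (g : LaurentSeries k) :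
    ∑ b ∈ Finset.range ℓ, rot (ζ ^ b) g = HahnSeries.C (ℓ : k) * qExpand k ℓ (Uop ℓ g) := by
  ext n
  rw [HahnSeries.coeff_sum, coeff_C_mul]
  have hcoef : ∀ b : ℕ, (rot (ζ ^ b) g).coeff n = (((ζ ^ n : kˣ) : k)) ^ b * g.coeff n := by
    intro b
    have e : ((ζ ^ b) ^ n : kˣ) = (ζ ^ n) ^ b := by
      rw [← zpow_natCast ζ b, ← zpow_mul, ← zpow_natCast (ζ ^ n) b, ← zpow_mul, mul_comm]
    rw [rot_coeff, e, Units.val_pow_eq_pow_val]
  rw [Finset.sum_congr rfl (fun b _ => hcoef b), ← Finset.sum_mul]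
  by_cases hn : (ℓ : ℤ) ∣ n
  · have h1 : (ζ ^ n : kˣ) = 1 := (hζ.zpow_eq_one_iff_dvd n).mpr hn
    obtain ⟨m, rfl⟩ := hn
    rw [qExpand_coeff_mul, coeff_Uop, h1, Units.val_one]
    simp
  · have h1 : (ζ ^ n : kˣ) ≠ 1 := fun h => hn ((hζ.zpow_eq_one_iff_dvd n).mp h)
    have h2 : (((ζ ^ n : kˣ) : k)) ≠ 1 := fun h => h1 (Units.ext h)
    have h3 : (((ζ ^ n : kˣ) : k)) ^ ℓ = 1 := by
      rw [← Units.val_pow_eq_pow_val, ← zpow_natCast (ζ ^ n) ℓ, ← zpow_mul, mul_comm, zpow_mul,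
        zpow_natCast, hζ.pow_eq_one, one_zpow, Units.val_one]
    have h4 := geom_sum_mul (((ζ ^ n : kˣ) : k)) ℓ
    rw [h3, sub_self] at h4
    have h5 : ∑ i ∈ Finset.range ℓ, (((ζ ^ n : kˣ) : k)) ^ i = 0 := by
      rcases mul_eq_zero.mp h4 with h | h
      · exact h
      · exact absurd (sub_eq_zero.mp h) h2
    rw [h5, zero_mul, qExpand_coeff_of_not_dvd ℓ _ hn, mul_zero]

/-- **The norm product formula gives the Hecke operator on logarithmic derivatives**: if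
`H(t^ℓ) = z(t^(ℓ²)) · ∏_{b < ℓ} z(ζ^b t)` for a primitive `ℓ`-th root of unity `ζ` (`ℓ ≠ 0` in
`k`), then `θ H / H = T_ℓ (θ z / z)`. -/
theorem dlog_eq_Tl {ℓ : ℕ} [NeZero ℓ] (hℓ : (ℓ : k) ≠ 0) (ζ : kˣ) (hζ : IsPrimitiveRoot ζ ℓ)
    {z H : LaurentSeries k} (hz : z ≠ 0)
    (hH : qExpand k ℓ H =
      qExpand k ℓ (qExpand k ℓ z) * ∏ b ∈ Finset.range ℓ, rot (ζ ^ b) z) :
    dlog H = Tl ℓ (dlog z) := by
  have hqz : qExpand k ℓ (qExpand k ℓ z) ≠ 0 := fun h =>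
    hz (qExpand_injective (R := k) ℓ (qExpand_injective (R := k) ℓ
      (by rw [h, map_zero, map_zero])))
  have hrot : ∀ b ∈ Finset.range ℓ, rot (ζ ^ b) z ≠ 0 := fun b _ h =>
    hz (rot_injective (ζ ^ b) (by rw [h, map_zero]))
  have h1 := congrArg dlog hH
  rw [dlog_mul hqz (Finset.prod_ne_zero_iff.mpr hrot), dlog_prod _ _ hrot, dlog_qExpand,
    dlog_qExpand, dlog_qExpand, Finset.sum_congr rfl (fun b _ => dlog_rot (ζ ^ b) z),
    sum_rot ζ hζ, ← mul_add, ← map_add] at h1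
  have hC : (HahnSeries.C (ℓ : k) : LaurentSeries k) ≠ 0 := fun h =>
    hℓ (HahnSeries.C_injective (h.trans (map_zero _).symm))
  have h2 := qExpand_injective (R := k) ℓ (mul_left_cancel₀ hC h1)
  rw [h2, Tl, add_comm]

/-- **The eigen-relation**: if moreover `H = c · z^a · u^p` in characteristic `p`, then
`T_ℓ (θ z / z) = a · (θ z / z)`. -/
theorem Tl_dlog_eq_of_rel {ℓ : ℕ} [NeZero ℓ] (hℓ : (ℓ : k) ≠ 0) (ζ : kˣ)
    (hζ : IsPrimitiveRoot ζ ℓ) (p : ℕ) [CharP k p] {z H : LaurentSeries k} (hz : z ≠ 0)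
    (hH : qExpand k ℓ H =
      qExpand k ℓ (qExpand k ℓ z) * ∏ b ∈ Finset.range ℓ, rot (ζ ^ b) z)
    {a : ℤ} {c : k} {u : LaurentSeries k} (hc : c ≠ 0) (hu : u ≠ 0)
    (hrel : H = HahnSeries.C c * z ^ a * u ^ p) :
    Tl ℓ (dlog z) = HahnSeries.C (a : k) * dlog z := by
  have hC : (HahnSeries.C c : LaurentSeries k) ≠ 0 := fun h =>
    hc (HahnSeries.C_injective (h.trans (map_zero _).symm))
  have hp : ((p : ℕ) : LaurentSeries k) = 0 := by
    rw [natCast_eq_C, CharP.cast_eq_zero, map_zero]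
  rw [← dlog_eq_Tl hℓ ζ hζ hz hH, hrel,
    dlog_mul (mul_ne_zero hC (zpow_ne_zero a hz)) (pow_ne_zero p hu),
    dlog_mul hC (zpow_ne_zero a hz), dlog_C, dlog_zpow, dlog_pow, hp, zero_mul, zero_add,
    add_zero, intCast_eq_C]

/-- The eigen-relation, coefficientwise: `g_{ℓ n} + ℓ · g_{n / ℓ} = a · g_n` for `g = θ z / z`. -/
theorem coeff_eigen {ℓ : ℕ} [NeZero ℓ] (hℓ : (ℓ : k) ≠ 0) (ζ : kˣ)
    (hζ : IsPrimitiveRoot ζ ℓ) (p : ℕ) [CharP k p] {z H : LaurentSeries k} (hz : z ≠ 0)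
    (hH : qExpand k ℓ H =
      qExpand k ℓ (qExpand k ℓ z) * ∏ b ∈ Finset.range ℓ, rot (ζ ^ b) z)
    {a : ℤ} {c : k} {u : LaurentSeries k} (hc : c ≠ 0) (hu : u ≠ 0)
    (hrel : H = HahnSeries.C c * z ^ a * u ^ p) (n : ℤ) :
    (dlog z).coeff ((ℓ : ℤ) * n) +
        (ℓ : k) * (if (ℓ : ℤ) ∣ n then (dlog z).coeff (n / (ℓ : ℤ)) else 0) =
      (a : k) * (dlog z).coeff n := by
  rw [← coeff_Tl, Tl_dlog_eq_of_rel hℓ ζ hζ p hz hH hc hu hrel, coeff_C_mul]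

end Field

end Fermat.Agent.TR.Hecke.QHecke
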