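import Mathlib
import Fermat.Agent.BAD.NormRed
import Fermat.Agent.TR.Hecke.NormOrd
import Fermat.Agent.ESJ.Jac.HeckeKummer

/-!
# TR / Hecke side, brick (OA4)(ii): the product formula for the reduced Hecke norm

Setting: `BadSetup A π M p` (level `M * p`, residue characteristic `p`), `r ≠ p` a prime with
`r ∤ M` and `(r : k) ≠ 0`, `α_r, β_r : F_{Mp} → F_{Mpr}` the degeneracy maps.  For a function `f`
of level `M p` the Kummer function of `T_r` is `N f := Nm_{α_r}(β_r f)`
(`ESJ.Jac.HeckeKummer.isKummerPair_heckeOperatorBar`).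

* `qExpand_normHecke` (characteristic `0`, any level `N`, `r ∤ N`):
  `(N f)(t^r) = f(t^{r²}) · ∏_{b < r} f(ζ^b t)`;
* `qExpand_redInf_norm` : for `f ∈ O_∞`, `N f ∈ O_∞` and the same formula holds for the reductions,
  with `ζ` replaced by its reduction;
* `isPrimitiveRoot_residue` : the reduction of a primitive `r`-th root of unity is primitive when
  `(r : k) ≠ 0`;
* `exists_qExpand_redInf_norm` : the packaged form (a primitive `r`-th root of unity of `k` is
  produced) over a field `L` containing a primitive `r`-th root of unity.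

The twist is `Fermat.Agent.S28.Chain.rot c` (`f(q) ↦ f(c q)`), `q ↦ q^r` is the Prelude's
`ModularCurve.qExpand k r`.
-/

set_option autoImplicit false
set_option linter.style.haveILetI false

noncomputable section

namespace Fermat.Agent.TR.Hecke.QNormRed

open AlgebraicCurve ModularCurve IntermediateField HahnSeries
open Fermat.Agent.S28 Fermat.Agent.S28.Chain Fermat.Agent.Lib.Red
open Fermat.Agent.ESJ.Cong.LevelGen Fermat.Agent.ESJ.Cong.LevelDeg
open Fermat.Agent.BAD.TwoVal Fermat.Agent.BAD.NormRed Fermat.Agent.ESJ.RedK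
open Fermat.Agent.ESJ.Jac.HeckeKummer Fermat.Agent.TR.Hecke.NormOrd

/-! ### Characteristic zero -/

section CharZero

variable {L : Type} [Field L] [Algebra ℚ L] {N r : ℕ} [NeZero N] [NeZero r]
  {W' : laurentBaseChange L (modularFunctionFieldFull (N * r)) ≃ₐ[L]
    laurentBaseChange L (modularFunctionFieldFull (N * r))}

/-- **The `q`-expansion of the Hecke norm** `N f = Nm_{α_r}(β_r f)` of a function of level `N`
(`r ∤ N` prime): `(N f)(t^r) = f(t^{r²}) · ∏_{b < r} f(ζ^b t)`. -/
theorem qExpand_normHecke (hr : r.Prime) (hrN : ¬ r ∣ N) (hW' : IsAL N r W')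
    (ζ : Lˣ) (hζ : IsPrimitiveRoot ζ r)
    (f : laurentBaseChange L (modularFunctionFieldFull N)) :
    qExpand L r ((normAlong (heckeAlphaBar L N r) (heckeBetaBar L N r f) :
        laurentBaseChange L (modularFunctionFieldFull N)) : LaurentSeries L) =
      qExpand L r (qExpand L r (f : LaurentSeries L)) *
        ∏ b ∈ Finset.range r, rot (ζ ^ b) (f : LaurentSeries L) := by
  have hfin : FiniteAlong L (heckeAlphaBar L N r) := finiteAlong_alpha L N r hr
  have hdeg : finrankAlong L (heckeAlphaBar L N r) = r + 1 := by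
    rw [finrank_alpha_all L N r hr, if_neg hrN]
  have key := qExpand_norm_alpha hr hW' ζ hζ hfin hdeg (heckeBetaBar L N r f)
  rw [hW'.beta, coe_heckeAlphaBar, coe_heckeBetaBar] at key
  exact key

end CharZero

/-! ### Reduction -/

section Bad

variable {L : Type} [Field L] [Algebra ℚ L] {A : ValuationSubring L} {k : Type} [Field k]
  {π : A →+* k} {M p : ℕ} [NeZero M] [NeZero p]

omit [Algebra ℚ L] in
/-- The reduction of a primitive `r`-th root of unity (`r` prime) is primitive as soon as
`(r : k) ≠ 0`. -/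
theorem isPrimitiveRoot_residue (ζ : Aˣ) {r : ℕ} (hr : r.Prime)
    (hζ : IsPrimitiveRoot (Units.map (A.subtype : A →* L) ζ) r) (hrk : (r : k) ≠ 0) :
    IsPrimitiveRoot (Units.map (π : A →* k) ζ) r := by
  haveI : Fact r.Prime := ⟨hr⟩
  have hinj : Function.Injective (Units.map (A.subtype : A →* L)) :=
    Units.map_injective (fun a b hab => Subtype.ext hab)
  have hpow : ζ ^ r = 1 := by
    apply hinj
    rw [map_pow, hζ.pow_eq_one, map_one]
  have hpow' : (Units.map (π : A →* k) ζ) ^ r = 1 := by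
    rw [← map_pow, hpow, map_one]
  -- the geometric sum vanishes in `A`
  have hsumL : ∑ i ∈ Finset.range r, ((ζ : A) : L) ^ i = 0 := by
    have h1 : IsPrimitiveRoot ((ζ : A) : L) r := by
      have h2 := hζ.map_of_injective (f := Units.coeHom L) Units.val_injective
      exact h2
    exact h1.geom_sum_eq_zero hr.one_lt
  have hsumA : ∑ i ∈ Finset.range r, (ζ : A) ^ i = 0 := by
    apply Subtype.val_injective
    show A.subtype (∑ i ∈ Finset.range r, (ζ : A) ^ i) = A.subtype 0
    rw [map_sum, map_zero, ← hsumL]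
    refine Finset.sum_congr rfl fun i _ => ?_
    rw [map_pow]
    rfl
  have hne : Units.map (π : A →* k) ζ ≠ 1 := by
    intro h1
    have h2 : π (ζ : A) = 1 := by
      have := congrArg (fun u : kˣ => (u : k)) h1
      exact this
    have h3 := congrArg π hsumA
    rw [map_sum, map_zero] at h3
    have h4 : ∑ i ∈ Finset.range r, π ((ζ : A) ^ i) = (r : k) := by
      have : ∀ i ∈ Finset.range r, π ((ζ : A) ^ i) = 1 := fun i _ => by
        rw [map_pow, h2, one_pow]
      rw [Finset.sum_congr rfl this, Finset.sum_const, Finset.card_range, nsmul_eq_mul, mul_one]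
    rw [h4] at h3
    exact hrk h3
  have ho : orderOf (Units.map (π : A →* k) ζ) = r := orderOf_eq_prime hpow' hne
  have := IsPrimitiveRoot.orderOf (Units.map (π : A →* k) ζ)
  rwa [ho] at this

/-- **(OA4)(ii), reduction of the Hecke norm.** For `f ∈ O_∞` (level `M p`) and a prime `r ∤ M`,
`(r : k) ≠ 0`: `N f = Nm_{α_r}(β_r f)` lies in `O_∞` and
`red(N f)(t^r) = f̄(t^{r²}) · ∏_{b < r} f̄(ζ̄^b t)`, `f̄ = red_∞ f`. -/
theorem qExpand_redInf_norm (h : BadSetup A π M p) (r : ℕ) [NeZero r] (hr : r.Prime)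
    (hrk : (r : k) ≠ 0) (hrM : ¬ r ∣ M) (hsurj : Function.Surjective π)
    {W' : laurentBaseChange L (modularFunctionFieldFull (M * p * r)) ≃ₐ[L]
      laurentBaseChange L (modularFunctionFieldFull (M * p * r))} (hW' : IsAL (M * p) r W')
    (ζ : Aˣ) (hζ : IsPrimitiveRoot (Units.map (A.subtype : A →* L) ζ) r)
    (f : laurentBaseChange L (modularFunctionFieldFull (M * p))) (hf : f ∈ OInf h) :
    ∃ hN : normAlong (heckeAlphaBar L (M * p) r) (heckeBetaBar L (M * p) r f) ∈ OInf h,
      qExpand k r ((redInf h ⟨_, hN⟩ : modularFunctionFieldFullC k M) : LaurentSeries k) =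
        qExpand k r (qExpand k r
          ((redInf h ⟨f, hf⟩ : modularFunctionFieldFullC k M) : LaurentSeries k)) *
          ∏ b ∈ Finset.range r, rot (Units.map (π : A →* k) ζ ^ b)
            ((redInf h ⟨f, hf⟩ : modularFunctionFieldFullC k M) : LaurentSeries k) := by
  have hrp : r ≠ p := by
    rintro rfl
    exact hrk h.hℓk
  have hrN : ¬ r ∣ M * p := by
    intro hd
    rcases (Nat.Prime.dvd_mul hr).mp hd with h1 | h1
    · exact hrM h1
    · exact hrp ((Nat.prime_dvd_prime_iff_eq hr h.hℓ).mp h1)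
  have hβ : heckeBetaBar L (M * p) r f ∈ OInfR h r hrk := beta_mem_OInfR h r hrk f hf
  have hN : normAlong (heckeAlphaBar L (M * p) r) (heckeBetaBar L (M * p) r f) ∈ OInf h :=
    norm_alpha_mem_OInf h r hrk hr hsurj ⟨_, hβ⟩
  refine ⟨hN, ?_⟩
  have r1 : RedTo A π (f : LaurentSeries L)
      ((redInf h ⟨f, hf⟩ : modularFunctionFieldFullC k M) : LaurentSeries k) := ⟨hf, rfl⟩
  have r3 : ∀ b ∈ Finset.range r, RedTo A π
      (rot (Units.map (A.subtype : A →* L) ζ ^ b) (f : LaurentSeries L))
      (rot (Units.map (π : A →* k) ζ ^ b)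
        ((redInf h ⟨f, hf⟩ : modularFunctionFieldFullC k M) : LaurentSeries k)) := by
    intro b _
    have h1 := r1.rot (ζ ^ b)
    rw [map_pow, map_pow] at h1
    exact h1
  have r4 := ((r1.qExpand r).qExpand r).mul (RedTo.prod (Finset.range r) _ _ r3)
  rw [← qExpand_normHecke hr hrN hW' _ hζ f] at r4
  have r5 : RedTo A π
      (qExpand L r ((normAlong (heckeAlphaBar L (M * p) r) (heckeBetaBar L (M * p) r f) :
        laurentBaseChange L (modularFunctionFieldFull (M * p))) : LaurentSeries L))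
      (qExpand k r ((redInf h ⟨_, hN⟩ : modularFunctionFieldFullC k M) : LaurentSeries k)) :=
    (show RedTo A π _ _ from ⟨hN, rfl⟩).qExpand r
  exact r5.unique r4

/-- **(OA4)(ii), packaged.** Over a field `L` containing a primitive `r`-th root of unity: there
is a primitive `r`-th root of unity `ζ` of `k` such that, for every `f ∈ O_∞`, `N f ∈ O_∞` and
`red(N f)(t^r) = f̄(t^{r²}) · ∏_{b < r} f̄(ζ^b t)`. -/
theorem exists_qExpand_redInf_norm (h : BadSetup A π M p) (r : ℕ) [NeZero r] (hr : r.Prime)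
    (hrk : (r : k) ≠ 0) (hrM : ¬ r ∣ M) (hsurj : Function.Surjective π)
    (hroot : ∃ ζ : Lˣ, IsPrimitiveRoot ζ r) :
    ∃ ζ : kˣ, IsPrimitiveRoot ζ r ∧
      ∀ (f : laurentBaseChange L (modularFunctionFieldFull (M * p))) (hf : f ∈ OInf h),
        ∃ hN : normAlong (heckeAlphaBar L (M * p) r) (heckeBetaBar L (M * p) r f) ∈ OInf h,
          qExpand k r ((redInf h ⟨_, hN⟩ : modularFunctionFieldFullC k M) : LaurentSeries k) =
            qExpand k r (qExpand k r
              ((redInf h ⟨f, hf⟩ : modularFunctionFieldFullC k M) : LaurentSeries k)) *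
              ∏ b ∈ Finset.range r, rot (ζ ^ b)
                ((redInf h ⟨f, hf⟩ : modularFunctionFieldFullC k M) : LaurentSeries k) := by
  obtain ⟨ζL, hζL⟩ := hroot
  have hrp : r ≠ p := by
    rintro rfl
    exact hrk h.hℓk
  have hrN : ¬ r ∣ M * p := by
    intro hd
    rcases (Nat.Prime.dvd_mul hr).mp hd with h1 | h1
    · exact hrM h1
    · exact hrp ((Nat.prime_dvd_prime_iff_eq hr h.hℓ).mp h1)
  obtain ⟨W', hW'⟩ := exists_isAL (L := L) (M * p) r hr hrN ζL hζL
  obtain ⟨ζA, hζA⟩ := exists_unit_of_pow_eq_one A ζL hr.pos hζL.pow_eq_one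
  have hζ : IsPrimitiveRoot (Units.map (A.subtype : A →* L) ζA) r := by rw [hζA]; exact hζL
  exact ⟨Units.map (π : A →* k) ζA, isPrimitiveRoot_residue ζA hr hζ hrk,
    fun f hf => qExpand_redInf_norm h r hr hrk hrM hsurj hW' ζA hζ f hf⟩

/-- **(OA4)(ii), packaged, algebraically closed coefficient field** (e.g. `L = ℚ̄`). -/
theorem exists_qExpand_redInf_norm_of_isAlgClosed [IsAlgClosed L] (h : BadSetup A π M p) (r : ℕ)
    [NeZero r] (hr : r.Prime) (hrk : (r : k) ≠ 0) (hrM : ¬ r ∣ M)
    (hsurj : Function.Surjective π) :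
    ∃ ζ : kˣ, IsPrimitiveRoot ζ r ∧
      ∀ (f : laurentBaseChange L (modularFunctionFieldFull (M * p))) (hf : f ∈ OInf h),
        ∃ hN : normAlong (heckeAlphaBar L (M * p) r) (heckeBetaBar L (M * p) r f) ∈ OInf h,
          qExpand k r ((redInf h ⟨_, hN⟩ : modularFunctionFieldFullC k M) : LaurentSeries k) =
            qExpand k r (qExpand k r
              ((redInf h ⟨f, hf⟩ : modularFunctionFieldFullC k M) : LaurentSeries k)) *
              ∏ b ∈ Finset.range r, rot (ζ ^ b)
                ((redInf h ⟨f, hf⟩ : modularFunctionFieldFullC k M) : LaurentSeries k) := by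
  haveI : CharZero L := algebraRat.charZero L
  haveI : NeZero (r : L) := ⟨Nat.cast_ne_zero.mpr hr.ne_zero⟩
  obtain ⟨ζ, hζ⟩ := HasEnoughRootsOfUnity.exists_primitiveRoot L r
  have hu : IsUnit ζ := hζ.isUnit hr.ne_zero
  refine exists_qExpand_redInf_norm h r hr hrk hrM hsurj ⟨hu.unit, ?_⟩
  exact IsPrimitiveRoot.coe_units_iff.mp (by rw [IsUnit.unit_spec]; exact hζ)

end Bad

end Fermat.Agent.TR.Hecke.QNormRed
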