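import Mathlib
import Fermat.Agent.TR.Hecke.QNormRed
import Fermat.Agent.TR.Hecke.QHecke
import Fermat.Agent.Lib.Red.GenusGASep

/-!
# TR / Hecke side: the seam (OA4)(i) + (OA4)(ii)

For `f ∈ O_∞` (level `M p`, `BadSetup A π M p`) with `f̄ := red_∞ f ≠ 0` and a prime `r ∤ M`,
`(r : k) ≠ 0`, the reduction of the Hecke norm `N f = Nm_{α_r}(β_r f)` satisfies

* `dlog_redInf_norm` : `θ(red N f) / red N f = T_r (θ f̄ / f̄)`  (`QHecke.dlog`, `QHecke.Tl`);
* `coeff_eigen_redInf` : if `red(N f) = c · f̄^a · u^p` then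
  `g_{r n} + r · g_{n / r} = a · g_n` for `g = θ f̄ / f̄`;
* `thetaL_eq_theta`, `dlog_eq_theta_div` : the two copies of `θ = q d/dq` in the library
  (`CAR.Local.ThetaJ.thetaL`, used by `QHecke`, and `Lib.Red.GenusGA.theta`, used by
  `DlogFF`/`DlogTheta`) agree.
-/

set_option autoImplicit false
set_option linter.style.haveILetI false

noncomputable section

namespace Fermat.Agent.TR.Hecke.QNormTl

open AlgebraicCurve ModularCurve IntermediateField HahnSeries
open Fermat.Agent.S28 Fermat.Agent.S28.Chain Fermat.Agent.Lib.Red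
open Fermat.Agent.ESJ.Cong.LevelGen Fermat.Agent.BAD.TwoVal
open Fermat.Agent.ESJ.Jac.HeckeKummer Fermat.Agent.TR.Hecke.QNormRed Fermat.Agent.TR.Hecke.QHecke

/-! ### The two `θ`'s -/

section Theta

/-- The two derivations `θ = q d/dq` of the library agree. -/
theorem thetaL_eq_theta {R : Type*} [CommRing R] (f : LaurentSeries R) :
    Fermat.Agent.CAR.Local.ThetaJ.thetaL R f = Fermat.Agent.Lib.Red.GenusGA.theta R f := by
  ext n
  rfl

/-- `QHecke.dlog x = θ x / x` for the `θ` of `Lib/Red/GenusGASep`. -/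
theorem dlog_eq_theta_div {k : Type*} [Field k] (x : LaurentSeries k) :
    dlog x = Fermat.Agent.Lib.Red.GenusGA.theta k x / x := by
  rw [dlog_def, thetaL_eq_theta]

/-- If `θ x = g * x` and `x ≠ 0` then `QHecke.dlog x = g`. -/
theorem dlog_eq_of_theta_eq_mul {k : Type*} [Field k] {x g : LaurentSeries k} (hx : x ≠ 0)
    (h : Fermat.Agent.Lib.Red.GenusGA.theta k x = g * x) : dlog x = g := by
  rw [dlog_eq_theta_div, h, mul_div_assoc, div_self hx, mul_one]

end Theta

/-! ### The seam -/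

section Bad

variable {L : Type} [Field L] [Algebra ℚ L] {A : ValuationSubring L} {k : Type} [Field k]
  {π : A →+* k} {M p : ℕ} [NeZero M] [NeZero p]

/-- **`θ(red N f)/red N f = T_r(θ f̄ / f̄)`** for `f ∈ O_∞` with nonzero reduction. -/
theorem dlog_redInf_norm [IsAlgClosed L] (h : BadSetup A π M p) (r : ℕ) [NeZero r]
    (hr : r.Prime) (hrk : (r : k) ≠ 0) (hrM : ¬ r ∣ M) (hsurj : Function.Surjective π)
    (f : laurentBaseChange L (modularFunctionFieldFull (M * p))) (hf : f ∈ OInf h)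
    (hz : redInf h ⟨f, hf⟩ ≠ 0) :
    ∃ hN : normAlong (heckeAlphaBar L (M * p) r) (heckeBetaBar L (M * p) r f) ∈ OInf h,
      dlog ((redInf h ⟨_, hN⟩ : modularFunctionFieldFullC k M) : LaurentSeries k) =
        Tl r (dlog ((redInf h ⟨f, hf⟩ : modularFunctionFieldFullC k M) : LaurentSeries k)) := by
  obtain ⟨ζ, hζ, H⟩ := exists_qExpand_redInf_norm_of_isAlgClosed h r hr hrk hrM hsurj
  obtain ⟨hN, hH⟩ := H f hf
  have hz' : ((redInf h ⟨f, hf⟩ : modularFunctionFieldFullC k M) : LaurentSeries k) ≠ 0 :=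
    fun e => hz (Subtype.ext e)
  exact ⟨hN, dlog_eq_Tl hrk ζ hζ hz' hH⟩

/-- **The eigen-relation on coefficients**: if `red(N f) = c · f̄^a · u^p` (`c ≠ 0`, `u ≠ 0`) then
`g_{r n} + r · g_{n / r} = a · g_n` for `g = θ f̄ / f̄`. -/
theorem coeff_eigen_redInf [IsAlgClosed L] (h : BadSetup A π M p) (r : ℕ) [NeZero r]
    (hr : r.Prime) (hrk : (r : k) ≠ 0) (hrM : ¬ r ∣ M) (hsurj : Function.Surjective π)
    (f : laurentBaseChange L (modularFunctionFieldFull (M * p))) (hf : f ∈ OInf h)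
    (hz : redInf h ⟨f, hf⟩ ≠ 0) {a : ℤ} {c : k} {u : LaurentSeries k} (hc : c ≠ 0) (hu : u ≠ 0)
    (hrel : ∀ hN : normAlong (heckeAlphaBar L (M * p) r) (heckeBetaBar L (M * p) r f) ∈ OInf h,
      ((redInf h ⟨_, hN⟩ : modularFunctionFieldFullC k M) : LaurentSeries k) =
        HahnSeries.C c *
          ((redInf h ⟨f, hf⟩ : modularFunctionFieldFullC k M) : LaurentSeries k) ^ a * u ^ p)
    (n : ℤ) :
    (dlog ((redInf h ⟨f, hf⟩ : modularFunctionFieldFullC k M) : LaurentSeries k)).coeff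
        ((r : ℤ) * n) +
      (r : k) * (if (r : ℤ) ∣ n then
        (dlog ((redInf h ⟨f, hf⟩ : modularFunctionFieldFullC k M) : LaurentSeries k)).coeff
          (n / (r : ℤ)) else 0) =
      (a : k) *
        (dlog ((redInf h ⟨f, hf⟩ : modularFunctionFieldFullC k M) : LaurentSeries k)).coeff n := by
  haveI : CharP k p := h.charP
  obtain ⟨ζ, hζ, H⟩ := exists_qExpand_redInf_norm_of_isAlgClosed h r hr hrk hrM hsurj
  obtain ⟨hN, hH⟩ := H f hf
  have hz' : ((redInf h ⟨f, hf⟩ : modularFunctionFieldFullC k M) : LaurentSeries k) ≠ 0 :=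
    fun e => hz (Subtype.ext e)
  exact coeff_eigen hrk ζ hζ p hz' hH hc hu (hrel hN) n

end Bad

end Fermat.Agent.TR.Hecke.QNormTl
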