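import Mathlib
import Fermat.Agent.TR.Hecke.QNormTl

/-!
# TR / Hecke side, (PF) = (OA4)(ii) in the literal shapes of ruling H#3

`h : BadSetup A π M p`, `ℓ ∤ M` prime with `(ℓ : k) ≠ 0`, `f ∈ O_∞` (level `M p`),
`N f := Nm_{α_ℓ}(β_ℓ f)` (written with `Algebra.norm` for `algebraAlong (heckeAlphaBar L (M*p) ℓ)`).

* `norm_mem_OInf` : `N f ∈ O_∞`;
* `qExpand_redInf_norm_sq` : **(PF)** `red(N f)(t^ℓ) = f̄(t^(ℓ·ℓ)) · ∏_{b<ℓ} f̄(ζ̄^b t)`
  with `qExpand k (ℓ * ℓ)`;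
* `thetaLog_redInf_norm` : the composite with (OA4)(i), in coefficient form, for
  `θ = Lib.Red.GenusGA.thetaFun`:
  `(θ H / H)_n = (θ z / z)_{ℓ n} + ℓ · (θ z / z)_{n/ℓ}`, `z = red f`, `H = red (N f)`;
* `thetaLog_eigen_redInf` : if moreover `H = c · z^a · u^p`, then
  `(θ z / z)_{ℓ n} + ℓ · (θ z / z)_{n/ℓ} = a · (θ z / z)_n`.
-/

set_option autoImplicit false
set_option linter.style.haveILetI false

noncomputable section

namespace Fermat.Agent.TR.Hecke.NormQ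

open AlgebraicCurve ModularCurve IntermediateField HahnSeries
open Fermat.Agent.S28 Fermat.Agent.S28.Chain Fermat.Agent.Lib.Red
open Fermat.Agent.ESJ.Cong.LevelGen Fermat.Agent.BAD.TwoVal
open Fermat.Agent.ESJ.Jac.HeckeKummer Fermat.Agent.TR.Hecke.QNormRed Fermat.Agent.TR.Hecke.QHecke
open Fermat.Agent.TR.Hecke.QNormTl Fermat.Agent.Lib.Red.GenusGA

variable {L : Type} [Field L] [Algebra ℚ L] {A : ValuationSubring L} {k : Type} [Field k]
  {π : A →+* k} {M p : ℕ} [NeZero M] [NeZero p]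

/-- `N f = Nm_{α_ℓ}(β_ℓ f) ∈ O_∞` for `f ∈ O_∞`. -/
theorem norm_mem_OInf (h : BadSetup A π M p) (ℓ : ℕ) [NeZero ℓ] (hℓ : ℓ.Prime)
    (hℓk : (ℓ : k) ≠ 0) (hsurj : Function.Surjective π)
    (f : laurentBaseChange L (modularFunctionFieldFull (M * p))) (hf : f ∈ OInf h) :
    (letI := algebraAlong (heckeAlphaBar L (M * p) ℓ);
      Algebra.norm (laurentBaseChange L (modularFunctionFieldFull (M * p)))
        (heckeBetaBar L (M * p) ℓ f)) ∈ OInf h :=
  Fermat.Agent.TR.Hecke.NormOrd.norm_alpha_mem_OInf h ℓ hℓk hℓ hsurj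
    ⟨_, Fermat.Agent.TR.Hecke.NormOrd.beta_mem_OInfR h ℓ hℓk f hf⟩

/-- **(PF)**, ruling H#3 literal: there is a primitive `ℓ`-th root of unity `ζ̄` of `k` with
`red(N f)(t^ℓ) = f̄(t^(ℓ·ℓ)) · ∏_{b<ℓ} f̄(ζ̄^b t)` for every `f ∈ O_∞`. -/
theorem qExpand_redInf_norm_sq [IsAlgClosed L] (h : BadSetup A π M p) (ℓ : ℕ) [NeZero ℓ]
    (hℓ : ℓ.Prime) (hℓk : (ℓ : k) ≠ 0) (hℓM : ¬ ℓ ∣ M) (hsurj : Function.Surjective π) :
    ∃ ζ : kˣ, IsPrimitiveRoot ζ ℓ ∧
      ∀ (f : laurentBaseChange L (modularFunctionFieldFull (M * p))) (hf : f ∈ OInf h),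
        qExpand k ℓ ((redInf h ⟨_, norm_mem_OInf h ℓ hℓ hℓk hsurj f hf⟩ :
            modularFunctionFieldFullC k M) : LaurentSeries k) =
          qExpand k (ℓ * ℓ)
            ((redInf h ⟨f, hf⟩ : modularFunctionFieldFullC k M) : LaurentSeries k) *
            ∏ b ∈ Finset.range ℓ, rot (ζ ^ b)
              ((redInf h ⟨f, hf⟩ : modularFunctionFieldFullC k M) : LaurentSeries k) := by
  obtain ⟨ζ, hζ, H⟩ := exists_qExpand_redInf_norm_of_isAlgClosed h ℓ hℓ hℓk hℓM hsurj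
  refine ⟨ζ, hζ, fun f hf => ?_⟩
  obtain ⟨hN, hH⟩ := H f hf
  rw [← qExpand_qExpand]
  exact hH

/-- **(OA4)(i) ∘ (PF)**, coefficient form for `θ = Lib.Red.GenusGA.thetaFun`: with `z = red f ≠ 0`
and `H = red (N f)`:  `(θ H / H)_n = (θ z / z)_{ℓ n} + ℓ · (θ z / z)_{n / ℓ}`. -/
theorem thetaLog_redInf_norm [IsAlgClosed L] (h : BadSetup A π M p) (ℓ : ℕ) [NeZero ℓ]
    (hℓ : ℓ.Prime) (hℓk : (ℓ : k) ≠ 0) (hℓM : ¬ ℓ ∣ M) (hsurj : Function.Surjective π)
    (f : laurentBaseChange L (modularFunctionFieldFull (M * p))) (hf : f ∈ OInf h)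
    (hz : redInf h ⟨f, hf⟩ ≠ 0) (n : ℤ) :
    (thetaFun k ((redInf h ⟨_, norm_mem_OInf h ℓ hℓ hℓk hsurj f hf⟩ :
          modularFunctionFieldFullC k M) : LaurentSeries k) /
        ((redInf h ⟨_, norm_mem_OInf h ℓ hℓ hℓk hsurj f hf⟩ :
          modularFunctionFieldFullC k M) : LaurentSeries k)).coeff n =
      (thetaFun k ((redInf h ⟨f, hf⟩ : modularFunctionFieldFullC k M) : LaurentSeries k) /
          ((redInf h ⟨f, hf⟩ : modularFunctionFieldFullC k M) : LaurentSeries k)).coeff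
            ((ℓ : ℤ) * n) +
        (ℓ : k) * (if (ℓ : ℤ) ∣ n then
          (thetaFun k ((redInf h ⟨f, hf⟩ : modularFunctionFieldFullC k M) : LaurentSeries k) /
            ((redInf h ⟨f, hf⟩ : modularFunctionFieldFullC k M) : LaurentSeries k)).coeff
              (n / (ℓ : ℤ)) else 0) := by
  obtain ⟨hN, hd⟩ := dlog_redInf_norm h ℓ hℓ hℓk hℓM hsurj f hf hz
  have e1 := dlog_eq_theta_div
    ((redInf h ⟨_, hN⟩ : modularFunctionFieldFullC k M) : LaurentSeries k)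
  have e2 := dlog_eq_theta_div
    ((redInf h ⟨f, hf⟩ : modularFunctionFieldFullC k M) : LaurentSeries k)
  rw [theta_apply] at e1 e2
  have key : (thetaFun k ((redInf h ⟨_, hN⟩ : modularFunctionFieldFullC k M) : LaurentSeries k) /
        ((redInf h ⟨_, hN⟩ : modularFunctionFieldFullC k M) : LaurentSeries k)).coeff n =
      (thetaFun k ((redInf h ⟨f, hf⟩ : modularFunctionFieldFullC k M) : LaurentSeries k) /
          ((redInf h ⟨f, hf⟩ : modularFunctionFieldFullC k M) : LaurentSeries k)).coeff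
            ((ℓ : ℤ) * n) +
        (ℓ : k) * (if (ℓ : ℤ) ∣ n then
          (thetaFun k ((redInf h ⟨f, hf⟩ : modularFunctionFieldFullC k M) : LaurentSeries k) /
            ((redInf h ⟨f, hf⟩ : modularFunctionFieldFullC k M) : LaurentSeries k)).coeff
              (n / (ℓ : ℤ)) else 0) := by
    rw [← e1, ← e2, hd, coeff_Tl]
  exact key

/-- **The eigen-relation**, coefficient form for `θ = Lib.Red.GenusGA.thetaFun`: if
`red(N f) = c · z^a · u^p` (`z = red f ≠ 0`, `c ≠ 0`, `u ≠ 0`), then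
`(θ z / z)_{ℓ n} + ℓ · (θ z / z)_{n / ℓ} = a · (θ z / z)_n`. -/
theorem thetaLog_eigen_redInf [IsAlgClosed L] (h : BadSetup A π M p) (ℓ : ℕ) [NeZero ℓ]
    (hℓ : ℓ.Prime) (hℓk : (ℓ : k) ≠ 0) (hℓM : ¬ ℓ ∣ M) (hsurj : Function.Surjective π)
    (f : laurentBaseChange L (modularFunctionFieldFull (M * p))) (hf : f ∈ OInf h)
    (hz : redInf h ⟨f, hf⟩ ≠ 0) {a : ℤ} {c : k} {u : LaurentSeries k} (hc : c ≠ 0) (hu : u ≠ 0)
    (hrel : ((redInf h ⟨_, norm_mem_OInf h ℓ hℓ hℓk hsurj f hf⟩ :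
        modularFunctionFieldFullC k M) : LaurentSeries k) =
      HahnSeries.C c *
        ((redInf h ⟨f, hf⟩ : modularFunctionFieldFullC k M) : LaurentSeries k) ^ a * u ^ p)
    (n : ℤ) :
    (thetaFun k ((redInf h ⟨f, hf⟩ : modularFunctionFieldFullC k M) : LaurentSeries k) /
        ((redInf h ⟨f, hf⟩ : modularFunctionFieldFullC k M) : LaurentSeries k)).coeff
          ((ℓ : ℤ) * n) +
      (ℓ : k) * (if (ℓ : ℤ) ∣ n then
        (thetaFun k ((redInf h ⟨f, hf⟩ : modularFunctionFieldFullC k M) : LaurentSeries k) /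
          ((redInf h ⟨f, hf⟩ : modularFunctionFieldFullC k M) : LaurentSeries k)).coeff
            (n / (ℓ : ℤ)) else 0) =
      (a : k) *
        (thetaFun k ((redInf h ⟨f, hf⟩ : modularFunctionFieldFullC k M) : LaurentSeries k) /
          ((redInf h ⟨f, hf⟩ : modularFunctionFieldFullC k M) : LaurentSeries k)).coeff n := by
  have e2 := dlog_eq_theta_div
    ((redInf h ⟨f, hf⟩ : modularFunctionFieldFullC k M) : LaurentSeries k)
  rw [theta_apply] at e2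
  rw [← e2]
  exact coeff_eigen_redInf h ℓ hℓ hℓk hℓM hsurj f hf hz hc hu (fun _ => hrel) n

end Fermat.Agent.TR.Hecke.NormQ
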