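import Mathlib
import Fermat.Agent.TR.Hecke.NormQ
import Fermat.Agent.ESJ.Jac.Const
import Fermat.Agent.S24.DegTop

/-!
# TR / Hecke side, brick (HK): the reduced Kummer function of a Hecke eigenclass

`h : BadSetup A π M p` over `ℚ̄`, `ℓ ∤ M` prime with `(ℓ : k) ≠ 0`.  Let `x ∈ J₀(M p)` have a
Kummer function `f` (`IsKummerPair p x f`) in `O_∞` with nonzero reduction, and assume
`T_ℓ x = a • x` (`a : ℤ`).  With `N f := Nm_{α_ℓ}(β_ℓ f)`:

* `kummer_hecke_red` : **(HK)** `N f ∈ O_∞` and `red (N f) = c₀ · (red f)^a · u^p` in `κ_M`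
  (`c₀ ∈ kˣ`, `u ∈ κ_Mˣ`);
* `heig_of_kummer` : the same in the shape of the hypothesis `heig` of `OldA.oldA`, joined with
  the product formula (PF): there are a primitive `ℓ`-th root of unity `ζ` of `k` and `q`-series
  `H`, `u` with `H(q^ℓ) = z(q^(ℓ·ℓ)) · ∏_{b<ℓ} z(ζ^b q)` and `H = c₀ · z^a · u^p`, `z = red f`.

Auxiliary: `isKummerPair_zsmul`, `zpow_mem_OInf`, `redInf_inv`, `redInf_zpow`.
-/

set_option autoImplicit false
set_option linter.style.haveILetI false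

noncomputable section

namespace Fermat.Agent.TR.Hecke.HeigOf

open AlgebraicCurve ModularCurve IntermediateField HahnSeries
open Fermat.Agent.S28 Fermat.Agent.S28.Chain Fermat.Agent.Lib.Red
open Fermat.Agent.ESJ.Cong.LevelGen Fermat.Agent.BAD.TwoVal
open Fermat.Agent.ESJ.Jac Fermat.Agent.ESJ.Jac.HeckeKummer

local notation "Qb" => AlgebraicClosure ℚ

/-! ### Integer multiples of Kummer pairs -/

section generic

variable {K F : Type*} [Field K] [Field F] [Algebra K F]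

/-- `f ^ a` is a Kummer function of `a • x` (`a : ℤ`). -/
theorem isKummerPair_zsmul {n : ℕ} {x : Pic0 K F} {f : F} (h : IsKummerPair n x f) (a : ℤ) :
    IsKummerPair n (a • x) (f ^ a) := by
  obtain ⟨m, rfl | rfl⟩ := Int.eq_nat_or_neg a
  · rw [natCast_zsmul, zpow_natCast]
    exact h.nsmul m
  · rw [neg_zsmul, natCast_zsmul, zpow_neg, zpow_natCast]
    exact (h.nsmul m).neg

end generic

/-! ### Integer powers of units of `O_∞` -/

section units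

variable {L : Type} [Field L] [Algebra ℚ L] {A : ValuationSubring L} {k : Type} [Field k]
  {π : A →+* k} {M p : ℕ} [NeZero M] [NeZero p]

theorem redInf_inv (h : BadSetup A π M p)
    (f : laurentBaseChange L (modularFunctionFieldFull (M * p))) (hf : f ∈ OInf h)
    (hz : redInf h ⟨f, hf⟩ ≠ 0) :
    redInf h ⟨f⁻¹, inv_mem_OInf h f hf hz⟩ = (redInf h ⟨f, hf⟩)⁻¹ := by
  have hf0 : f ≠ 0 := by
    rintro rfl
    exact hz (map_zero (redInf h))
  have e : (⟨f, hf⟩ : OInf h) * ⟨f⁻¹, inv_mem_OInf h f hf hz⟩ = 1 :=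
    Subtype.ext (mul_inv_cancel₀ hf0)
  have e2 := congrArg (redInf h) e
  rw [map_mul, map_one] at e2
  exact eq_inv_of_mul_eq_one_right e2

theorem zpow_mem_OInf (h : BadSetup A π M p)
    (f : laurentBaseChange L (modularFunctionFieldFull (M * p))) (hf : f ∈ OInf h)
    (hz : redInf h ⟨f, hf⟩ ≠ 0) (a : ℤ) : f ^ a ∈ OInf h := by
  obtain ⟨m, rfl | rfl⟩ := Int.eq_nat_or_neg a
  · rw [zpow_natCast]
    exact pow_mem hf m
  · rw [zpow_neg, zpow_natCast, ← inv_pow]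
    exact pow_mem (inv_mem_OInf h f hf hz) m

theorem redInf_zpow (h : BadSetup A π M p)
    (f : laurentBaseChange L (modularFunctionFieldFull (M * p))) (hf : f ∈ OInf h)
    (hz : redInf h ⟨f, hf⟩ ≠ 0) (a : ℤ) :
    redInf h ⟨f ^ a, zpow_mem_OInf h f hf hz a⟩ = (redInf h ⟨f, hf⟩) ^ a := by
  obtain ⟨m, rfl | rfl⟩ := Int.eq_nat_or_neg a
  · have e : (⟨f ^ ((m : ℕ) : ℤ), zpow_mem_OInf h f hf hz m⟩ : OInf h) = ⟨f, hf⟩ ^ m :=
      Subtype.ext (by simp)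
    rw [e, map_pow, zpow_natCast]
  · have e : (⟨f ^ (-((m : ℕ) : ℤ)), zpow_mem_OInf h f hf hz _⟩ : OInf h) =
        ⟨f⁻¹, inv_mem_OInf h f hf hz⟩ ^ m :=
      Subtype.ext (by simp)
    rw [e, map_pow, redInf_inv h f hf hz, zpow_neg, zpow_natCast, inv_pow]

end units

/-! ### (HK) -/

section HK

theorem coe_zpow' {K E : Type*} [Field K] [Field E] [Algebra K E] (S : IntermediateField K E)
    (x : S) (n : ℤ) : ((x ^ n : S) : E) = (x : E) ^ n := by
  obtain ⟨m, rfl | rfl⟩ := Int.eq_nat_or_neg n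
  · rw [zpow_natCast, zpow_natCast, IntermediateField.coe_pow]
  · rw [zpow_neg, zpow_neg, zpow_natCast, zpow_natCast, IntermediateField.coe_inv,
      IntermediateField.coe_pow]

variable {A : ValuationSubring Qb} {k : Type} [Field k] {π : A →+* k} {M p : ℕ} [NeZero M]
  [NeZero p]

/-- The reduction of the Hecke norm of a function with nonzero reduction is nonzero. -/
theorem redInf_norm_ne_zero (h : BadSetup A π M p) (ℓ : ℕ) [NeZero ℓ] (hℓ : ℓ.Prime)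
    (hℓk : (ℓ : k) ≠ 0) (hℓM : ¬ ℓ ∣ M) (hsurj : Function.Surjective π)
    (f : laurentBaseChange Qb (modularFunctionFieldFull (M * p))) (hf : f ∈ OInf h)
    (hz : redInf h ⟨f, hf⟩ ≠ 0)
    (hN : normAlong (heckeAlphaBar Qb (M * p) ℓ) (heckeBetaBar Qb (M * p) ℓ f) ∈ OInf h) :
    redInf h ⟨_, hN⟩ ≠ 0 := by
  obtain ⟨ζ, -, HPF⟩ :=
    QNormRed.exists_qExpand_redInf_norm_of_isAlgClosed h ℓ hℓ hℓk hℓM hsurj
  obtain ⟨hN', hH⟩ := HPF f hf
  intro h0
  have hz' : ((redInf h ⟨f, hf⟩ : modularFunctionFieldFullC k M) : LaurentSeries k) ≠ 0 :=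
    fun h1 => hz (Subtype.ext h1)
  have h0' : ((redInf h ⟨_, hN'⟩ : modularFunctionFieldFullC k M) : LaurentSeries k) = 0 := by
    rw [h0]
    rfl
  rw [h0', map_zero] at hH
  have h1 : qExpand k ℓ (qExpand k ℓ
      ((redInf h ⟨f, hf⟩ : modularFunctionFieldFullC k M) : LaurentSeries k)) ≠ 0 :=
    (map_ne_zero _).mpr ((map_ne_zero _).mpr hz')
  have h2 : ∏ b ∈ Finset.range ℓ, rot (ζ ^ b)
      ((redInf h ⟨f, hf⟩ : modularFunctionFieldFullC k M) : LaurentSeries k) ≠ 0 :=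
    Finset.prod_ne_zero_iff.mpr fun b _ => (map_ne_zero _).mpr hz'
  exact mul_ne_zero h1 h2 hH.symm

/-- **(HK)**: if `f` is a Kummer function of `x` in `O_∞` with nonzero reduction and
`T_ℓ x = a • x`, then `N f = Nm_{α_ℓ}(β_ℓ f)` lies in `O_∞` and
`red (N f) = c₀ · (red f)^a · u^p` with `c₀ ∈ kˣ` and `u ∈ κ_Mˣ`. -/
theorem kummer_hecke_red (h : BadSetup A π M p) (ℓ : ℕ) [NeZero ℓ] (hℓ : ℓ.Prime)
    (hℓk : (ℓ : k) ≠ 0) (hℓM : ¬ ℓ ∣ M) (hsurj : Function.Surjective π)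
    {x : JZero (M * p)} {f : laurentBaseChange Qb (modularFunctionFieldFull (M * p))}
    (hk : IsKummerPair p x f) (hf : f ∈ OInf h) (hz : redInf h ⟨f, hf⟩ ≠ 0) {a : ℤ}
    (hT : heckeOperatorBar (M * p) ⟨ℓ, hℓ⟩ x = a • x) :
    ∃ (hN : normAlong (heckeAlphaBar Qb (M * p) ℓ) (heckeBetaBar Qb (M * p) ℓ f) ∈ OInf h)
      (c₀ : k) (u : modularFunctionFieldFullC k M), c₀ ≠ 0 ∧ u ≠ 0 ∧
      redInf h ⟨_, hN⟩ =
        algebraMap k (modularFunctionFieldFullC k M) c₀ * (redInf h ⟨f, hf⟩) ^ a * u ^ p := by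
  classical
  have hN : normAlong (heckeAlphaBar Qb (M * p) ℓ) (heckeBetaBar Qb (M * p) ℓ f) ∈ OInf h :=
    NormQ.norm_mem_OInf h ℓ hℓ hℓk hsurj f hf
  have hNz := redInf_norm_ne_zero h ℓ hℓ hℓk hℓM hsurj f hf hz hN
  -- the two Kummer functions of `a • x`
  have hkN : IsKummerPair p (a • x)
      (normAlong (heckeAlphaBar Qb (M * p) ℓ) (heckeBetaBar Qb (M * p) ℓ f)) := by
    rw [← hT]
    exact isKummerPair_heckeOperatorBar (M * p) ⟨ℓ, hℓ⟩ hk
  have hka : IsKummerPair p (a • x) (f ^ a) := isKummerPair_zsmul hk a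
  obtain ⟨c, g, hc0, hg0, hc, hNf⟩ := hka.exists_eq_mul_pow hkN
  -- `c` is a constant
  haveI := Fermat.Agent.S24.finiteDimensional_jBar (M * p)
  obtain ⟨c', hc'0, rfl⟩ :=
    Const.exists_eq_algebraMap_of_forall_ord_eq_zero (Fermat.Agent.S24.jBar (M * p)) hc0 hc
  -- normalise `g`
  obtain ⟨a₁, ha₁, hm₁, hne₁⟩ := exists_scaling_OInf h g hg0
  have ha₁F : algebraMap Qb ↥(laurentBaseChange Qb (modularFunctionFieldFull (M * p))) a₁ ≠ 0 :=
    (map_ne_zero _).2 ha₁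
  have hfa : f ^ a ∈ OInf h := zpow_mem_OInf h f hf hz a
  have hfa' : f ^ (-a) ∈ OInf h := zpow_mem_OInf h f hf hz (-a)
  have hg₁inv := inv_mem_OInf h _ hm₁ hne₁
  have hf0 : f ≠ 0 := hk.ne_zero
  -- the constant `e = c' / a₁ ^ p`
  have hid : algebraMap Qb ↥(laurentBaseChange Qb (modularFunctionFieldFull (M * p)))
        (c' / a₁ ^ p) =
      normAlong (heckeAlphaBar Qb (M * p) ℓ) (heckeBetaBar Qb (M * p) ℓ f) * f ^ (-a) *
        ((algebraMap Qb ↥(laurentBaseChange Qb (modularFunctionFieldFull (M * p))) a₁ * g)⁻¹)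
          ^ p := by
    rw [hNf, map_div₀, map_pow, zpow_neg, inv_pow, mul_pow]
    have hfa0 : f ^ a ≠ 0 := zpow_ne_zero a hf0
    have hgp : g ^ p ≠ 0 := pow_ne_zero p hg0
    field_simp
  have heA : algebraMap Qb ↥(laurentBaseChange Qb (modularFunctionFieldFull (M * p)))
      (c' / a₁ ^ p) ∈ OInf h := by
    rw [hid]
    exact mul_mem (mul_mem hN hfa') (pow_mem hg₁inv p)
  have he : c' / a₁ ^ p ∈ A := (algebraMap_mem_OInf_iff h _).mp heA
  have hfact : (⟨_, hN⟩ : OInf h) =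
      ⟨_, heA⟩ * ⟨f ^ a, hfa⟩ * (⟨_, hm₁⟩ : OInf h) ^ p := by
    refine Subtype.ext ?_
    show normAlong (heckeAlphaBar Qb (M * p) ℓ) (heckeBetaBar Qb (M * p) ℓ f) =
      algebraMap Qb ↥(laurentBaseChange Qb (modularFunctionFieldFull (M * p))) (c' / a₁ ^ p) *
        f ^ a *
        (algebraMap Qb ↥(laurentBaseChange Qb (modularFunctionFieldFull (M * p))) a₁ * g) ^ p
    rw [hNf, map_div₀, map_pow, mul_pow]
    field_simp
  have hred : redInf h ⟨_, hN⟩ =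
      algebraMap k (modularFunctionFieldFullC k M) (π ⟨_, he⟩) * (redInf h ⟨f, hf⟩) ^ a *
        (redInf h ⟨_, hm₁⟩) ^ p := by
    rw [hfact, map_mul, map_mul, map_pow, redInf_zpow h f hf hz a]
    congr 2
    exact redInf_algebraMap h ⟨_, he⟩ heA
  refine ⟨hN, π ⟨_, he⟩, redInf h ⟨_, hm₁⟩, ?_, hne₁, hred⟩
  intro h0
  rw [h0, map_zero, zero_mul, zero_mul] at hred
  exact hNz hred

/-- **(HK) + (PF)** in the shape of the hypothesis `heig` of `OldA.oldA`: for `z = red f`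
(as a `q`-series) there are a primitive `ℓ`-th root of unity `ζ` of `k`, `q`-series `H`, `u ≠ 0`
and `c₀ ≠ 0` with `H(q^ℓ) = z(q^(ℓ·ℓ)) · ∏_{b<ℓ} z(ζ^b q)` and `H = c₀ · z^a · u^p`. -/
theorem heig_of_kummer (h : BadSetup A π M p) (ℓ : ℕ) [NeZero ℓ] (hℓ : ℓ.Prime)
    (hℓk : (ℓ : k) ≠ 0) (hℓM : ¬ ℓ ∣ M) (hsurj : Function.Surjective π)
    {x : JZero (M * p)} {f : laurentBaseChange Qb (modularFunctionFieldFull (M * p))}
    (hk : IsKummerPair p x f) (hf : f ∈ OInf h) (hz : redInf h ⟨f, hf⟩ ≠ 0) {a : ℤ}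
    (hT : heckeOperatorBar (M * p) ⟨ℓ, hℓ⟩ x = a • x) :
    ∃ (ζ : kˣ) (H u : LaurentSeries k) (c0 : k), IsPrimitiveRoot ζ ℓ ∧ c0 ≠ 0 ∧ u ≠ 0 ∧
      qExpand k ℓ H =
        qExpand k (ℓ * ℓ)
            ((redInf h ⟨f, hf⟩ : modularFunctionFieldFullC k M) : LaurentSeries k) *
          ∏ b ∈ Finset.range ℓ, rot (ζ ^ b)
            ((redInf h ⟨f, hf⟩ : modularFunctionFieldFullC k M) : LaurentSeries k) ∧
      H = HahnSeries.C c0 *
          ((redInf h ⟨f, hf⟩ : modularFunctionFieldFullC k M) : LaurentSeries k) ^ a * u ^ p := by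
  obtain ⟨ζ, hζ, HPF⟩ := NormQ.qExpand_redInf_norm_sq h ℓ hℓ hℓk hℓM hsurj
  obtain ⟨hN, c₀, u, hc₀, hu, hred⟩ := kummer_hecke_red h ℓ hℓ hℓk hℓM hsurj hk hf hz hT
  refine ⟨ζ, ((redInf h ⟨_, hN⟩ : modularFunctionFieldFullC k M) : LaurentSeries k),
    (u : LaurentSeries k), c₀, hζ, hc₀, fun h0 => hu (Subtype.ext h0), HPF f hf, ?_⟩
  have hC : ((algebraMap k (modularFunctionFieldFullC k M) c₀ : modularFunctionFieldFullC k M) :
      LaurentSeries k) = HahnSeries.C c₀ := by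
    show algebraMap k (LaurentSeries k) c₀ = _
    rw [HahnSeries.algebraMap_apply']
    exact HahnSeries.ofPowerSeries_C c₀
  rw [hred, IntermediateField.coe_mul, IntermediateField.coe_mul, IntermediateField.coe_pow,
    coe_zpow', hC]

omit [NeZero M] [NeZero p] in
/-- A prime `ℓ ≠ p` is nonzero in the residue field. -/
theorem natCast_ne_zero_of_ne (h : BadSetup A π M p) {ℓ : ℕ} (hℓ : ℓ.Prime) (hℓp : ℓ ≠ p) :
    (ℓ : k) ≠ 0 := by
  haveI := h.charP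
  intro h0
  have h1 := (CharP.cast_eq_zero_iff k p ℓ).mp h0
  exact hℓp ((Nat.prime_dvd_prime_iff_eq h.hℓ hℓ).mp h1).symm

/-- `heig_of_kummer` for all good primes at once, in the binder shape of `OldA.oldA`
(`ℓ ∤ M`, `ℓ ≠ p`; eigenvalues `a ℓ`). -/
theorem heig_of_kummer_all (h : BadSetup A π M p) (hsurj : Function.Surjective π)
    {x : JZero (M * p)} {f : laurentBaseChange Qb (modularFunctionFieldFull (M * p))}
    (hk : IsKummerPair p x f) (hf : f ∈ OInf h) (hz : redInf h ⟨f, hf⟩ ≠ 0)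
    (a : Nat.Primes → ℤ) (ℓ : ℕ) [NeZero ℓ] (hℓ : ℓ.Prime) (hℓM : ¬ ℓ ∣ M) (hℓp : ℓ ≠ p)
    (hT : heckeOperatorBar (M * p) ⟨ℓ, hℓ⟩ x = a ⟨ℓ, hℓ⟩ • x) :
    ∃ (ζ : kˣ) (H u : LaurentSeries k) (c0 : k), IsPrimitiveRoot ζ ℓ ∧ c0 ≠ 0 ∧ u ≠ 0 ∧
      qExpand k ℓ H =
        qExpand k (ℓ * ℓ)
            ((redInf h ⟨f, hf⟩ : modularFunctionFieldFullC k M) : LaurentSeries k) *
          ∏ b ∈ Finset.range ℓ, rot (ζ ^ b)
            ((redInf h ⟨f, hf⟩ : modularFunctionFieldFullC k M) : LaurentSeries k) ∧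
      H = HahnSeries.C c0 *
          ((redInf h ⟨f, hf⟩ : modularFunctionFieldFullC k M) : LaurentSeries k) ^
            (a ⟨ℓ, hℓ⟩) * u ^ p :=
  heig_of_kummer h ℓ hℓ (natCast_ne_zero_of_ne h hℓ hℓp) hℓM hsurj hk hf hz hT

end HK

end Fermat.Agent.TR.Hecke.HeigOf
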