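import Mathlib
import Fermat.Agent.S24.QExp
import Fermat.Agent.S24.QLaurent
import Fermat.Agent.Lib.Red.GenusGASep

/-!
# TR / Hecke (OA3a), part 1: the `q`-expansion of the normalised derivative

If `f : ℍ → ℂ` is globally the sum of the Laurent series `L` in `q = exp (2 π i τ)`
(`S24.QExp.HasQExp 1 f L`), then `D f = (2 π i)⁻¹ f'` (Mathlib's
`Derivative.normalizedDerivOfComplex`) is globally the sum of `θ L`, `θ = q d/dq`
(`Lib.Red.GenusGA.thetaFun`).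
-/

set_option autoImplicit false

open Filter Topology Complex
open UpperHalfPlane hiding I
open scoped Manifold Nat

noncomputable section

namespace Fermat.Agent.TR.Hecke.HolDiffTheta

open Fermat.Agent.S24 Fermat.Agent.S24.QExp Fermat.Agent.Lib.Red.GenusGA

local notation "𝕢" => Function.Periodic.qParam

theorem eball_zero_one : Metric.eball (0 : ℂ) 1 = Metric.ball 0 1 := by
  rw [← ENNReal.coe_one, Metric.eball_coe, NNReal.coe_one]

/-- Termwise differentiation of a power series on the unit disc: `q Φ'(q) = ∑ m c_m q^m`. -/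
theorem hasSum_mul_deriv {Φ : ℂ → ℂ} {c : ℕ → ℂ}
    (hΦ : HasFPowerSeriesOnBall Φ (FormalMultilinearSeries.ofScalars ℂ c) 0 1) {q : ℂ}
    (hq : ‖q‖ < 1) :
    HasSum (fun m : ℕ => (m : ℂ) * c m * q ^ m) (q * deriv Φ q) := by
  have hdiff : DifferentiableOn ℂ Φ (Metric.ball 0 1) := by
    have := hΦ.differentiableOn
    rwa [eball_zero_one] at this
  have hA : AnalyticAt ℂ Φ 0 := hΦ.analyticAt
  have h2 : HasFPowerSeriesAt Φ
      (FormalMultilinearSeries.ofScalars ℂ fun m => iteratedDeriv m Φ 0 / (m ! : ℂ)) 0 :=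
    hA.hasFPowerSeriesAt
  have hc : ∀ m, c m = iteratedDeriv m Φ 0 / (m ! : ℂ) := fun m => by
    simpa using congr_arg (FormalMultilinearSeries.coeff · m)
      (hΦ.hasFPowerSeriesAt.eq_formalMultilinearSeries h2)
  have hd' : DifferentiableOn ℂ (deriv Φ) (Metric.ball 0 1) := hdiff.deriv Metric.isOpen_ball
  have hqb : q ∈ Metric.ball (0 : ℂ) 1 := by simpa using hq
  have hT := Complex.hasSum_taylorSeries_on_ball hd' hqb
  have hT' : HasSum (fun n : ℕ => ((n + 1 : ℕ) : ℂ) * c (n + 1) * q ^ (n + 1))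
      (q * deriv Φ q) := by
    have h3 := hT.mul_left q
    have hfun : (fun n : ℕ => ((n + 1 : ℕ) : ℂ) * c (n + 1) * q ^ (n + 1))
        = fun i : ℕ => q * ((i ! : ℂ)⁻¹ • (q - 0) ^ i • iteratedDeriv i (deriv Φ) 0) := by
      funext n
      rw [hc (n + 1), ← iteratedDeriv_succ', sub_zero, smul_eq_mul, smul_eq_mul,
        Nat.factorial_succ]
      have hn : ((n ! : ℕ) : ℂ) ≠ 0 := by exact_mod_cast Nat.factorial_ne_zero n
      have hn1 : ((n + 1 : ℕ) : ℂ) ≠ 0 := by exact_mod_cast Nat.succ_ne_zero n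
      push_cast
      field_simp
      ring
    rw [hfun]
    exact h3
  have h4 := (hasSum_nat_add_iff (f := fun m : ℕ => (m : ℂ) * c m * q ^ m) 1).mp hT'
  simpa using h4

theorem natCast_mul_pow_pred (m : ℕ) (w : ℂ) : (m : ℂ) * w ^ (m - 1) * w = m * w ^ m := by
  rcases Nat.eq_zero_or_pos m with h0 | hpos
  · simp [h0]
  · rw [mul_assoc, ← pow_succ, Nat.sub_add_cancel hpos]

theorem hasDerivAt_qParam_one (z : ℂ) :
    HasDerivAt (𝕢 ((1 : ℕ) : ℝ)) (2 * Real.pi * I * 𝕢 ((1 : ℕ) : ℝ) z) z := by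
  have h1 : HasDerivAt (fun w : ℂ => 2 * Real.pi * I * w / (((1 : ℕ) : ℝ) : ℂ))
      (2 * Real.pi * I) z := by
    have := ((hasDerivAt_id z).const_mul (2 * Real.pi * I)).div_const ((((1 : ℕ) : ℝ)) : ℂ)
    simpa using this
  have h2 := h1.cexp
  have h3 : (𝕢 ((1 : ℕ) : ℝ)) = fun w : ℂ => cexp (2 * Real.pi * I * w / (((1 : ℕ) : ℝ) : ℂ)) := by
    funext w
    rfl
  rw [h3]
  refine h2.congr_deriv ?_
  ring

/-- **The `q`-expansion of the normalised derivative** is `θ` of the `q`-expansion. -/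
theorem hasQExp_normalizedDeriv {f : ℍ → ℂ} {L : LaurentSeries ℂ} (hf : HasQExp 1 f L) :
    HasQExp 1 (Derivative.normalizedDerivOfComplex f) (thetaFun ℂ L) := by
  set m : ℕ := (-L.order).toNat with hm
  have hLm : ∀ n : ℤ, n < -(m : ℤ) → L.coeff n = 0 := fun n hn =>
    HahnSeries.coeff_eq_zero_of_lt_order (by omega)
  have hLm' : ∀ n : ℤ, n < -(m : ℤ) → (thetaFun ℂ L).coeff n = 0 := fun n hn => by
    rw [thetaFun_coeff, hLm n hn, mul_zero]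
  set c : ℕ → ℂ := fun k => L.coeff ((k : ℤ) - m) with hc
  set f₀ : ℍ → ℂ := QLaurent.qPow 1 m * f with hf₀
  have hsum : ∀ τ : ℍ, HasSum (fun k : ℕ => c k • 𝕢 ((1 : ℕ) : ℝ) (τ : ℂ) ^ k) (f₀ τ) :=
    fun τ => (QLaurent.hasSum_shift_iff hLm τ (f τ)).mp (hf τ)
  have hΦ := QLaurent.hasFPowerSeriesOnBall_update_of_hasSum (QLaurent.hpos 1) hsum
  set Φ := Function.update (cuspFunction ((1 : ℕ) : ℝ) f₀) 0 (c 0) with hΦdef
  have hnorm : ∀ z : ℂ, 0 < z.im → ‖𝕢 ((1 : ℕ) : ℝ) z‖ < 1 := fun z hz =>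
    Function.Periodic.norm_qParam_lt_one (QLaurent.hpos 1) hz
  have hmem : ∀ z : ℂ, 0 < z.im → 𝕢 ((1 : ℕ) : ℝ) z ∈ Metric.eball (0 : ℂ) 1 := fun z hz => by
    rw [eball_zero_one, mem_ball_zero_iff]
    exact hnorm z hz
  have hsumΦ : ∀ w : ℂ, w ∈ Metric.eball (0 : ℂ) 1 → HasSum (fun k : ℕ => c k * w ^ k) (Φ w) := by
    intro w hw
    have h1 := hΦ.hasSum hw
    simpa [FormalMultilinearSeries.ofScalars_apply_eq, mul_comm] using h1
  have hval : ∀ τ : ℍ, Φ (𝕢 ((1 : ℕ) : ℝ) (τ : ℂ)) = f₀ τ := fun τ =>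
    (hsumΦ _ (hmem _ τ.im_pos)).unique (by simpa using hsum τ)
  intro τ
  set w : ℂ := 𝕢 ((1 : ℕ) : ℝ) (τ : ℂ) with hw
  have hw0 : w ≠ 0 := Function.Periodic.qParam_ne_zero _
  have hwm : w ^ m ≠ 0 := pow_ne_zero _ hw0
  -- the derivative
  have hev : (f ∘ ofComplex) =ᶠ[𝓝 (τ : ℂ)]
      fun z => (𝕢 ((1 : ℕ) : ℝ) z ^ m)⁻¹ * Φ (𝕢 ((1 : ℕ) : ℝ) z) := by
    filter_upwards [isOpen_upperHalfPlaneSet.mem_nhds τ.im_pos] with z hz
    have hz' : 0 < z.im := hz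
    have h1 := hval ⟨z, hz'⟩
    have h2 : f₀ ⟨z, hz'⟩ = 𝕢 ((1 : ℕ) : ℝ) z ^ m * f ⟨z, hz'⟩ := rfl
    rw [Function.comp_apply, ofComplex_apply_of_im_pos hz']
    have h3 : Φ (𝕢 ((1 : ℕ) : ℝ) z) = 𝕢 ((1 : ℕ) : ℝ) z ^ m * f ⟨z, hz'⟩ := by
      rw [← h2, ← h1]
    rw [h3, inv_mul_cancel_left₀ (pow_ne_zero _ (Function.Periodic.qParam_ne_zero _))]
  have hΦd : HasDerivAt Φ (deriv Φ w) w := by
    have hdiff : DifferentiableOn ℂ Φ (Metric.eball 0 1) := hΦ.differentiableOn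
    have hopen : IsOpen (Metric.eball (0 : ℂ) 1) := Metric.isOpen_eball
    exact (hdiff.differentiableAt (hopen.mem_nhds (hmem _ τ.im_pos))).hasDerivAt
  have hq := hasDerivAt_qParam_one (τ : ℂ)
  have hder : HasDerivAt (fun z => (𝕢 ((1 : ℕ) : ℝ) z ^ m)⁻¹ * Φ (𝕢 ((1 : ℕ) : ℝ) z))
      (2 * Real.pi * I * ((w ^ m)⁻¹ * (-(m : ℂ) * Φ w + w * deriv Φ w))) (τ : ℂ) := by
    have h1 : HasDerivAt (fun z => (𝕢 ((1 : ℕ) : ℝ) z ^ m)⁻¹)
        (-((m : ℂ) * w ^ (m - 1) * (2 * Real.pi * I * w)) / (w ^ m) ^ 2) (τ : ℂ) :=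
      (hq.pow m).inv hwm
    have h2' : HasDerivAt (Φ ∘ 𝕢 ((1 : ℕ) : ℝ)) (deriv Φ w * (2 * Real.pi * I * w))
        (τ : ℂ) := HasDerivAt.comp (τ : ℂ) hΦd hq
    have h2 : HasDerivAt (fun z => Φ (𝕢 ((1 : ℕ) : ℝ) z)) (deriv Φ w * (2 * Real.pi * I * w))
        (τ : ℂ) := h2'
    have h3 : HasDerivAt (fun z => (𝕢 ((1 : ℕ) : ℝ) z ^ m)⁻¹ * Φ (𝕢 ((1 : ℕ) : ℝ) z))
        (-((m : ℂ) * w ^ (m - 1) * (2 * Real.pi * I * w)) / (w ^ m) ^ 2 * Φ w
          + (w ^ m)⁻¹ * (deriv Φ w * (2 * Real.pi * I * w))) (τ : ℂ) := h1.mul h2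
    refine h3.congr_deriv ?_
    have hpm := natCast_mul_pow_pred m w
    have hpm' : (m : ℂ) * w ^ (m - 1) * (2 * Real.pi * I * w)
        = 2 * Real.pi * I * ((m : ℂ) * w ^ m) := by
      rw [← hpm]
      ring
    rw [hpm']
    field_simp
  have hD : Derivative.normalizedDerivOfComplex f τ
      = (w ^ m)⁻¹ * (-(m : ℂ) * Φ w + w * deriv Φ w) := by
    unfold Derivative.normalizedDerivOfComplex
    rw [(hder.congr_of_eventuallyEq hev).deriv]
    have h2pi : (2 * Real.pi * I : ℂ) ≠ 0 := by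
      simp [Real.pi_ne_zero, I_ne_zero]
    rw [inv_mul_cancel_left₀ h2pi]
  rw [(QLaurent.hasSum_shift_iff hLm' τ _)]
  have hgoal : QLaurent.qPow 1 m τ * Derivative.normalizedDerivOfComplex f τ
      = -(m : ℂ) * Φ w + w * deriv Φ w := by
    rw [hD, QLaurent.qPow_apply, ← hw, mul_inv_cancel_left₀ hwm]
  rw [hgoal]
  have hs1 := (hsumΦ w (hmem _ τ.im_pos)).mul_left (-(m : ℂ))
  have hs2 := hasSum_mul_deriv hΦ (hnorm _ τ.im_pos)
  have hs3 := hs1.add hs2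
  have hfun : (fun k : ℕ => (thetaFun ℂ L).coeff ((k : ℤ) - m) • w ^ k)
      = fun k : ℕ => -(m : ℂ) * (c k * w ^ k) + (k : ℂ) * c k * w ^ k := by
    funext k
    rw [thetaFun_coeff, smul_eq_mul]
    simp only [hc]
    push_cast
    ring
  have hs4 : HasSum (fun k : ℕ => (thetaFun ℂ L).coeff ((k : ℤ) - m) • w ^ k)
      (-(m : ℂ) * Φ w + w * deriv Φ w) := by
    rw [hfun]
    exact hs3
  exact hs4

end Fermat.Agent.TR.Hecke.HolDiffTheta
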