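import Mathlib
import Fermat.Prelude.Def_FLTPrelim_Modularity
import Fermat.Agent.ESJ.Jac.LevelOneMer
import Fermat.Agent.ESJ.Jac.Multiplier
import Fermat.Agent.ESJ.Jac.Rel
import Fermat.Agent.S24.QExpJ
import Fermat.Agent.S24.QExpCusp
import Fermat.Agent.S24.Mer
import Fermat.Agent.S24.JPt
import Fermat.Agent.Lib.LaurentDescent
import Fermat.Agent.TR.Hecke.HolDiffTheta
import Fermat.Agent.S24C.Cx
import Fermat.Agent.S24C.QExpJ
import Fermat.Prelude.Thm_CongruenceSubgroup_one_mem_strictPeriods_Gamma0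

/-!
# TR / Hecke (OA3a), part 2: `G / θJ` is an element of the function field

For a cusp form `G ∈ S₂(Γ₀(M))` whose `q`-expansion has coefficients `ι (c n)`, `c n ∈ ℚ̄`, the
Laurent series `(∑ c_n qⁿ) / θ(j)` (`θ = q d/dq`) lies in `F_M = ℚ̄(j(q^d) : d ∣ M)`.

* `thetaJ = (2πi)⁻¹ J'` is a nowhere-identically-zero holomorphic function of weight `2` for
  `SL₂(ℤ)` with `q`-expansion `θ(j)`;
* `G / thetaJ` is `Γ₀(M)`-invariant, meromorphic on `U` and at the cusps, hence a rational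
  function of the `J(dz)` (`ESJ.Jac.exists_evK_eq_of_invariant`);
* the identity of functions is an identity of `q`-expansions (`HasQExp.unique`), and
  `ℂ·F₀ ∩ ℚ̄((q)) = ℚ̄·F₀` (`Lib.LaurentDescent`).
-/

set_option autoImplicit false

open Filter Topology Complex CongruenceSubgroup ModularForm
open UpperHalfPlane hiding I
open scoped Manifold MatrixGroups

noncomputable section

namespace Fermat.Agent.TR.Hecke.HolDiff

open Fermat.Agent.S24 Fermat.Agent.S24.QExp Fermat.Agent.Lib.Red.GenusGA Fermat.Agent.ESJ.Jac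
open ModularCurve

local notation "𝕢" => Function.Periodic.qParam

/-! ### The weight-two function `θJ` -/

/-- `θJ = (2πi)⁻¹ dJ/dτ`. -/
def thetaJ : ℍ → ℂ := Derivative.normalizedDerivOfComplex Jfun

theorem mdiff_thetaJ : MDiff thetaJ :=
  Derivative.normalizedDerivOfComplex_mdifferentiable JPt.mdiff_Jfun

/-- The formal `j` over `ℂ`. -/
def jqC : LaurentSeries ℂ := coeffMap (algebraMap ℚ ℂ) jq

theorem hasQExp_thetaJ : HasQExp 1 thetaJ (thetaFun ℂ jqC) :=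
  HolDiffTheta.hasQExp_normalizedDeriv hasQExp_Jfun

theorem coeff_thetaFun_jqC_neg_one : (thetaFun ℂ jqC).coeff (-1) = -1 := by
  rw [thetaFun_coeff, jqC, coeffMap_coeff, coeff_jq_neg_one]
  simp

theorem coeff_thetaFun_jqC_of_lt {n : ℤ} (hn : n < -1) : (thetaFun ℂ jqC).coeff n = 0 := by
  rw [thetaFun_coeff, jqC, coeffMap_coeff, coeff_jq_of_lt hn]
  simp

theorem thetaFun_jqC_ne_zero : thetaFun ℂ jqC ≠ 0 := fun h => by
  have := coeff_thetaFun_jqC_neg_one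
  rw [h] at this
  simp at this

theorem order_thetaFun_jqC : (thetaFun ℂ jqC).order = -1 := by
  refine le_antisymm (HahnSeries.order_le_of_coeff_ne_zero ?_) ?_
  · rw [coeff_thetaFun_jqC_neg_one]
    norm_num
  · by_contra hlt
    push Not at hlt
    exact thetaFun_jqC_ne_zero (HahnSeries.coeff_order_eq_zero.mp (coeff_thetaFun_jqC_of_lt hlt))

theorem thetaJ_ne_zero : thetaJ ≠ 0 := fun h =>
  thetaFun_jqC_ne_zero ((hasQExp_thetaJ.eq_zero_iff).mp fun τ => by rw [h]; rfl)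

/-- `q · θJ → -1` at `i∞`. -/
theorem tendsto_q_mul_thetaJ :
    Tendsto (fun z : ℍ => 𝕢 ((1 : ℕ) : ℝ) (z : ℂ) * thetaJ z) atImInfty (𝓝 (-1)) := by
  have h := hasQExp_thetaJ.tendsto_atImInfty
  rw [order_thetaFun_jqC, coeff_thetaFun_jqC_neg_one] at h
  simpa using h

/-- `θJ` has weight two for `SL₂(ℤ)`. -/
theorem thetaJ_smul (γ : SL(2, ℤ)) (z : ℍ) : thetaJ (γ • z) = denom γ z ^ 2 * thetaJ z := by
  have hJ : (Jfun ∣[(0 : ℤ)] γ) = Jfun := by
    funext τ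
    rw [ModularForm.SL_slash_apply, JPt.Jfun_smul]
    simp
  have h := Derivative.normalizedDerivOfComplex_SL_slash (k := 0) JPt.mdiff_Jfun (γ := γ)
  rw [hJ] at h
  have h2 := congrFun h z
  simp only [Int.cast_zero, zero_mul, Pi.sub_apply, sub_zero, zero_add] at h2
  rw [ModularForm.SL_slash_apply] at h2
  have hd : denom γ z ≠ 0 := denom_ne_zero _ z
  show Derivative.normalizedDerivOfComplex Jfun (γ • z)
    = denom γ z ^ 2 * Derivative.normalizedDerivOfComplex Jfun z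
  rw [h2, zpow_neg, mul_comm (denom γ z ^ 2), mul_assoc, zpow_ofNat,
    inv_mul_cancel₀ (pow_ne_zero 2 hd), mul_one]

/-- Any function: `f (g z) = (cz + d)² (f ∣[2] g) z`. -/
theorem apply_smul_eq (f : ℍ → ℂ) (g : SL(2, ℤ)) (z : ℍ) :
    f (g • z) = denom g z ^ 2 * (f ∣[(2 : ℤ)] g) z := by
  have hd : denom g z ≠ 0 := denom_ne_zero _ z
  rw [ModularForm.SL_slash_apply, zpow_neg, zpow_ofNat, mul_comm (f (g • z)),
    mul_inv_cancel_left₀ (pow_ne_zero 2 hd)]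

/-! ### The weight-zero quotient -/

/-- `G / θJ` on `ℍ`. -/
def ratio (f : ℍ → ℂ) : ℍ → ℂ := fun τ => f τ / thetaJ τ

theorem ratio_smul (f : ℍ → ℂ) (g : SL(2, ℤ)) (τ : ℍ) :
    ratio f (g • τ) = (f ∣[(2 : ℤ)] g) τ / thetaJ τ := by
  have hd : denom g τ ^ 2 ≠ 0 := pow_ne_zero 2 (denom_ne_zero _ τ)
  rw [ratio, apply_smul_eq f g τ, thetaJ_smul, mul_div_mul_left _ _ hd]

/-- `G / θJ` as a function on `ℂ`. -/
def phi (f : ℍ → ℂ) : ℂ → ℂ := fun z => ratio f (ofComplex z)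

theorem meromorphicOn_phi {f : ℍ → ℂ} (hf : MDiff f) : MeromorphicOn (phi f) U := by
  intro z hz
  have h1 : AnalyticAt ℂ (f ∘ ofComplex) z := Mer.analyticAt_comp_ofComplex hf hz
  have h2 : AnalyticAt ℂ (thetaJ ∘ ofComplex) z := Mer.analyticAt_comp_ofComplex mdiff_thetaJ hz
  exact h1.meromorphicAt.div h2.meromorphicAt

theorem phi_mob (f : ℍ → ℂ) (g : SL(2, ℤ)) {z : ℂ} (hz : z ∈ U) :
    phi f (mob g z) = (f ∣[(2 : ℤ)] g) (ofComplex z) / thetaJ (ofComplex z) := by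
  rw [phi, Mer.ofComplex_mob g hz, ratio_smul]

/-! ### Cusp forms of weight two -/

section CuspForm

variable {M : ℕ} [NeZero M] (G : CuspForm (Gamma0 M) 2)

omit [NeZero M] in
theorem slash_Gamma0 (γ : SL(2, ℤ)) (hγ : γ ∈ Gamma0 M) : ((G : ℍ → ℂ) ∣[(2 : ℤ)] γ) = G :=
  G.slash_action_eq' (Matrix.SpecialLinearGroup.mapGL ℝ γ) ⟨γ, hγ, rfl⟩

omit [NeZero M] in
theorem phi_invariant (γ : SL(2, ℤ)) (hγ : γ ∈ Gamma0 M) {z : ℂ} (hz : z ∈ U) :
    phi G (mob γ z) = phi G z := by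
  rw [phi_mob _ γ hz, slash_Gamma0 G γ hγ]
  rfl

theorem norm_lower_aux (X T : ℂ) (h1 : ‖X - (-1)‖ < 1 / 2) (h4 : ‖X‖ ≤ ‖T‖) :
    1 / 2 < ‖T‖ := by
  have h3 : (1 : ℝ) ≤ ‖X‖ + ‖X - (-1)‖ := by
    have h := norm_sub_le X (X - (-1))
    have e : X - (X - (-1)) = -1 := by ring
    rw [e, norm_neg, norm_one] at h
    exact h
  have h5 : 1 / 2 < ‖X‖ := by linarith
  exact lt_of_lt_of_le h5 h4

/-- `θJ` is bounded below near `i∞`. -/
theorem exists_thetaJ_lower : ∃ A : ℝ, ∀ z : ℍ, A ≤ z.im → 1 / 2 < ‖thetaJ z‖ := by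
  have h := tendsto_q_mul_thetaJ.eventually (Metric.ball_mem_nhds (-1 : ℂ) (by norm_num :
    (0 : ℝ) < 1 / 2))
  obtain ⟨A, hA⟩ := (UpperHalfPlane.atImInfty_mem _).mp h
  refine ⟨A, fun z hz => ?_⟩
  have h0 : dist (𝕢 ((1 : ℕ) : ℝ) (z : ℂ) * thetaJ z) (-1) < 1 / 2 := hA z hz
  have h1 : ‖𝕢 ((1 : ℕ) : ℝ) (z : ℂ) * thetaJ z - (-1)‖ < 1 / 2 := by
    rw [← dist_eq_norm]
    exact h0
  have h2 : ‖𝕢 ((1 : ℕ) : ℝ) (z : ℂ)‖ ≤ 1 := QLaurent.norm_qParam_le_one 1 z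
  have h4 : ‖𝕢 ((1 : ℕ) : ℝ) (z : ℂ) * thetaJ z‖ ≤ ‖thetaJ z‖ := by
    rw [norm_mul]
    exact mul_le_of_le_one_left (norm_nonneg _) h2
  exact norm_lower_aux _ _ h1 h4

theorem merAtCusps_phi : MerAtCusps (phi G) := by
  intro g
  have hz0 : IsZeroAtImInfty ((G : ℍ → ℂ) ∣[(2 : ℤ)] g) := CuspFormClass.zero_at_infty_slash G g
  obtain ⟨B, A, hBA⟩ := UpperHalfPlane.isBoundedAtImInfty_iff.mp hz0.isBoundedAtImInfty
  obtain ⟨A', hA'⟩ := exists_thetaJ_lower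
  refine ⟨max (max A A') 1, 2 * max B 0, fun z hz => ?_⟩
  have h1le : (1 : ℝ) ≤ z.im := le_of_lt (lt_of_le_of_lt (le_max_right _ _) hz)
  have hAle : A ≤ z.im :=
    le_of_lt (lt_of_le_of_lt ((le_max_left A A').trans (le_max_left _ _)) hz)
  have hA'le : A' ≤ z.im :=
    le_of_lt (lt_of_le_of_lt ((le_max_right A A').trans (le_max_left _ _)) hz)
  have hzpos : 0 < z.im := by linarith
  have hzU : z ∈ U := hzpos
  have hτ : ofComplex z = ⟨z, hzpos⟩ := ofComplex_apply_of_im_pos hzpos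
  have hθ : 1 / 2 < ‖thetaJ (ofComplex z)‖ := by
    rw [hτ]
    exact hA' _ hA'le
  have hθ0 : thetaJ (ofComplex z) ≠ 0 := fun h0 => by
    rw [h0, norm_zero] at hθ
    norm_num at hθ
  constructor
  · have h1 : AnalyticAt ℂ ((G ∘ ofComplex) ∘ mob g) z :=
      (Mer.analyticAt_comp_ofComplex (CuspFormClass.holo G) (Mer.mob_mem_U g hzU)).comp
        (analyticAt_mob g hzU)
    have h2 : AnalyticAt ℂ ((thetaJ ∘ ofComplex) ∘ mob g) z :=
      (Mer.analyticAt_comp_ofComplex mdiff_thetaJ (Mer.mob_mem_U g hzU)).comp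
        (analyticAt_mob g hzU)
    have h3 : ((thetaJ ∘ ofComplex) ∘ mob g) z ≠ 0 := by
      show thetaJ (ofComplex (mob g z)) ≠ 0
      rw [Mer.ofComplex_mob g hzU, thetaJ_smul]
      exact mul_ne_zero (pow_ne_zero 2 (denom_ne_zero _ _)) hθ0
    exact h1.div h2 h3
  · rw [phi_mob G g hzU, norm_div]
    have hB : ‖((G : ℍ → ℂ) ∣[(2 : ℤ)] g) (ofComplex z)‖ ≤ B := by
      rw [hτ]
      exact hBA _ hAle
    have hB0 : 0 ≤ max B 0 := le_max_right _ _
    have h5 : ‖((G : ℍ → ℂ) ∣[(2 : ℤ)] g) (ofComplex z)‖ / ‖thetaJ (ofComplex z)‖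
        ≤ 2 * max B 0 := by
      rw [div_le_iff₀ (by linarith)]
      have : ‖((G : ℍ → ℂ) ∣[(2 : ℤ)] g) (ofComplex z)‖ ≤ max B 0 := hB.trans (le_max_left _ _)
      nlinarith
    have h6 : 2 * max B 0 ≤ Real.exp (2 * max B 0 * z.im) := by
      have h7 : 2 * max B 0 + 1 ≤ Real.exp (2 * max B 0) := Real.add_one_le_exp _
      have h8 : Real.exp (2 * max B 0) ≤ Real.exp (2 * max B 0 * z.im) := by
        apply Real.exp_le_exp.mpr
        nlinarith
      linarith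
    exact h5.trans h6

/-- The `q`-expansion of a cusp form in the `HasQExp` calculus. -/
theorem hasQExp_cuspForm :
    HasQExp 1 (G : ℍ → ℂ) (HahnSeries.ofPowerSeries ℤ ℂ (qExpansion 1 G)) := by
  refine hasQExp_of_hasSum_nat 1 _ _ (fun τ => ?_)
  have hΓ := CongruenceSubgroup.one_mem_strictPeriods_Gamma0 M
  have hs := UpperHalfPlane.hasSum_qExpansion (h := 1) one_pos
    (SlashInvariantFormClass.periodic_comp_ofComplex G hΓ) (CuspFormClass.holo G)
    (ModularFormClass.bdd_at_infty G) τ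
  simpa using hs

end CuspForm

/-! ### Formal lemmas on `coeffMap` -/

theorem coeffMap_thetaFun {R S : Type*} [CommRing R] [CommRing S] (φ : R →+* S)
    (x : LaurentSeries R) : coeffMap φ (thetaFun R x) = thetaFun S (coeffMap φ x) := by
  ext n
  rw [coeffMap_coeff, thetaFun_coeff, thetaFun_coeff, coeffMap_coeff, map_mul, map_intCast]

theorem coeffMap_id_apply (x : LaurentSeries ℂ) : coeffMap (RingHom.id ℂ) x = x := by
  ext n
  rw [coeffMap_coeff]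
  rfl

theorem coeffMap_iotaK_jBarK (M : ℕ) [NeZero M] :
    coeffMap iotaK ((jBarK KQ M : FNK KQ M) : LaurentSeries KQ) = jqC := by
  have h := QExp.coeffMap_iotaK_jFormal M ⟨1, one_dvd M⟩
  rw [qExpand_one_apply] at h
  exact h

theorem thetaFun_jBarK_ne_zero (M : ℕ) [NeZero M] :
    thetaFun KQ ((jBarK KQ M : FNK KQ M) : LaurentSeries KQ) ≠ 0 := fun h => by
  have h2 := congrArg (coeffMap iotaK) h
  rw [coeffMap_thetaFun, coeffMap_iotaK_jBarK, map_zero] at h2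
  exact thetaFun_jqC_ne_zero h2

/-! ### The element of the function field -/

section Main

variable {M : ℕ} [NeZero M] (G : CuspForm (Gamma0 M) 2)

/-- `G · ev Q = θJ · ev P` on all of `ℍ` for suitable polynomials in the `J(dz)`. -/
theorem exists_poly_identity :
    ∃ P Q : MvPolynomial (Dv M) ℂ, evK (RingHom.id ℂ) M Q ≠ 0 ∧
      ∀ τ : ℍ, G τ * evK (RingHom.id ℂ) M Q τ = thetaJ τ * evK (RingHom.id ℂ) M P τ := by
  obtain ⟨P, Q, hQ, heq⟩ := exists_evK_eq_of_invariant M (phi G)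
    (meromorphicOn_phi (CuspFormClass.holo G))
    (fun γ hγ z hz => phi_invariant G γ hγ hz) (merAtCusps_phi G)
  refine ⟨P, Q, hQ, ?_⟩
  have hD := Fermat.Agent.S24C.Cx.isDict_id M
  have hPmd : MDiff (evK (RingHom.id ℂ) M P) := hD.mdiff_evK P
  have hQmd : MDiff (evK (RingHom.id ℂ) M Q) := hD.mdiff_evK Q
  have hGmd : MDiff (G : ℍ → ℂ) := CuspFormClass.holo G
  have h1 : AnalyticOnNhd ℂ (((G : ℍ → ℂ) * evK (RingHom.id ℂ) M Q) ∘ ofComplex) U :=
    fun z hz => Mer.analyticAt_comp_ofComplex (hGmd.mul hQmd) hz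
  have h2 : AnalyticOnNhd ℂ ((thetaJ * evK (RingHom.id ℂ) M P) ∘ ofComplex) U :=
    fun z hz => Mer.analyticAt_comp_ofComplex (mdiff_thetaJ.mul hPmd) hz
  have hθS := Mer.ne_zero_mem_codiscreteWithin mdiff_thetaJ thetaJ_ne_zero
  have hIU : (Complex.I : ℂ) ∈ U := by simp [U]
  have hS : ∀ᶠ z in 𝓝[≠] (Complex.I : ℂ),
      (((G : ℍ → ℂ) * evK (RingHom.id ℂ) M Q) ∘ ofComplex) z
        = ((thetaJ * evK (RingHom.id ℂ) M P) ∘ ofComplex) z := by
    have h3 := RelAux.mem_nhdsNE_of_mem_codiscreteWithin (Filter.inter_mem heq hθS) hIU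
    filter_upwards [h3] with z hz
    obtain ⟨hz1, hz2⟩ := hz
    have hz1' : phi G z * evK (RingHom.id ℂ) M Q (ofComplex z)
        = evK (RingHom.id ℂ) M P (ofComplex z) := hz1
    have hz2' : thetaJ (ofComplex z) ≠ 0 := hz2
    show G (ofComplex z) * evK (RingHom.id ℂ) M Q (ofComplex z)
      = thetaJ (ofComplex z) * evK (RingHom.id ℂ) M P (ofComplex z)
    rw [← hz1']
    show _ = thetaJ (ofComplex z) * (G (ofComplex z) / thetaJ (ofComplex z)
      * evK (RingHom.id ℂ) M Q (ofComplex z))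
    field_simp
  have hEq := h1.eqOn_of_preconnected_of_frequently_eq h2 Mer.isConnected_U.isPreconnected hIU
    hS.frequently
  intro τ
  have h4 := hEq (Mer.coe_mem_U τ)
  simpa using h4

omit [NeZero M] in
/-- The `q`-expansion of `G` is the coefficientwise image of `∑ c_n qⁿ`. -/
theorem coeffMap_mk_eq (c : ℕ → KQ) (hc : ∀ n, ModularFormClass.qCoeff G n = iotaK (c n)) :
    coeffMap iotaK (HahnSeries.ofPowerSeries ℤ KQ (PowerSeries.mk c))
      = HahnSeries.ofPowerSeries ℤ ℂ (qExpansion 1 G) := by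
  rw [coeffMap_ofPowerSeries']
  congr 1
  ext n
  rw [PowerSeries.coeff_map, PowerSeries.coeff_mk, ← hc n]
  rfl

/-- **(OA3a), first half.** For a cusp form `G ∈ S₂(Γ₀(M))` with `q`-expansion `∑ ι(c_n) qⁿ`,
`c_n ∈ ℚ̄`, the Laurent series `(∑ c_n qⁿ) / θ(j)` is an element of `F_M`. -/
theorem exists_fun (c : ℕ → KQ) (hc : ∀ n, ModularFormClass.qCoeff G n = iotaK (c n)) :
    ∃ a : FNK KQ M,
      (a : LaurentSeries KQ) * thetaFun KQ ((jBarK KQ M : FNK KQ M) : LaurentSeries KQ)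
        = HahnSeries.ofPowerSeries ℤ KQ (PowerSeries.mk c) := by
  obtain ⟨P, Q, hQ, hid⟩ := exists_poly_identity G
  -- the identity of `q`-expansions over `ℂ`
  have hP' : HasQExp 1 (evK (RingHom.id ℂ) M P)
      (coeffMap (RingHom.id ℂ) ((fmK ℂ M P : FNK ℂ M) : LaurentSeries ℂ)) :=
    Fermat.Agent.S24C.QExp.hasQExp_ev M P
  have hQ' : HasQExp 1 (evK (RingHom.id ℂ) M Q)
      (coeffMap (RingHom.id ℂ) ((fmK ℂ M Q : FNK ℂ M) : LaurentSeries ℂ)) :=
    Fermat.Agent.S24C.QExp.hasQExp_ev M Q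
  rw [coeffMap_id_apply] at hP' hQ'
  have hL : HasQExp 1 ((G : ℍ → ℂ) * evK (RingHom.id ℂ) M Q)
      (HahnSeries.ofPowerSeries ℤ ℂ (qExpansion 1 G)
        * ((fmK ℂ M Q : FNK ℂ M) : LaurentSeries ℂ)) := (hasQExp_cuspForm G).mul hQ'
  have hR : HasQExp 1 ((G : ℍ → ℂ) * evK (RingHom.id ℂ) M Q)
      (thetaFun ℂ jqC * ((fmK ℂ M P : FNK ℂ M) : LaurentSeries ℂ)) :=
    (hasQExp_thetaJ.mul hP').congr_fun' fun τ => (hid τ).symm
  have hform := hL.unique hR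
  have hQL : ((fmK ℂ M Q : FNK ℂ M) : LaurentSeries ℂ) ≠ 0 := fun h0 =>
    hQ (funext fun τ => (hQ'.eq_zero_iff).mpr h0 τ)
  -- the rational Laurent series
  set y : LaurentSeries KQ := HahnSeries.ofPowerSeries ℤ KQ (PowerSeries.mk c)
    * (thetaFun KQ ((jBarK KQ M : FNK KQ M) : LaurentSeries KQ))⁻¹ with hy
  have hθ0 := thetaFun_jBarK_ne_zero M
  have hyC : coeffMap iotaK y = ((fmK ℂ M P : FNK ℂ M) : LaurentSeries ℂ)
      * ((fmK ℂ M Q : FNK ℂ M) : LaurentSeries ℂ)⁻¹ := by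
    rw [hy, map_mul, map_inv₀, coeffMap_thetaFun, coeffMap_iotaK_jBarK, coeffMap_mk_eq G c hc,
      eq_mul_inv_iff_mul_eq₀ hQL, mul_assoc, mul_comm _ ((fmK ℂ M Q : FNK ℂ M) : LaurentSeries ℂ),
      ← mul_assoc, hform, mul_comm (thetaFun ℂ jqC), mul_assoc,
      mul_inv_cancel₀ thetaFun_jqC_ne_zero, mul_one]
  have hmem : coeffMap iotaK y ∈ laurentBaseChange ℂ (modularFunctionFieldFull M) := by
    rw [hyC]
    exact mul_mem (fmK ℂ M P).2 (inv_mem (fmK ℂ M Q).2)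
  have hyF : y ∈ laurentBaseChange KQ (modularFunctionFieldFull M) :=
    Fermat.Agent.Lib.LaurentDescent.mem_laurentBaseChange_of_coeffMap_mem iotaK _ y hmem
  refine ⟨⟨y, hyF⟩, ?_⟩
  show y * thetaFun KQ ((jBarK KQ M : FNK KQ M) : LaurentSeries KQ) = _
  rw [hy, mul_assoc, inv_mul_cancel₀ hθ0, mul_one]

end Main

end Fermat.Agent.TR.Hecke.HolDiff
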