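/-
TR / Hecke side, brick (OA3-BC) (helper70): holomorphic differentials lift through the
reduction of the modular function field at a prime of good reduction.

`A` a valuation ring of `ℚ̄` over a prime `ℓ ≥ 5`, `ℓ ∤ N`, `k` its residue field,
`F = ℚ̄·F_N`, `F̃ = F̃_N` over `k`, `x = J(q^N)`, `x̄ = J̄(q^N)`, `W = div (dx)`, `W̃ = div (dx̄)`.

* `mapDomain_divD_le` : `r_* W ≤ W̃` placewise, for every place reduction `r` (generic base
  function; this is the local inequality of route G-A with the two divisors given by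
  `Res.Adele.IsDivisorOf`);
* `mapDomain_divD_eq` : `r_* W = W̃` when the genera agree;
* `exists_lift_of_base` : every `a' ∈ L(W̃)` is the reduction of some `φ ∈ L(W) ∩ O_w`
  (generic base function);
* `exists_lift` : the instance `x = J(q^N)` at a valuation ring of `ℚ̄` over `ℓ ≥ 5`, `ℓ ∤ N`.
-/
import Mathlib
import Fermat.Agent.Lib.Red.InstGenusGAJN
import Fermat.Agent.Lib.FF.WeilCanonical
import Fermat.Agent.Padic.Lattice
import Fermat.Agent.Padic.GoodRedFinal

set_option autoImplicit false
set_option linter.style.haveILetI false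

namespace Fermat.Agent.TR.Hecke.HolRed

open AlgebraicCurve IntermediateField KaehlerDifferential Fermat.Agent.Lib.FF ModularCurve
  Fermat.Agent.Lib.Red.OneStep Fermat.Agent.Lib.Red Fermat.Agent.Lib.Red.GenusGA Module
  Fermat.Agent.Padic

noncomputable section

section Gen

variable {L : Type*} [Field L] [Algebra ℚ L] {A : ValuationSubring L} {k : Type} [Field k]
  {π : A →+* k} {N : ℕ} [NeZero N]

set_option maxHeartbeats 1000000 in
set_option synthInstance.maxHeartbeats 400000 in
/-- **Local inequality** `r_* div (dx) ≤ div (dx̄)` for a base function `x ∈ O_w` whose branch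
values are integral and stay distinct mod the maximal ideal. -/
theorem mapDomain_divD_le [IsAlgClosed L] [IsAlgClosed k]
    (hπ : ∀ a : A, ¬ IsUnit a → π a = 0) (hsurj : Function.Surjective π) (hNk : (N : k) ≠ 0)
    (x : Ow A π N hNk)
    (hF : IsFF1 L ↥(laurentBaseChange L (modularFunctionFieldFull N))
      (x : ↥(laurentBaseChange L (modularFunctionFieldFull N))))
    (hFt : IsFF1 k ↥(modularFunctionFieldFullC k N) (redF A π N hπ hNk x))
    (hfr : Module.finrank
        L⟮(x : ↥(laurentBaseChange L (modularFunctionFieldFull N)))⟯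
        ↥(laurentBaseChange L (modularFunctionFieldFull N)) =
      Module.finrank k⟮redF A π N hπ hNk x⟯ ↥(modularFunctionFieldFullC k N))
    (Bv : Finset L) (hBvA : ∀ b ∈ Bv, b ∈ A)
    (hBvinj : ∀ b b' : A, (b : L) ∈ Bv → (b' : L) ∈ Bv → π b = π b' → b = b')
    (hB : ∀ (P : Place L ↥(laurentBaseChange L (modularFunctionFieldFull N))) (c : L), c ∉ Bv →
      0 < P.ord ((x : ↥(laurentBaseChange L (modularFunctionFieldFull N))) -
        algebraMap L ↥(laurentBaseChange L (modularFunctionFieldFull N)) c) →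
      P.ord ((x : ↥(laurentBaseChange L (modularFunctionFieldFull N))) -
        algebraMap L ↥(laurentBaseChange L (modularFunctionFieldFull N)) c) = 1)
    (r : Place L ↥(laurentBaseChange L (modularFunctionFieldFull N)) →
      Place k ↥(modularFunctionFieldFullC k N))
    (hr : IsPlaceReductionAlong A π N r)
    (W : Divisor L ↥(laurentBaseChange L (modularFunctionFieldFull N)))
    (hW : Res.Adele.IsDivisorOf (D L ↥(laurentBaseChange L (modularFunctionFieldFull N))
      (x : ↥(laurentBaseChange L (modularFunctionFieldFull N)))) W)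
    (Wt : Divisor k ↥(modularFunctionFieldFullC k N))
    (hWt : Res.Adele.IsDivisorOf (D k ↥(modularFunctionFieldFullC k N)
      (redF A π N hπ hNk x)) Wt)
    (Q : Place k ↥(modularFunctionFieldFullC k N)) :
    Finsupp.mapDomain r W Q ≤ Wt Q := by
  haveI := hF.hasPrincipalDivisors
  haveI := hFt.hasPrincipalDivisors
  haveI := hF.finiteDimensional
  haveI := hFt.finiteDimensional
  haveI : CharZero L := charZero_of_injective_algebraMap (algebraMap ℚ L).injective
  have hS := setting_of_base hπ hNk x hF hFt hfr r hr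
  have hxc : ∀ c : L, (x : ↥(laurentBaseChange L (modularFunctionFieldFull N))) -
      algebraMap L ↥(laurentBaseChange L (modularFunctionFieldFull N)) c ≠ 0 := by
    intro c h
    apply hF.transcendental
    rw [sub_eq_zero.mp h]
    exact isAlgebraic_algebraMap c
  have hW1 : ∀ (P : Place L ↥(laurentBaseChange L (modularFunctionFieldFull N))) (c : L),
      P.ord ((x : ↥(laurentBaseChange L (modularFunctionFieldFull N))) -
        algebraMap L ↥(laurentBaseChange L (modularFunctionFieldFull N)) c) ≠ 0 →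
      W P = P.ord ((x : ↥(laurentBaseChange L (modularFunctionFieldFull N))) -
        algebraMap L ↥(laurentBaseChange L (modularFunctionFieldFull N)) c) - 1 := by
    intro P c hc
    have hW' : Res.Adele.IsDivisorOf (D L ↥(laurentBaseChange L (modularFunctionFieldFull N))
        ((x : ↥(laurentBaseChange L (modularFunctionFieldFull N))) -
          algebraMap L ↥(laurentBaseChange L (modularFunctionFieldFull N)) c)) W := by
      rwa [Res.Adele.D_sub_algebraMap]
    exact hW'.ord_D_eq hF.resK (hxc c) P (Int.cast_ne_zero.mpr hc)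
  have hWt1 : ∀ (Q : Place k ↥(modularFunctionFieldFullC k N)) (κ : k),
      Q.ord (redF A π N hπ hNk x - algebraMap k ↥(modularFunctionFieldFullC k N) κ) - 1 ≤
        Wt Q := by
    intro Q κ
    have hW' : Res.Adele.IsDivisorOf (D k ↥(modularFunctionFieldFullC k N)
        (redF A π N hπ hNk x - algebraMap k ↥(modularFunctionFieldFullC k N) κ)) Wt := by
      rwa [Res.Adele.D_sub_algebraMap]
    exact hW'.ord_D_ge hFt.resK (sub_ne_zero.mpr (hS.hxbc κ)) Q
  refine hS.mapDomain_le hsurj
    (fun P hP => (Fermat.Agent.S24.ARest.exists_value _ hF.transcendental P).resolve_left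
      (not_lt.mpr hP))
    (fun Q hQ => ?_) (↑Bv : Set L) (fun b hb => hBvA b (Finset.mem_coe.mp hb))
    (fun b b' hb hb' => hBvinj b b' (Finset.mem_coe.mp hb) (Finset.mem_coe.mp hb'))
    (fun P c hc => hB P c fun h => hc (Finset.mem_coe.mpr h)) W
    (fun P c hc => hW1 P c hc.ne') (fun P hP => ?_) Wt
    (fun Q κ _ => hWt1 Q κ) (fun Q _ => ?_) Q
  · obtain ⟨κ, h | h⟩ := exists_const_sub_pos Q (hFt.resK Q) hQ
    · exact absurd h (hS.hxbc κ)
    · exact ⟨κ, h⟩
  · have := hW1 P 0 (by rw [map_zero, sub_zero]; exact hP.ne)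
    rwa [map_zero, sub_zero] at this
  · have := hWt1 Q 0
    rwa [map_zero, sub_zero] at this

set_option maxHeartbeats 1000000 in
set_option synthInstance.maxHeartbeats 400000 in
/-- **`r_* div (dx) = div (dx̄)`** when the genus is preserved. -/
theorem mapDomain_divD_eq [IsAlgClosed L] [IsAlgClosed k]
    (hπ : ∀ a : A, ¬ IsUnit a → π a = 0) (hsurj : Function.Surjective π) (hNk : (N : k) ≠ 0)
    (x : Ow A π N hNk)
    (hF : IsFF1 L ↥(laurentBaseChange L (modularFunctionFieldFull N))
      (x : ↥(laurentBaseChange L (modularFunctionFieldFull N))))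
    (hFt : IsFF1 k ↥(modularFunctionFieldFullC k N) (redF A π N hπ hNk x))
    (hfr : Module.finrank
        L⟮(x : ↥(laurentBaseChange L (modularFunctionFieldFull N)))⟯
        ↥(laurentBaseChange L (modularFunctionFieldFull N)) =
      Module.finrank k⟮redF A π N hπ hNk x⟯ ↥(modularFunctionFieldFullC k N))
    (Bv : Finset L) (hBvA : ∀ b ∈ Bv, b ∈ A)
    (hBvinj : ∀ b b' : A, (b : L) ∈ Bv → (b' : L) ∈ Bv → π b = π b' → b = b')
    (hB : ∀ (P : Place L ↥(laurentBaseChange L (modularFunctionFieldFull N))) (c : L), c ∉ Bv →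
      0 < P.ord ((x : ↥(laurentBaseChange L (modularFunctionFieldFull N))) -
        algebraMap L ↥(laurentBaseChange L (modularFunctionFieldFull N)) c) →
      P.ord ((x : ↥(laurentBaseChange L (modularFunctionFieldFull N))) -
        algebraMap L ↥(laurentBaseChange L (modularFunctionFieldFull N)) c) = 1)
    (r : Place L ↥(laurentBaseChange L (modularFunctionFieldFull N)) →
      Place k ↥(modularFunctionFieldFullC k N))
    (hr : IsPlaceReductionAlong A π N r)
    (hg : genusFF k ↥(modularFunctionFieldFullC k N) =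
      genusFF L ↥(laurentBaseChange L (modularFunctionFieldFull N)))
    (W : Divisor L ↥(laurentBaseChange L (modularFunctionFieldFull N)))
    (hW : Res.Adele.IsDivisorOf (D L ↥(laurentBaseChange L (modularFunctionFieldFull N))
      (x : ↥(laurentBaseChange L (modularFunctionFieldFull N)))) W)
    (Wt : Divisor k ↥(modularFunctionFieldFullC k N))
    (hWt : Res.Adele.IsDivisorOf (D k ↥(modularFunctionFieldFullC k N)
      (redF A π N hπ hNk x)) Wt) :
    Finsupp.mapDomain r W = Wt := by
  have hle := mapDomain_divD_le hπ hsurj hNk x hF hFt hfr Bv hBvA hBvinj hB r hr W hW Wt hWt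
  have hdW : Divisor.degree W =
      2 * (genusFF L ↥(laurentBaseChange L (modularFunctionFieldFull N)) : ℤ) - 2 :=
    Res.degree_of_isDivisorOf_ff1 hF hW
  have hdWt : Divisor.degree Wt =
      2 * (genusFF k ↥(modularFunctionFieldFullC k N) : ℤ) - 2 :=
    Res.degree_of_isDivisorOf_ff1 hFt hWt
  have hdr : Divisor.degree (Finsupp.mapDomain r W) = Divisor.degree W :=
    degree_mapDomain r hr.1 W
  have h0 : (0 : Divisor k ↥(modularFunctionFieldFullC k N)) ≤ Wt - Finsupp.mapDomain r W := by
    rw [Finsupp.le_def]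
    intro Q
    rw [Finsupp.zero_apply, Finsupp.sub_apply]
    have := hle Q
    omega
  have hd : Divisor.degree (Wt - Finsupp.mapDomain r W) ≤ 0 := by
    rw [map_sub, hdr, hdW, hdWt, hg]
    omega
  have hz := WeilCanonical.eq_zero_of_nonneg_of_degree_le hFt h0 hd
  exact (sub_eq_zero.mp hz).symm

set_option maxHeartbeats 1000000 in
set_option synthInstance.maxHeartbeats 400000 in
/-- **Holomorphic differentials lift** (generic base function): if the genus is preserved, every
`a' ∈ L(div (dx̄))` is the reduction of an element of `L(div (dx)) ∩ O_w`. -/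
theorem exists_lift_of_base [IsAlgClosed L] [IsAlgClosed k]
    (hπ : ∀ a : A, ¬ IsUnit a → π a = 0) (hsurj : Function.Surjective π) (hNk : (N : k) ≠ 0)
    (x : Ow A π N hNk)
    (hF : IsFF1 L ↥(laurentBaseChange L (modularFunctionFieldFull N))
      (x : ↥(laurentBaseChange L (modularFunctionFieldFull N))))
    (hFt : IsFF1 k ↥(modularFunctionFieldFullC k N) (redF A π N hπ hNk x))
    (hfr : Module.finrank
        L⟮(x : ↥(laurentBaseChange L (modularFunctionFieldFull N)))⟯
        ↥(laurentBaseChange L (modularFunctionFieldFull N)) =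
      Module.finrank k⟮redF A π N hπ hNk x⟯ ↥(modularFunctionFieldFullC k N))
    (Bv : Finset L) (hBvA : ∀ b ∈ Bv, b ∈ A)
    (hBvinj : ∀ b b' : A, (b : L) ∈ Bv → (b' : L) ∈ Bv → π b = π b' → b = b')
    (hB : ∀ (P : Place L ↥(laurentBaseChange L (modularFunctionFieldFull N))) (c : L), c ∉ Bv →
      0 < P.ord ((x : ↥(laurentBaseChange L (modularFunctionFieldFull N))) -
        algebraMap L ↥(laurentBaseChange L (modularFunctionFieldFull N)) c) →
      P.ord ((x : ↥(laurentBaseChange L (modularFunctionFieldFull N))) -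
        algebraMap L ↥(laurentBaseChange L (modularFunctionFieldFull N)) c) = 1)
    (r : Place L ↥(laurentBaseChange L (modularFunctionFieldFull N)) →
      Place k ↥(modularFunctionFieldFullC k N))
    (hr : IsPlaceReductionAlong A π N r)
    (hg : genusFF k ↥(modularFunctionFieldFullC k N) =
      genusFF L ↥(laurentBaseChange L (modularFunctionFieldFull N)))
    (W : Divisor L ↥(laurentBaseChange L (modularFunctionFieldFull N)))
    (hW : Res.Adele.IsDivisorOf (D L ↥(laurentBaseChange L (modularFunctionFieldFull N))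
      (x : ↥(laurentBaseChange L (modularFunctionFieldFull N)))) W)
    (Wt : Divisor k ↥(modularFunctionFieldFullC k N))
    (hWt : Res.Adele.IsDivisorOf (D k ↥(modularFunctionFieldFullC k N)
      (redF A π N hπ hNk x)) Wt)
    (a' : ↥(modularFunctionFieldFullC k N)) (ha' : a' ∈ riemannRochSpace Wt) :
    ∃ φ : Ow A π N hNk,
      (φ : ↥(laurentBaseChange L (modularFunctionFieldFull N))) ∈ riemannRochSpace W ∧
        redF A π N hπ hNk φ = a' := by
  classical
  have heq := mapDomain_divD_eq hπ hsurj hNk x hF hFt hfr Bv hBvA hBvinj hB r hr hg W hW Wt hWt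
  have hR := redData_Ow (A := A) (N := N) hπ hsurj hNk
  obtain ⟨d, b, hb⟩ := exists_isLatBasis_rr hπ hsurj hNk W
  have hdim : finrank k (riemannRochSpace (Finsupp.mapDomain r W)) ≤
      finrank L (riemannRochSpace W) := by
    rw [heq, Res.finrank_L_ff1 hFt hWt, Res.finrank_L_ff1 hF hW, hg]
  have hspan := hb.span_red_eq_rr hπ hsurj hNk r hr hdim
  rw [heq] at hspan
  rw [← hspan] at ha'
  obtain ⟨c, hc⟩ := (Submodule.mem_span_range_iff_exists_fun k).mp ha'
  choose a ha using fun i => hsurj (c i)
  refine ⟨∑ i, hR.cO (a i) * b i, ?_, ?_⟩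
  · rw [hR.coe_sum]
    exact Submodule.sum_mem _ fun i _ => Submodule.smul_mem _ _ (hb.mem i)
  · rw [hR.red_sum, ← hc]
    exact Finset.sum_congr rfl fun i _ => by rw [ha i]

end Gen

section ModL

set_option maxHeartbeats 1000000 in
set_option synthInstance.maxHeartbeats 400000 in
/-- **(OA3-BC)**: for a valuation ring `A` of `ℚ̄` over a prime `ℓ ≥ 5`, `ℓ ∤ N`, with residue
field `k`: every `a' ∈ L(div (dx̄))`, `x̄ = J̄(q^N)`, on the mod-`ℓ` modular function field is the
reduction of an element `φ ∈ L(div (dx)) ∩ O_w`, `x = J(q^N)`, of `ℚ̄·F_N`: holomorphic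
differentials lift. -/
theorem exists_lift (N ℓ : ℕ) [NeZero N] (hℓ : ℓ.Prime) (hℓN : ¬ ℓ ∣ N) (h5 : 5 ≤ ℓ)
    (A : ValuationSubring (AlgebraicClosure ℚ)) (hA : A.LiesOverPrime ℓ)
    (hNk : (N : IsLocalRing.ResidueField A) ≠ 0)
    (W : Divisor (AlgebraicClosure ℚ) ↥(modularFunctionFieldBar N))
    (hW : Res.Adele.IsDivisorOf (D (AlgebraicClosure ℚ) ↥(modularFunctionFieldBar N)
      (xL (AlgebraicClosure ℚ) N)) W)
    (Wt : Divisor (IsLocalRing.ResidueField A)
      ↥(modularFunctionFieldFullC (IsLocalRing.ResidueField A) N))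
    (hWt : Res.Adele.IsDivisorOf (D (IsLocalRing.ResidueField A)
      ↥(modularFunctionFieldFullC (IsLocalRing.ResidueField A) N)
      (xk (IsLocalRing.ResidueField A) N)) Wt)
    (a' : ↥(modularFunctionFieldFullC (IsLocalRing.ResidueField A) N))
    (ha' : a' ∈ riemannRochSpace Wt) :
    ∃ φ : OwA A N hNk,
      (φ : ↥(modularFunctionFieldBar N)) ∈ riemannRochSpace W ∧ redA A N hNk φ = a' := by
  classical
  haveI : IsAlgClosed (IsLocalRing.ResidueField A) :=
    Fermat.Agent.Lib.FF.CharP.isAlgClosed_residueField A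
  have hgood := goodRed_good N ℓ hℓ hℓN (Or.inl h5) A hA
  obtain ⟨r, hr, -⟩ := hgood.inputs
  have hπ := residue_eq_zero_of_not_isUnit A
  have hsurj : Function.Surjective (IsLocalRing.residue A) := IsLocalRing.residue_surjective
  haveI : CharP (IsLocalRing.ResidueField A) ℓ := by
    rw [CharP.charP_iff_prime_eq_zero hℓ]
    have h1 : ((ℓ : A) : AlgebraicClosure ℚ) ∈ A.nonunits := by
      have h2 : ((ℓ : A) : AlgebraicClosure ℚ) = (ℓ : AlgebraicClosure ℚ) := by push_cast; rfl
      rw [h2]
      exact hA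
    have h3 : (ℓ : A) ∈ IsLocalRing.maximalIdeal A := ValuationSubring.coe_mem_nonunits_iff.mp h1
    have h4 : IsLocalRing.residue A (ℓ : A) = 0 := (IsLocalRing.residue_eq_zero_iff _).mpr h3
    rwa [map_natCast] at h4
  have h1728 : (1728 : IsLocalRing.ResidueField A) ≠ 0 := by
    have hc : ((1728 : ℕ) : IsLocalRing.ResidueField A) ≠ 0 := by
      rw [Ne, CharP.cast_eq_zero_iff (IsLocalRing.ResidueField A) ℓ]
      intro hdvd
      have h6 : (1728 : ℕ) = 2 ^ 6 * 3 ^ 3 := by norm_num
      rw [h6] at hdvd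
      rcases (Nat.Prime.dvd_mul hℓ).mp hdvd with h | h
      · have := (Nat.prime_dvd_prime_iff_eq hℓ Nat.prime_two).mp (hℓ.dvd_of_dvd_pow h)
        omega
      · have := (Nat.prime_dvd_prime_iff_eq hℓ Nat.prime_three).mp (hℓ.dvd_of_dvd_pow h)
        omega
    exact_mod_cast hc
  have h1728A : ((1728 : A) : AlgebraicClosure ℚ) = 1728 := rfl
  have hπ1728 : IsLocalRing.residue A (1728 : A) = (1728 : IsLocalRing.ResidueField A) :=
    map_ofNat (IsLocalRing.residue A) 1728
  have key : ∀ b : A, (b : AlgebraicClosure ℚ) ∈ ({0, 1728} : Finset (AlgebraicClosure ℚ)) →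
      (b = 0 ∧ IsLocalRing.residue A b = 0) ∨ (b = 1728 ∧ IsLocalRing.residue A b = 1728) := by
    intro b hb
    rw [Finset.mem_insert, Finset.mem_singleton] at hb
    rcases hb with hb | hb
    · have : b = 0 := Subtype.ext hb
      exact Or.inl ⟨this, by rw [this, map_zero]⟩
    · have : b = 1728 := Subtype.ext (hb.trans h1728A.symm)
      exact Or.inr ⟨this, by rw [this, hπ1728]⟩
  have hred : redF A (IsLocalRing.residue A) N hπ hNk
      ⟨xL (AlgebraicClosure ℚ) N, InstGenus.xL_mem_Ow hNk⟩ = xk (IsLocalRing.ResidueField A) N :=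
    InstGenus.redF_xL hπ hNk
  have hF := InstGenus.isFF1_xL (A := A) (π := IsLocalRing.residue A) (N := N) hπ hsurj hNk
  have hFt := InstGenus.isFF1_xk (A := A) (π := IsLocalRing.residue A) (N := N) hπ hsurj hNk
  refine exists_lift_of_base hπ hsurj hNk ⟨xL (AlgebraicClosure ℚ) N, InstGenus.xL_mem_Ow hNk⟩
    hF (by rw [hred]; exact hFt) (by rw [hred]; exact Fermat.Agent.Lib.Red.finrank_eq hπ hsurj hNk)
    ({0, 1728} : Finset (AlgebraicClosure ℚ)) ?_ ?_ ?_ r hr hgood.genus W hW Wt
    (by rw [hred]; exact hWt) a' ha'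
  · intro b hb
    rw [Finset.mem_insert, Finset.mem_singleton] at hb
    rcases hb with rfl | rfl
    · exact A.zero_mem
    · exact (1728 : A).2
  · intro b b' hb hb' hbb
    rcases key b hb with ⟨h1, h2⟩ | ⟨h1, h2⟩ <;> rcases key b' hb' with ⟨h3, h4⟩ | ⟨h3, h4⟩
    · rw [h1, h3]
    · rw [h2, h4] at hbb
      exact absurd hbb.symm h1728
    · rw [h2, h4] at hbb
      exact absurd hbb h1728
    · rw [h1, h3]
  · intro P c hc hP
    rw [Finset.mem_insert, Finset.mem_singleton, not_or] at hc
    exact BranchInst.ord_xL_sub_generic N c hc.1 hc.2 P hP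

end ModL

end

end Fermat.Agent.TR.Hecke.HolRed
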