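/-
TR / Hecke side, (OA3) assembly (helper70): every holomorphic differential of the mod-`ℓ` modular
function field of level `N` (`ℓ ≥ 5`, `ℓ ∤ N`) is the reduction of the `q`-expansion of a
weight-2 cusp form of level `Γ₀(N)` with `A`-integral `q`-expansion.

Inputs:
* (OA3-BC) `HolRed.exists_lift` : every `a' ∈ L(div dx̄)` lifts to `φ ∈ L(div dx) ∩ O_w`
  (`x = J(q^N)`);
* (BASE) `exists_base_change` (here, generic): `φ dx = ψ dj` with `ψ ∈ L(div dj)`,
  `ψ θ(j) = φ θ(x)`;
* (A) `AvatarProp N ι` (a NAMED HYPOTHESIS here; owner of the proof: the DIV-A avatar seat):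
  for `ψ ∈ L(div dj)` there is a cusp form `G` with `q`-expansion `ι (ψ θ(j))`;
* (INT) `GaussInt.exists_integral_coeffs` : a Gauss-integral `q`-expansion of a cusp form is
  `A`-integral, and its reduction is the coefficientwise reduction.

Output: `holLift_of_avatar` (the literal consumed by (OA6)).
-/
import Mathlib
import Fermat.Agent.TR.Hecke.HolRed
import Fermat.Agent.TR.Hecke.DiffRed
import Fermat.Agent.TR.Hecke.DlogTheta
import Fermat.Agent.TR.Hecke.GaussInt

set_option autoImplicit false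
set_option linter.style.haveILetI false

namespace Fermat.Agent.TR.Hecke.HolLift

open AlgebraicCurve IntermediateField KaehlerDifferential WithZero Fermat.Agent.Lib.FF ModularCurve
  Fermat.Agent.Lib.Red Fermat.Agent.Lib.Red.GenusGA Fermat.Agent.Padic CongruenceSubgroup

noncomputable section

/-! ### (BASE): change of the base function of a differential -/

section Base

variable {K : Type*} [Field K] (E : IntermediateField K (LaurentSeries K))

set_option synthInstance.maxHeartbeats 400000 in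
/-- **(BASE)** If `dj` spans `Ω[E/K]`, then every `φ ∈ L(div dx)` gives `ψ ∈ L(div dj)` with
`ψ θ(j) = φ θ(x)` (namely `ψ = φ · dx/dj`). -/
theorem exists_base_change {x₀ : E} (hF : IsFF1 K E x₀) {x j : E} {Wx Wj : Divisor K E}
    (hWx : Res.Adele.IsDivisorOf (D K E x) Wx) (hWj : Res.Adele.IsDivisorOf (D K E j) Wj)
    (hspan : Submodule.span E {D K E j} = ⊤) {φ : E} (hφ : φ ∈ riemannRochSpace Wx) :
    ∃ ψ : E, ψ ∈ riemannRochSpace Wj ∧
      (ψ : LaurentSeries K) * thetaFun K (j : LaurentSeries K) =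
        (φ : LaurentSeries K) * thetaFun K (x : LaurentSeries K) := by
  haveI := hF.hasPrincipalDivisors
  have hmem : D K E x ∈ Submodule.span E {D K E j} := by rw [hspan]; trivial
  obtain ⟨c, hc⟩ := Submodule.mem_span_singleton.mp hmem
  refine ⟨φ * c, ?_, ?_⟩
  · intro v
    obtain ⟨t, a, ht, hω, ha⟩ := hWj v
    have h1 : D K E x = (c * a) • D K E t := by rw [← hc, hω, smul_smul]
    have h2 := hWx.val_coeff hF.resK v ht h1
    have h3 : v.adicValuation φ ≤ exp (Wx v) := hφ v
    rw [map_mul, ha] at h2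
    have hvc : v.adicValuation c = exp (Wj v - Wx v) := by
      have e : v.adicValuation c = v.adicValuation c * exp (-(Wj v)) * exp (Wj v) := by
        rw [mul_assoc, ← exp_add, neg_add_cancel, exp_zero, mul_one]
      rw [e, h2, ← exp_add]
      congr 1
      ring
    show v.adicValuation (φ * c) ≤ exp (Wj v)
    rw [map_mul, hvc]
    calc v.adicValuation φ * exp (Wj v - Wx v) ≤ exp (Wx v) * exp (Wj v - Wx v) :=
          mul_le_mul' h3 le_rfl
      _ = exp (Wj v) := by
          rw [← exp_add]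
          congr 1
          ring
  · have hθ := Fermat.Agent.TR.Hecke.DlogFF.theta_eq_of_D_eq E (x := j) (y := x) (a := c) hc.symm
    rw [theta_apply, theta_apply] at hθ
    rw [hθ, MulMemClass.coe_mul]
    ring

end Base

/-! ### The assembly -/

/-- **(A), as a named hypothesis**: every `ψ ∈ L(div dj)` on `ℚ̄·F_N` (`j = j(q)`) is the
coefficient of a cusp form: there is `G ∈ S₂(Γ₀(N))` whose `q`-expansion is `ι (ψ · θ(j))`, and
`ψ · θ(j)` has no negative part. -/
def AvatarProp (N : ℕ) [NeZero N] (ι : AlgebraicClosure ℚ →+* ℂ) : Prop :=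
  ∀ J : ↥(modularFunctionFieldBar N),
    (J : LaurentSeries (AlgebraicClosure ℚ)) = jqModC (AlgebraicClosure ℚ) →
    ∀ W : Divisor (AlgebraicClosure ℚ) ↥(modularFunctionFieldBar N),
      Res.Adele.IsDivisorOf (D (AlgebraicClosure ℚ) ↥(modularFunctionFieldBar N) J) W →
      ∀ ψ : ↥(modularFunctionFieldBar N), ψ ∈ riemannRochSpace W →
        ∃ G : CuspForm (Gamma0 N) 2,
          (∀ n : ℕ, ModularFormClass.qCoeff (⇑G) n =
            ι (((ψ : LaurentSeries (AlgebraicClosure ℚ)) *
              thetaFun (AlgebraicClosure ℚ) (jqModC (AlgebraicClosure ℚ))).coeff (n : ℤ))) ∧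
          ∀ n : ℤ, n < 0 → ((ψ : LaurentSeries (AlgebraicClosure ℚ)) *
            thetaFun (AlgebraicClosure ℚ) (jqModC (AlgebraicClosure ℚ))).coeff n = 0

set_option maxHeartbeats 1000000 in
set_option synthInstance.maxHeartbeats 400000 in
/-- **(OA3), assembled modulo (A)**: `A` a valuation ring of `ℚ̄` over a prime `ℓ ≥ 5`, `ℓ ∤ N`,
`k` its residue field.  Every `a' ∈ L(div dx̄)` (`x̄ = J̄(q^N)`) on the mod-`ℓ` modular function
field is the reduction of the `q`-expansion of a cusp form `G ∈ S₂(Γ₀(N))` with `A`-integral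
`q`-coefficients `c n`: `c n mod 𝔪_A` is the `n`-th coefficient of `a' · θ(x̄)`. -/
theorem holLift_of_avatar (N ℓ : ℕ) [NeZero N] (hℓ : ℓ.Prime) (hℓN : ¬ ℓ ∣ N) (h5 : 5 ≤ ℓ)
    (A : ValuationSubring (AlgebraicClosure ℚ)) (hA : A.LiesOverPrime ℓ)
    (ι : AlgebraicClosure ℚ →+* ℂ) (hAv : AvatarProp N ι)
    (J : ↥(modularFunctionFieldBar N))
    (hJ : (J : LaurentSeries (AlgebraicClosure ℚ)) = jqModC (AlgebraicClosure ℚ))
    (Wt : Divisor (IsLocalRing.ResidueField A)
      ↥(modularFunctionFieldFullC (IsLocalRing.ResidueField A) N))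
    (hWt : Res.Adele.IsDivisorOf (D (IsLocalRing.ResidueField A)
      ↥(modularFunctionFieldFullC (IsLocalRing.ResidueField A) N)
      (xk (IsLocalRing.ResidueField A) N)) Wt)
    (a' : ↥(modularFunctionFieldFullC (IsLocalRing.ResidueField A) N))
    (ha' : a' ∈ riemannRochSpace Wt) :
    ∃ (G : CuspForm (Gamma0 N) 2) (c : ℕ → A),
      (∀ n : ℕ, ModularFormClass.qCoeff (⇑G) n = ι (c n)) ∧
      ∀ n : ℕ, IsLocalRing.residue A (c n) =
        ((a' : LaurentSeries (IsLocalRing.ResidueField A)) *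
          thetaFun (IsLocalRing.ResidueField A)
            ((xk (IsLocalRing.ResidueField A) N :
              ↥(modularFunctionFieldFullC (IsLocalRing.ResidueField A) N)) :
              LaurentSeries (IsLocalRing.ResidueField A))).coeff (n : ℤ) := by
  classical
  haveI : IsAlgClosed (IsLocalRing.ResidueField A) :=
    Fermat.Agent.Lib.FF.CharP.isAlgClosed_residueField A
  have hNk : (N : IsLocalRing.ResidueField A) ≠ 0 := natCast_residue_ne_zero N ℓ hℓ hℓN A hA
  have hπ := residue_eq_zero_of_not_isUnit A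
  have hsurj : Function.Surjective (IsLocalRing.residue A) := IsLocalRing.residue_surjective
  have hF := InstGenus.isFF1_xL (A := A) (π := IsLocalRing.residue A) (N := N) hπ hsurj hNk
  haveI := hF.finiteDimensional
  haveI := hF.hasPrincipalDivisors
  -- the divisors of `dx` and `dj` on the characteristic zero side
  have hDx : D (AlgebraicClosure ℚ) ↥(modularFunctionFieldBar N) (xL (AlgebraicClosure ℚ) N) ≠ 0 :=
    Fermat.Agent.S24.DNeZero.D_ne_zero _ hF.transcendental
  have hspanx := span_D_eq_top_of_ne_zero (xL (AlgebraicClosure ℚ) N) hF.transcendental hDx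
  obtain ⟨W, hW, -, -, -⟩ := Res.exists_divisor_D_of_span hF (xL (AlgebraicClosure ℚ) N) hspanx
  have hDJ : D (AlgebraicClosure ℚ) ↥(modularFunctionFieldBar N) J ≠ 0 := by
    refine D_ne_zero_of_theta_ne_zero (modularFunctionFieldBar N) J ?_
    rw [hJ]
    exact Fermat.Agent.TR.Hecke.DlogTheta.theta_jqModC_ne_zero (AlgebraicClosure ℚ)
  have hspanJ := span_D_eq_top_of_ne_zero (xL (AlgebraicClosure ℚ) N) hF.transcendental hDJ
  obtain ⟨Wj, hWj, -, -, -⟩ := Res.exists_divisor_D_of_span hF J hspanJ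
  -- (OA3-BC): lift `a'`
  obtain ⟨φ, hφW, hφred⟩ := HolRed.exists_lift N ℓ hℓ hℓN h5 A hA hNk W hW Wt hWt a' ha'
  -- (BASE): pass to `dj`
  obtain ⟨ψ, hψ, hψθ⟩ := exists_base_change (modularFunctionFieldBar N) hF hW hWj hspanJ hφW
  rw [hJ] at hψθ
  -- (A): the cusp form
  obtain ⟨G, hG, hGneg⟩ := hAv J hJ Wj hWj ψ hψ
  -- (INT): integrality
  have hxmem : ((xL (AlgebraicClosure ℚ) N : ↥(modularFunctionFieldBar N)) :
      LaurentSeries (AlgebraicClosure ℚ)) ∈ gaussRing A (IsLocalRing.residue A) :=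
    InstGenus.xL_mem_Ow (A := A) (π := IsLocalRing.residue A) hNk
  have hθmem := Fermat.Agent.TR.Hecke.DiffRed.theta_mem_gaussRing A (IsLocalRing.residue A) hxmem
  have hφmem : (((φ : ↥(modularFunctionFieldBar N))) : LaurentSeries (AlgebraicClosure ℚ)) ∈
      gaussRing A (IsLocalRing.residue A) := φ.2
  have hy := (gaussRing A (IsLocalRing.residue A)).mul_mem hφmem hθmem
  obtain ⟨c, hc1, hc2, -⟩ := Fermat.Agent.TR.Hecke.GaussInt.exists_integral_coeffs N A
    (IsLocalRing.residue A) hπ ι G _ hy (fun n => by rw [hG n, hψθ])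
    (fun n hn => by rw [← hψθ]; exact hGneg n hn)
  refine ⟨G, c, fun n => by rw [hG n, hψθ, hc1 n], fun n => ?_⟩
  rw [← hc2 n]
  have h1 : (⟨_, hy⟩ : gaussRing A (IsLocalRing.residue A)) = ⟨_, hφmem⟩ * ⟨_, hθmem⟩ := rfl
  have h2 : red A (IsLocalRing.residue A) ⟨_, hφmem⟩ =
      (a' : LaurentSeries (IsLocalRing.ResidueField A)) := by
    rw [← hφred]
    rfl
  have h3 : red A (IsLocalRing.residue A) ⟨_, hxmem⟩ =
      ((xk (IsLocalRing.ResidueField A) N :
        ↥(modularFunctionFieldFullC (IsLocalRing.ResidueField A) N)) :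
        LaurentSeries (IsLocalRing.ResidueField A)) := by
    rw [← InstGenus.redF_xL (A := A) (π := IsLocalRing.residue A) hπ hNk]
    rfl
  rw [h1, map_mul, Fermat.Agent.TR.Hecke.DiffRed.red_theta A (IsLocalRing.residue A) hxmem, h2, h3]

/-- `j(q)` is a function of level `N` over `ℚ̄`. -/
theorem jqModC_mem_bar (N : ℕ) [NeZero N] :
    jqModC (AlgebraicClosure ℚ) ∈ modularFunctionFieldBar N := by
  have h := coeffEmb_mem_laurentBaseChange (L := AlgebraicClosure ℚ)
    (jqd_mem_full (N := N) (d := 1) (one_dvd N))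
  have e : coeffEmb (AlgebraicClosure ℚ) (qExpand ℚ 1 jq) = jqModC (AlgebraicClosure ℚ) := by
    rw [← Fermat.Agent.S28.TD.Jd_rat 1]
    exact (Fermat.Agent.S28.TD.coeffMap_Jd (algebraMap ℚ (AlgebraicClosure ℚ)) 1).trans
      (Fermat.Agent.S28.TD.Jd_one (AlgebraicClosure ℚ))
  rwa [e] at h

set_option maxHeartbeats 1000000 in
set_option synthInstance.maxHeartbeats 400000 in
/-- **(OA3)**, the literal consumed by (OA6), modulo the named hypothesis (A). -/
theorem holLift (N ℓ : ℕ) [NeZero N] (hℓ : ℓ.Prime) (hℓN : ¬ ℓ ∣ N) (h5 : 5 ≤ ℓ)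
    (A : ValuationSubring (AlgebraicClosure ℚ)) (hA : A.LiesOverPrime ℓ)
    (ι : AlgebraicClosure ℚ →+* ℂ) (hAv : AvatarProp N ι)
    (Wt : Divisor (IsLocalRing.ResidueField A)
      ↥(modularFunctionFieldFullC (IsLocalRing.ResidueField A) N))
    (hWt : Res.Adele.IsDivisorOf (D (IsLocalRing.ResidueField A)
      ↥(modularFunctionFieldFullC (IsLocalRing.ResidueField A) N)
      (xk (IsLocalRing.ResidueField A) N)) Wt)
    (a' : ↥(modularFunctionFieldFullC (IsLocalRing.ResidueField A) N))
    (ha' : a' ∈ riemannRochSpace Wt) :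
    ∃ (G : CuspForm (Gamma0 N) 2) (c : ℕ → A),
      (∀ n : ℕ, ModularFormClass.qCoeff (⇑G) n = ι (c n)) ∧
      ∀ n : ℕ, IsLocalRing.residue A (c n) =
        ((a' : LaurentSeries (IsLocalRing.ResidueField A)) *
          thetaFun (IsLocalRing.ResidueField A)
            ((xk (IsLocalRing.ResidueField A) N :
              ↥(modularFunctionFieldFullC (IsLocalRing.ResidueField A) N)) :
              LaurentSeries (IsLocalRing.ResidueField A))).coeff (n : ℤ) :=
  holLift_of_avatar N ℓ hℓ hℓN h5 A hA ι hAv ⟨jqModC (AlgebraicClosure ℚ), jqModC_mem_bar N⟩ rfl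
    Wt hWt a' ha'

end

end Fermat.Agent.TR.Hecke.HolLift
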