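import Mathlib
import Fermat.Agent.TR.Hecke.CuspDiffQ
import Fermat.Agent.TR.Hecke.HolLift

/-!
# TR / Hecke, (OA3) closed: `HolLift.AvatarProp N S24.iotaK` and the unconditional `holLift`

* `avatarProp N : HolLift.AvatarProp N S24.iotaK` — from `CuspDiff.exists_cuspForm_of_mem_L_full`;
* `holLift_closed` : `HolLift.holLift` with `ι := S24.iotaK` and no named hypothesis.
-/

set_option autoImplicit false

open AlgebraicCurve ModularCurve CongruenceSubgroup KaehlerDifferential
open Fermat.Agent.Lib.FF Fermat.Agent.Lib.Red Fermat.Agent.Lib.Red.GenusGA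

noncomputable section

namespace Fermat.Agent.TR.Hecke.HolLiftClosed

/-- **(A)**: the avatar property of `HolLift`, for the embedding `S24.iotaK`. -/
theorem avatarProp (N : ℕ) [NeZero N] : HolLift.AvatarProp N Fermat.Agent.S24.iotaK := by
  intro J hJ W hW ψ hψ
  obtain ⟨⟨G, hG⟩, hneg⟩ := CuspDiff.exists_cuspForm_of_mem_L_full N J hJ W hW ψ hψ
  exact ⟨G, hG, fun n hn => hneg n hn.le⟩

/-- **(OA3), closed**: every `a' ∈ L(div dx̄)` on the reduction of `X₀(N)` at a prime `ℓ ≥ 5`,
`ℓ ∤ N`, is the reduction of the `q`-expansion of a cusp form of weight `2` for `Γ₀(N)` with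
`A`-integral coefficients. -/
theorem holLift_closed (N ℓ : ℕ) [NeZero N] (hℓ : ℓ.Prime) (hℓN : ¬ ℓ ∣ N) (h5 : 5 ≤ ℓ)
    (A : ValuationSubring (AlgebraicClosure ℚ)) (hA : A.LiesOverPrime ℓ)
    (Wt : Divisor (IsLocalRing.ResidueField A)
      ↥(modularFunctionFieldFullC (IsLocalRing.ResidueField A) N))
    (hWt : Res.Adele.IsDivisorOf (D (IsLocalRing.ResidueField A)
      ↥(modularFunctionFieldFullC (IsLocalRing.ResidueField A) N)
      (xk (IsLocalRing.ResidueField A) N)) Wt)
    (a' : ↥(modularFunctionFieldFullC (IsLocalRing.ResidueField A) N))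
    (ha' : a' ∈ riemannRochSpace Wt) :
    ∃ (G : CuspForm (Gamma0 N) 2) (c : ℕ → A),
      (∀ n : ℕ, ModularFormClass.qCoeff (⇑G) n = Fermat.Agent.S24.iotaK (c n)) ∧
      ∀ n : ℕ, IsLocalRing.residue A (c n) =
        ((a' : LaurentSeries (IsLocalRing.ResidueField A)) *
          thetaFun (IsLocalRing.ResidueField A)
            ((xk (IsLocalRing.ResidueField A) N :
              ↥(modularFunctionFieldFullC (IsLocalRing.ResidueField A) N)) :
              LaurentSeries (IsLocalRing.ResidueField A))).coeff (n : ℤ) :=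
  HolLift.holLift N ℓ hℓ hℓN h5 A hA Fermat.Agent.S24.iotaK (avatarProp N) Wt hWt a' ha'

end Fermat.Agent.TR.Hecke.HolLiftClosed
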