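/-
TR / Hecke side, (OA3) CLOSED (helper70): the named hypothesis (A) of `HolLift` is the theorem
`CuspDiff.exists_cuspForm_of_mem_L_full` (helper51), for the embedding `ι = S24.iotaK`.

* `avatarProp N : HolLift.AvatarProp N S24.iotaK`;
* `holLift_iotaK` : **(OA3), unconditional** — `A` a valuation ring of `ℚ̄` over a prime `ℓ ≥ 5`,
  `ℓ ∤ N`, `k` its residue field: every `a' ∈ L(div dx̄)` (`x̄ = J̄(q^N)`) on the mod-`ℓ` modular
  function field of level `N` is the reduction of the `q`-expansion of a cusp form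
  `G ∈ S₂(Γ₀(N))` with `A`-integral `q`-coefficients.
-/
import Mathlib
import Fermat.Agent.TR.Hecke.HolLift
import Fermat.Agent.TR.Hecke.CuspDiffQ

set_option autoImplicit false

namespace Fermat.Agent.TR.Hecke.HolLift

open AlgebraicCurve KaehlerDifferential Fermat.Agent.Lib.FF ModularCurve
  Fermat.Agent.Lib.Red Fermat.Agent.Lib.Red.GenusGA CongruenceSubgroup

noncomputable section

/-- **(A)** for the embedding of the `ℚ̄`-dictionary. -/
theorem avatarProp (N : ℕ) [NeZero N] : AvatarProp N Fermat.Agent.S24.iotaK := by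
  intro J hJ W hW ψ hψ
  obtain ⟨⟨G, hG⟩, hneg⟩ :=
    Fermat.Agent.TR.Hecke.CuspDiff.exists_cuspForm_of_mem_L_full N J hJ W hW ψ hψ
  exact ⟨G, fun n => hG n, fun n hn => hneg n hn.le⟩

set_option maxHeartbeats 1000000 in
set_option synthInstance.maxHeartbeats 400000 in
/-- **(OA3), unconditional.** -/
theorem holLift_iotaK (N ℓ : ℕ) [NeZero N] (hℓ : ℓ.Prime) (hℓN : ¬ ℓ ∣ N) (h5 : 5 ≤ ℓ)
    (A : ValuationSubring (AlgebraicClosure ℚ)) (hA : A.LiesOverPrime ℓ)
    (Wt : Divisor (IsLocalRing.ResidueField A)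
      ↥(modularFunctionFieldFullC (IsLocalRing.ResidueField A) N))
    (hWt : Res.Adele.IsDivisorOf (D (IsLocalRing.ResidueField A)
      ↥(modularFunctionFieldFullC (IsLocalRing.ResidueField A) N)
      (xk (IsLocalRing.ResidueField A) N)) Wt)
    (a' : ↥(modularFunctionFieldFullC (IsLocalRing.ResidueField A) N))
    (ha' : a' ∈ riemannRochSpace Wt) :
    ∃ (G : CuspForm (Gamma0 N) 2) (c : ℕ → A),
      (∀ n : ℕ, ModularFormClass.qCoeff (⇑G) n = Fermat.Agent.S24.iotaK (c n)) ∧
      ∀ n : ℕ, IsLocalRing.residue A (c n) =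
        ((a' : LaurentSeries (IsLocalRing.ResidueField A)) *
          thetaFun (IsLocalRing.ResidueField A)
            ((xk (IsLocalRing.ResidueField A) N :
              ↥(modularFunctionFieldFullC (IsLocalRing.ResidueField A) N)) :
              LaurentSeries (IsLocalRing.ResidueField A))).coeff (n : ℤ) :=
  holLift N ℓ hℓ hℓN h5 A hA Fermat.Agent.S24.iotaK (avatarProp N) Wt hWt a' ha'

end

end Fermat.Agent.TR.Hecke.HolLift
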