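import Mathlib
import Fermat.Agent.TR.Hecke.NormQ
import Fermat.Agent.ESJ.Jac.Const
import Fermat.Agent.ESJ.Jac.FinDimK
import Fermat.Agent.ESJ.Jac.HeckeKummer

/-!
# TR / Hecke side, (HK) of ruling H#3 §4: the reduction of the Kummer function of `T_ℓ x`

`h : BadSetup A π M p` over `Qb = AlgebraicClosure ℚ`, `F = F_{Mp}`, `x : JZero (M * p)` with a
Kummer function `f` (`IsKummerPair n x f`) which is a unit of `O_∞`, and a Hecke eigen-relation
`T_ℓ x = a • x` (`a : ℤ`).  The Kummer function of `T_ℓ x` is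
`N f := normAlong α_ℓ (β_ℓ f) = Nm_{α_ℓ}(f(q^ℓ))` (`ESJ.Jac.HeckeKummer`), and `f ^ a` is a
Kummer function of `a • x`; hence `N f = C · f^a · g^n` with `C` a constant, and after scaling
`g` to a unit of `O_∞`:

  `red_∞ (N f) = c₀ · (red_∞ f)^a · u^n`,  `c₀ ∈ kˣ`, `u ∈ κˣ`.

* `IsKummerPair.zsmul'` : Kummer pairs and integer multiples;
* `exists_eq_const_mul_zpow_mul_pow` : the char-0 identity `N f = C · f^a · g^n`;
* `kumRed_of_mem` : the reduction statement, given `N f ∈ O_∞` with nonzero reduction;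
* `kumRed` : the same with these two facts discharged (`ℓ` invertible in `k`, `π` surjective),
  in the literal shape of ruling H#3 §4.
-/

set_option autoImplicit false
set_option linter.unusedSectionVars false
set_option linter.style.haveILetI false

noncomputable section

namespace Fermat.Agent.TR.Hecke.KumRed35

open AlgebraicCurve ModularCurve HahnSeries
open Fermat.Agent.BAD.TwoVal Fermat.Agent.ESJ.Jac Fermat.Agent.ESJ.Jac.HeckeKummer

local notation "Qb" => AlgebraicClosure ℚ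

/-! ### Kummer pairs and integer multiples -/

section Kummer

variable {K F : Type*} [Field K] [Field F] [Algebra K F]

/-- Kummer pairs under integer multiples: `f ^ m` is a Kummer function of `m • x`. -/
theorem isKummerPair_zsmul {n : ℕ} {x : Pic0 K F} {f : F} (h : IsKummerPair n x f) (m : ℤ) :
    IsKummerPair n (m • x) (f ^ m) := by
  obtain ⟨j, rfl | rfl⟩ := m.eq_nat_or_neg
  · rw [natCast_zsmul, zpow_natCast]
    exact h.nsmul j
  · rw [neg_zsmul, natCast_zsmul, zpow_neg, zpow_natCast]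
    exact (h.nsmul j).neg

end Kummer

/-! ### Units of a valuation subring and integer powers -/

section Units

variable {F κ : Type*} [Field F] [Field κ]

/-- For a unit `f` of a valuation subring `O` (both `f, f⁻¹ ∈ O`) and a ring map `red : O → κ`
to a field: `f ^ a ∈ O` and `red (f ^ a) = (red f) ^ a` for every integer `a`. -/
theorem exists_red_zpow (O : ValuationSubring F) (red : O →+* κ) {f : F} (hf0 : f ≠ 0)
    (hf : f ∈ O) (hf' : f⁻¹ ∈ O) (a : ℤ) :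
    ∃ hm : f ^ a ∈ O, red ⟨f ^ a, hm⟩ = (red ⟨f, hf⟩) ^ a := by
  have hr : red ⟨f, hf⟩ * red ⟨f⁻¹, hf'⟩ = 1 := by
    rw [← map_mul, ← map_one red]
    congr 1
    exact Subtype.ext (mul_inv_cancel₀ hf0)
  have hrinv : red ⟨f⁻¹, hf'⟩ = (red ⟨f, hf⟩)⁻¹ := eq_inv_of_mul_eq_one_right hr
  obtain ⟨j, rfl | rfl⟩ := a.eq_nat_or_neg
  · have hmem : f ^ ((j : ℕ) : ℤ) ∈ O := by
      rw [zpow_natCast]
      exact O.pow_mem hf j
    refine ⟨hmem, ?_⟩
    have e : (⟨f ^ ((j : ℕ) : ℤ), hmem⟩ : O) = ⟨f, hf⟩ ^ j := Subtype.ext (zpow_natCast f j)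
    rw [e, map_pow, zpow_natCast]
  · have hmem : f ^ (-(j : ℤ)) ∈ O := by
      rw [zpow_neg, zpow_natCast, ← inv_pow]
      exact O.pow_mem hf' j
    refine ⟨hmem, ?_⟩
    have e : (⟨f ^ (-(j : ℤ)), hmem⟩ : O) = ⟨f⁻¹, hf'⟩ ^ j :=
      Subtype.ext (by
        show f ^ (-(j : ℤ)) = (f⁻¹) ^ j
        rw [zpow_neg, zpow_natCast, inv_pow])
    rw [e, map_pow, hrinv, inv_pow, zpow_neg, zpow_natCast]

end Units

/-! ### The char-0 identity -/

section CharZero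

variable {N : ℕ} [NeZero N]

/-- **Two Kummer functions of the same class differ by a constant and an `n`-th power**
(over `Qb`, level `N`). -/
theorem exists_eq_const_mul_pow_of_isKummerPair {n : ℕ} {x : JZero N}
    {f f' : modularFunctionFieldBar N} (h : IsKummerPair n x f) (h' : IsKummerPair n x f') :
    ∃ (C : Qb) (g : modularFunctionFieldBar N), C ≠ 0 ∧ g ≠ 0 ∧
      f' = algebraMap Qb (modularFunctionFieldBar N) C * f * g ^ n := by
  obtain ⟨c, g, hc, hg, hord, he⟩ := h.exists_eq_mul_pow h'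
  haveI : FiniteDimensional
      (IntermediateField.adjoin Qb ({jBarK Qb N} : Set (FNK Qb N))) (FNK Qb N) :=
    FinDimK.finiteDimensional_jBarK Qb N
  obtain ⟨C, hC, hcC⟩ :=
    Const.exists_eq_algebraMap_of_forall_ord_eq_zero (K := Qb) (F := FNK Qb N) (jBarK Qb N) hc
      hord
  exact ⟨C, g, hC, hg, by rw [he, hcC]⟩

/-- **The Kummer function of a Hecke eigenclass**: if `T_ℓ x = a • x` and `f` is a Kummer
function of `x`, then `Nm_{α_ℓ}(β_ℓ f) = C · f^a · g^n` with `C` a nonzero constant. -/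
theorem exists_eq_const_mul_zpow_mul_pow (ℓ : ℕ) [NeZero ℓ] (hℓ : ℓ.Prime) {n : ℕ} {x : JZero N}
    {f : modularFunctionFieldBar N} (hk : IsKummerPair n x f) {a : ℤ}
    (hx : heckeOperatorBar N ⟨ℓ, hℓ⟩ x = a • x) :
    ∃ (C : Qb) (g : modularFunctionFieldBar N), C ≠ 0 ∧ g ≠ 0 ∧
      normAlong (heckeAlphaBar Qb N ℓ) (heckeBetaBar Qb N ℓ f) =
        algebraMap Qb (modularFunctionFieldBar N) C * f ^ a * g ^ n := by
  have h1 := isKummerPair_heckeOperatorBar N ⟨ℓ, hℓ⟩ hk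
  rw [hx] at h1
  exact exists_eq_const_mul_pow_of_isKummerPair (isKummerPair_zsmul hk a) h1

end CharZero

/-! ### The reduction -/

section Red

variable {A : ValuationSubring Qb} {k : Type} [Field k] {π : A →+* k} {M p : ℕ} [NeZero M]
  [NeZero p]

/-- **(HK), core**: `red_∞ (N f) = c₀ · (red_∞ f)^a · u^n`, given that `N f` lies in `O_∞`
with nonzero reduction. -/
theorem kumRed_of_mem (h : BadSetup A π M p) (ℓ : ℕ) [NeZero ℓ] (hℓ : ℓ.Prime) {n : ℕ}
    {x : JZero (M * p)} {f : laurentBaseChange Qb (modularFunctionFieldFull (M * p))}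
    (hk : IsKummerPair n x f) (hf : f ∈ OInf h) (hf0 : redInf h ⟨f, hf⟩ ≠ 0) {a : ℤ}
    (hx : heckeOperatorBar (M * p) ⟨ℓ, hℓ⟩ x = a • x)
    (hN : normAlong (heckeAlphaBar Qb (M * p) ℓ) (heckeBetaBar Qb (M * p) ℓ f) ∈ OInf h)
    (hN0 : redInf h ⟨_, hN⟩ ≠ 0) :
    ∃ (c₀ : k) (u : ↥(modularFunctionFieldFullC k M)), c₀ ≠ 0 ∧ u ≠ 0 ∧
      redInf h ⟨_, hN⟩ =
        algebraMap k ↥(modularFunctionFieldFullC k M) c₀ * (redInf h ⟨f, hf⟩) ^ a * u ^ n := by
  set Nf := normAlong (heckeAlphaBar Qb (M * p) ℓ) (heckeBetaBar Qb (M * p) ℓ f) with hNf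
  have hfne : f ≠ 0 := hk.ne_zero
  have hf' : f⁻¹ ∈ OInf h := inv_mem_OInf h f hf hf0
  have hN' : Nf⁻¹ ∈ OInf h := inv_mem_OInf h Nf hN hN0
  obtain ⟨C, g, hC, hg, he⟩ := exists_eq_const_mul_zpow_mul_pow ℓ hℓ hk hx
  -- scale `g` to a unit of `O_∞`
  obtain ⟨b, hb, hg₁, hu⟩ := exists_scaling_OInf h g hg
  set g₁ := algebraMap Qb (laurentBaseChange Qb (modularFunctionFieldFull (M * p))) b * g
    with hg₁def
  have hg₁' : g₁⁻¹ ∈ OInf h := inv_mem_OInf h g₁ hg₁ hu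
  have hg₁0 : g₁ ≠ 0 := mul_ne_zero
    (fun h0 => hb ((algebraMap Qb _).injective (by rw [h0, map_zero]))) hg
  -- the integer power of `f`
  obtain ⟨hfa, hredfa⟩ := exists_red_zpow (OInf h) (redInf h) hfne hf hf' a
  obtain ⟨hfa', -⟩ := exists_red_zpow (OInf h) (redInf h) hfne hf hf' (-a)
  -- the constant
  set c' : Qb := C * (b ^ n)⁻¹ with hc'def
  have hc'0 : c' ≠ 0 := mul_ne_zero hC (inv_ne_zero (pow_ne_zero n hb))
  have hbF : algebraMap Qb (laurentBaseChange Qb (modularFunctionFieldFull (M * p))) b ≠ 0 :=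
    fun h0 => hb ((algebraMap Qb _).injective (by rw [h0, map_zero]))
  have key : Nf = algebraMap Qb (laurentBaseChange Qb (modularFunctionFieldFull (M * p))) c' *
      f ^ a * g₁ ^ n := by
    rw [hNf, he, hc'def, hg₁def, map_mul, map_inv₀, map_pow, mul_pow]
    have hbn : (algebraMap Qb (laurentBaseChange Qb (modularFunctionFieldFull (M * p))) b) ^ n ≠ 0 :=
      pow_ne_zero n hbF
    field_simp
  have hfa0 : f ^ a ≠ 0 := zpow_ne_zero a hfne
  have hg₁n0 : g₁ ^ n ≠ 0 := pow_ne_zero n hg₁0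
  have hcmem : algebraMap Qb (laurentBaseChange Qb (modularFunctionFieldFull (M * p))) c' ∈
      OInf h := by
    have e : algebraMap Qb (laurentBaseChange Qb (modularFunctionFieldFull (M * p))) c' =
        Nf * f ^ (-a) * (g₁⁻¹) ^ n := by
      rw [key, zpow_neg, inv_pow]
      field_simp
    rw [e]
    exact (OInf h).mul_mem _ _ ((OInf h).mul_mem _ _ hN hfa') ((OInf h).pow_mem hg₁' n)
  have hcmem' : algebraMap Qb (laurentBaseChange Qb (modularFunctionFieldFull (M * p))) c'⁻¹ ∈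
      OInf h := by
    have e : algebraMap Qb (laurentBaseChange Qb (modularFunctionFieldFull (M * p))) c'⁻¹ =
        Nf⁻¹ * f ^ a * g₁ ^ n := by
      rw [key, map_inv₀]
      field_simp
    rw [e]
    exact (OInf h).mul_mem _ _ ((OInf h).mul_mem _ _ hN' hfa) ((OInf h).pow_mem hg₁ n)
  have hcA : c' ∈ A := (algebraMap_mem_OInf_iff h c').mp hcmem
  have hcA' : c'⁻¹ ∈ A := (algebraMap_mem_OInf_iff h c'⁻¹).mp hcmem'
  have hπc : π ⟨c', hcA⟩ ≠ 0 := by
    intro h0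
    have h1 : π ⟨c', hcA⟩ * π ⟨c'⁻¹, hcA'⟩ = 1 := by
      rw [← map_mul, ← map_one π]
      congr 1
      exact Subtype.ext (mul_inv_cancel₀ hc'0)
    rw [h0, zero_mul] at h1
    exact zero_ne_one h1
  refine ⟨π ⟨c', hcA⟩, redInf h ⟨g₁, hg₁⟩, hπc, hu, ?_⟩
  have e1 : (⟨Nf, hN⟩ : OInf h) =
      ⟨algebraMap Qb (laurentBaseChange Qb (modularFunctionFieldFull (M * p))) c', hcmem⟩ *
        ⟨f ^ a, hfa⟩ * ⟨g₁, hg₁⟩ ^ n := Subtype.ext key
  rw [e1, map_mul, map_mul, map_pow, hredfa]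
  congr 2
  exact redInf_algebraMap h ⟨c', hcA⟩ hcmem

/-- **(HK)**, ruling H#3 §4: for a Kummer function `f` of `x` which is a unit of `O_∞`, and an
eigen-relation `T_ℓ x = a • x` (`ℓ` a prime invertible in `k`):
`red_∞ (Nm_{α_ℓ}(β_ℓ f)) = c₀ · (red_∞ f)^a · u^n` with `c₀ ≠ 0`, `u ≠ 0`. -/
theorem kumRed (h : BadSetup A π M p) (hsurj : Function.Surjective π) (ℓ : ℕ) [NeZero ℓ]
    (hℓ : ℓ.Prime) (hℓk : (ℓ : k) ≠ 0) {n : ℕ} {x : JZero (M * p)}
    {f : laurentBaseChange Qb (modularFunctionFieldFull (M * p))}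
    (hk : IsKummerPair n x f) (hf : f ∈ OInf h) (hf0 : redInf h ⟨f, hf⟩ ≠ 0) {a : ℤ}
    (hx : heckeOperatorBar (M * p) ⟨ℓ, hℓ⟩ x = a • x) :
    ∃ (hN : normAlong (heckeAlphaBar Qb (M * p) ℓ) (heckeBetaBar Qb (M * p) ℓ f) ∈ OInf h)
      (c₀ : k) (u : ↥(modularFunctionFieldFullC k M)), c₀ ≠ 0 ∧ u ≠ 0 ∧
      redInf h ⟨_, hN⟩ =
        algebraMap k ↥(modularFunctionFieldFullC k M) c₀ * (redInf h ⟨f, hf⟩) ^ a * u ^ n := by
  have hfne : f ≠ 0 := hk.ne_zero
  have hf' : f⁻¹ ∈ OInf h := inv_mem_OInf h f hf hf0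
  have hN : normAlong (heckeAlphaBar Qb (M * p) ℓ) (heckeBetaBar Qb (M * p) ℓ f) ∈ OInf h :=
    Fermat.Agent.TR.Hecke.NormQ.norm_mem_OInf h ℓ hℓ hℓk hsurj f hf
  have h2 : normAlong (heckeAlphaBar Qb (M * p) ℓ) (heckeBetaBar Qb (M * p) ℓ f) *
      normAlong (heckeAlphaBar Qb (M * p) ℓ) (heckeBetaBar Qb (M * p) ℓ f⁻¹) = 1 := by
    rw [← map_mul, ← map_mul, mul_inv_cancel₀ hfne, map_one, map_one]
  have hNinv : (normAlong (heckeAlphaBar Qb (M * p) ℓ) (heckeBetaBar Qb (M * p) ℓ f))⁻¹ ∈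
      OInf h := by
    have h1 : normAlong (heckeAlphaBar Qb (M * p) ℓ) (heckeBetaBar Qb (M * p) ℓ f⁻¹) ∈ OInf h :=
      Fermat.Agent.TR.Hecke.NormQ.norm_mem_OInf h ℓ hℓ hℓk hsurj f⁻¹ hf'
    rw [← eq_inv_of_mul_eq_one_right h2]
    exact h1
  have hN1 : normAlong (heckeAlphaBar Qb (M * p) ℓ) (heckeBetaBar Qb (M * p) ℓ f) ≠ 0 := by
    intro h0
    rw [h0, zero_mul] at h2
    exact zero_ne_one h2
  have hN0 : redInf h ⟨_, hN⟩ ≠ 0 := redInf_ne_zero_of_inv_mem h _ hN1 hN hNinv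
  exact ⟨hN, kumRed_of_mem h ℓ hℓ hk hf hf0 hx hN hN0⟩

end Red

end Fermat.Agent.TR.Hecke.KumRed35
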