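import Mathlib
import Fermat.Agent.S49.AlgCore
import Fermat.Agent.S49.Eigen
import Fermat.Agent.S49.Eigenform
import Fermat.Agent.S49.Forms
import Fermat.Agent.S23.Descent
import Fermat.Agent.S22
import Fermat.Prelude.Def_FLTPrelim_ModularRep
import Fermat.Prelude.Def_FLTPrelim_Ramification

/-!
# TR, Hecke side, brick (OA5): Deligne–Serre lifting of a mod-`I` eigen-`q`-series

`G` a weight-2 cusp form of level `Γ₀(M)` whose `q`-coefficients are `ι (c n)` for a ring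
homomorphism `ι : R →+* ℂ` (injective) and `c : ℕ → R`; `I` an ideal of `R` containing a prime
number `p`.  If `G` is not `≡ 0` modulo `I` and `T_ℓ G ≡ a_ℓ G` modulo `I` for all primes
`ℓ ∤ M` outside a set `S`, then there is a NORMALISED EIGENFORM `g` of level `M` and a maximal
ideal `𝔪'` of the ring of algebraic integers with `p ∈ 𝔪'` and `a_ℓ(g) ≡ a_ℓ mod 𝔪'` for all
those `ℓ` (`exists_eigenform_of_modI_eigen`).

Frey form (`modularRepOfLevel_of_modp_eigen`): for `R = A` a valuation subring of `ℚ̄` over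
`P.p`, `I` its maximal ideal and `a_ℓ = a_ℓ(W)`: `P.ModularRepOfLevel M`.

Pattern: `Fermat.Agent.S49` (the case `R = ℤ`, `I = (3)`, full Hecke algebra), plus the passage
from the anemic to the full Hecke algebra inside an eigenspace.
-/

set_option autoImplicit false

open CongruenceSubgroup ModularFormClass UpperHalfPlane

namespace Fermat.Agent.TR.Hecke.OldLift

open Fermat.Agent.S49 (qCoeff_add qCoeff_smul qLin qLin_apply ext_qCoeff)

section core

variable {M : ℕ} {R : Type*} [CommRing R] (ι : R →+* ℂ) (I : Ideal R)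

/-- All `q`-coefficients of `H` lie in `ι I`. -/
def DivI (H : CuspForm (Gamma0 M) 2) : Prop :=
  ∀ n : ℕ, ∃ r ∈ I, qCoeff (⇑H) n = ι r

theorem divI_zero : DivI ι I (0 : CuspForm (Gamma0 M) 2) := fun n =>
  ⟨0, I.zero_mem, by rw [← qLin_apply, map_zero, map_zero]⟩

variable {ι I}

theorem DivI.add {H H' : CuspForm (Gamma0 M) 2} (h : DivI ι I H) (h' : DivI ι I H') :
    DivI ι I (H + H') := fun n => by
  obtain ⟨r, hr, e⟩ := h n
  obtain ⟨r', hr', e'⟩ := h' n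
  exact ⟨r + r', I.add_mem hr hr', by rw [qCoeff_add, e, e', map_add]⟩

theorem DivI.zsmul {H : CuspForm (Gamma0 M) 2} (h : DivI ι I H) (z : ℤ) :
    DivI ι I (z • H) := fun n => by
  obtain ⟨r, hr, e⟩ := h n
  refine ⟨(z : R) * r, I.mul_mem_left _ hr, ?_⟩
  rw [← qLin_apply, map_zsmul, qLin_apply, e, map_mul, map_intCast, zsmul_eq_mul]

theorem DivI.heckeT {H : CuspForm (Gamma0 M) 2} (h : DivI ι I H) {ℓ : ℕ} (hℓ : ℓ.Prime)
    (hℓM : ¬ ℓ ∣ M) : DivI ι I (CuspForm.heckeTLin 2 hℓ hℓM H) := fun n => by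
  rw [Fermat.Agent.S49.qCoeff_heckeT]
  have h21 : ((2 : ℤ) - 1) = 1 := by norm_num
  rw [h21, zpow_one]
  obtain ⟨r₁, hr₁, e₁⟩ := h (n * ℓ)
  by_cases hd : ℓ ∣ n
  · obtain ⟨r₂, hr₂, e₂⟩ := h (n / ℓ)
    refine ⟨r₁ + (ℓ : R) * r₂, I.add_mem hr₁ (I.mul_mem_left _ hr₂), ?_⟩
    rw [if_pos hd, e₁, e₂, map_add, map_mul, map_natCast]
  · exact ⟨r₁, hr₁, by rw [if_neg hd, add_zero, e₁]⟩

theorem DivI.heckeU [NeZero M] {H : CuspForm (Gamma0 M) 2} (h : DivI ι I H) {q : ℕ}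
    (hq : q.Prime) (hqM : q ∣ M) : DivI ι I (CuspForm.heckeULin 2 hqM H) := fun n => by
  rw [Fermat.Agent.S49.qCoeff_heckeU hq]
  exact h (n * q)

theorem DivI.hecke [NeZero M] {S : Set ℕ}
    {t : Module.End ℂ (CuspForm (Gamma0 M) 2)} (ht : t ∈ CuspForm.heckeAlgebra M 2 S) :
    ∀ H : CuspForm (Gamma0 M) 2, DivI ι I H → DivI ι I (t H) := by
  unfold CuspForm.heckeAlgebra at ht
  induction ht using Algebra.adjoin_induction with
  | mem x hx =>
    rcases hx with ⟨ℓ, hℓ, hℓN, -, rfl⟩ | ⟨q, hqN, hq, -, rfl⟩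
    · exact fun H h => h.heckeT hℓ hℓN
    · exact fun H h => h.heckeU hq hqN
  | algebraMap r =>
    intro H h
    have : (algebraMap ℤ (Module.End ℂ (CuspForm (Gamma0 M) 2)) r) H = r • H := by simp
    rw [this]
    exact h.zsmul r
  | add x y hx hy ihx ihy =>
    intro H h
    rw [LinearMap.add_apply]
    exact (ihx H h).add (ihy H h)
  | mul x y hx hy ihx ihy =>
    intro H h
    rw [Module.End.mul_apply]
    exact ihx _ (ihy H h)

variable {S : Set ℕ} {a : ℕ → ℤ} {G : CuspForm (Gamma0 M) 2} {c : ℕ → R}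

theorem divI_heckeT_sub (hc : ∀ n, qCoeff (⇑G) n = ι (c n)) {ℓ : ℕ} (hℓ : ℓ.Prime)
    (hℓM : ¬ ℓ ∣ M)
    (heig : ∀ n, c (n * ℓ) + (if ℓ ∣ n then (ℓ : R) * c (n / ℓ) else 0) - (a ℓ : R) * c n ∈ I) :
    DivI ι I (CuspForm.heckeTLin 2 hℓ hℓM G - a ℓ • G) := by
  intro n
  refine ⟨_, heig n, ?_⟩
  have hq : qCoeff (⇑(CuspForm.heckeTLin 2 hℓ hℓM G - a ℓ • G)) n =
      qCoeff (⇑(CuspForm.heckeTLin 2 hℓ hℓM G)) n - (a ℓ : ℂ) * qCoeff (⇑G) n := by
    rw [← qLin_apply, map_sub, map_zsmul, qLin_apply, qLin_apply]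
    simp
  rw [hq, Fermat.Agent.S49.qCoeff_heckeT]
  have h21 : ((2 : ℤ) - 1) = 1 := by norm_num
  rw [h21, zpow_one]
  by_cases hd : ℓ ∣ n
  · rw [if_pos hd, if_pos hd]
    simp only [hc, map_sub, map_add, map_mul, map_intCast, map_natCast]
  · rw [if_neg hd, if_neg hd]
    simp only [hc, map_sub, map_add, map_mul, map_intCast, map_zero]

theorem exists_int_divI [NeZero M] (hc : ∀ n, qCoeff (⇑G) n = ι (c n))
    (hS : ∀ q : ℕ, q.Prime → q ∣ M → q ∈ S)
    (heig : ∀ ℓ : ℕ, ℓ.Prime → ¬ ℓ ∣ M → ℓ ∉ S → ∀ n,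
      c (n * ℓ) + (if ℓ ∣ n then (ℓ : R) * c (n / ℓ) else 0) - (a ℓ : R) * c n ∈ I)
    {t : Module.End ℂ (CuspForm (Gamma0 M) 2)} (ht : t ∈ CuspForm.heckeAlgebra M 2 S) :
    ∃ z : ℤ, DivI ι I (t G - z • G) := by
  unfold CuspForm.heckeAlgebra at ht
  induction ht using Algebra.adjoin_induction with
  | mem x hx =>
    rcases hx with ⟨ℓ, hℓ, hℓN, hℓS, rfl⟩ | ⟨q, hqN, hq, hqS, rfl⟩
    · exact ⟨a ℓ, divI_heckeT_sub hc hℓ hℓN (heig ℓ hℓ hℓN hℓS)⟩
    · exact absurd (hS q hq hqN) hqS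
  | algebraMap r =>
    refine ⟨r, ?_⟩
    have : (algebraMap ℤ (Module.End ℂ (CuspForm (Gamma0 M) 2)) r) G = r • G := by simp
    rw [this, sub_self]
    exact divI_zero ι I
  | add x y hx hy ihx ihy =>
    obtain ⟨z, hz⟩ := ihx
    obtain ⟨w, hw⟩ := ihy
    refine ⟨z + w, ?_⟩
    have := hz.add hw
    have e : x G - z • G + (y G - w • G) = (x + y) G - (z + w) • G := by
      rw [LinearMap.add_apply, add_smul]; abel
    rw [e] at this
    exact this
  | mul x y hx hy ihx ihy =>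
    obtain ⟨z, hz⟩ := ihx
    obtain ⟨w, hw⟩ := ihy
    refine ⟨z * w, ?_⟩
    have h1 : DivI ι I (x (y G - w • G)) := DivI.hecke (S := S) hx _ hw
    have h2 := hz.zsmul w
    have := h1.add h2
    have e : x (y G - w • G) + w • (x G - z • G) = (x * y) G - (z * w) • G := by
      rw [Module.End.mul_apply, map_sub, map_zsmul, smul_sub, smul_smul, mul_comm w z]; abel
    rw [e] at this
    exact this

end core

section main

variable {M : ℕ} [NeZero M] {R : Type*} [CommRing R]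

/-- The maximal ideal of the (anemic) Hecke algebra cut out by a mod-`I` eigen-`q`-series. -/
theorem exists_maximal_ideal (ι : R →+* ℂ) (hι : Function.Injective ι) (I : Ideal R)
    {p : ℕ} (hp : p.Prime) (hpI : (p : R) ∈ I) (S : Set ℕ)
    (hS : ∀ q : ℕ, q.Prime → q ∣ M → q ∈ S) (a : ℕ → ℤ)
    (G : CuspForm (Gamma0 M) 2) (c : ℕ → R) (hc : ∀ n, qCoeff (⇑G) n = ι (c n))
    (hne : ∃ n, c n ∉ I)
    (heig : ∀ ℓ : ℕ, ℓ.Prime → ¬ ℓ ∣ M → ℓ ∉ S → ∀ n,
      c (n * ℓ) + (if ℓ ∣ n then (ℓ : R) * c (n / ℓ) else 0) - (a ℓ : R) * c n ∈ I) :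
    ∃ 𝔪 : Ideal (CuspForm.heckeAlgebra M 2 S), 𝔪.IsMaximal ∧
      ((p : ℤ) : CuspForm.heckeAlgebra M 2 S) ∈ 𝔪 ∧
      ∀ (ℓ : ℕ) (hℓ : ℓ.Prime) (hℓM : ¬ ℓ ∣ M) (hℓS : ℓ ∉ S),
        CuspForm.heckeAlgebra.T hℓ hℓM hℓS - ((a ℓ : ℤ) : CuspForm.heckeAlgebra M 2 S) ∈ 𝔪 := by
  have hGnot : ¬ DivI ι I G := by
    intro hG
    obtain ⟨n, hn⟩ := hne
    obtain ⟨r, hr, e⟩ := hG n
    rw [hc] at e
    exact hn (hι e ▸ hr)
  let 𝔪 : Ideal (CuspForm.heckeAlgebra M 2 S) :=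
    { carrier := {t | DivI ι I ((t : Module.End ℂ (CuspForm (Gamma0 M) 2)) G)}
      zero_mem' := by
        show DivI ι I (((0 : CuspForm.heckeAlgebra M 2 S) :
          Module.End ℂ (CuspForm (Gamma0 M) 2)) G)
        rw [ZeroMemClass.coe_zero, LinearMap.zero_apply]
        exact divI_zero ι I
      add_mem' := fun {s t} hs ht => by
        show DivI ι I (((s + t : CuspForm.heckeAlgebra M 2 S) :
          Module.End ℂ (CuspForm (Gamma0 M) 2)) G)
        rw [AddMemClass.coe_add, LinearMap.add_apply]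
        exact DivI.add hs ht
      smul_mem' := fun u t ht => by
        show DivI ι I (((u * t : CuspForm.heckeAlgebra M 2 S) :
          Module.End ℂ (CuspForm (Gamma0 M) 2)) G)
        rw [MulMemClass.coe_mul, Module.End.mul_apply]
        exact DivI.hecke u.2 _ ht }
  have hmem : ∀ t : CuspForm.heckeAlgebra M 2 S,
      t ∈ 𝔪 ↔ DivI ι I ((t : Module.End ℂ (CuspForm (Gamma0 M) 2)) G) := fun t => Iff.rfl
  have hsub : ∀ (t : CuspForm.heckeAlgebra M 2 S) (z : ℤ),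
      t - ((z : ℤ) : CuspForm.heckeAlgebra M 2 S) ∈ 𝔪 ↔
        DivI ι I ((t : Module.End ℂ (CuspForm (Gamma0 M) 2)) G - z • G) := by
    intro t z
    rw [hmem, AddSubgroupClass.coe_sub, LinearMap.sub_apply, SubringClass.coe_intCast,
      Module.End.intCast_apply]
  have hpm : ((p : ℤ) : CuspForm.heckeAlgebra M 2 S) ∈ 𝔪 := by
    rw [hmem, SubringClass.coe_intCast, Module.End.intCast_apply]
    intro n
    refine ⟨(p : R) * c n, I.mul_mem_right _ hpI, ?_⟩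
    rw [← qLin_apply, map_zsmul, qLin_apply, hc, map_mul, map_natCast, zsmul_eq_mul]
    push_cast
    rfl
  refine ⟨𝔪, ?_, hpm, ?_⟩
  · rw [Ideal.isMaximal_iff]
    refine ⟨?_, ?_⟩
    · rw [hmem]
      simpa using hGnot
    · intro J x hJ hx hxJ
      obtain ⟨z, hz⟩ := exists_int_divI hc hS heig x.2
      rw [← hsub] at hz
      have hzp : ¬ (p : ℤ) ∣ z := by
        rintro ⟨d, rfl⟩
        apply hx
        have h4 : (((p : ℤ) * d : ℤ) : CuspForm.heckeAlgebra M 2 S) ∈ 𝔪 := by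
          push_cast
          exact 𝔪.mul_mem_right _ hpm
        have := 𝔪.add_mem hz h4
        rwa [sub_add_cancel] at this
      have hzJ : ((z : ℤ) : CuspForm.heckeAlgebra M 2 S) ∈ J := by
        have := J.sub_mem hxJ (hJ hz)
        rwa [sub_sub_cancel] at this
      have hpJ : ((p : ℤ) : CuspForm.heckeAlgebra M 2 S) ∈ J := hJ hpm
      obtain ⟨u, w, huw⟩ : ∃ u w : ℤ, u * z + w * (p : ℤ) = 1 := by
        have hcop : IsCoprime z (p : ℤ) :=
          ((Nat.prime_iff_prime_int.mp hp).coprime_iff_not_dvd.mpr hzp).symm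
        exact hcop
      have h1 : (1 : CuspForm.heckeAlgebra M 2 S) =
          ((u : ℤ) : CuspForm.heckeAlgebra M 2 S) * ((z : ℤ) : CuspForm.heckeAlgebra M 2 S) +
            ((w : ℤ) : CuspForm.heckeAlgebra M 2 S) *
              ((p : ℤ) : CuspForm.heckeAlgebra M 2 S) := by
        have := congrArg (Int.cast : ℤ → CuspForm.heckeAlgebra M 2 S) huw
        push_cast at this
        exact this.symm
      rw [h1]
      exact J.add_mem (J.mul_mem_left _ hzJ) (J.mul_mem_left _ hpJ)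
  · intro ℓ hℓ hℓM hℓS
    rw [hsub]
    exact divI_heckeT_sub hc hℓ hℓM (heig ℓ hℓ hℓM hℓS)

/-- **Deligne–Serre lifting of a mod-`I` eigen-`q`-series** (anemic form).  `G` a weight-2 cusp
form of level `M` with `q`-coefficients `ι (c n)`, not all in `I`; `p ∈ I`; for every prime
`ℓ ∤ M`, `ℓ ∉ S`: `T_ℓ G ≡ a ℓ • G` modulo `I` (on `q`-coefficients).  Then there are a normalised
eigenform `g` of level `M` and a maximal ideal `𝔪'` of the algebraic integers with `p ∈ 𝔪'` and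
`a_ℓ(g) ≡ a ℓ` modulo `𝔪'` for all those `ℓ`. -/
theorem exists_eigenform_of_modI_eigen (ι : R →+* ℂ) (hι : Function.Injective ι) (I : Ideal R)
    {p : ℕ} (hp : p.Prime) (hpI : (p : R) ∈ I) (S : Set ℕ) (a : ℕ → ℤ)
    (G : CuspForm (Gamma0 M) 2) (c : ℕ → R) (hc : ∀ n, qCoeff (⇑G) n = ι (c n))
    (hne : ∃ n, c n ∉ I)
    (heig : ∀ ℓ : ℕ, ℓ.Prime → ¬ ℓ ∣ M → ℓ ∉ S → ∀ n,
      c (n * ℓ) + (if ℓ ∣ n then (ℓ : R) * c (n / ℓ) else 0) - (a ℓ : R) * c n ∈ I) :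
    ∃ (g : CuspForm (Gamma0 M) 2) (𝔪' : Ideal (integralClosure ℤ ℂ)),
      g.IsNormalizedEigenform ∧ 𝔪'.IsMaximal ∧ ((p : ℕ) : integralClosure ℤ ℂ) ∈ 𝔪' ∧
      ∀ ℓ : ℕ, ℓ.Prime → ¬ ℓ ∣ M → ℓ ∉ S →
        ∃ b : integralClosure ℤ ℂ, (b : ℂ) = qCoeff (⇑g) ℓ ∧
          b - ((a ℓ : ℤ) : integralClosure ℤ ℂ) ∈ 𝔪' := by
  classical
  -- the anemic Hecke algebra: only `T_ℓ`, `ℓ ∤ M`, `ℓ ∉ S`
  set S' : Set ℕ := S ∪ {q | q ∣ M} with hS'
  have hS'M : ∀ q : ℕ, q.Prime → q ∣ M → q ∈ S' := fun q _ hq => Or.inr hq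
  have hnotS' : ∀ ℓ : ℕ, ¬ ℓ ∣ M → ℓ ∉ S → ℓ ∉ S' := fun ℓ h1 h2 h =>
    h.elim h2 h1
  have heig' : ∀ ℓ : ℕ, ℓ.Prime → ¬ ℓ ∣ M → ℓ ∉ S' → ∀ n,
      c (n * ℓ) + (if ℓ ∣ n then (ℓ : R) * c (n / ℓ) else 0) - (a ℓ : R) * c n ∈ I :=
    fun ℓ hℓ hℓM hℓS' => heig ℓ hℓ hℓM fun h => hℓS' (Or.inl h)
  obtain ⟨𝔪, hmax, hpm, hT⟩ :=
    exists_maximal_ideal ι hι I hp hpI S' hS'M a G c hc hne heig'
  have : FiniteDimensional ℂ (CuspForm (Gamma0 M) 2) :=
    Fermat.Agent.S23.finiteDimensional_cuspForm M 2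
  -- a simultaneous eigenvector of the anemic algebra with eigencharacter inside `𝔪`
  obtain ⟨v, θ, hv0, heigv, hkerθ⟩ := Fermat.Agent.S49.exists_eigenvector_of_prime
    ((CuspForm.heckeAlgebra M 2 S').val.toRingHom) 𝔪 (by
      intro x hx
      have : x = 0 := Subtype.ext hx
      rw [this]
      exact 𝔪.zero_mem)
  have heigv' : ∀ t : CuspForm.heckeAlgebra M 2 S',
      (t : Module.End ℂ (CuspForm (Gamma0 M) 2)) v = θ t • v := heigv
  -- the `θ`-eigenspace, stable under the full Hecke algebra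
  let E : Submodule ℂ (CuspForm (Gamma0 M) 2) :=
    { carrier := {w | ∀ t : CuspForm.heckeAlgebra M 2 S',
        (t : Module.End ℂ (CuspForm (Gamma0 M) 2)) w = θ t • w}
      zero_mem' := fun t => by simp
      add_mem' := fun {x y} hx hy t => by rw [map_add, hx t, hy t, smul_add]
      smul_mem' := fun z x hx t => by rw [map_smul, hx t, smul_comm] }
  have hEmem : ∀ w, w ∈ E ↔ ∀ t : CuspForm.heckeAlgebra M 2 S',
      (t : Module.End ℂ (CuspForm (Gamma0 M) 2)) w = θ t • w := fun w => Iff.rfl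
  have hE0 : E ≠ ⊥ := by
    intro h
    have hvE : v ∈ E := (hEmem v).mpr heigv'
    rw [h, Submodule.mem_bot] at hvE
    exact hv0 hvE
  have hle : CuspForm.heckeAlgebra M 2 S' ≤ CuspForm.heckeAlgebra M 2 (∅ : Set ℕ) :=
    CuspForm.heckeAlgebra_mono (Set.empty_subset S')
  let φF : CuspForm.heckeAlgebra M 2 (∅ : Set ℕ) →+*
      Module.End ℂ (CuspForm (Gamma0 M) 2) :=
    (CuspForm.heckeAlgebra M 2 (∅ : Set ℕ)).val.toRingHom
  have hφF : ∀ s : CuspForm.heckeAlgebra M 2 (∅ : Set ℕ),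
      φF s = (s : Module.End ℂ (CuspForm (Gamma0 M) 2)) := fun s => rfl
  have hst : ∀ s : CuspForm.heckeAlgebra M 2 (∅ : Set ℕ), ∀ w ∈ E, φF s w ∈ E := by
    intro s w hw
    rw [hEmem] at hw ⊢
    intro t
    let t' : CuspForm.heckeAlgebra M 2 (∅ : Set ℕ) := ⟨t.1, hle t.2⟩
    have hcomm : (t : Module.End ℂ (CuspForm (Gamma0 M) 2)) *
        (s : Module.End ℂ (CuspForm (Gamma0 M) 2)) =
        (s : Module.End ℂ (CuspForm (Gamma0 M) 2)) *
          (t : Module.End ℂ (CuspForm (Gamma0 M) 2)) := by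
      have := congrArg Subtype.val (mul_comm t' s)
      exact this
    have h1 := LinearMap.congr_fun hcomm w
    rw [Module.End.mul_apply, Module.End.mul_apply, hw t, map_smul] at h1
    rw [hφF]
    exact h1
  obtain ⟨v', hv'E, hv'0, hv'⟩ :=
    Fermat.Agent.S49.AlgCore.exists_common_eigenvector φF E hE0 hst
  obtain ⟨θ', hθ'⟩ := Fermat.Agent.S49.AlgCore.exists_ringHom_of_forall_eigen φF hv'0 hv'
  -- the normalised eigenform
  obtain ⟨g, hg, hgℓ⟩ := Fermat.Agent.S49.exists_normalized_eigenform hv'0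
    (θ := θ') (fun t => hθ' t)
  -- integrality of the eigenvalues of the anemic algebra
  have : Module.Finite ℤ (CuspForm.heckeAlgebra M 2 S') := Fermat.Agent.S22.result M 2 S'
  have hint : ∀ t : CuspForm.heckeAlgebra M 2 S', θ t ∈ integralClosure ℤ ℂ := by
    intro t
    have h2 : IsIntegral ℤ t := Algebra.IsIntegral.isIntegral (R := ℤ) t
    exact h2.map θ.toIntAlgHom
  let θ'' : CuspForm.heckeAlgebra M 2 S' →+* integralClosure ℤ ℂ :=
    θ.codRestrict (integralClosure ℤ ℂ) hint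
  let instAlg : Algebra (CuspForm.heckeAlgebra M 2 S') (integralClosure ℤ ℂ) := θ''.toAlgebra
  have hIntegral : Algebra.IsIntegral (CuspForm.heckeAlgebra M 2 S') (integralClosure ℤ ℂ) :=
    ⟨fun x => (Algebra.IsIntegral.isIntegral (R := ℤ) x).tower_top⟩
  obtain ⟨𝔪', hmax', hcomap⟩ := Ideal.exists_ideal_over_maximal_of_isIntegral
    (S := integralClosure ℤ ℂ) 𝔪 (by
      intro x hx
      apply hkerθ
      rw [RingHom.mem_ker] at hx ⊢
      exact congrArg Subtype.val hx)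
  refine ⟨g, 𝔪', hg, hmax', ?_, ?_⟩
  · have hp' : ((p : ℤ) : CuspForm.heckeAlgebra M 2 S') ∈
        Ideal.comap (algebraMap (CuspForm.heckeAlgebra M 2 S') (integralClosure ℤ ℂ)) 𝔪' := by
      rw [hcomap]; exact hpm
    rw [Ideal.mem_comap, map_intCast] at hp'
    exact_mod_cast hp'
  · intro ℓ hℓ hℓM hℓS
    have hℓS' : ℓ ∉ S' := hnotS' ℓ hℓM hℓS
    refine ⟨θ'' (CuspForm.heckeAlgebra.T hℓ hℓM hℓS'), ?_, ?_⟩
    · rw [hgℓ ℓ hℓ hℓM]
      -- both are the eigenvalue of `T_ℓ` on `v'`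
      have h1 := hθ' (CuspForm.heckeAlgebra.T hℓ hℓM (Set.notMem_empty ℓ))
      have h2 := (hEmem v').mp hv'E (CuspForm.heckeAlgebra.T hℓ hℓM hℓS')
      rw [hφF, CuspForm.heckeAlgebra.coe_T] at h1
      rw [CuspForm.heckeAlgebra.coe_T, h1] at h2
      exact (smul_left_injective ℂ hv'0 h2).symm
    · have hTℓ := hT ℓ hℓ hℓM hℓS'
      rw [← hcomap, Ideal.mem_comap, map_sub, map_intCast] at hTℓ
      exact hTℓ

end main

section frey

open WeierstrassCurve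

/-- **(OA5), Frey form.**  `A` a valuation subring of `ℚ̄` over `P.p`, `ι : ℚ̄ →+* ℂ`, `G` a
weight-2 cusp form of level `M` whose `q`-coefficients are `ι (c n)` with `c n ∈ A`.  If the
reduced `q`-series `(c n mod 𝔪_A)` is nonzero and is a `T_ℓ`-eigen-series with eigenvalue
`a_ℓ(W) mod P.p` for every prime `ℓ ∤ M`, `ℓ ≠ P.p`, good for the integral model `W` of the Frey
curve, then the mod-`P.p` representation of the Frey curve is modular of level `M`. -/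
theorem modularRepOfLevel_of_modp_eigen (P : FreyPackage) {M : ℕ} [NeZero M]
    (W : WeierstrassCurve ℤ) (hW : W.IsIntegralModelOf P.freyCurve)
    (A : ValuationSubring (AlgebraicClosure ℚ)) (hA : A.LiesOverPrime P.p)
    (ι : AlgebraicClosure ℚ →+* ℂ) (G : CuspForm (Gamma0 M) 2) (c : ℕ → A)
    (hc : ∀ n, ModularFormClass.qCoeff G n = ι (c n))
    (hne : ∃ n, IsLocalRing.residue A (c n) ≠ 0)
    (heig : ∀ ℓ : ℕ, ℓ.Prime → W.IsGoodPrimeFor ℓ → ¬ ℓ ∣ M → ℓ ≠ P.p → ∀ n,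
      IsLocalRing.residue A (c (ℓ * n)) +
        (ℓ : IsLocalRing.ResidueField A) *
          (if ℓ ∣ n then IsLocalRing.residue A (c (n / ℓ)) else 0) =
        ((W.apOfModel ℓ : ℤ) : IsLocalRing.ResidueField A) * IsLocalRing.residue A (c n)) :
    P.ModularRepOfLevel M := by
  classical
  have hpI : ((P.p : ℕ) : A) ∈ IsLocalRing.maximalIdeal A := by
    obtain ⟨ha, hmem⟩ := (ValuationSubring.mem_nonunits_iff_exists_mem_maximalIdeal).mp hA
    have e : (⟨(P.p : AlgebraicClosure ℚ), ha⟩ : A) = ((P.p : ℕ) : A) := Subtype.ext (by simp)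
    rwa [e] at hmem
  have hι : Function.Injective (ι.comp A.subtype) :=
    ι.injective.comp Subtype.val_injective
  obtain ⟨g, 𝔪', hg, hmax', hp', hcong⟩ := exists_eigenform_of_modI_eigen (M := M)
    (ι.comp A.subtype) hι (IsLocalRing.maximalIdeal A) P.pp hpI
    {ℓ | ¬ W.IsGoodPrimeFor ℓ ∨ ℓ = P.p} (fun ℓ => W.apOfModel ℓ) G c
    (fun n => hc n)
    (by
      obtain ⟨n, hn⟩ := hne
      exact ⟨n, fun h => hn ((IsLocalRing.residue_eq_zero_iff _).mpr h)⟩)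
    (by
      intro ℓ hℓ hℓM hℓS n
      have hℓS' : W.IsGoodPrimeFor ℓ ∧ ℓ ≠ P.p := by
        simp only [Set.mem_ofPred_eq, not_or, not_not] at hℓS
        exact hℓS
      have h := heig ℓ hℓ hℓS'.1 hℓM hℓS'.2 n
      rw [← IsLocalRing.residue_eq_zero_iff, map_sub, map_add, map_mul, map_intCast,
        mul_comm n ℓ, ← h]
      by_cases hd : ℓ ∣ n
      · rw [if_pos hd, if_pos hd, map_mul, map_natCast, sub_self]
      · rw [if_neg hd, if_neg hd, map_zero, mul_zero, sub_self])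
  exact ⟨g, W, 𝔪', hg, hW, hmax', hp', fun ℓ hℓ hgood hℓM hℓp =>
    hcong ℓ hℓ hℓM (by
      simp only [Set.mem_ofPred_eq, not_or, not_not]
      exact ⟨hgood, hℓp⟩)⟩

end frey

end Fermat.Agent.TR.Hecke.OldLift
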