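/-
TR / Hecke side, brick (OA6) (helper56): the assembly of (OLD-a).

`A` a valuation ring of `ℚ̄` over `p = P.p`, `k` its residue field, `κ = κ_M` the mod-`p`
modular function field of level `M`.  Let `hbar ∈ κˣ` have all its orders divisible by `p`, and
assume that for every good prime `ℓ ∤ M p` the "Hecke transform" `H` of `hbar` (a `q`-series with
`H(q^ℓ) = hbar(q^(ℓ²)) ∏_b hbar(ζ^b q)`) is `c₀ · hbar^(a_ℓ) · u^p`.  Then either `hbar` is a
`p`-th power in `κ`, or the Frey representation is modular of level `M`.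

Inputs, as hypotheses in their literal shapes:
* `QHecke k`  : the formal `q`-series identity (OA4)(i) `θH/H = T_ℓ(θz/z)`, coefficient form;
* `HolLift A ι M xb` : (OA3) every `a' ∈ L(div d x̄)` on `κ` is the reduction of the `q`-expansion
  of a weight-2 cusp form of level `M` with `A`-integral coefficients, divided by `θ x̄`.
Proved inputs used: (OA1)+(OA2) `DlogTheta.exists_dlog_theta`, (OA5)
`OldLift.modularRepOfLevel_of_modp_eigen`.
-/
import Mathlib
import Fermat.Agent.TR.Hecke.DlogTheta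
import Fermat.Agent.TR.Hecke.OldLift
import Fermat.Agent.S28.Rot
import Fermat.Agent.Lib.FF.CharP.ModLInst

set_option autoImplicit false

namespace Fermat.Agent.TR.Hecke.OldA

open ModularCurve AlgebraicCurve KaehlerDifferential CongruenceSubgroup IntermediateField
open Fermat.Agent.Lib.FF Fermat.Agent.Lib.Red.GenusGA Fermat.Agent.S28.Chain

noncomputable section

/-! ### Formal logarithmic derivatives in `k((q))` -/

section formal

variable {k : Type*} [Field k]

theorem thetaFun_C (c : k) : thetaFun k (HahnSeries.C c) = 0 := by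
  ext n
  rw [thetaFun_coeff, HahnSeries.coeff_zero, HahnSeries.C_apply, HahnSeries.coeff_single]
  split_ifs with h
  · rw [h]; simp
  · rw [mul_zero]

theorem thetaLog_mul {f g : LaurentSeries k} (hf : f ≠ 0) (hg : g ≠ 0) :
    thetaFun k (f * g) / (f * g) = thetaFun k f / f + thetaFun k g / g := by
  rw [thetaFun_mul]
  field_simp
  ring

theorem thetaLog_inv {f : LaurentSeries k} (hf : f ≠ 0) :
    thetaFun k f⁻¹ / f⁻¹ = -(thetaFun k f / f) := by
  have h1 : thetaFun k (f * f⁻¹) / (f * f⁻¹) = thetaFun k f / f + thetaFun k f⁻¹ / f⁻¹ :=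
    thetaLog_mul hf (inv_ne_zero hf)
  have h2 : thetaFun k (f * f⁻¹) = 0 := by
    rw [mul_inv_cancel₀ hf]
    have := thetaFun_C (1 : k)
    rwa [map_one] at this
  rw [h2, zero_div] at h1
  linear_combination -h1

theorem thetaLog_pow {f : LaurentSeries k} (hf : f ≠ 0) (n : ℕ) :
    thetaFun k (f ^ n) / f ^ n = (n : LaurentSeries k) * (thetaFun k f / f) := by
  induction n with
  | zero =>
    have := thetaFun_C (1 : k)
    rw [map_one] at this
    rw [pow_zero, this, zero_div, Nat.cast_zero, zero_mul]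
  | succ n ih =>
    rw [pow_succ, thetaLog_mul (pow_ne_zero n hf) hf, ih]
    push_cast
    ring

theorem thetaLog_zpow {f : LaurentSeries k} (hf : f ≠ 0) (n : ℤ) :
    thetaFun k (f ^ n) / f ^ n = (n : LaurentSeries k) * (thetaFun k f / f) := by
  obtain ⟨m, rfl | rfl⟩ := Int.eq_nat_or_neg n
  · rw [zpow_natCast, thetaLog_pow hf, Int.cast_natCast]
  · rw [zpow_neg, zpow_natCast, thetaLog_inv (pow_ne_zero m hf), thetaLog_pow hf]
    push_cast
    ring

theorem thetaFun_pow_char (p : ℕ) [CharP k p] (u : LaurentSeries k) :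
    thetaFun k (u ^ p) = 0 := by
  have h := (theta k).leibniz_pow u p
  rw [theta_apply, theta_apply] at h
  rw [h, ← Nat.cast_smul_eq_nsmul k, CharP.cast_eq_zero, zero_smul]

/-- A logarithmic derivative `θh/h` is a power series. -/
theorem thetaLog_coeff_neg {h : LaurentSeries k} (hh : h ≠ 0) {n : ℤ} (hn : n < 0) :
    (thetaFun k h / h).coeff n = 0 := by
  by_cases hs : thetaFun k h / h = 0
  · rw [hs, HahnSeries.coeff_zero]
  have hθ : thetaFun k h ≠ 0 := by
    intro h0
    exact hs (by rw [h0, zero_div])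
  have hmul : thetaFun k h = thetaFun k h / h * h := by
    rw [div_mul_cancel₀ _ hh]
  have hord : (thetaFun k h).order = (thetaFun k h / h).order + h.order := by
    conv_lhs => rw [hmul]
    exact HahnSeries.order_mul hs hh
  have hle : h.order ≤ (thetaFun k h).order := by
    refine HahnSeries.order_le_of_coeff_ne_zero ?_
    have h1 : (thetaFun k h).coeff (thetaFun k h).order ≠ 0 :=
      fun h2 => hθ (HahnSeries.coeff_order_eq_zero.mp h2)
    exact fun h0 => h1 (by rw [thetaFun_coeff, h0, mul_zero])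
  have h0 : 0 ≤ (thetaFun k h / h).order := by omega
  exact HahnSeries.coeff_eq_zero_of_lt_order (lt_of_lt_of_le hn h0)

theorem intCast_mul_coeff (z : ℤ) (s : LaurentSeries k) (n : ℤ) :
    (((z : ℤ) : LaurentSeries k) * s).coeff n = (z : k) * s.coeff n := by
  have h : ((z : ℤ) : LaurentSeries k) = HahnSeries.C (z : k) := (map_intCast HahnSeries.C z).symm
  rw [h, HahnSeries.C_mul_eq_smul, HahnSeries.coeff_smul, smul_eq_mul]

end formal

/-! ### The two inputs, as literal hypotheses -/

/-- **(OA4)(i)**, coefficient form: if `H(q^ℓ) = z(q^(ℓ²)) · ∏_{b<ℓ} z(ζ^b q)` then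
`θH/H = T_ℓ (θz/z)`, where `(T_ℓ g)_n = g_{ℓ n} + ℓ g_{n/ℓ}`. -/
def QHecke (k : Type) [Field k] : Prop :=
  ∀ (ℓ : ℕ) [NeZero ℓ], ℓ.Prime → (ℓ : k) ≠ 0 → ∀ ζ : kˣ, IsPrimitiveRoot ζ ℓ →
    ∀ z H : LaurentSeries k, z ≠ 0 →
      qExpand k ℓ H = qExpand k (ℓ * ℓ) z * ∏ b ∈ Finset.range ℓ, rot (ζ ^ b) z →
      ∀ n : ℤ, (thetaFun k H / H).coeff n = (thetaFun k z / z).coeff (ℓ * n) +
        (ℓ : k) * (if (ℓ : ℤ) ∣ n then (thetaFun k z / z).coeff (n / ℓ) else 0)

/-- **(OA3)**: every `a' ∈ L(div d x̄)` is the reduction of an `A`-integral weight-2 cusp form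
of level `M`, divided by `θ x̄`. -/
def HolLift (A : ValuationSubring (AlgebraicClosure ℚ)) (ι : AlgebraicClosure ℚ →+* ℂ)
    (M : ℕ) [NeZero M]
    (xb : modularFunctionFieldFullC (IsLocalRing.ResidueField A) M) : Prop :=
  ∀ Wt : Divisor (IsLocalRing.ResidueField A)
      (modularFunctionFieldFullC (IsLocalRing.ResidueField A) M),
    Res.Adele.IsDivisorOf (D (IsLocalRing.ResidueField A)
      (modularFunctionFieldFullC (IsLocalRing.ResidueField A) M) xb) Wt →
    ∀ a' : modularFunctionFieldFullC (IsLocalRing.ResidueField A) M, a' ∈ riemannRochSpace Wt →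
      ∃ (G : CuspForm (Gamma0 M) 2) (c : ℕ → A),
        (∀ n, ModularFormClass.qCoeff G n = ι (c n)) ∧
        ∀ n : ℕ, IsLocalRing.residue A (c n) =
          ((a' : LaurentSeries (IsLocalRing.ResidueField A)) *
            thetaFun (IsLocalRing.ResidueField A)
              (xb : LaurentSeries (IsLocalRing.ResidueField A))).coeff (n : ℤ)

/-! ### (OLD-a) -/

theorem charP_residueField (A : ValuationSubring (AlgebraicClosure ℚ)) {p : ℕ} (hp : p.Prime)
    (hA : A.LiesOverPrime p) : CharP (IsLocalRing.ResidueField A) p := by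
  rw [CharP.charP_iff_prime_eq_zero hp]
  have h1 : ((p : A) : AlgebraicClosure ℚ) ∈ A.nonunits := by
    have h2 : ((p : A) : AlgebraicClosure ℚ) = (p : AlgebraicClosure ℚ) := by push_cast; rfl
    rw [h2]
    exact hA
  have h3 : (p : A) ∈ IsLocalRing.maximalIdeal A := ValuationSubring.coe_mem_nonunits_iff.mp h1
  have h4 : IsLocalRing.residue A (p : A) = 0 := (IsLocalRing.residue_eq_zero_iff _).mpr h3
  rwa [map_natCast] at h4

set_option maxHeartbeats 1000000 in
set_option synthInstance.maxHeartbeats 400000 in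
/-- **(OLD-a)**.  If all orders of `hbar ∈ κ_Mˣ` are divisible by `p` and the Hecke transforms of
`hbar` at the good primes `ℓ ∤ M p` are `c₀ · hbar^(a_ℓ) · u^p`, then `hbar` is a `p`-th power or
the Frey representation is modular of level `M`. -/
theorem oldA (P : FreyPackage) {M : ℕ} [NeZero M] (W0 : WeierstrassCurve ℤ)
    (hW0 : W0.IsIntegralModelOf P.freyCurve) (A : ValuationSubring (AlgebraicClosure ℚ))
    (hA : A.LiesOverPrime P.p) (ι : AlgebraicClosure ℚ →+* ℂ)
    (hQ : QHecke (IsLocalRing.ResidueField A))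
    (xb : modularFunctionFieldFullC (IsLocalRing.ResidueField A) M)
    (hθ : thetaFun (IsLocalRing.ResidueField A)
      (xb : LaurentSeries (IsLocalRing.ResidueField A)) ≠ 0)
    (hL : HolLift A ι M xb)
    (hbar : modularFunctionFieldFullC (IsLocalRing.ResidueField A) M) (h0 : hbar ≠ 0)
    (hdiv : ∀ v : Place (IsLocalRing.ResidueField A)
      (modularFunctionFieldFullC (IsLocalRing.ResidueField A) M), (P.p : ℤ) ∣ v.ord hbar)
    (heig : ∀ (ℓ : ℕ) [NeZero ℓ], ℓ.Prime → W0.IsGoodPrimeFor ℓ → ¬ ℓ ∣ M → ℓ ≠ P.p →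
      ∃ (ζ : (IsLocalRing.ResidueField A)ˣ) (H u : LaurentSeries (IsLocalRing.ResidueField A))
        (c0 : IsLocalRing.ResidueField A), IsPrimitiveRoot ζ ℓ ∧ c0 ≠ 0 ∧ u ≠ 0 ∧
        qExpand (IsLocalRing.ResidueField A) ℓ H =
          qExpand (IsLocalRing.ResidueField A) (ℓ * ℓ)
            (hbar : LaurentSeries (IsLocalRing.ResidueField A)) *
            ∏ b ∈ Finset.range ℓ,
              rot (ζ ^ b) (hbar : LaurentSeries (IsLocalRing.ResidueField A)) ∧
        H = HahnSeries.C c0 * (hbar : LaurentSeries (IsLocalRing.ResidueField A)) ^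
          (W0.apOfModel ℓ : ℤ) * u ^ P.p) :
    (∃ u : modularFunctionFieldFullC (IsLocalRing.ResidueField A) M, u ^ P.p = hbar) ∨
      P.ModularRepOfLevel M := by
  classical
  have : IsAlgClosed (IsLocalRing.ResidueField A) :=
    Fermat.Agent.Lib.FF.CharP.isAlgClosed_residueField A
  have : Fact P.p.Prime := ⟨P.pp⟩
  have : CharP (IsLocalRing.ResidueField A) P.p := charP_residueField A P.pp hA
  have hfd := ModL.finiteDimensional_Jbar (IsLocalRing.ResidueField A) M
  obtain ⟨Wt, hWt, -, hall⟩ := DlogTheta.exists_dlog_theta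
    (modularFunctionFieldFullC (IsLocalRing.ResidueField A) M) P.p
    (ModL.Jbar (IsLocalRing.ResidueField A) M)
    (ModL.transcendental_Jbar (IsLocalRing.ResidueField A) M) xb hθ
  obtain ⟨a, haL, hth, hiff⟩ := hall hbar h0 hdiv
  by_cases ha : a = 0
  · exact Or.inl (hiff.mp ha)
  right
  obtain ⟨G, c, hc, hcoef⟩ := hL Wt hWt a haL
  have hb0 : (hbar : LaurentSeries (IsLocalRing.ResidueField A)) ≠ 0 := fun h => h0 (by
    exact Subtype.ext h)
  have ha0 : (a : LaurentSeries (IsLocalRing.ResidueField A)) ≠ 0 := fun h => ha (by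
    exact Subtype.ext h)
  have hs : thetaFun (IsLocalRing.ResidueField A)
      (hbar : LaurentSeries (IsLocalRing.ResidueField A)) /
        (hbar : LaurentSeries (IsLocalRing.ResidueField A)) =
      (a : LaurentSeries (IsLocalRing.ResidueField A)) *
        thetaFun (IsLocalRing.ResidueField A)
          (xb : LaurentSeries (IsLocalRing.ResidueField A)) := by
    rw [theta_apply, theta_apply] at hth
    rw [hth]
    field_simp
  have hs0 : thetaFun (IsLocalRing.ResidueField A)
      (hbar : LaurentSeries (IsLocalRing.ResidueField A)) /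
        (hbar : LaurentSeries (IsLocalRing.ResidueField A)) ≠ 0 := by
    rw [hs]
    exact mul_ne_zero ha0 hθ
  obtain ⟨n, hn⟩ : ∃ n : ℤ, (thetaFun (IsLocalRing.ResidueField A)
      (hbar : LaurentSeries (IsLocalRing.ResidueField A)) /
        (hbar : LaurentSeries (IsLocalRing.ResidueField A))).coeff n ≠ 0 := by
    by_contra hcon
    push Not at hcon
    exact hs0 (HahnSeries.ext (funext fun n => by rw [hcon n, HahnSeries.coeff_zero]))
  have hn0 : 0 ≤ n := by
    by_contra hneg
    exact hn (thetaLog_coeff_neg hb0 (not_le.mp hneg))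
  lift n to ℕ using hn0
  refine OldLift.modularRepOfLevel_of_modp_eigen P W0 hW0 A hA ι G c hc ⟨n, ?_⟩ ?_
  · rw [hcoef, ← hs]
    exact hn
  · intro ℓ hℓ hgood hℓM hℓp m
    have : NeZero ℓ := ⟨hℓ.ne_zero⟩
    obtain ⟨ζ, H, u, c0, hζ, hc0, hu, hPF, hH⟩ := heig ℓ hℓ hgood hℓM hℓp
    have hℓk : (ℓ : IsLocalRing.ResidueField A) ≠ 0 := by
      rw [Ne, CharP.cast_eq_zero_iff (IsLocalRing.ResidueField A) P.p]
      intro hdvd
      exact hℓp ((Nat.prime_dvd_prime_iff_eq P.pp hℓ).mp hdvd).symm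
    have hq := hQ ℓ hℓ hℓk ζ hζ _ H hb0 hPF m
    have hC0 : (HahnSeries.C c0 : LaurentSeries (IsLocalRing.ResidueField A)) ≠ 0 := by
      intro h
      apply hc0
      have h1 := congrArg (fun f : LaurentSeries (IsLocalRing.ResidueField A) => f.coeff 0) h
      simpa using h1
    have hz0 : (hbar : LaurentSeries (IsLocalRing.ResidueField A)) ^ (W0.apOfModel ℓ : ℤ) ≠ 0 :=
      zpow_ne_zero _ hb0
    have hup : u ^ P.p ≠ 0 := pow_ne_zero _ hu
    have hHlog : thetaFun (IsLocalRing.ResidueField A) H / H =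
        ((W0.apOfModel ℓ : ℤ) : LaurentSeries (IsLocalRing.ResidueField A)) *
          (thetaFun (IsLocalRing.ResidueField A)
            (hbar : LaurentSeries (IsLocalRing.ResidueField A)) /
              (hbar : LaurentSeries (IsLocalRing.ResidueField A))) := by
      rw [hH, thetaLog_mul (mul_ne_zero hC0 hz0) hup, thetaLog_mul hC0 hz0, thetaLog_zpow hb0,
        thetaFun_C, thetaFun_pow_char, zero_div, zero_div, zero_add, add_zero]
    rw [hHlog, intCast_mul_coeff] at hq
    have e1 : ((ℓ : ℤ) * (m : ℤ)) = ((ℓ * m : ℕ) : ℤ) := by push_cast; rfl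
    have e2 : ((m : ℤ) / (ℓ : ℤ)) = ((m / ℓ : ℕ) : ℤ) := (Int.natCast_div m ℓ).symm
    rw [e1, e2, hs, ← hcoef, ← hcoef, ← hcoef] at hq
    rw [hq]
    by_cases hd : ℓ ∣ m
    · rw [if_pos hd, if_pos (Int.natCast_dvd_natCast.mpr hd)]
    · rw [if_neg hd, if_neg (fun h => hd (Int.natCast_dvd_natCast.mp h))]

end

end Fermat.Agent.TR.Hecke.OldA
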