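/-
TR / Hecke side, brick (OA6) in the GENERIC shape of `TR.Top.TRKey` (helper87, second seat).

`OldA.oldA` (helper56) is the Frey form of (OLD-a): its second alternative is
`P.ModularRepOfLevel M`.  The statement `TR.Top.TRKey` is generic: eigenvalues
`a : Nat.Primes → ℤ`, an exceptional set `S : Finset ℕ`, and the hypothesis

  (NO)  `¬ ∃ g 𝔪, g.IsNormalizedEigenform ∧ 𝔪.IsMaximal ∧ (p : ℤ̄) ∈ 𝔪 ∧
            ∀ ℓ : Nat.Primes, (ℓ : ℕ) ∉ S → ∃ c : ℤ̄, (c : ℂ) = qCoeff g ℓ ∧ c - a ℓ ∈ 𝔪`.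

This file proves (OLD-a) with EXACTLY the negation of that existential as second alternative:

* `exists_eigenform_of_residue_eigen` : (OA5) in residue form for generic `(a, S)`;
* `oldA_of_coeff_eigen` : abstract (OLD-a): `hbar ∈ κ_Mˣ` with all orders divisible by `p`,
  `θ hbar / hbar` a `T_ℓ`-eigen-series with eigenvalue `a ℓ` for all `ℓ ∉ S`
  ⟹ `hbar` is a `p`-th power, or (NO) fails;
* `oldA_bad` : the same at `hbar = redInf h ⟨f, hf⟩` for `h : BadSetup A (residue A) M p`, with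
  the eigen-hypothesis in the shape of (HK): `red (N_ℓ f) = c₀ · hbar ^ (a ℓ) · u ^ p`;
  inputs (OA3) `HolLift.holLift`, (OA4) `NormQ.thetaLog_eigen_redInf` are consumed as theorems;
* `oldA_bad_iotaK`, `exists_pth_root_of_no` : the closed forms at `ι = S24.iotaK`
  (`HolLift.avatarProp`), the second one consuming (NO) verbatim.
-/
import Mathlib
import Fermat.Agent.TR.Hecke.OldA
import Fermat.Agent.TR.Hecke.HolLift
import Fermat.Agent.TR.Hecke.NormQ
import Fermat.Agent.TR.Hecke.DlogThetaX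
import Fermat.Agent.TR.Hecke.HolLiftFinal

set_option autoImplicit false
set_option linter.style.haveILetI false

namespace Fermat.Agent.TR.Hecke.OldA87

open ModularCurve AlgebraicCurve KaehlerDifferential CongruenceSubgroup IntermediateField
open CuspForm ModularFormClass UpperHalfPlane
open Fermat.Agent.Lib.FF Fermat.Agent.Lib.Red Fermat.Agent.Lib.Red.GenusGA
open Fermat.Agent.S28.Chain Fermat.Agent.BAD.TwoVal Fermat.Agent.ESJ.Jac.HeckeKummer
open Fermat.Agent.ESJ.Cong.LevelGen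

noncomputable section

/-! ### (OA5), residue form, generic `(a, S)` -/

/-- **(OA5), residue form, in the vocabulary of `TRKey`.**  `A` a valuation subring of `ℚ̄` over
`p`, `G` a weight-2 cusp form of level `M` with `q`-coefficients `ι (c n)`, `c n ∈ A`.  If the
reduced `q`-series is nonzero and is a `T_ℓ`-eigen-series with eigenvalue `a ℓ` for all primes
`ℓ ∉ S` (`S` containing the primes dividing `M`), then the existential of (NO) holds. -/
theorem exists_eigenform_of_residue_eigen {M : ℕ} [NeZero M] {p : ℕ} (hp : p.Prime)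
    (A : ValuationSubring (AlgebraicClosure ℚ)) (hA : A.LiesOverPrime p)
    (ι : AlgebraicClosure ℚ →+* ℂ) (a : Nat.Primes → ℤ) (S : Finset ℕ)
    (hMS : ∀ q : ℕ, q.Prime → q ∣ M → q ∈ S)
    (G : CuspForm (Gamma0 M) 2) (c : ℕ → A)
    (hc : ∀ n, ModularFormClass.qCoeff G n = ι (c n))
    (hne : ∃ n, IsLocalRing.residue A (c n) ≠ 0)
    (heig : ∀ ℓ : Nat.Primes, (ℓ : ℕ) ∉ S → ∀ n : ℕ,
      IsLocalRing.residue A (c ((ℓ : ℕ) * n)) +
        ((ℓ : ℕ) : IsLocalRing.ResidueField A) *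
          (if (ℓ : ℕ) ∣ n then IsLocalRing.residue A (c (n / (ℓ : ℕ))) else 0) =
        ((a ℓ : ℤ) : IsLocalRing.ResidueField A) * IsLocalRing.residue A (c n)) :
    ∃ (g : CuspForm (CongruenceSubgroup.Gamma0 M) 2) (𝔪 : Ideal (integralClosure ℤ ℂ)),
      g.IsNormalizedEigenform ∧ 𝔪.IsMaximal ∧ (p : integralClosure ℤ ℂ) ∈ 𝔪 ∧
      ∀ ℓ : Nat.Primes, (ℓ : ℕ) ∉ S →
        ∃ c : integralClosure ℤ ℂ, (c : ℂ) = ModularFormClass.qCoeff g ℓ ∧
          c - ((a ℓ : ℤ) : integralClosure ℤ ℂ) ∈ 𝔪 := by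
  classical
  have hpI : ((p : ℕ) : A) ∈ IsLocalRing.maximalIdeal A := by
    obtain ⟨ha, hmem⟩ := (ValuationSubring.mem_nonunits_iff_exists_mem_maximalIdeal).mp hA
    have e : (⟨(p : AlgebraicClosure ℚ), ha⟩ : A) = ((p : ℕ) : A) := Subtype.ext (by simp)
    rwa [e] at hmem
  have hι : Function.Injective (ι.comp A.subtype) :=
    ι.injective.comp Subtype.val_injective
  obtain ⟨g, 𝔪', hg, hmax', hp', hcong⟩ := OldLift.exists_eigenform_of_modI_eigen (M := M)
    (ι.comp A.subtype) hι (IsLocalRing.maximalIdeal A) hp hpI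
    (S : Set ℕ) (fun ℓ => if hℓ : ℓ.Prime then a ⟨ℓ, hℓ⟩ else 0) G c (fun n => hc n)
    (by
      obtain ⟨n, hn⟩ := hne
      exact ⟨n, fun h => hn ((IsLocalRing.residue_eq_zero_iff _).mpr h)⟩)
    (by
      intro ℓ hℓ hℓM hℓS n
      have hℓS' : ℓ ∉ S := fun h => hℓS (Finset.mem_coe.mpr h)
      have h : IsLocalRing.residue A (c (ℓ * n)) +
          (ℓ : IsLocalRing.ResidueField A) *
            (if ℓ ∣ n then IsLocalRing.residue A (c (n / ℓ)) else 0) =
          ((a ⟨ℓ, hℓ⟩ : ℤ) : IsLocalRing.ResidueField A) * IsLocalRing.residue A (c n) :=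
        heig ⟨ℓ, hℓ⟩ hℓS' n
      rw [dif_pos hℓ, ← IsLocalRing.residue_eq_zero_iff, map_sub, map_add, map_mul, map_intCast,
        mul_comm n ℓ, ← h]
      by_cases hd : ℓ ∣ n
      · rw [if_pos hd, if_pos hd, map_mul, map_natCast, sub_self]
      · rw [if_neg hd, if_neg hd, map_zero, mul_zero, sub_self])
  refine ⟨g, 𝔪', hg, hmax', hp', fun ℓ hℓS => ?_⟩
  have hℓM : ¬ (ℓ : ℕ) ∣ M := fun hd => hℓS (hMS ℓ ℓ.prop hd)
  obtain ⟨b, hb, hbm⟩ := hcong ℓ ℓ.prop hℓM (fun h => hℓS (Finset.mem_coe.mp h))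
  refine ⟨b, hb, ?_⟩
  rwa [dif_pos ℓ.prop] at hbm

/-! ### (OLD-a), abstract form -/

set_option maxHeartbeats 1000000 in
set_option synthInstance.maxHeartbeats 400000 in
/-- **(OLD-a), generic form.**  If all orders of `hbar ∈ κ_Mˣ` are divisible by `p` and the
logarithmic derivative `θ hbar / hbar` is a `T_ℓ`-eigen-series with eigenvalue `a ℓ` for all
primes `ℓ ∉ S`, then `hbar` is a `p`-th power in `κ_M`, or the existential of (NO) holds. -/
theorem oldA_of_coeff_eigen {M : ℕ} [NeZero M] {p : ℕ} (hp : p.Prime)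
    (A : ValuationSubring (AlgebraicClosure ℚ)) (hA : A.LiesOverPrime p)
    (ι : AlgebraicClosure ℚ →+* ℂ) (a : Nat.Primes → ℤ) (S : Finset ℕ)
    (hMS : ∀ q : ℕ, q.Prime → q ∣ M → q ∈ S)
    (xb : modularFunctionFieldFullC (IsLocalRing.ResidueField A) M)
    (hθ : thetaFun (IsLocalRing.ResidueField A)
      (xb : LaurentSeries (IsLocalRing.ResidueField A)) ≠ 0)
    (hL : OldA.HolLift A ι M xb)
    (hbar : modularFunctionFieldFullC (IsLocalRing.ResidueField A) M) (h0 : hbar ≠ 0)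
    (hdiv : ∀ v : Place (IsLocalRing.ResidueField A)
      (modularFunctionFieldFullC (IsLocalRing.ResidueField A) M), (p : ℤ) ∣ v.ord hbar)
    (heig : ∀ ℓ : Nat.Primes, (ℓ : ℕ) ∉ S → ∀ n : ℤ,
      (thetaFun (IsLocalRing.ResidueField A)
          (hbar : LaurentSeries (IsLocalRing.ResidueField A)) /
        (hbar : LaurentSeries (IsLocalRing.ResidueField A))).coeff (((ℓ : ℕ) : ℤ) * n) +
        ((ℓ : ℕ) : IsLocalRing.ResidueField A) * (if ((ℓ : ℕ) : ℤ) ∣ n then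
          (thetaFun (IsLocalRing.ResidueField A)
              (hbar : LaurentSeries (IsLocalRing.ResidueField A)) /
            (hbar : LaurentSeries (IsLocalRing.ResidueField A))).coeff (n / ((ℓ : ℕ) : ℤ))
          else 0) =
      ((a ℓ : ℤ) : IsLocalRing.ResidueField A) *
        (thetaFun (IsLocalRing.ResidueField A)
            (hbar : LaurentSeries (IsLocalRing.ResidueField A)) /
          (hbar : LaurentSeries (IsLocalRing.ResidueField A))).coeff n) :
    (∃ u : modularFunctionFieldFullC (IsLocalRing.ResidueField A) M, u ^ p = hbar) ∨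
      ∃ (g : CuspForm (CongruenceSubgroup.Gamma0 M) 2) (𝔪 : Ideal (integralClosure ℤ ℂ)),
        g.IsNormalizedEigenform ∧ 𝔪.IsMaximal ∧ (p : integralClosure ℤ ℂ) ∈ 𝔪 ∧
        ∀ ℓ : Nat.Primes, (ℓ : ℕ) ∉ S →
          ∃ c : integralClosure ℤ ℂ, (c : ℂ) = ModularFormClass.qCoeff g ℓ ∧
            c - ((a ℓ : ℤ) : integralClosure ℤ ℂ) ∈ 𝔪 := by
  classical
  have : IsAlgClosed (IsLocalRing.ResidueField A) :=
    Fermat.Agent.Lib.FF.CharP.isAlgClosed_residueField A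
  have : Fact p.Prime := ⟨hp⟩
  have : CharP (IsLocalRing.ResidueField A) p := OldA.charP_residueField A hp hA
  have hfd := ModL.finiteDimensional_Jbar (IsLocalRing.ResidueField A) M
  obtain ⟨Wt, hWt, -, hall⟩ := DlogTheta.exists_dlog_theta
    (modularFunctionFieldFullC (IsLocalRing.ResidueField A) M) p
    (ModL.Jbar (IsLocalRing.ResidueField A) M)
    (ModL.transcendental_Jbar (IsLocalRing.ResidueField A) M) xb hθ
  obtain ⟨a₀, haL, hth, hiff⟩ := hall hbar h0 hdiv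
  by_cases ha : a₀ = 0
  · exact Or.inl (hiff.mp ha)
  right
  obtain ⟨G, c, hc, hcoef⟩ := hL Wt hWt a₀ haL
  have hb0 : (hbar : LaurentSeries (IsLocalRing.ResidueField A)) ≠ 0 := fun h => h0 (by
    exact Subtype.ext h)
  have ha0 : (a₀ : LaurentSeries (IsLocalRing.ResidueField A)) ≠ 0 := fun h => ha (by
    exact Subtype.ext h)
  have hs : thetaFun (IsLocalRing.ResidueField A)
      (hbar : LaurentSeries (IsLocalRing.ResidueField A)) /
        (hbar : LaurentSeries (IsLocalRing.ResidueField A)) =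
      (a₀ : LaurentSeries (IsLocalRing.ResidueField A)) *
        thetaFun (IsLocalRing.ResidueField A)
          (xb : LaurentSeries (IsLocalRing.ResidueField A)) := by
    rw [theta_apply, theta_apply] at hth
    rw [hth]
    field_simp
  have hs0 : thetaFun (IsLocalRing.ResidueField A)
      (hbar : LaurentSeries (IsLocalRing.ResidueField A)) /
        (hbar : LaurentSeries (IsLocalRing.ResidueField A)) ≠ 0 := by
    rw [hs]
    exact mul_ne_zero ha0 hθ
  obtain ⟨n, hn⟩ : ∃ n : ℤ, (thetaFun (IsLocalRing.ResidueField A)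
      (hbar : LaurentSeries (IsLocalRing.ResidueField A)) /
        (hbar : LaurentSeries (IsLocalRing.ResidueField A))).coeff n ≠ 0 := by
    by_contra hcon
    push Not at hcon
    exact hs0 (HahnSeries.ext (funext fun n => by rw [hcon n, HahnSeries.coeff_zero]))
  have hn0 : 0 ≤ n := by
    by_contra hneg
    exact hn (OldA.thetaLog_coeff_neg hb0 (not_le.mp hneg))
  lift n to ℕ using hn0
  refine exists_eigenform_of_residue_eigen hp A hA ι a S hMS G c hc ⟨n, ?_⟩ ?_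
  · rw [hcoef, ← hs]
    exact hn
  · intro ℓ hℓS m
    have hq := heig ℓ hℓS (m : ℤ)
    have e1 : (((ℓ : ℕ) : ℤ) * (m : ℤ)) = (((ℓ : ℕ) * m : ℕ) : ℤ) := by push_cast; rfl
    have e2 : ((m : ℤ) / ((ℓ : ℕ) : ℤ)) = ((m / (ℓ : ℕ) : ℕ) : ℤ) :=
      (Int.natCast_div m (ℓ : ℕ)).symm
    rw [e1, e2, hs, ← hcoef, ← hcoef, ← hcoef] at hq
    rw [← hq]
    by_cases hd : (ℓ : ℕ) ∣ m
    · rw [if_pos hd, if_pos (Int.natCast_dvd_natCast.mpr hd)]
    · rw [if_neg hd, if_neg (fun h => hd (Int.natCast_dvd_natCast.mp h))]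

/-! ### (OLD-a) at the bad level: `hbar = redInf h ⟨f, hf⟩` -/

/-- Coercion of the (HK) shape `c₀ · z ^ a · u ^ p` from `κ_M` to `k((q))`. -/
theorem coe_hk_shape {k : Type*} [Field k] (E : IntermediateField k (LaurentSeries k))
    (c₀ : k) (z u : E) (a : ℤ) (p : ℕ) :
    ((algebraMap k E c₀ * z ^ a * u ^ p : E) : LaurentSeries k) =
      HahnSeries.C c₀ * (z : LaurentSeries k) ^ a * (u : LaurentSeries k) ^ p := by
  rw [IntermediateField.coe_mul, IntermediateField.coe_mul, IntermediateField.coe_pow]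
  have h1 : ((algebraMap k E c₀ : E) : LaurentSeries k) = HahnSeries.C c₀ := by
    show algebraMap k (LaurentSeries k) c₀ = _
    simp only [HahnSeries.algebraMap_apply', PowerSeries.algebraMap_eq,
      HahnSeries.ofPowerSeries_C, HahnSeries.C_apply]
  have h2 : ((z ^ a : E) : LaurentSeries k) = (z : LaurentSeries k) ^ a := map_zpow₀ E.val z a
  rw [h1, h2]

set_option maxHeartbeats 1000000 in
set_option synthInstance.maxHeartbeats 400000 in
/-- **(OLD-a) at the bad level, generic `(a, S)`.**  `h : BadSetup A (residue A) M p`, `p ≥ 5`,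
`f ∈ O_∞` of level `M p` with `hbar := redInf f ≠ 0`.  If all orders of `hbar` are divisible by
`p` and, for every prime `ℓ ∉ S`, `red (N_ℓ f) = c₀ · hbar ^ (a ℓ) · u ^ p` (the conclusion of
(HK)), then `hbar` is a `p`-th power in `κ_M`, or the existential of (NO) holds. -/
theorem oldA_bad (A : ValuationSubring (AlgebraicClosure ℚ)) (M p : ℕ) [NeZero M] [NeZero p]
    (h : BadSetup A (IsLocalRing.residue A) M p) (hA : A.LiesOverPrime p) (hp5 : 5 ≤ p)
    (ι : AlgebraicClosure ℚ →+* ℂ) (hAv : HolLift.AvatarProp M ι)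
    (a : Nat.Primes → ℤ) (S : Finset ℕ) (hpS : p ∈ S)
    (hMS : ∀ q : ℕ, q.Prime → q ∣ M → q ∈ S)
    (f : laurentBaseChange (AlgebraicClosure ℚ) (modularFunctionFieldFull (M * p)))
    (hf : f ∈ OInf h) (hz : redInf h ⟨f, hf⟩ ≠ 0)
    (hdiv : ∀ Q : Place (IsLocalRing.ResidueField A)
      (modularFunctionFieldFullC (IsLocalRing.ResidueField A) M),
      (p : ℤ) ∣ Q.ord (redInf h ⟨f, hf⟩))
    (hHK : ∀ (ℓ : ℕ) [NeZero ℓ] (hℓ : ℓ.Prime), ℓ ∉ S →
      ∃ (hN : normAlong (heckeAlphaBar (AlgebraicClosure ℚ) (M * p) ℓ)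
          (heckeBetaBar (AlgebraicClosure ℚ) (M * p) ℓ f) ∈ OInf h)
        (c₀ : IsLocalRing.ResidueField A)
        (u : modularFunctionFieldFullC (IsLocalRing.ResidueField A) M), c₀ ≠ 0 ∧ u ≠ 0 ∧
        redInf h ⟨_, hN⟩ =
          algebraMap (IsLocalRing.ResidueField A)
            (modularFunctionFieldFullC (IsLocalRing.ResidueField A) M) c₀ *
            redInf h ⟨f, hf⟩ ^ (a ⟨ℓ, hℓ⟩ : ℤ) * u ^ p) :
    (∃ u : modularFunctionFieldFullC (IsLocalRing.ResidueField A) M,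
        u ^ p = redInf h ⟨f, hf⟩) ∨
      ∃ (g : CuspForm (CongruenceSubgroup.Gamma0 M) 2) (𝔪 : Ideal (integralClosure ℤ ℂ)),
        g.IsNormalizedEigenform ∧ 𝔪.IsMaximal ∧ (p : integralClosure ℤ ℂ) ∈ 𝔪 ∧
        ∀ ℓ : Nat.Primes, (ℓ : ℕ) ∉ S →
          ∃ c : integralClosure ℤ ℂ, (c : ℂ) = ModularFormClass.qCoeff g ℓ ∧
            c - ((a ℓ : ℤ) : integralClosure ℤ ℂ) ∈ 𝔪 := by
  classical
  have hp : p.Prime := h.hℓ
  have hcharP : CharP (IsLocalRing.ResidueField A) p := h.charP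
  have hpM : ¬ p ∣ M := h.not_dvd
  have hsurj : Function.Surjective (IsLocalRing.residue A) := IsLocalRing.residue_surjective
  have hθ := DlogThetaX.theta_xk_ne_zero (IsLocalRing.ResidueField A) M h.hMk
  have hL : OldA.HolLift A ι M (xk (IsLocalRing.ResidueField A) M) :=
    fun Wt hWt a' ha' => HolLift.holLift M p hp hpM hp5 A hA ι hAv Wt hWt a' ha'
  refine oldA_of_coeff_eigen hp A hA ι a S hMS (xk (IsLocalRing.ResidueField A) M) hθ hL
    (redInf h ⟨f, hf⟩) hz hdiv ?_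
  intro ℓ hℓS n
  haveI : NeZero (ℓ : ℕ) := ⟨ℓ.prop.ne_zero⟩
  have hℓp : (ℓ : ℕ) ≠ p := fun e => hℓS (e ▸ hpS)
  have hℓk : ((ℓ : ℕ) : IsLocalRing.ResidueField A) ≠ 0 := by
    rw [Ne, CharP.cast_eq_zero_iff (IsLocalRing.ResidueField A) p]
    intro hdvd
    exact hℓp ((Nat.prime_dvd_prime_iff_eq hp ℓ.prop).mp hdvd).symm
  have hℓM : ¬ (ℓ : ℕ) ∣ M := fun hd => hℓS (hMS ℓ ℓ.prop hd)
  obtain ⟨hN, c₀, u, hc₀, hu, hrel⟩ := hHK (ℓ : ℕ) ℓ.prop hℓS
  have hu' : (u : LaurentSeries (IsLocalRing.ResidueField A)) ≠ 0 := fun h0 => hu (by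
    exact Subtype.ext h0)
  have hrel' : ((redInf h ⟨_, NormQ.norm_mem_OInf h (ℓ : ℕ) ℓ.prop hℓk hsurj f hf⟩ :
        modularFunctionFieldFullC (IsLocalRing.ResidueField A) M) :
        LaurentSeries (IsLocalRing.ResidueField A)) =
      HahnSeries.C c₀ *
        ((redInf h ⟨f, hf⟩ : modularFunctionFieldFullC (IsLocalRing.ResidueField A) M) :
          LaurentSeries (IsLocalRing.ResidueField A)) ^ (a ℓ : ℤ) *
        (u : LaurentSeries (IsLocalRing.ResidueField A)) ^ p := by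
    rw [← coe_hk_shape]
    exact congrArg (fun x : modularFunctionFieldFullC (IsLocalRing.ResidueField A) M =>
      (x : LaurentSeries (IsLocalRing.ResidueField A))) hrel
  exact NormQ.thetaLog_eigen_redInf h (ℓ : ℕ) ℓ.prop hℓk hℓM hsurj f hf hz hc₀ hu' hrel' n

/-! ### The closed forms at `ι = S24.iotaK` -/

/-- **(OLD-a) at the bad level**, closed form (no named hypothesis except the conclusion of
(HK)). -/
theorem oldA_bad_iotaK (A : ValuationSubring (AlgebraicClosure ℚ)) (M p : ℕ) [NeZero M]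
    [NeZero p] (h : BadSetup A (IsLocalRing.residue A) M p) (hA : A.LiesOverPrime p)
    (hp5 : 5 ≤ p) (a : Nat.Primes → ℤ) (S : Finset ℕ) (hpS : p ∈ S)
    (hMS : ∀ q : ℕ, q.Prime → q ∣ M → q ∈ S)
    (f : laurentBaseChange (AlgebraicClosure ℚ) (modularFunctionFieldFull (M * p)))
    (hf : f ∈ OInf h) (hz : redInf h ⟨f, hf⟩ ≠ 0)
    (hdiv : ∀ Q : Place (IsLocalRing.ResidueField A)
      (modularFunctionFieldFullC (IsLocalRing.ResidueField A) M),
      (p : ℤ) ∣ Q.ord (redInf h ⟨f, hf⟩))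
    (hHK : ∀ (ℓ : ℕ) [NeZero ℓ] (hℓ : ℓ.Prime), ℓ ∉ S →
      ∃ (hN : normAlong (heckeAlphaBar (AlgebraicClosure ℚ) (M * p) ℓ)
          (heckeBetaBar (AlgebraicClosure ℚ) (M * p) ℓ f) ∈ OInf h)
        (c₀ : IsLocalRing.ResidueField A)
        (u : modularFunctionFieldFullC (IsLocalRing.ResidueField A) M), c₀ ≠ 0 ∧ u ≠ 0 ∧
        redInf h ⟨_, hN⟩ =
          algebraMap (IsLocalRing.ResidueField A)
            (modularFunctionFieldFullC (IsLocalRing.ResidueField A) M) c₀ *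
            redInf h ⟨f, hf⟩ ^ (a ⟨ℓ, hℓ⟩ : ℤ) * u ^ p) :
    (∃ u : modularFunctionFieldFullC (IsLocalRing.ResidueField A) M,
        u ^ p = redInf h ⟨f, hf⟩) ∨
      ∃ (g : CuspForm (CongruenceSubgroup.Gamma0 M) 2) (𝔪 : Ideal (integralClosure ℤ ℂ)),
        g.IsNormalizedEigenform ∧ 𝔪.IsMaximal ∧ (p : integralClosure ℤ ℂ) ∈ 𝔪 ∧
        ∀ ℓ : Nat.Primes, (ℓ : ℕ) ∉ S →
          ∃ c : integralClosure ℤ ℂ, (c : ℂ) = ModularFormClass.qCoeff g ℓ ∧
            c - ((a ℓ : ℤ) : integralClosure ℤ ℂ) ∈ 𝔪 :=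
  oldA_bad A M p h hA hp5 Fermat.Agent.S24.iotaK (HolLift.avatarProp M) a S hpS hMS f hf hz hdiv hHK

/-- **(OLD-a) against (NO)**: under the hypothesis (NO) of `TR.Top.TRKey` (verbatim), a function
`f ∈ O_∞` whose reduction `hbar ≠ 0` has all orders divisible by `p` and satisfies the conclusion
of (HK) at every prime `ℓ ∉ S` reduces to a `p`-th power of `κ_M`. -/
theorem exists_pth_root_of_no (A : ValuationSubring (AlgebraicClosure ℚ)) (M p : ℕ) [NeZero M]
    [NeZero p] (h : BadSetup A (IsLocalRing.residue A) M p) (hA : A.LiesOverPrime p)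
    (hp5 : 5 ≤ p) (a : Nat.Primes → ℤ) (S : Finset ℕ) (hpS : p ∈ S)
    (hMS : ∀ q : ℕ, q.Prime → q ∣ M → q ∈ S)
    (hNO : ¬ ∃ (g : CuspForm (CongruenceSubgroup.Gamma0 M) 2) (𝔪 : Ideal (integralClosure ℤ ℂ)),
      g.IsNormalizedEigenform ∧ 𝔪.IsMaximal ∧ (p : integralClosure ℤ ℂ) ∈ 𝔪 ∧
      ∀ ℓ : Nat.Primes, (ℓ : ℕ) ∉ S →
        ∃ c : integralClosure ℤ ℂ, (c : ℂ) = ModularFormClass.qCoeff g ℓ ∧
          c - ((a ℓ : ℤ) : integralClosure ℤ ℂ) ∈ 𝔪)
    (f : laurentBaseChange (AlgebraicClosure ℚ) (modularFunctionFieldFull (M * p)))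
    (hf : f ∈ OInf h) (hz : redInf h ⟨f, hf⟩ ≠ 0)
    (hdiv : ∀ Q : Place (IsLocalRing.ResidueField A)
      (modularFunctionFieldFullC (IsLocalRing.ResidueField A) M),
      (p : ℤ) ∣ Q.ord (redInf h ⟨f, hf⟩))
    (hHK : ∀ (ℓ : ℕ) [NeZero ℓ] (hℓ : ℓ.Prime), ℓ ∉ S →
      ∃ (hN : normAlong (heckeAlphaBar (AlgebraicClosure ℚ) (M * p) ℓ)
          (heckeBetaBar (AlgebraicClosure ℚ) (M * p) ℓ f) ∈ OInf h)
        (c₀ : IsLocalRing.ResidueField A)
        (u : modularFunctionFieldFullC (IsLocalRing.ResidueField A) M), c₀ ≠ 0 ∧ u ≠ 0 ∧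
        redInf h ⟨_, hN⟩ =
          algebraMap (IsLocalRing.ResidueField A)
            (modularFunctionFieldFullC (IsLocalRing.ResidueField A) M) c₀ *
            redInf h ⟨f, hf⟩ ^ (a ⟨ℓ, hℓ⟩ : ℤ) * u ^ p) :
    ∃ u : modularFunctionFieldFullC (IsLocalRing.ResidueField A) M,
      u ^ p = redInf h ⟨f, hf⟩ :=
  (oldA_bad_iotaK A M p h hA hp5 a S hpS hMS f hf hz hdiv hHK).resolve_right hNO

end

end Fermat.Agent.TR.Hecke.OldA87
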