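import Mathlib
import Fermat.Agent.TR.Hecke.EisClosed35
import Fermat.Agent.TR.Hecke.KumRed35
import Fermat.Agent.TR.Hecke.OldA87

/-!
# TR / Hecke side: the pointwise `∞`-side key (`keyInf_pointwise`)

For the objects of `TR.Top.TRKey` (`h : BadSetup A (residue A) M p`, eigenvalues
`a : Nat.Primes → ℤ` off a finite set `S ∋ p` containing the primes of `M`, (NE), (NO)), a class
`x` with `T_ℓ x = a_ℓ x` (`ℓ ∉ S`) and a Kummer function `f` of `x` which is a unit of `O_∞`: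

  `PLConcl h p f hf` (node side) + (SPEC) + NodeUnit ⟹ `red_∞ f` is a `p`-th power.

Composition of `EisClosed35.dvd_ord_of_plConcl` (`eis`: `p ∣ c`, hence `p` divides ALL orders of
`red_∞ f`), `KumRed35.kumRed` ((HK) at every `ℓ ∉ S`) and the generic (OLD-a)
`OldA87.exists_pth_root_of_no` (helper87).

* `keyInf_pointwise_of` : the composition with the generic (OLD-a) as a hypothesis;
* `keyInf_pointwise` : the closed statement (`∃ u, u ^ p = red_∞ f`);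
* `keyInf_pointwise'` : the same in the shape `red_∞ f = u ^ p ∧ u ≠ 0`.
-/

set_option autoImplicit false
set_option linter.unusedSectionVars false
set_option linter.style.haveILetI false

noncomputable section

namespace Fermat.Agent.TR.Hecke.KeyInf35

open AlgebraicCurve ModularCurve HahnSeries
open Fermat.Agent.BAD.TwoVal Fermat.Agent.ESJ.Jac Fermat.Agent.ESJ.Jac.HeckeKummer
open Fermat.Agent.ESJ.Cong.LevelGen
open Fermat.Agent.TR.PL.Seam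

local notation "Qb" => AlgebraicClosure ℚ

/-- Primes outside `S` are prime to `M` and different from `p`. -/
theorem not_dvd_of_notMem {M p : ℕ} {S : Finset ℕ} (hpS : p ∈ S)
    (hMS : ∀ q : ℕ, q.Prime → q ∣ M → q ∈ S) {ℓ : ℕ} (hℓ : ℓ.Prime) (hℓS : ℓ ∉ S) :
    ¬ ℓ ∣ M ∧ ℓ ≠ p :=
  ⟨fun hd => hℓS (hMS ℓ hℓ hd), fun e => hℓS (e ▸ hpS)⟩

set_option maxHeartbeats 1000000 in
set_option synthInstance.maxHeartbeats 400000 in
/-- **The `∞`-side key, pointwise, modulo the generic (OLD-a)** (`hOLD`). -/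
theorem keyInf_pointwise_of (A : ValuationSubring Qb) (M p : ℕ) [NeZero M] [NeZero p]
    (h : BadSetup A (IsLocalRing.residue A) M p)
    (a : Nat.Primes → ℤ) (S : Finset ℕ) (hpS : p ∈ S)
    (hMS : ∀ q : ℕ, q.Prime → q ∣ M → q ∈ S)
    (hNE : ∃ ℓ : Nat.Primes, (ℓ : ℕ) ∉ S ∧ ¬ (p : ℤ) ∣ a ℓ - (ℓ : ℕ) - 1)
    (x : JZero (M * p))
    (hH : ∀ ℓ : Nat.Primes, (ℓ : ℕ) ∉ S → heckeOperatorBar (M * p) ℓ x = a ℓ • x)
    (f : laurentBaseChange Qb (modularFunctionFieldFull (M * p))) (hk : IsKummerPair p x f)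
    (hf : f ∈ OInf h) (hfi : f⁻¹ ∈ OInf h) (hPL : PLConcl h p f hf)
    (hSPEC : ∀ Q : Place (IsLocalRing.ResidueField A)
        (modularFunctionFieldFullC (IsLocalRing.ResidueField A) M),
      Q.ord (deltaBar h) ≤ 0 → (p : ℤ) ∣ Q.ord (redInf h ⟨f, hf⟩))
    (hNode : ∃ Q : Place (IsLocalRing.ResidueField A)
        (modularFunctionFieldFullC (IsLocalRing.ResidueField A) M),
      0 < Q.ord (deltaBar h) ∧ ¬ (p : ℤ) ∣ Q.ord (deltaBar h))
    (hOLD : redInf h ⟨f, hf⟩ ≠ 0 →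
      (∀ Q : Place (IsLocalRing.ResidueField A)
          (modularFunctionFieldFullC (IsLocalRing.ResidueField A) M),
        (p : ℤ) ∣ Q.ord (redInf h ⟨f, hf⟩)) →
      (∀ (ℓ : ℕ) [NeZero ℓ] (hℓ : ℓ.Prime), ℓ ∉ S →
        ∃ (hN : normAlong (heckeAlphaBar Qb (M * p) ℓ) (heckeBetaBar Qb (M * p) ℓ f) ∈ OInf h)
          (c₀ : IsLocalRing.ResidueField A)
          (u : ↥(modularFunctionFieldFullC (IsLocalRing.ResidueField A) M)), c₀ ≠ 0 ∧ u ≠ 0 ∧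
          redInf h ⟨_, hN⟩ =
            algebraMap (IsLocalRing.ResidueField A)
              ↥(modularFunctionFieldFullC (IsLocalRing.ResidueField A) M) c₀ *
              redInf h ⟨f, hf⟩ ^ (a ⟨ℓ, hℓ⟩) * u ^ p) →
      ∃ u : ↥(modularFunctionFieldFullC (IsLocalRing.ResidueField A) M),
        u ^ p = redInf h ⟨f, hf⟩) :
    ∃ u : ↥(modularFunctionFieldFullC (IsLocalRing.ResidueField A) M),
      u ^ p = redInf h ⟨f, hf⟩ := by
  haveI : IsAlgClosed (IsLocalRing.ResidueField A) :=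
    Fermat.Agent.Lib.FF.CharP.isAlgClosed_residueField A
  have hsurj : Function.Surjective (IsLocalRing.residue A) := IsLocalRing.residue_surjective
  have hz : redInf h ⟨f, hf⟩ ≠ 0 := redInf_ne_zero_of_inv_mem h f hk.ne_zero hf hfi
  have hℓk : ∀ ℓ : ℕ, ℓ.Prime → ℓ ∉ S → ((ℓ : ℕ) : IsLocalRing.ResidueField A) ≠ 0 := by
    intro ℓ hℓ hℓS
    have := h.charP
    intro h0
    have hd := (CharP.cast_eq_zero_iff (IsLocalRing.ResidueField A) p ℓ).1 h0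
    exact (not_dvd_of_notMem hpS hMS hℓ hℓS).2 ((Nat.prime_dvd_prime_iff_eq h.hℓ hℓ).mp hd).symm
  obtain ⟨ℓ₀, hℓ₀S, hne⟩ := hNE
  haveI : NeZero (ℓ₀ : ℕ) := ⟨ℓ₀.2.ne_zero⟩
  have hdiv : ∀ Q : Place (IsLocalRing.ResidueField A)
      (modularFunctionFieldFullC (IsLocalRing.ResidueField A) M),
      (p : ℤ) ∣ Q.ord (redInf h ⟨f, hf⟩) :=
    Fermat.Agent.TR.Hecke.EisClosed35.dvd_ord_of_plConcl h hsurj ℓ₀.2 (hℓk ℓ₀ ℓ₀.2 hℓ₀S)
      (not_dvd_of_notMem hpS hMS ℓ₀.2 hℓ₀S).1 hk hf hfi (hH ℓ₀ hℓ₀S) hPL hSPEC hne hNode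
  refine hOLD hz hdiv (fun ℓ _ hℓ hℓS => ?_)
  exact Fermat.Agent.TR.Hecke.KumRed35.kumRed h hsurj ℓ hℓ (hℓk ℓ hℓ hℓS) hk hf hz
    (hH ⟨ℓ, hℓ⟩ hℓS)

set_option maxHeartbeats 1000000 in
set_option synthInstance.maxHeartbeats 400000 in
/-- **The `∞`-side key, pointwise** (`TRKeyInf` at one class): at the objects of `TR.Top.TRKey`
(with (NE) and (NO) verbatim), for a class `x` with `T_ℓ x = a_ℓ x` at all `ℓ ∉ S` and a Kummer
function `f` of `x` which is a unit of `O_∞`: the node-side conclusion `PLConcl h p f hf`, (SPEC)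
and NodeUnit imply that `red_∞ f` is a `p`-th power in the function field of the special
fibre. -/
theorem keyInf_pointwise (A : ValuationSubring Qb) (M p : ℕ) [NeZero M] [NeZero p]
    (h : BadSetup A (IsLocalRing.residue A) M p) (hA : A.LiesOverPrime p) (hp5 : 5 ≤ p)
    (a : Nat.Primes → ℤ) (S : Finset ℕ) (hpS : p ∈ S)
    (hMS : ∀ q : ℕ, q.Prime → q ∣ M → q ∈ S)
    (hNE : ∃ ℓ : Nat.Primes, (ℓ : ℕ) ∉ S ∧ ¬ (p : ℤ) ∣ a ℓ - (ℓ : ℕ) - 1)
    (hNO : ¬ ∃ (g : CuspForm (CongruenceSubgroup.Gamma0 M) 2) (𝔪 : Ideal (integralClosure ℤ ℂ)),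
      g.IsNormalizedEigenform ∧ 𝔪.IsMaximal ∧ (p : integralClosure ℤ ℂ) ∈ 𝔪 ∧
      ∀ ℓ : Nat.Primes, (ℓ : ℕ) ∉ S →
        ∃ c : integralClosure ℤ ℂ, (c : ℂ) = ModularFormClass.qCoeff g ℓ ∧
          c - ((a ℓ : ℤ) : integralClosure ℤ ℂ) ∈ 𝔪)
    (x : JZero (M * p))
    (hH : ∀ ℓ : Nat.Primes, (ℓ : ℕ) ∉ S → heckeOperatorBar (M * p) ℓ x = a ℓ • x)
    (f : laurentBaseChange Qb (modularFunctionFieldFull (M * p))) (hk : IsKummerPair p x f)
    (hf : f ∈ OInf h) (hfi : f⁻¹ ∈ OInf h) (hPL : PLConcl h p f hf)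
    (hSPEC : ∀ Q : Place (IsLocalRing.ResidueField A)
        (modularFunctionFieldFullC (IsLocalRing.ResidueField A) M),
      Q.ord (deltaBar h) ≤ 0 → (p : ℤ) ∣ Q.ord (redInf h ⟨f, hf⟩))
    (hNode : ∃ Q : Place (IsLocalRing.ResidueField A)
        (modularFunctionFieldFullC (IsLocalRing.ResidueField A) M),
      0 < Q.ord (deltaBar h) ∧ ¬ (p : ℤ) ∣ Q.ord (deltaBar h)) :
    ∃ u : ↥(modularFunctionFieldFullC (IsLocalRing.ResidueField A) M),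
      u ^ p = redInf h ⟨f, hf⟩ :=
  keyInf_pointwise_of A M p h a S hpS hMS hNE x hH f hk hf hfi hPL hSPEC hNode
    (fun hz hdiv hHK => Fermat.Agent.TR.Hecke.OldA87.exists_pth_root_of_no A M p h hA hp5 a S hpS
      hMS hNO f hf hz hdiv hHK)

set_option maxHeartbeats 1000000 in
set_option synthInstance.maxHeartbeats 400000 in
/-- `keyInf_pointwise` in the shape of `TR.Zero.TRKeyInf`: `red_∞ f = u ^ p` with `u ≠ 0`. -/
theorem keyInf_pointwise' (A : ValuationSubring Qb) (M p : ℕ) [NeZero M] [NeZero p]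
    (h : BadSetup A (IsLocalRing.residue A) M p) (hA : A.LiesOverPrime p) (hp5 : 5 ≤ p)
    (a : Nat.Primes → ℤ) (S : Finset ℕ) (hpS : p ∈ S)
    (hMS : ∀ q : ℕ, q.Prime → q ∣ M → q ∈ S)
    (hNE : ∃ ℓ : Nat.Primes, (ℓ : ℕ) ∉ S ∧ ¬ (p : ℤ) ∣ a ℓ - (ℓ : ℕ) - 1)
    (hNO : ¬ ∃ (g : CuspForm (CongruenceSubgroup.Gamma0 M) 2) (𝔪 : Ideal (integralClosure ℤ ℂ)),
      g.IsNormalizedEigenform ∧ 𝔪.IsMaximal ∧ (p : integralClosure ℤ ℂ) ∈ 𝔪 ∧
      ∀ ℓ : Nat.Primes, (ℓ : ℕ) ∉ S →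
        ∃ c : integralClosure ℤ ℂ, (c : ℂ) = ModularFormClass.qCoeff g ℓ ∧
          c - ((a ℓ : ℤ) : integralClosure ℤ ℂ) ∈ 𝔪)
    (x : JZero (M * p))
    (hH : ∀ ℓ : Nat.Primes, (ℓ : ℕ) ∉ S → heckeOperatorBar (M * p) ℓ x = a ℓ • x)
    (f : laurentBaseChange Qb (modularFunctionFieldFull (M * p))) (hk : IsKummerPair p x f)
    (hf : f ∈ OInf h) (hfi : f⁻¹ ∈ OInf h) (hPL : PLConcl h p f hf)
    (hSPEC : ∀ Q : Place (IsLocalRing.ResidueField A)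
        (modularFunctionFieldFullC (IsLocalRing.ResidueField A) M),
      Q.ord (deltaBar h) ≤ 0 → (p : ℤ) ∣ Q.ord (redInf h ⟨f, hf⟩))
    (hNode : ∃ Q : Place (IsLocalRing.ResidueField A)
        (modularFunctionFieldFullC (IsLocalRing.ResidueField A) M),
      0 < Q.ord (deltaBar h) ∧ ¬ (p : ℤ) ∣ Q.ord (deltaBar h)) :
    ∃ u : ↥(modularFunctionFieldFullC (IsLocalRing.ResidueField A) M),
      redInf h ⟨f, hf⟩ = u ^ p ∧ u ≠ 0 := by
  obtain ⟨u, hu⟩ := keyInf_pointwise A M p h hA hp5 a S hpS hMS hNE hNO x hH f hk hf hfi hPL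
    hSPEC hNode
  refine ⟨u, hu.symm, fun h0 => ?_⟩
  have hz : redInf h ⟨f, hf⟩ ≠ 0 := redInf_ne_zero_of_inv_mem h f hk.ne_zero hf hfi
  rw [h0, zero_pow (NeZero.ne p)] at hu
  exact hz hu.symm

end Fermat.Agent.TR.Hecke.KeyInf35
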