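/-
helper95 — TR / shadow of (OLD-a): the class `[div(f)/p]` of a function all of whose orders are
divisible by `p`.

Setting `h : IsFF1 K F x`.  For `f ≠ 0` with `p ∣ ord_t f` at every place:
* `exists_divisor_div` : the divisor `D = div(f)/p` exists and has degree `0`;
* `nsmul_mk_eq_zero`   : its class is killed by `p`;
* `mk_eq_zero_iff`     : its class is `0` iff `f = c · u ^ p` with `c` a nonzero constant;
* `mk_eq_zero_iff_pow` : over an algebraically closed field, iff `f` is a `p`-th power.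
-/
import Mathlib
import Fermat.Agent.Lib.FF.RRFF1

set_option autoImplicit false

noncomputable section

namespace Fermat.Agent.TR.Hecke.KumClass

open AlgebraicCurve Fermat.Agent.Lib.FF

variable {K F : Type*} [Field K] [Field F] [Algebra K F] {x : F}

/-- The divisor `div(f)/p` of a function all of whose orders are divisible by `p`. -/
theorem exists_divisor_div (h : IsFF1 K F x) {f : F} (hf : f ≠ 0) {p : ℕ} (hp : p ≠ 0)
    (hdiv : ∀ t : Place K F, (p : ℤ) ∣ t.ord f) :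
    ∃ D : Divisor K F, (∀ t, (p : ℤ) * D t = t.ord f) ∧ Divisor.degree D = 0 := by
  have := h.hasPrincipalDivisors
  obtain ⟨Df, hDf, hdeg⟩ := HasPrincipalDivisors.exists_divisor (K := K) f hf
  refine ⟨Df.mapRange (fun n : ℤ => n / (p : ℤ)) (Int.zero_ediv _), fun t => ?_, ?_⟩
  · rw [Finsupp.mapRange_apply, hDf]
    exact Int.mul_ediv_cancel' (hdiv t)
  · have h1 : (p : ℤ) • Df.mapRange (fun n : ℤ => n / (p : ℤ)) (Int.zero_ediv _) = Df := by
      ext t
      rw [Finsupp.smul_apply, Finsupp.mapRange_apply, smul_eq_mul, hDf]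
      exact Int.mul_ediv_cancel' (hdiv t)
    have h2 := congrArg Divisor.degree h1
    rw [map_zsmul, hdeg, smul_eq_mul] at h2
    rcases mul_eq_zero.1 h2 with h3 | h3
    · exact absurd (Int.natCast_eq_zero.1 h3) hp
    · exact h3

/-- The class of `div(f)/p` is killed by `p`. -/
theorem nsmul_mk_eq_zero {f : F} (hf : f ≠ 0) {p : ℕ}
    (D : Divisor.degZero (K := K) (F := F))
    (hD : ∀ t, (p : ℤ) * (D : Divisor K F) t = t.ord f) : p • Pic0.mk D = 0 := by
  have h1 : p • Pic0.mk D = Pic0.mk (p • D) := rfl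
  rw [h1]
  refine (QuotientAddGroup.eq_zero_iff _).2 ?_
  rw [AddSubgroup.mem_addSubgroupOf]
  refine ⟨f, hf, fun t => ?_⟩
  rw [AddSubgroup.coe_nsmul, Finsupp.smul_apply, ← hD t, nsmul_eq_mul]

/-- The class of `div(f)/p` vanishes iff `f` is a constant times a `p`-th power. -/
theorem mk_eq_zero_iff (h : IsFF1 K F x) {f : F} (hf : f ≠ 0) {p : ℕ} (hp : p ≠ 0)
    (D : Divisor.degZero (K := K) (F := F))
    (hD : ∀ t, (p : ℤ) * (D : Divisor K F) t = t.ord f) :
    Pic0.mk D = 0 ↔ ∃ (c : K) (u : F), c ≠ 0 ∧ u ≠ 0 ∧ f = algebraMap K F c * u ^ p := by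
  have hp' : (p : ℤ) ≠ 0 := Int.natCast_ne_zero.2 hp
  constructor
  · intro h0
    have h1 := (QuotientAddGroup.eq_zero_iff _).1 h0
    rw [AddSubgroup.mem_addSubgroupOf] at h1
    obtain ⟨u, hu, hDu⟩ := h1
    have hup : u ^ p ≠ 0 := pow_ne_zero p hu
    have hg : ∀ t : Place K F, 0 ≤ t.ord (f / u ^ p) := by
      intro t
      rw [div_eq_mul_inv, t.ord_mul hf (inv_ne_zero hup), t.ord_inv, ← zpow_natCast, t.ord_zpow,
        ← hDu t, hD t]
      omega
    obtain ⟨c, hc⟩ := h.const_of_ord_nonneg _ hg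
    refine ⟨c, u, ?_, hu, ?_⟩
    · rintro rfl
      rw [map_zero] at hc
      exact (div_ne_zero hf hup) hc
    · rw [← hc, div_mul_cancel₀ _ hup]
  · rintro ⟨c, u, hc, hu, rfl⟩
    refine (QuotientAddGroup.eq_zero_iff _).2 ?_
    rw [AddSubgroup.mem_addSubgroupOf]
    refine ⟨u, hu, fun t => ?_⟩
    have h1 := hD t
    have hc' : algebraMap K F c ≠ 0 := by
      rw [Ne, map_eq_zero]
      exact hc
    rw [t.ord_mul hc' (pow_ne_zero p hu), Fermat.Agent.S24.ord_algebraMap, zero_add,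
      ← zpow_natCast, t.ord_zpow] at h1
    exact mul_left_cancel₀ hp' h1

/-- Over an algebraically closed field: the class of `div(f)/p` vanishes iff `f` is a `p`-th
power. -/
theorem mk_eq_zero_iff_pow [IsAlgClosed K] (h : IsFF1 K F x) {f : F} (hf : f ≠ 0) {p : ℕ}
    (hp : p ≠ 0) (D : Divisor.degZero (K := K) (F := F))
    (hD : ∀ t, (p : ℤ) * (D : Divisor K F) t = t.ord f) :
    Pic0.mk D = 0 ↔ ∃ u : F, u ^ p = f := by
  rw [mk_eq_zero_iff h hf hp D hD]
  constructor
  · rintro ⟨c, u, -, -, rfl⟩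
    obtain ⟨c', hc'⟩ := IsAlgClosed.exists_pow_nat_eq c (Nat.pos_of_ne_zero hp)
    exact ⟨algebraMap K F c' * u, by rw [mul_pow, ← map_pow, hc']⟩
  · rintro ⟨u, rfl⟩
    have hu : u ≠ 0 := fun h0 => hf (by rw [h0, zero_pow hp])
    exact ⟨1, u, one_ne_zero, hu, by rw [map_one, one_mul]⟩

/-- Packaged: a function all of whose orders are divisible by `p` and which is not a `p`-th power
defines a nonzero class killed by `p`. -/
theorem exists_class_of_not_pow [IsAlgClosed K] (h : IsFF1 K F x) {f : F} (hf : f ≠ 0) {p : ℕ}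
    (hp : p ≠ 0) (hdiv : ∀ t : Place K F, (p : ℤ) ∣ t.ord f) (hpow : ¬ ∃ u : F, u ^ p = f) :
    ∃ D : Divisor.degZero (K := K) (F := F), (∀ t, (p : ℤ) * (D : Divisor K F) t = t.ord f) ∧
      Pic0.mk D ≠ 0 ∧ p • Pic0.mk D = 0 := by
  obtain ⟨D, hD, hdeg⟩ := exists_divisor_div h hf hp hdiv
  refine ⟨⟨D, Divisor.mem_degZero.2 hdeg⟩, hD, fun h0 => hpow ?_, nsmul_mk_eq_zero hf _ hD⟩
  exact (mk_eq_zero_iff_pow h hf hp ⟨D, Divisor.mem_degZero.2 hdeg⟩ hD).1 h0

end Fermat.Agent.TR.Hecke.KumClass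

end
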