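/-
TR / Hecke side, brick (HK) (helper56): the reduction of the Kummer function of `T_ℓ x`.

`h : BadSetup A π M p`, `x ∈ J_0(Mp)(ℚ̄)` with Kummer function `f` (`div f = p D`, `[D] = x`)
which is a unit of the Gauss valuation ring `O_∞`, and `T_ℓ x = a • x` for a prime `ℓ ∤ M p`.
The Kummer function of `T_ℓ x` is `N f := Nm_{α_ℓ}(β_ℓ^* f)` (`ESJ/Jac/HeckeKummer`), hence
`N f = const · f^a · g^p`; normalising `g` and the constant to units of `O_∞` and reducing: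

  `red_∞ (N f) = c₀ · (red_∞ f)^a · u^p`,   `c₀ ∈ kˣ`, `u ∈ κ_Mˣ`.
-/
import Mathlib
import Fermat.Agent.ESJ.Jac.HeckeKummer
import Fermat.Agent.TR.Hecke.NormOrd
import Fermat.Agent.Lib.FF.ModLRed
import Fermat.Agent.Lib.FF.RRFF1

set_option autoImplicit false

namespace Fermat.Agent.TR.Hecke.KumRed

open AlgebraicCurve ModularCurve IntermediateField
open Fermat.Agent.ESJ.Jac Fermat.Agent.ESJ.Jac.HeckeKummer Fermat.Agent.BAD.TwoVal
  Fermat.Agent.TR.Hecke.NormOrd Fermat.Agent.Lib.FF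

noncomputable section

section kummer

variable {K F : Type*} [Field K] [Field F] [Algebra K F]

/-- Kummer pairs and integer multiples. -/
theorem isKummerPair_zsmul {n : ℕ} {x : Pic0 K F} {f : F} (h : IsKummerPair n x f) (a : ℤ) :
    IsKummerPair n (a • x) (f ^ a) := by
  obtain ⟨m, rfl | rfl⟩ := Int.eq_nat_or_neg a
  · rw [natCast_zsmul, zpow_natCast]
    exact h.nsmul m
  · rw [neg_zsmul, natCast_zsmul, zpow_neg, zpow_natCast]
    exact (h.nsmul m).neg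

theorem aux_const {E : Type*} [Field E] {d Y X N : E} (p : ℕ) (hY : Y ≠ 0) (hX : X ≠ 0)
    (hN : N = d * Y * X ^ p) : d = N * Y⁻¹ * (X⁻¹) ^ p := by
  subst hN
  have hXp : X ^ p ≠ 0 := pow_ne_zero p hX
  rw [inv_pow]
  field_simp

theorem aux_const_inv {E : Type*} [Field E] {d Y X N : E} (p : ℕ) (hd : d ≠ 0) (hY : Y ≠ 0)
    (hX : X ≠ 0) (hN : N = d * Y * X ^ p) : d⁻¹ = N⁻¹ * Y * X ^ p := by
  subst hN
  field_simp

theorem aux_scale {E : Type*} [Field E] {c Y g N e : E} (p : ℕ) (he : e ≠ 0)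
    (hN : N = c * Y * g ^ p) : N = c * (e⁻¹) ^ p * Y * (e * g) ^ p := by
  subst hN
  have hep : e ^ p ≠ 0 := pow_ne_zero p he
  rw [inv_pow, mul_pow]
  field_simp

end kummer

variable {A : ValuationSubring (AlgebraicClosure ℚ)} {k : Type} [Field k] {π : A →+* k}
  {M p : ℕ} [NeZero M] [NeZero p]

set_option maxHeartbeats 1000000 in
/-- **(HK)**: the reduction at `∞` of the Kummer function of `T_ℓ x = a • x`. -/
theorem exists_redInf_hecke (h : BadSetup A π M p) (hsurj : Function.Surjective π)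
    (ℓ : ℕ) [NeZero ℓ] (hℓ : ℓ.Prime) (hℓk : (ℓ : k) ≠ 0)
    {x : JZero (M * p)} {f : modularFunctionFieldBar (M * p)} (hK : IsKummerPair p x f)
    (hf : f ∈ OInf h) (hf0 : redInf h ⟨f, hf⟩ ≠ 0) (a : ℤ)
    (hx : heckeOperatorBar (M * p) ⟨ℓ, hℓ⟩ x = a • x) :
    ∃ (hN : normAlong (heckeAlphaBar (AlgebraicClosure ℚ) (M * p) ℓ)
        (heckeBetaBar (AlgebraicClosure ℚ) (M * p) ℓ f) ∈ OInf h)
      (c₀ : k) (u : modularFunctionFieldFullC k M), c₀ ≠ 0 ∧ u ≠ 0 ∧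
      redInf h ⟨_, hN⟩ = algebraMap k (modularFunctionFieldFullC k M) c₀ *
        redInf h ⟨f, hf⟩ ^ a * u ^ p := by
  classical
  have hfne : f ≠ 0 := hK.ne_zero
  have hfinv : f⁻¹ ∈ OInf h := inv_mem_OInf h f hf hf0
  -- the norm and its inverse are Gauss-integral
  have hN : normAlong (heckeAlphaBar (AlgebraicClosure ℚ) (M * p) ℓ)
      (heckeBetaBar (AlgebraicClosure ℚ) (M * p) ℓ f) ∈ OInf h :=
    norm_alpha_mem_OInf h ℓ hℓk hℓ hsurj ⟨_, beta_mem_OInfR h ℓ hℓk f hf⟩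
  have hN' : normAlong (heckeAlphaBar (AlgebraicClosure ℚ) (M * p) ℓ)
      (heckeBetaBar (AlgebraicClosure ℚ) (M * p) ℓ f⁻¹) ∈ OInf h :=
    norm_alpha_mem_OInf h ℓ hℓk hℓ hsurj ⟨_, beta_mem_OInfR h ℓ hℓk f⁻¹ hfinv⟩
  have hNmul : normAlong (heckeAlphaBar (AlgebraicClosure ℚ) (M * p) ℓ)
      (heckeBetaBar (AlgebraicClosure ℚ) (M * p) ℓ f) *
      normAlong (heckeAlphaBar (AlgebraicClosure ℚ) (M * p) ℓ)
        (heckeBetaBar (AlgebraicClosure ℚ) (M * p) ℓ f⁻¹) = 1 := by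
    rw [← map_mul, ← map_mul, mul_inv_cancel₀ hfne, map_one, map_one]
  have hNinv : (normAlong (heckeAlphaBar (AlgebraicClosure ℚ) (M * p) ℓ)
      (heckeBetaBar (AlgebraicClosure ℚ) (M * p) ℓ f))⁻¹ ∈ OInf h := by
    rw [inv_eq_of_mul_eq_one_right hNmul]
    exact hN'
  -- the Kummer relation
  have hKN := isKummerPair_heckeOperatorBar (N := M * p) ⟨ℓ, hℓ⟩ hK
  rw [hx] at hKN
  obtain ⟨c, g, hc, hg, hcdiv, hNeq⟩ := (isKummerPair_zsmul hK a).exists_eq_mul_pow hKN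
  obtain ⟨b, hb⟩ := (isFF1_xL (AlgebraicClosure ℚ) (M * p)).const_of_ord_nonneg c
    (fun v => (hcdiv v).ge)
  have hb0 : b ≠ 0 := by
    rintro rfl
    rw [map_zero] at hb
    exact hc hb
  -- normalise `g`
  obtain ⟨e, he, hm, hne⟩ := exists_scaling_OInf h g hg
  have hg₁inv := inv_mem_OInf h _ hm hne
  have he' : algebraMap (AlgebraicClosure ℚ) (modularFunctionFieldBar (M * p)) e ≠ 0 := by
    rw [Ne, map_eq_zero]
    exact he
  -- the unit `f` of `O_∞`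
  let uF : (OInf h)ˣ := ⟨⟨f, hf⟩, ⟨f⁻¹, hfinv⟩, Subtype.ext (mul_inv_cancel₀ hfne),
    Subtype.ext (inv_mul_cancel₀ hfne)⟩
  have hfa : ∀ z : ℤ, (((uF ^ z : (OInf h)ˣ) : OInf h) : modularFunctionFieldBar (M * p)) =
      f ^ z := by
    intro z
    have := map_zpow (((OInf h).subtype : OInf h →+* _).toMonoidHom.comp
      (Units.coeHom (OInf h))) uF z
    simpa using this
  have hra : redInf h ((uF ^ a : (OInf h)ˣ) : OInf h) = redInf h ⟨f, hf⟩ ^ a := by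
    have := map_zpow ((redInf h).toMonoidHom.comp (Units.coeHom (OInf h))) uF a
    simpa using this
  -- the constant
  have hNeq' : normAlong (heckeAlphaBar (AlgebraicClosure ℚ) (M * p) ℓ)
      (heckeBetaBar (AlgebraicClosure ℚ) (M * p) ℓ f) =
      algebraMap (AlgebraicClosure ℚ) (modularFunctionFieldBar (M * p)) (b * (e⁻¹) ^ p) *
        f ^ a * (algebraMap (AlgebraicClosure ℚ) (modularFunctionFieldBar (M * p)) e * g) ^ p := by
    rw [map_mul, map_pow, map_inv₀]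
    refine aux_scale p he' ?_
    rw [← hb]
    exact hNeq
  have hfa0 : f ^ a ≠ 0 := zpow_ne_zero a hfne
  have hg₁0 : algebraMap (AlgebraicClosure ℚ) (modularFunctionFieldBar (M * p)) e * g ≠ 0 :=
    mul_ne_zero he' hg
  have hd0 : algebraMap (AlgebraicClosure ℚ) (modularFunctionFieldBar (M * p))
      (b * (e⁻¹) ^ p) ≠ 0 := by
    rw [Ne, map_eq_zero]
    exact mul_ne_zero hb0 (pow_ne_zero p (inv_ne_zero he))
  have hd : algebraMap (AlgebraicClosure ℚ) (modularFunctionFieldBar (M * p)) (b * (e⁻¹) ^ p) ∈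
      OInf h := by
    rw [aux_const p hfa0 hg₁0 hNeq']
    refine mul_mem (mul_mem hN ?_) (pow_mem hg₁inv p)
    rw [← zpow_neg, ← hfa (-a)]
    exact ((uF ^ (-a) : (OInf h)ˣ) : OInf h).2
  have hd' : algebraMap (AlgebraicClosure ℚ) (modularFunctionFieldBar (M * p))
      (b * (e⁻¹) ^ p)⁻¹ ∈ OInf h := by
    rw [map_inv₀, aux_const_inv p hd0 hfa0 hg₁0 hNeq']
    refine mul_mem (mul_mem hNinv ?_) (pow_mem hm p)
    rw [← hfa a]
    exact ((uF ^ a : (OInf h)ˣ) : OInf h).2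
  have hdA : b * (e⁻¹) ^ p ∈ A := (algebraMap_mem_OInf_iff h _).mp hd
  have hdA' : (b * (e⁻¹) ^ p)⁻¹ ∈ A := (algebraMap_mem_OInf_iff h _).mp hd'
  have hπd : π ⟨b * (e⁻¹) ^ p, hdA⟩ ≠ 0 := by
    intro h0
    have h1 : π ⟨b * (e⁻¹) ^ p, hdA⟩ * π ⟨(b * (e⁻¹) ^ p)⁻¹, hdA'⟩ = 1 := by
      rw [← map_mul]
      have : (⟨b * (e⁻¹) ^ p, hdA⟩ : A) * ⟨(b * (e⁻¹) ^ p)⁻¹, hdA'⟩ = 1 :=
        Subtype.ext (mul_inv_cancel₀ (mul_ne_zero hb0 (pow_ne_zero p (inv_ne_zero he))))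
      rw [this, map_one]
    rw [h0, zero_mul] at h1
    exact zero_ne_one h1
  refine ⟨hN, π ⟨b * (e⁻¹) ^ p, hdA⟩, redInf h ⟨_, hm⟩, hπd, hne, ?_⟩
  have hfinal : (⟨_, hN⟩ : OInf h) =
      ⟨_, hd⟩ * ((uF ^ a : (OInf h)ˣ) : OInf h) * ⟨_, hm⟩ ^ p := by
    apply Subtype.ext
    show normAlong (heckeAlphaBar (AlgebraicClosure ℚ) (M * p) ℓ)
      (heckeBetaBar (AlgebraicClosure ℚ) (M * p) ℓ f) = _
    rw [hNeq']
    push_cast
    rw [hfa a]
  rw [hfinal, map_mul, map_mul, map_pow, hra]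
  congr 2
  exact redInf_algebraMap h ⟨b * (e⁻¹) ^ p, hdA⟩ hd

end

end Fermat.Agent.TR.Hecke.KumRed
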