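import Mathlib
import Fermat.Agent.TR.Hecke.QHecke
import Fermat.Agent.CAR.Local.ThetaChain

/-!
# TR / Hecke side, (OA4)(i): the literal `thetaLog_hecke`

Coefficient form of `QHecke.dlog_eq_Tl`, stated with the derivation `θ = thetaFun` of
`Lib/Red/GenusGASep` (`Fermat.Agent.Lib.Red.GenusGA.thetaFun`) and the rotation
`Fermat.Agent.S28.Chain.rot`:

if `H(q^ℓ) = z(q^(ℓ²)) · ∏_{b < ℓ} z(ζ^b q)` for a primitive `ℓ`-th root of unity `ζ` of `k`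
(`ℓ ≠ 0` in `k`), then for every `n`

`(θ H / H)_n = (θ z / z)_{ℓ n} + ℓ · (θ z / z)_{n / ℓ}`  (second term only when `ℓ ∣ n`).

* `thetaLog_hecke` : with `qExpand k (ℓ * ℓ) z`;
* `thetaLog_hecke'` : with `qExpand k ℓ (qExpand k ℓ z)`;
* `thetaLog_eigen`, `thetaLog_eigen'` : if moreover `H = c · z ^ a · u ^ p` in characteristic `p`
  then `g_{ℓ n} + ℓ · g_{n / ℓ} = a · g_n` for `g = θ z / z`;
* `dlog_eq_thetaFun_div` : the bridge `QHecke.dlog z = thetaFun k z / z`.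
-/

set_option autoImplicit false

noncomputable section

namespace Fermat.Agent.TR.Hecke.ThetaLogHecke

open ModularCurve HahnSeries Fermat.Agent.S28.Chain Fermat.Agent.CAR.Local.ThetaJ
  Fermat.Agent.Lib.Red.GenusGA Fermat.Agent.TR.Hecke.QHecke

variable {k : Type*} [Field k]

/-- `QHecke.dlog` is `thetaFun k z / z` for the `thetaFun` of `Lib/Red/GenusGASep`. -/
theorem dlog_eq_thetaFun_div (z : LaurentSeries k) :
    dlog z = Fermat.Agent.Lib.Red.GenusGA.thetaFun k z / z := by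
  rw [dlog_def, thetaL_eq_theta, theta_apply]

/-- `q ↦ q^(ℓ²)` as `qExpand k (ℓ * ℓ)` or as `qExpand k ℓ ∘ qExpand k ℓ`. -/
theorem qExpand_mul_self (ℓ : ℕ) [NeZero ℓ] [NeZero (ℓ * ℓ)] (z : LaurentSeries k) :
    qExpand k (ℓ * ℓ) z = qExpand k ℓ (qExpand k ℓ z) :=
  (qExpand_qExpand ℓ ℓ z).symm

/-- **(OA4)(i)**, with `q ↦ q^(ℓ²)` written `qExpand k ℓ (qExpand k ℓ z)`. -/
theorem thetaLog_hecke' (ℓ : ℕ) [NeZero ℓ] (hℓk : (ℓ : k) ≠ 0) (ζ : kˣ)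
    (hζ : IsPrimitiveRoot ζ ℓ) (z H : LaurentSeries k) (hz : z ≠ 0)
    (hH : qExpand k ℓ H =
      qExpand k ℓ (qExpand k ℓ z) * ∏ b ∈ Finset.range ℓ, rot (ζ ^ b) z) (n : ℤ) :
    (Fermat.Agent.Lib.Red.GenusGA.thetaFun k H / H).coeff n =
      (Fermat.Agent.Lib.Red.GenusGA.thetaFun k z / z).coeff (ℓ * n) +
        (ℓ : k) * (if (ℓ : ℤ) ∣ n then
          (Fermat.Agent.Lib.Red.GenusGA.thetaFun k z / z).coeff (n / ℓ) else 0) := by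
  rw [← dlog_eq_thetaFun_div, ← dlog_eq_thetaFun_div, dlog_eq_Tl hℓk ζ hζ hz hH, coeff_Tl]

/-- **(OA4)(i)**, the literal: if `H(q^ℓ) = z(q^(ℓ²)) · ∏_{b < ℓ} z(ζ^b q)` then
`(θ H / H)_n = (θ z / z)_{ℓ n} + ℓ · (θ z / z)_{n / ℓ}`. -/
theorem thetaLog_hecke (ℓ : ℕ) [NeZero ℓ] [NeZero (ℓ * ℓ)] (hℓ : ℓ.Prime) (hℓk : (ℓ : k) ≠ 0)
    (ζ : kˣ) (hζ : IsPrimitiveRoot ζ ℓ) (z H : LaurentSeries k) (hz : z ≠ 0)
    (hH : qExpand k ℓ H = qExpand k (ℓ * ℓ) z * ∏ b ∈ Finset.range ℓ, rot (ζ ^ b) z) (n : ℤ) :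
    (Fermat.Agent.Lib.Red.GenusGA.thetaFun k H / H).coeff n =
      (Fermat.Agent.Lib.Red.GenusGA.thetaFun k z / z).coeff (ℓ * n) +
        (ℓ : k) * (if (ℓ : ℤ) ∣ n then
          (Fermat.Agent.Lib.Red.GenusGA.thetaFun k z / z).coeff (n / ℓ) else 0) := by
  have _ := hℓ
  rw [qExpand_mul_self] at hH
  exact thetaLog_hecke' ℓ hℓk ζ hζ z H hz hH n

/-- The eigen-relation for `g = θ z / z`: if moreover `H = c · z ^ a · u ^ p` in characteristic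
`p`, then `g_{ℓ n} + ℓ · g_{n / ℓ} = a · g_n`. -/
theorem thetaLog_eigen' (ℓ : ℕ) [NeZero ℓ] (hℓk : (ℓ : k) ≠ 0) (ζ : kˣ)
    (hζ : IsPrimitiveRoot ζ ℓ) (p : ℕ) [CharP k p] (z H : LaurentSeries k) (hz : z ≠ 0)
    (hH : qExpand k ℓ H =
      qExpand k ℓ (qExpand k ℓ z) * ∏ b ∈ Finset.range ℓ, rot (ζ ^ b) z)
    (a : ℤ) (c : k) (u : LaurentSeries k) (hc : c ≠ 0) (hu : u ≠ 0)
    (hrel : H = HahnSeries.C c * z ^ a * u ^ p) (n : ℤ) :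
    (Fermat.Agent.Lib.Red.GenusGA.thetaFun k z / z).coeff (ℓ * n) +
        (ℓ : k) * (if (ℓ : ℤ) ∣ n then
          (Fermat.Agent.Lib.Red.GenusGA.thetaFun k z / z).coeff (n / ℓ) else 0) =
      (a : k) * (Fermat.Agent.Lib.Red.GenusGA.thetaFun k z / z).coeff n := by
  rw [← dlog_eq_thetaFun_div]
  exact coeff_eigen hℓk ζ hζ p hz hH hc hu hrel n

/-- The eigen-relation, with `qExpand k (ℓ * ℓ) z`. -/
theorem thetaLog_eigen (ℓ : ℕ) [NeZero ℓ] [NeZero (ℓ * ℓ)] (hℓk : (ℓ : k) ≠ 0) (ζ : kˣ)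
    (hζ : IsPrimitiveRoot ζ ℓ) (p : ℕ) [CharP k p] (z H : LaurentSeries k) (hz : z ≠ 0)
    (hH : qExpand k ℓ H = qExpand k (ℓ * ℓ) z * ∏ b ∈ Finset.range ℓ, rot (ζ ^ b) z)
    (a : ℤ) (c : k) (u : LaurentSeries k) (hc : c ≠ 0) (hu : u ≠ 0)
    (hrel : H = HahnSeries.C c * z ^ a * u ^ p) (n : ℤ) :
    (Fermat.Agent.Lib.Red.GenusGA.thetaFun k z / z).coeff (ℓ * n) +
        (ℓ : k) * (if (ℓ : ℤ) ∣ n then
          (Fermat.Agent.Lib.Red.GenusGA.thetaFun k z / z).coeff (n / ℓ) else 0) =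
      (a : k) * (Fermat.Agent.Lib.Red.GenusGA.thetaFun k z / z).coeff n := by
  rw [qExpand_mul_self] at hH
  exact thetaLog_eigen' ℓ hℓk ζ hζ p z H hz hH a c u hc hu hrel n

/-- Seam test: the literal of ruling H#3 (2), with the instances found by unification. -/
example {k : Type*} [Field k] (ℓ : ℕ) [NeZero ℓ] (hℓ : ℓ.Prime) (hℓk : (ℓ : k) ≠ 0) (ζ : kˣ)
    (hζ : IsPrimitiveRoot ζ ℓ) (z H : LaurentSeries k) (hz : z ≠ 0)
    (hH : qExpand k ℓ H = qExpand k (ℓ * ℓ) z * ∏ b ∈ Finset.range ℓ, rot (ζ ^ b) z) (n : ℤ) :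
    (Fermat.Agent.Lib.Red.GenusGA.thetaFun k H / H).coeff n =
      (Fermat.Agent.Lib.Red.GenusGA.thetaFun k z / z).coeff (ℓ * n) +
        (ℓ : k) * (if (ℓ : ℤ) ∣ n then
          (Fermat.Agent.Lib.Red.GenusGA.thetaFun k z / z).coeff (n / ℓ) else 0) :=
  thetaLog_hecke ℓ hℓ hℓk ζ hζ z H hz hH n

end Fermat.Agent.TR.Hecke.ThetaLogHecke
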