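/-
TR / Hecke side (helper70): the CLOSED form of (OLD-a) — `OldA.oldA` with its two literal
hypotheses discharged:

* `QHecke k`        := `ThetaLogHecke.thetaLog_hecke` (helper12, (OA4)(i));
* `HolLift A ι M x̄` := `HolLift.holLift_iotaK` ((OA3), `ι = S24.iotaK`, `x̄ = J̄(q^M)`);
* `θ x̄ ≠ 0`         := `DlogThetaX.theta_xk_ne_zero` (helper28).

`oldA_closed` : for `p = P.p ∤ M`, `hbar ∈ κ_Mˣ` with all orders divisible by `p` and Hecke
transforms `c₀ · hbar^(a_ℓ) · u^p` at the good primes `ℓ ∤ M p`: `hbar` is a `p`-th power, or the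
Frey representation is modular of level `M`.
-/
import Mathlib
import Fermat.Agent.TR.Hecke.OldA
import Fermat.Agent.TR.Hecke.HolLiftFinal
import Fermat.Agent.TR.Hecke.ThetaLogHecke
import Fermat.Agent.TR.Hecke.DlogThetaX

set_option autoImplicit false

namespace Fermat.Agent.TR.Hecke.OldAClosed

open ModularCurve AlgebraicCurve KaehlerDifferential CongruenceSubgroup
open Fermat.Agent.Lib.FF Fermat.Agent.Lib.Red Fermat.Agent.Lib.Red.GenusGA Fermat.Agent.S28.Chain

noncomputable section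

/-- (OA4)(i) in the shape of `OldA.QHecke`. -/
theorem qHecke (k : Type) [Field k] : OldA.QHecke k := by
  intro ℓ _ hℓ hℓk ζ hζ z H hz hH n
  exact Fermat.Agent.TR.Hecke.ThetaLogHecke.thetaLog_hecke ℓ hℓ hℓk ζ hζ z H hz hH n

set_option maxHeartbeats 1000000 in
set_option synthInstance.maxHeartbeats 400000 in
/-- (OA3) in the shape of `OldA.HolLift`, for `ι = S24.iotaK` and `x̄ = J̄(q^M)`. -/
theorem holLift (M ℓ : ℕ) [NeZero M] (hℓ : ℓ.Prime) (hℓM : ¬ ℓ ∣ M) (h5 : 5 ≤ ℓ)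
    (A : ValuationSubring (AlgebraicClosure ℚ)) (hA : A.LiesOverPrime ℓ) :
    OldA.HolLift A Fermat.Agent.S24.iotaK M (xk (IsLocalRing.ResidueField A) M) := by
  intro Wt hWt a' ha'
  exact Fermat.Agent.TR.Hecke.HolLift.holLift_iotaK M ℓ hℓ hℓM h5 A hA Wt hWt a' ha'

set_option maxHeartbeats 1000000 in
set_option synthInstance.maxHeartbeats 400000 in
/-- **(OLD-a), closed.** -/
theorem oldA_closed (P : FreyPackage) {M : ℕ} [NeZero M] (hpM : ¬ P.p ∣ M)
    (W0 : WeierstrassCurve ℤ) (hW0 : W0.IsIntegralModelOf P.freyCurve)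
    (A : ValuationSubring (AlgebraicClosure ℚ)) (hA : A.LiesOverPrime P.p)
    (hbar : modularFunctionFieldFullC (IsLocalRing.ResidueField A) M) (h0 : hbar ≠ 0)
    (hdiv : ∀ v : Place (IsLocalRing.ResidueField A)
      (modularFunctionFieldFullC (IsLocalRing.ResidueField A) M), (P.p : ℤ) ∣ v.ord hbar)
    (heig : ∀ (ℓ : ℕ) [NeZero ℓ], ℓ.Prime → W0.IsGoodPrimeFor ℓ → ¬ ℓ ∣ M → ℓ ≠ P.p →
      ∃ (ζ : (IsLocalRing.ResidueField A)ˣ) (H u : LaurentSeries (IsLocalRing.ResidueField A))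
        (c0 : IsLocalRing.ResidueField A), IsPrimitiveRoot ζ ℓ ∧ c0 ≠ 0 ∧ u ≠ 0 ∧
        qExpand (IsLocalRing.ResidueField A) ℓ H =
          qExpand (IsLocalRing.ResidueField A) (ℓ * ℓ)
            (hbar : LaurentSeries (IsLocalRing.ResidueField A)) *
            ∏ b ∈ Finset.range ℓ,
              rot (ζ ^ b) (hbar : LaurentSeries (IsLocalRing.ResidueField A)) ∧
        H = HahnSeries.C c0 * (hbar : LaurentSeries (IsLocalRing.ResidueField A)) ^
          (W0.apOfModel ℓ : ℤ) * u ^ P.p) :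
    (∃ u : modularFunctionFieldFullC (IsLocalRing.ResidueField A) M, u ^ P.p = hbar) ∨
      P.ModularRepOfLevel M := by
  have hNk : (M : IsLocalRing.ResidueField A) ≠ 0 :=
    Fermat.Agent.Padic.natCast_residue_ne_zero M P.p P.pp hpM A hA
  exact OldA.oldA P W0 hW0 A hA Fermat.Agent.S24.iotaK (qHecke _)
    (xk (IsLocalRing.ResidueField A) M)
    (Fermat.Agent.TR.Hecke.DlogThetaX.theta_xk_ne_zero _ _ hNk)
    (holLift M P.p P.pp hpM P.hp5 A hA) hbar h0 hdiv heig

end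

end Fermat.Agent.TR.Hecke.OldAClosed
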