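import Mathlib
import Fermat.Agent.TR.Hecke.OldAClosed

set_option autoImplicit false

/-!
# TR / Hecke side: (OLD-a) in the GENERIC form consumed by `TR.Top.TRKey`

`OldA.oldA` / `OldAClosed.oldA_closed` are stated for a Frey package (eigenvalues
`W0.apOfModel ℓ`, conclusion `P.ModularRepOfLevel M`).  The statement `TR.Top.TRKey` is generic in
the eigenvalues `a : Nat.Primes → ℤ` and the finite set `S` of excluded primes, and its
hypothesis (NO) is the non-existence of a normalised eigenform of level `M` congruent to `a`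
modulo a maximal ideal over `p` away from `S`.  This file ports (OLD-a) to that shape:

* `oldA_gen_of` : the port of `OldA.oldA` (inputs `QHecke`, `HolLift` as hypotheses);
* `oldA_gen` : the closed form: `p ≥ 5` prime, `p ∤ M`, `p ∈ S`, `S ⊇` the primes of `M`, `hbar ∈ κ_Mˣ`
  with all orders divisible by `p` and Hecke transforms `c₀ · hbar ^ (a ℓ) · u ^ p` at the primes
  `ℓ ∉ S`: then `hbar` is a `p`-th power, or there are `g`, `𝔪` as in the body of (NO);
* `oldA_gen_no` : hence under (NO) `hbar` is a `p`-th power.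
-/

namespace Fermat.Agent.TR.Hecke.OldAGen

open ModularCurve AlgebraicCurve KaehlerDifferential CongruenceSubgroup IntermediateField
open Fermat.Agent.Lib.FF Fermat.Agent.Lib.Red Fermat.Agent.Lib.Red.GenusGA Fermat.Agent.S28.Chain
open Fermat.Agent.TR.Hecke.OldA

noncomputable section

set_option maxHeartbeats 1000000 in
set_option synthInstance.maxHeartbeats 400000 in
/-- **(OLD-a), generic eigenvalues** (port of `OldA.oldA`). -/
theorem oldA_gen_of {M : ℕ} [NeZero M] {p : ℕ} (hp : p.Prime)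
    (A : ValuationSubring (AlgebraicClosure ℚ)) (hA : A.LiesOverPrime p)
    (ι : AlgebraicClosure ℚ →+* ℂ)
    (hQ : QHecke (IsLocalRing.ResidueField A))
    (xb : modularFunctionFieldFullC (IsLocalRing.ResidueField A) M)
    (hθ : thetaFun (IsLocalRing.ResidueField A)
      (xb : LaurentSeries (IsLocalRing.ResidueField A)) ≠ 0)
    (hL : HolLift A ι M xb)
    (a : Nat.Primes → ℤ) (S : Set ℕ) (hpS : p ∈ S)
    (hbar : modularFunctionFieldFullC (IsLocalRing.ResidueField A) M) (h0 : hbar ≠ 0)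
    (hdiv : ∀ v : Place (IsLocalRing.ResidueField A)
      (modularFunctionFieldFullC (IsLocalRing.ResidueField A) M), (p : ℤ) ∣ v.ord hbar)
    (heig : ∀ (ℓ : ℕ) [NeZero ℓ] (hℓ : ℓ.Prime), ¬ ℓ ∣ M → ℓ ∉ S →
      ∃ (ζ : (IsLocalRing.ResidueField A)ˣ) (H u : LaurentSeries (IsLocalRing.ResidueField A))
        (c0 : IsLocalRing.ResidueField A), IsPrimitiveRoot ζ ℓ ∧ c0 ≠ 0 ∧ u ≠ 0 ∧
        qExpand (IsLocalRing.ResidueField A) ℓ H =
          qExpand (IsLocalRing.ResidueField A) (ℓ * ℓ)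
            (hbar : LaurentSeries (IsLocalRing.ResidueField A)) *
            ∏ b ∈ Finset.range ℓ,
              rot (ζ ^ b) (hbar : LaurentSeries (IsLocalRing.ResidueField A)) ∧
        H = HahnSeries.C c0 * (hbar : LaurentSeries (IsLocalRing.ResidueField A)) ^
          (a ⟨ℓ, hℓ⟩) * u ^ p) :
    (∃ u : modularFunctionFieldFullC (IsLocalRing.ResidueField A) M, u ^ p = hbar) ∨
      ∃ (g : CuspForm (Gamma0 M) 2) (𝔪 : Ideal (integralClosure ℤ ℂ)),
        g.IsNormalizedEigenform ∧ 𝔪.IsMaximal ∧ (p : integralClosure ℤ ℂ) ∈ 𝔪 ∧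
        ∀ ℓ : Nat.Primes, ¬ (ℓ : ℕ) ∣ M → (ℓ : ℕ) ∉ S →
          ∃ c : integralClosure ℤ ℂ, (c : ℂ) = ModularFormClass.qCoeff g ℓ ∧
            c - ((a ℓ : ℤ) : integralClosure ℤ ℂ) ∈ 𝔪 := by
  classical
  have : IsAlgClosed (IsLocalRing.ResidueField A) :=
    Fermat.Agent.Lib.FF.CharP.isAlgClosed_residueField A
  have : Fact p.Prime := ⟨hp⟩
  have : CharP (IsLocalRing.ResidueField A) p := charP_residueField A hp hA
  have hfd := ModL.finiteDimensional_Jbar (IsLocalRing.ResidueField A) M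
  obtain ⟨Wt, hWt, -, hall⟩ := DlogTheta.exists_dlog_theta
    (modularFunctionFieldFullC (IsLocalRing.ResidueField A) M) p
    (ModL.Jbar (IsLocalRing.ResidueField A) M)
    (ModL.transcendental_Jbar (IsLocalRing.ResidueField A) M) xb hθ
  obtain ⟨a₀, haL, hth, hiff⟩ := hall hbar h0 hdiv
  by_cases ha : a₀ = 0
  · exact Or.inl (hiff.mp ha)
  right
  obtain ⟨G, c, hc, hcoef⟩ := hL Wt hWt a₀ haL
  have hb0 : (hbar : LaurentSeries (IsLocalRing.ResidueField A)) ≠ 0 := fun h => h0 (by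
    exact Subtype.ext h)
  have ha0 : (a₀ : LaurentSeries (IsLocalRing.ResidueField A)) ≠ 0 := fun h => ha (by
    exact Subtype.ext h)
  have hs : thetaFun (IsLocalRing.ResidueField A)
      (hbar : LaurentSeries (IsLocalRing.ResidueField A)) /
        (hbar : LaurentSeries (IsLocalRing.ResidueField A)) =
      (a₀ : LaurentSeries (IsLocalRing.ResidueField A)) *
        thetaFun (IsLocalRing.ResidueField A)
          (xb : LaurentSeries (IsLocalRing.ResidueField A)) := by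
    rw [theta_apply, theta_apply] at hth
    rw [hth]
    field_simp
  have hs0 : thetaFun (IsLocalRing.ResidueField A)
      (hbar : LaurentSeries (IsLocalRing.ResidueField A)) /
        (hbar : LaurentSeries (IsLocalRing.ResidueField A)) ≠ 0 := by
    rw [hs]
    exact mul_ne_zero ha0 hθ
  obtain ⟨n, hn⟩ : ∃ n : ℤ, (thetaFun (IsLocalRing.ResidueField A)
      (hbar : LaurentSeries (IsLocalRing.ResidueField A)) /
        (hbar : LaurentSeries (IsLocalRing.ResidueField A))).coeff n ≠ 0 := by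
    by_contra hcon
    push Not at hcon
    exact hs0 (HahnSeries.ext (funext fun n => by rw [hcon n, HahnSeries.coeff_zero]))
  have hn0 : 0 ≤ n := by
    by_contra hneg
    exact hn (thetaLog_coeff_neg hb0 (not_le.mp hneg))
  lift n to ℕ using hn0
  -- the residue-field form of the eigen-relations
  have hrel : ∀ (ℓ : ℕ) (hℓ : ℓ.Prime), ¬ ℓ ∣ M → ℓ ∉ S → ∀ m : ℕ,
      IsLocalRing.residue A (c (ℓ * m)) +
        (ℓ : IsLocalRing.ResidueField A) *
          (if ℓ ∣ m then IsLocalRing.residue A (c (m / ℓ)) else 0) =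
        ((a ⟨ℓ, hℓ⟩ : ℤ) : IsLocalRing.ResidueField A) * IsLocalRing.residue A (c m) := by
    intro ℓ hℓ hℓM hℓS m
    have : NeZero ℓ := ⟨hℓ.ne_zero⟩
    have hℓp : ℓ ≠ p := fun h => hℓS (h ▸ hpS)
    obtain ⟨ζ, H, u, c0, hζ, hc0, hu, hPF, hH⟩ := heig ℓ hℓ hℓM hℓS
    have hℓk : (ℓ : IsLocalRing.ResidueField A) ≠ 0 := by
      rw [Ne, CharP.cast_eq_zero_iff (IsLocalRing.ResidueField A) p]
      intro hdvd
      exact hℓp ((Nat.prime_dvd_prime_iff_eq hp hℓ).mp hdvd).symm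
    have hq := hQ ℓ hℓ hℓk ζ hζ _ H hb0 hPF m
    have hC0 : (HahnSeries.C c0 : LaurentSeries (IsLocalRing.ResidueField A)) ≠ 0 := by
      intro h
      apply hc0
      have h1 := congrArg (fun f : LaurentSeries (IsLocalRing.ResidueField A) => f.coeff 0) h
      simpa using h1
    have hz0 : (hbar : LaurentSeries (IsLocalRing.ResidueField A)) ^ (a ⟨ℓ, hℓ⟩) ≠ 0 :=
      zpow_ne_zero _ hb0
    have hup : u ^ p ≠ 0 := pow_ne_zero _ hu
    have hHlog : thetaFun (IsLocalRing.ResidueField A) H / H =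
        ((a ⟨ℓ, hℓ⟩ : ℤ) : LaurentSeries (IsLocalRing.ResidueField A)) *
          (thetaFun (IsLocalRing.ResidueField A)
            (hbar : LaurentSeries (IsLocalRing.ResidueField A)) /
              (hbar : LaurentSeries (IsLocalRing.ResidueField A))) := by
      rw [hH, thetaLog_mul (mul_ne_zero hC0 hz0) hup, thetaLog_mul hC0 hz0, thetaLog_zpow hb0,
        thetaFun_C, thetaFun_pow_char, zero_div, zero_div, zero_add, add_zero]
    rw [hHlog, intCast_mul_coeff] at hq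
    have e1 : ((ℓ : ℤ) * (m : ℤ)) = ((ℓ * m : ℕ) : ℤ) := by push_cast; rfl
    have e2 : ((m : ℤ) / (ℓ : ℤ)) = ((m / ℓ : ℕ) : ℤ) := (Int.natCast_div m ℓ).symm
    rw [e1, e2, hs, ← hcoef, ← hcoef, ← hcoef] at hq
    rw [hq]
    by_cases hd : ℓ ∣ m
    · rw [if_pos hd, if_pos (Int.natCast_dvd_natCast.mpr hd)]
    · rw [if_neg hd, if_neg (fun h => hd (Int.natCast_dvd_natCast.mp h))]
  -- Deligne–Serre lifting
  have hpI : ((p : ℕ) : A) ∈ IsLocalRing.maximalIdeal A := by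
    obtain ⟨ha', hmem⟩ := (ValuationSubring.mem_nonunits_iff_exists_mem_maximalIdeal).mp hA
    have e : (⟨(p : AlgebraicClosure ℚ), ha'⟩ : A) = ((p : ℕ) : A) := Subtype.ext (by simp)
    rwa [e] at hmem
  have hι : Function.Injective (ι.comp A.subtype) :=
    ι.injective.comp Subtype.val_injective
  obtain ⟨g, 𝔪', hg, hmax', hp', hcong⟩ := OldLift.exists_eigenform_of_modI_eigen (M := M)
    (ι.comp A.subtype) hι (IsLocalRing.maximalIdeal A) hp hpI S
    (fun ℓ => if hℓ : ℓ.Prime then a ⟨ℓ, hℓ⟩ else 0) G c (fun n => hc n)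
    ⟨n, fun h => by
      apply hn
      rw [hs, ← hcoef]
      exact (IsLocalRing.residue_eq_zero_iff _).mpr h⟩
    (by
      intro ℓ hℓ hℓM hℓS m
      have h := hrel ℓ hℓ hℓM hℓS m
      rw [dif_pos hℓ]
      rw [← IsLocalRing.residue_eq_zero_iff, map_sub, map_add, map_mul, map_intCast,
        mul_comm m ℓ, ← h]
      by_cases hd : ℓ ∣ m
      · rw [if_pos hd, if_pos hd, map_mul, map_natCast, sub_self]
      · rw [if_neg hd, if_neg hd, map_zero, mul_zero, sub_self])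
  refine ⟨g, 𝔪', hg, hmax', hp', fun ℓ hℓM hℓS => ?_⟩
  have h := hcong ℓ ℓ.2 hℓM hℓS
  rw [dif_pos ℓ.2] at h
  exact h

set_option maxHeartbeats 1000000 in
set_option synthInstance.maxHeartbeats 400000 in
/-- **(OLD-a), generic eigenvalues, closed**: the right disjunct is literally the body of the
hypothesis (NO) of `TR.Top.TRKey`. -/
theorem oldA_gen {M : ℕ} [NeZero M] {p : ℕ} (hp : p.Prime) (hpM : ¬ p ∣ M) (h5 : 5 ≤ p)
    (A : ValuationSubring (AlgebraicClosure ℚ)) (hA : A.LiesOverPrime p)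
    (a : Nat.Primes → ℤ) (S : Finset ℕ) (hpS : p ∈ S)
    (hMS : ∀ q : ℕ, q.Prime → q ∣ M → q ∈ S)
    (hbar : modularFunctionFieldFullC (IsLocalRing.ResidueField A) M) (h0 : hbar ≠ 0)
    (hdiv : ∀ v : Place (IsLocalRing.ResidueField A)
      (modularFunctionFieldFullC (IsLocalRing.ResidueField A) M), (p : ℤ) ∣ v.ord hbar)
    (heig : ∀ (ℓ : ℕ) [NeZero ℓ] (hℓ : ℓ.Prime), ℓ ∉ S →
      ∃ (ζ : (IsLocalRing.ResidueField A)ˣ) (H u : LaurentSeries (IsLocalRing.ResidueField A))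
        (c0 : IsLocalRing.ResidueField A), IsPrimitiveRoot ζ ℓ ∧ c0 ≠ 0 ∧ u ≠ 0 ∧
        qExpand (IsLocalRing.ResidueField A) ℓ H =
          qExpand (IsLocalRing.ResidueField A) (ℓ * ℓ)
            (hbar : LaurentSeries (IsLocalRing.ResidueField A)) *
            ∏ b ∈ Finset.range ℓ,
              rot (ζ ^ b) (hbar : LaurentSeries (IsLocalRing.ResidueField A)) ∧
        H = HahnSeries.C c0 * (hbar : LaurentSeries (IsLocalRing.ResidueField A)) ^
          (a ⟨ℓ, hℓ⟩) * u ^ p) :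
    (∃ u : modularFunctionFieldFullC (IsLocalRing.ResidueField A) M, u ^ p = hbar) ∨
      ∃ (g : CuspForm (Gamma0 M) 2) (𝔪 : Ideal (integralClosure ℤ ℂ)),
        g.IsNormalizedEigenform ∧ 𝔪.IsMaximal ∧ (p : integralClosure ℤ ℂ) ∈ 𝔪 ∧
        ∀ ℓ : Nat.Primes, (ℓ : ℕ) ∉ S →
          ∃ c : integralClosure ℤ ℂ, (c : ℂ) = ModularFormClass.qCoeff g ℓ ∧
            c - ((a ℓ : ℤ) : integralClosure ℤ ℂ) ∈ 𝔪 := by
  have hNk : (M : IsLocalRing.ResidueField A) ≠ 0 :=
    Fermat.Agent.Padic.natCast_residue_ne_zero M p hp hpM A hA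
  rcases oldA_gen_of hp A hA Fermat.Agent.S24.iotaK (OldAClosed.qHecke _)
    (xk (IsLocalRing.ResidueField A) M)
    (Fermat.Agent.TR.Hecke.DlogThetaX.theta_xk_ne_zero _ _ hNk)
    (OldAClosed.holLift M p hp hpM h5 A hA) a (S : Set ℕ) (Finset.mem_coe.mpr hpS) hbar h0 hdiv
    (fun ℓ _ hℓ _ hℓS => heig ℓ hℓ (fun h => hℓS (Finset.mem_coe.mpr h))) with h | ⟨g, 𝔪, hg, h𝔪, hp𝔪, hc⟩
  · exact Or.inl h
  · exact Or.inr ⟨g, 𝔪, hg, h𝔪, hp𝔪, fun ℓ hℓS =>
      hc ℓ (fun hd => hℓS (hMS ℓ ℓ.2 hd)) (fun h => hℓS (Finset.mem_coe.mp h))⟩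

set_option maxHeartbeats 1000000 in
set_option synthInstance.maxHeartbeats 400000 in
/-- **(OLD-a) under (NO)**: `hbar` is a `p`-th power. -/
theorem oldA_gen_no {M : ℕ} [NeZero M] {p : ℕ} (hp : p.Prime) (hpM : ¬ p ∣ M) (h5 : 5 ≤ p)
    (A : ValuationSubring (AlgebraicClosure ℚ)) (hA : A.LiesOverPrime p)
    (a : Nat.Primes → ℤ) (S : Finset ℕ) (hpS : p ∈ S)
    (hMS : ∀ q : ℕ, q.Prime → q ∣ M → q ∈ S)
    (hNO : ¬ ∃ (g : CuspForm (Gamma0 M) 2) (𝔪 : Ideal (integralClosure ℤ ℂ)),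
      g.IsNormalizedEigenform ∧ 𝔪.IsMaximal ∧ (p : integralClosure ℤ ℂ) ∈ 𝔪 ∧
      ∀ ℓ : Nat.Primes, (ℓ : ℕ) ∉ S →
        ∃ c : integralClosure ℤ ℂ, (c : ℂ) = ModularFormClass.qCoeff g ℓ ∧
          c - ((a ℓ : ℤ) : integralClosure ℤ ℂ) ∈ 𝔪)
    (hbar : modularFunctionFieldFullC (IsLocalRing.ResidueField A) M) (h0 : hbar ≠ 0)
    (hdiv : ∀ v : Place (IsLocalRing.ResidueField A)
      (modularFunctionFieldFullC (IsLocalRing.ResidueField A) M), (p : ℤ) ∣ v.ord hbar)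
    (heig : ∀ (ℓ : ℕ) [NeZero ℓ] (hℓ : ℓ.Prime), ℓ ∉ S →
      ∃ (ζ : (IsLocalRing.ResidueField A)ˣ) (H u : LaurentSeries (IsLocalRing.ResidueField A))
        (c0 : IsLocalRing.ResidueField A), IsPrimitiveRoot ζ ℓ ∧ c0 ≠ 0 ∧ u ≠ 0 ∧
        qExpand (IsLocalRing.ResidueField A) ℓ H =
          qExpand (IsLocalRing.ResidueField A) (ℓ * ℓ)
            (hbar : LaurentSeries (IsLocalRing.ResidueField A)) *
            ∏ b ∈ Finset.range ℓ,
              rot (ζ ^ b) (hbar : LaurentSeries (IsLocalRing.ResidueField A)) ∧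
        H = HahnSeries.C c0 * (hbar : LaurentSeries (IsLocalRing.ResidueField A)) ^
          (a ⟨ℓ, hℓ⟩) * u ^ p) :
    ∃ u : modularFunctionFieldFullC (IsLocalRing.ResidueField A) M, u ^ p = hbar :=
  (oldA_gen hp hpM h5 A hA a S hpS hMS hbar h0 hdiv heig).resolve_right hNO

end

end Fermat.Agent.TR.Hecke.OldAGen
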