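/-
helper95 — TR / the SHADOW of (OLD-a), assembled.

`A` a valuation ring of `ℚ̄` over `p = P.p`, `k` its residue field, `κ_M` the mod-`p` modular
function field of level `M` (`p ∤ M`).  Let `hbar ∈ κ_Mˣ` have all its orders divisible by `p`,
and assume that for every good prime `ℓ ∤ M p` the norm `Nm_{κ_{Mℓ}/κ_M} (hbar(q^ℓ))` is
`c · hbar ^ (a_ℓ) · u ^ p`.  Then `hbar` is a `p`-th power, or the Frey representation is
modular of level `M`.

Route (no differentials, no cusp forms): the class `ȳ = [div(hbar)/p] ∈ JZeroC k M` is a nonzero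
`p`-torsion eigenvector of the special-fibre Hecke correspondences (`KumClass`, `HeckeC`); the
reduction `r : JZero M → JZeroC k M` is surjective and Hecke-equivariant (R1, hypotheses `hsurj`,
`hrT` — row H-R1), the reduction of the classes fixed by an open subgroup has finite exponent
(R2 = `FrobFin.hexp_reductionModL`), and `OldRed.modularRepOfLevel_of_red` (R3) concludes.
-/
import Mathlib
import Fermat.Agent.TR.Hecke.OldRed
import Fermat.Agent.TR.Hecke.HeckeC
import Fermat.Agent.TR.Hecke.KumClass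
import Fermat.Agent.TR.Hecke.FrobFinExp

set_option autoImplicit false
set_option linter.style.haveILetI false

noncomputable section

namespace Fermat.Agent.TR.Hecke.OldAShadow

open ModularCurve AlgebraicCurve
open Fermat.Agent.Lib.Red.LevelDescent Fermat.Agent.TR.Hecke.NormOrd

local notation "Qb" => AlgebraicClosure ℚ

attribute [local instance] Fermat.Agent.Lib.FF.CharP.isAlgClosed_residueField

/-- The residue field of a valuation ring of `ℚ̄` over `p` has characteristic `p`. -/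
theorem charP_residue (A : ValuationSubring Qb) {p : ℕ} (hp : p.Prime)
    (hA : A.LiesOverPrime p) : CharP (IsLocalRing.ResidueField A) p := by
  rw [CharP.charP_iff_prime_eq_zero hp]
  have h1 : ((p : A) : Qb) ∈ A.nonunits := by
    have h2 : ((p : A) : Qb) = (p : Qb) := by push_cast; rfl
    rw [h2]
    exact hA
  have h3 : (p : A) ∈ IsLocalRing.maximalIdeal A := ValuationSubring.coe_mem_nonunits_iff.mp h1
  have h4 : IsLocalRing.residue A (p : A) = 0 := (IsLocalRing.residue_eq_zero_iff _).mpr h3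
  rwa [map_natCast] at h4

/-- `M * ℓ` is invertible in the residue field when `p ∤ M` and `ℓ ≠ p` is prime. -/
theorem natCast_mul_ne_zero (A : ValuationSubring Qb) {p : ℕ} (hp : p.Prime)
    (hA : A.LiesOverPrime p) {M ℓ : ℕ} (hpM : ¬ p ∣ M) (hℓ : ℓ.Prime) (hℓp : ℓ ≠ p) :
    ((M * ℓ : ℕ) : IsLocalRing.ResidueField A) ≠ 0 := by
  have := charP_residue A hp hA
  rw [Ne, CharP.cast_eq_zero_iff (IsLocalRing.ResidueField A) p, hp.dvd_mul]
  rintro (h | h)
  · exact hpM h
  · exact hℓp ((Nat.prime_dvd_prime_iff_eq hp hℓ).1 h).symm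

set_option maxHeartbeats 1000000 in
set_option synthInstance.maxHeartbeats 400000 in
/-- **The shadow of (OLD-a)**, modulo (R1) = surjectivity and Hecke-equivariance of the reduction
at the good level `M` (hypotheses `hsurj`, `hrT`). -/
theorem oldA_shadow (P : FreyPackage) {M : ℕ} [NeZero M] (W0 : WeierstrassCurve ℤ)
    (hW0 : W0.IsIntegralModelOf P.freyCurve) (A : ValuationSubring Qb)
    (hA : A.LiesOverPrime P.p) (hpM : ¬ P.p ∣ M) (hRI : ReductionInputsModL A M)
    (hsurj : Function.Surjective (reductionModL A M))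
    (hrT : ∀ (ℓ : ℕ) [NeZero ℓ] (hℓ : ℓ.Prime)
      (hMℓ : ((M * ℓ : ℕ) : IsLocalRing.ResidueField A) ≠ 0), ¬ ℓ ∣ M → ℓ ≠ P.p →
      ∀ x : JZero M, reductionModL A M (heckeOperatorBar M ⟨ℓ, hℓ⟩ x)
        = HeckeC.heckeC (IsLocalRing.ResidueField A) M ℓ hMℓ (reductionModL A M x))
    (hbar : modularFunctionFieldFullC (IsLocalRing.ResidueField A) M) (h0 : hbar ≠ 0)
    (hdiv : ∀ v : Place (IsLocalRing.ResidueField A)
      (modularFunctionFieldFullC (IsLocalRing.ResidueField A) M), (P.p : ℤ) ∣ v.ord hbar)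
    (heig : ∀ (ℓ : ℕ) [NeZero ℓ], ℓ.Prime → W0.IsGoodPrimeFor ℓ → ¬ ℓ ∣ M → ℓ ≠ P.p →
      ∃ (c : IsLocalRing.ResidueField A)
        (u : modularFunctionFieldFullC (IsLocalRing.ResidueField A) M), c ≠ 0 ∧ u ≠ 0 ∧
        (letI := algebraAlong (inclC M ℓ (IsLocalRing.ResidueField A));
          Algebra.norm (modularFunctionFieldFullC (IsLocalRing.ResidueField A) M)
            (betaC (IsLocalRing.ResidueField A) M ℓ hbar))
          = algebraMap (IsLocalRing.ResidueField A)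
              (modularFunctionFieldFullC (IsLocalRing.ResidueField A) M) c *
            hbar ^ (W0.apOfModel ℓ : ℤ) * u ^ P.p) :
    (∃ u : modularFunctionFieldFullC (IsLocalRing.ResidueField A) M, u ^ P.p = hbar) ∨
      P.ModularRepOfLevel M := by
  classical
  by_cases hpow : ∃ u : modularFunctionFieldFullC (IsLocalRing.ResidueField A) M, u ^ P.p = hbar
  · exact Or.inl hpow
  right
  have hFF := Fermat.Agent.Lib.FF.CharP.isFF1_fullC (IsLocalRing.ResidueField A) M
  obtain ⟨D, hD, hne, hpD⟩ := KumClass.exists_class_of_not_pow hFF h0 P.pp.ne_zero hdiv hpow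
  have hMk : ∀ ℓ : Nat.Primes, ¬ (ℓ : ℕ) ∣ M → (ℓ : ℕ) ≠ P.p →
      ((M * (ℓ : ℕ) : ℕ) : IsLocalRing.ResidueField A) ≠ 0 :=
    fun ℓ _ hℓp => natCast_mul_ne_zero A P.pp hA hpM ℓ.2 hℓp
  let Tb : Nat.Primes → Module.End ℤ (JZeroC (IsLocalRing.ResidueField A) M) := fun ℓ =>
    if h : ((M * (ℓ : ℕ) : ℕ) : IsLocalRing.ResidueField A) ≠ 0 then
      haveI : NeZero (ℓ : ℕ) := ⟨ℓ.2.ne_zero⟩
      (HeckeC.heckeC (IsLocalRing.ResidueField A) M ℓ h).toIntLinearMap
    else 0
  have hTb : ∀ (ℓ : Nat.Primes) (h : ((M * (ℓ : ℕ) : ℕ) : IsLocalRing.ResidueField A) ≠ 0)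
      (y : JZeroC (IsLocalRing.ResidueField A) M),
      Tb ℓ y = (haveI : NeZero (ℓ : ℕ) := ⟨ℓ.2.ne_zero⟩;
        HeckeC.heckeC (IsLocalRing.ResidueField A) M ℓ h y) := by
    intro ℓ h y
    simp only [Tb]
    rw [dif_pos h]
    rfl
  refine Fermat.Agent.TR.Hecke.OldRed.modularRepOfLevel_of_red P W0 hW0 Tb (reductionModL A M)
    ?_ (FrobFin.hexp_reductionModL M P.pp A hA hRI) (Pic0.mk D) hne hpD ?_ (hsurj _)
  · intro ℓ hℓM hℓp x
    haveI : NeZero (ℓ : ℕ) := ⟨ℓ.2.ne_zero⟩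
    rw [hTb ℓ (hMk ℓ hℓM hℓp)]
    exact hrT (ℓ : ℕ) ℓ.2 (hMk ℓ hℓM hℓp) hℓM hℓp x
  · intro ℓ hgood hℓM hℓp
    haveI : NeZero (ℓ : ℕ) := ⟨ℓ.2.ne_zero⟩
    rw [hTb ℓ (hMk ℓ hℓM hℓp)]
    obtain ⟨c, u, hc, hu, hnorm⟩ := heig (ℓ : ℕ) ℓ.2 hgood hℓM hℓp
    exact HeckeC.heckeC_eq_zsmul_of_norm (IsLocalRing.ResidueField A) M ℓ (hMk ℓ hℓM hℓp)
      P.pp.ne_zero h0 D hD (W0.apOfModel ℓ) c u hc hu hnorm

set_option maxHeartbeats 1000000 in
set_option synthInstance.maxHeartbeats 400000 in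
/-- **The shadow of (OLD-a)** with the place-reduction input discharged (`P.p ≥ 5`, `P.p ∤ M`):
the only remaining inputs are (R1) `hsurj`, `hrT`. -/
theorem oldA_shadow_good (P : FreyPackage) {M : ℕ} [NeZero M] (W0 : WeierstrassCurve ℤ)
    (hW0 : W0.IsIntegralModelOf P.freyCurve) (A : ValuationSubring Qb)
    (hA : A.LiesOverPrime P.p) (hpM : ¬ P.p ∣ M)
    (hsurj : Function.Surjective (reductionModL A M))
    (hrT : ∀ (ℓ : ℕ) [NeZero ℓ] (hℓ : ℓ.Prime)
      (hMℓ : ((M * ℓ : ℕ) : IsLocalRing.ResidueField A) ≠ 0), ¬ ℓ ∣ M → ℓ ≠ P.p →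
      ∀ x : JZero M, reductionModL A M (heckeOperatorBar M ⟨ℓ, hℓ⟩ x)
        = HeckeC.heckeC (IsLocalRing.ResidueField A) M ℓ hMℓ (reductionModL A M x))
    (hbar : modularFunctionFieldFullC (IsLocalRing.ResidueField A) M) (h0 : hbar ≠ 0)
    (hdiv : ∀ v : Place (IsLocalRing.ResidueField A)
      (modularFunctionFieldFullC (IsLocalRing.ResidueField A) M), (P.p : ℤ) ∣ v.ord hbar)
    (heig : ∀ (ℓ : ℕ) [NeZero ℓ], ℓ.Prime → W0.IsGoodPrimeFor ℓ → ¬ ℓ ∣ M → ℓ ≠ P.p →
      ∃ (c : IsLocalRing.ResidueField A)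
        (u : modularFunctionFieldFullC (IsLocalRing.ResidueField A) M), c ≠ 0 ∧ u ≠ 0 ∧
        (letI := algebraAlong (inclC M ℓ (IsLocalRing.ResidueField A));
          Algebra.norm (modularFunctionFieldFullC (IsLocalRing.ResidueField A) M)
            (betaC (IsLocalRing.ResidueField A) M ℓ hbar))
          = algebraMap (IsLocalRing.ResidueField A)
              (modularFunctionFieldFullC (IsLocalRing.ResidueField A) M) c *
            hbar ^ (W0.apOfModel ℓ : ℤ) * u ^ P.p) :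
    (∃ u : modularFunctionFieldFullC (IsLocalRing.ResidueField A) M, u ^ P.p = hbar) ∨
      P.ModularRepOfLevel M :=
  oldA_shadow P W0 hW0 A hA hpM
    (Fermat.Agent.ESJ.reductionInputsModL_good M P.p P.pp hpM (Or.inl P.hp5) A hA)
    hsurj hrT hbar h0 hdiv heig

end Fermat.Agent.TR.Hecke.OldAShadow

end
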