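/-
helper84 — TR / the SHADOW of (OLD-a), CLOSED: `OldAShadow.oldA_shadow_good` (helper95) with its
two (R1) hypotheses `hsurj`, `hrT` discharged by `RedEqHC` (`reductionModL_surjective_good`,
`reductionModL_heckeC`).

`A` a valuation ring of `ℚ̄` over `p = P.p`, `k` its residue field, `κ_M` the mod-`p` modular
function field of level `M` (`p ∤ M`).  If `hbar ∈ κ_Mˣ` has all its orders divisible by `p` and,
for every good prime `ℓ ∤ M p`, `Nm_{κ_{Mℓ}/κ_M} (hbar(q^ℓ)) = c · hbar ^ (a_ℓ) · u ^ p`, then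
`hbar` is a `p`-th power or the Frey representation is modular of level `M`.
-/
import Mathlib
import Fermat.Agent.TR.Hecke.OldAShadow
import Fermat.Agent.TR.Hecke.RedEqHC

set_option autoImplicit false
set_option linter.style.haveILetI false

noncomputable section

namespace Fermat.Agent.TR.Hecke.OldAShadowR1

open ModularCurve AlgebraicCurve
open Fermat.Agent.Lib.Red.LevelDescent Fermat.Agent.TR.Hecke.NormOrd

local notation "Qb" => AlgebraicClosure ℚ

attribute [local instance] Fermat.Agent.Lib.FF.CharP.isAlgClosed_residueField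

set_option maxHeartbeats 1000000 in
set_option synthInstance.maxHeartbeats 400000 in
/-- (R1) in the literal of the hypothesis `hrT` of `OldAShadow.oldA_shadow_good`. -/
theorem hrT_good {p : ℕ} (hp : p.Prime) (h5 : 5 ≤ p) {M : ℕ} [NeZero M]
    (A : ValuationSubring Qb) (hA : A.LiesOverPrime p) (hpM : ¬ p ∣ M)
    (ℓ : ℕ) [NeZero ℓ] (hℓ : ℓ.Prime)
    (hMℓ : ((M * ℓ : ℕ) : IsLocalRing.ResidueField A) ≠ 0) (hℓM : ¬ ℓ ∣ M) (hℓp : ℓ ≠ p)
    (x : JZero M) :
    reductionModL A M (heckeOperatorBar M ⟨ℓ, hℓ⟩ x)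
      = HeckeC.heckeC (IsLocalRing.ResidueField A) M ℓ hMℓ (reductionModL A M x) := by
  have hpMℓ : ¬ p ∣ M * ℓ := fun h => by
    rcases (Nat.Prime.dvd_mul hp).mp h with h1 | h1
    · exact hpM h1
    · exact hℓp ((Nat.prime_dvd_prime_iff_eq hp hℓ).mp h1).symm
  exact RedEq.reductionModL_heckeC (⟨ℓ, hℓ⟩ : Nat.Primes) hℓM hMℓ
    (Fermat.Agent.ESJ.reductionInputsModL_good M p hp hpM (Or.inl h5) A hA)
    (Fermat.Agent.ESJ.reductionInputsModL_good (M * ℓ) p hp hpMℓ (Or.inl h5) A hA) x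

set_option maxHeartbeats 1000000 in
set_option synthInstance.maxHeartbeats 400000 in
/-- **The shadow of (OLD-a), closed** (`P.p ∤ M`, no hypothesis on the reduction left). -/
theorem oldA_shadow_closed (P : FreyPackage) {M : ℕ} [NeZero M] (W0 : WeierstrassCurve ℤ)
    (hW0 : W0.IsIntegralModelOf P.freyCurve) (A : ValuationSubring Qb)
    (hA : A.LiesOverPrime P.p) (hpM : ¬ P.p ∣ M)
    (hbar : modularFunctionFieldFullC (IsLocalRing.ResidueField A) M) (h0 : hbar ≠ 0)
    (hdiv : ∀ v : Place (IsLocalRing.ResidueField A)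
      (modularFunctionFieldFullC (IsLocalRing.ResidueField A) M), (P.p : ℤ) ∣ v.ord hbar)
    (heig : ∀ (ℓ : ℕ) [NeZero ℓ], ℓ.Prime → W0.IsGoodPrimeFor ℓ → ¬ ℓ ∣ M → ℓ ≠ P.p →
      ∃ (c : IsLocalRing.ResidueField A)
        (u : modularFunctionFieldFullC (IsLocalRing.ResidueField A) M), c ≠ 0 ∧ u ≠ 0 ∧
        (letI := algebraAlong (inclC M ℓ (IsLocalRing.ResidueField A));
          Algebra.norm (modularFunctionFieldFullC (IsLocalRing.ResidueField A) M)
            (betaC (IsLocalRing.ResidueField A) M ℓ hbar))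
          = algebraMap (IsLocalRing.ResidueField A)
              (modularFunctionFieldFullC (IsLocalRing.ResidueField A) M) c *
            hbar ^ (W0.apOfModel ℓ : ℤ) * u ^ P.p) :
    (∃ u : modularFunctionFieldFullC (IsLocalRing.ResidueField A) M, u ^ P.p = hbar) ∨
      P.ModularRepOfLevel M :=
  OldAShadow.oldA_shadow_good P W0 hW0 A hA hpM
    (RedEq.reductionModL_surjective_good P.pp P.hp5 hpM hA)
    (fun ℓ _ hℓ hMℓ hℓM hℓp x => hrT_good P.pp P.hp5 A hA hpM ℓ hℓ hMℓ hℓM hℓp x)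
    hbar h0 hdiv heig

end Fermat.Agent.TR.Hecke.OldAShadowR1

end
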